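import Fermat.Agent.S28.FN7e

/-!
# S28, formal route (helper7): the modular polynomial over `ℤ`
-/

set_option autoImplicit false

namespace Fermat.Agent.S28.FN7

open Fermat.Agent.S28 ModularCurve Polynomial

local notation "ι" => PowerSeries.map (Int.castRingHom ℂ)
local notation "φ" => HahnSeries.ofPowerSeries ℤ ℂ
local notation "L" => LaurentSeries ℂ

theorem rootFam_lin (p : ℕ) (hp0 : p ≠ 0) (ζ c : ℂ) (t : ℤ) (A B : PowerSeries ℂ)
    (i : Option (Fin p)) :
    rootFam p hp0 ζ c ((t : PowerSeries ℂ) * A - B) i =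
      rootFam p hp0 ζ c A i * (t : PowerSeries ℂ) + -rootFam p hp0 ζ c B i := by
  rcases i with _ | b
  · simp only [rootFam, map_sub, map_mul, map_intCast]
    ring
  · simp only [rootFam, map_sub, map_mul, map_intCast]
    ring

theorem prod_rootFam_scale (p : ℕ) (hp0 : p ≠ 0) (ζ c : ℂ) (F : PowerSeries ℂ) :
    ∏ i, rootFam p hp0 ζ c F i = PowerSeries.C c * ∏ i, rootFam p hp0 ζ 1 F i := by
  rw [Fintype.prod_option, Fintype.prod_option]
  simp only [rootFam, map_one, one_mul]
  ring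

theorem esymm_card_eq_prod {B : Type*} [CommRing B] (s : Multiset B) :
    s.esymm (Multiset.card s) = s.prod := by
  simp [Multiset.esymm, Multiset.powersetCard_self]

theorem rat_smul_eq (q : ℚ) (y : PowerSeries ℂ) : q • y = PowerSeries.C (q : ℂ) * y := by
  rw [← algebraMap_smul ℂ q, PowerSeries.smul_eq_C_mul]
  rfl

/-- The norm of `F ∈ MQ 1` (without the factor `p ^ 12`). -/
theorem prod_rootFam_mem {p : ℕ} (hp : p.Prime) {ζ : ℂ} (hζ : IsPrimitiveRoot ζ p)
    {F : PowerSeries ℂ} (hF : F ∈ MQ 1) :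
    ∏ i, rootFam p hp.ne_zero ζ 1 F i ∈ SQ p hp.ne_zero (p + 1) := by
  have h1 := esymm_rootFam_mem hp hζ hF (p + 1)
  have hcard : Multiset.card (Finset.univ.val.map (rootFam p hp.ne_zero ζ ((p : ℂ) ^ 12) F)) =
      p + 1 := by simp
  rw [← hcard, esymm_card_eq_prod, hcard] at h1
  have h2 : (Finset.univ.val.map (rootFam p hp.ne_zero ζ ((p : ℂ) ^ 12) F)).prod =
      ∏ i, rootFam p hp.ne_zero ζ ((p : ℂ) ^ 12) F i := rfl
  rw [h2, prod_rootFam_scale] at h1
  have h3 := (SQ p hp.ne_zero (p + 1)).smul_mem (((p : ℚ) ^ 12)⁻¹) h1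
  rw [rat_smul_eq, ← mul_assoc, ← map_mul] at h3
  have hp' : (p : ℂ) ≠ 0 := by exact_mod_cast hp.ne_zero
  have h4 : (((((p : ℚ) ^ 12)⁻¹ : ℚ) : ℂ)) * (p : ℂ) ^ 12 = 1 := by
    push_cast
    exact inv_mul_cancel₀ (pow_ne_zero _ hp')
  rwa [h4, map_one, one_mul] at h3

/-- the leading coefficient -/
theorem exists_prod_rootFam_fD {p : ℕ} (hp0 : p ≠ 0) {ζ : ℂ} (hζ : ζ ^ p = 1) :
    ∃ V : PowerSeries ℂ, ∏ i, rootFam p hp0 ζ 1 (ι fD) i = PowerSeries.X ^ (p * (p + 1)) * V ∧
      PowerSeries.constantCoeff V ^ p = 1 := by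
  set U : PowerSeries ℂ := ι dedekindEtaUnit with hU
  have hU0 : PowerSeries.constantCoeff U = 1 := by
    rw [hU, ← PowerSeries.coeff_zero_eq_constantCoeff, PowerSeries.coeff_map,
      PowerSeries.coeff_zero_eq_constantCoeff, constantCoeff_dedekindEtaUnit]
    simp
  have hD : ι fD = PowerSeries.X * U := by rw [fD, map_mul, PowerSeries.map_X]
  refine ⟨PowerSeries.expand (p * p) (Nat.mul_ne_zero hp0 hp0) U *
    ∏ b : Fin p, (PowerSeries.C (ζ ^ (b : ℕ)) * PowerSeries.rescale (ζ ^ (b : ℕ)) U), ?_, ?_⟩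
  · rw [Fintype.prod_option]
    simp only [rootFam, map_one, one_mul, hD, map_mul, PowerSeries.expand_X, PowerSeries.rescale_X]
    have : ∀ b : Fin p, PowerSeries.C (ζ ^ (b : ℕ)) * PowerSeries.X *
        PowerSeries.rescale (ζ ^ (b : ℕ)) U =
        PowerSeries.X * (PowerSeries.C (ζ ^ (b : ℕ)) * PowerSeries.rescale (ζ ^ (b : ℕ)) U) := by
      intro b; ring
    simp only [this]
    rw [Finset.prod_mul_distrib, Finset.prod_const, Finset.card_univ, Fintype.card_fin,
      Nat.mul_succ, pow_add]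
    ring
  · rw [map_mul, PowerSeries.constantCoeff_expand, hU0, one_mul, map_prod, ← Finset.prod_pow]
    apply Finset.prod_eq_one
    intro b _
    have h1 : PowerSeries.constantCoeff (PowerSeries.rescale (ζ ^ (b : ℕ)) U) = 1 := by
      rw [← PowerSeries.coeff_zero_eq_constantCoeff, PowerSeries.coeff_rescale, pow_zero, one_mul,
        PowerSeries.coeff_zero_eq_constantCoeff, hU0]
    rw [map_mul, h1, mul_one, PowerSeries.constantCoeff_C, ← pow_mul, mul_comm, pow_mul, hζ,
      one_pow]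


theorem coeff_prod_mem_subring {B : Type*} [CommRing B] (A : Subring B) {σ : Type*}
    (s : Finset σ) (f : σ → B[X]) (h : ∀ i ∈ s, ∀ n, (f i).coeff n ∈ A) (n : ℕ) :
    (∏ i ∈ s, f i).coeff n ∈ A := by
  have h1 : ∀ g : B[X], g ∈ (Polynomial.mapRingHom A.subtype).range ↔ ∀ n, g.coeff n ∈ A := by
    intro g
    rw [Polynomial.mem_map_range]
    simp
  exact (h1 _).mp (Subring.prod_mem _ fun i hi => (h1 _).mpr (h i hi)) n

theorem hasModPoly_int {p : ℕ} (hp : p.Prime) : HasModPoly p ℤ := by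
  classical
  have hp0 := hp.ne_zero
  obtain ⟨ζ, hζ⟩ : ∃ ζ : ℂ, IsPrimitiveRoot ζ p := ⟨_, Complex.isPrimitiveRoot_exp p hp0⟩
  have hζint : ζ ∈ algInt := hζ.isIntegral hp.pos
  set z := rootFam p hp0 ζ 1 (ι fD) with hz
  set y := rootFam p hp0 ζ 1 (ι fE) with hy
  set N : ℕ := p + 1 with hN
  set M : (PowerSeries ℂ)[X] := ∏ i, (C (z i) * X + C (-(y i))) with hM
  have hcardσ : (Finset.univ : Finset (Option (Fin p))).card = N := by simp [hN]
  -- values at integers
  have hval : ∀ t : ℤ, M.eval (t : PowerSeries ℂ) ∈ SQ p hp0 N := by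
    intro t
    have h1 : M.eval (t : PowerSeries ℂ) =
        ∏ i, rootFam p hp0 ζ 1 ((t : PowerSeries ℂ) * ι fD - ι fE) i := by
      rw [hM, Polynomial.eval_prod]
      refine Finset.prod_congr rfl fun i _ => ?_
      rw [rootFam_lin]
      simp [hz, hy]
    rw [h1]
    apply prod_rootFam_mem hp hζ
    apply Submodule.sub_mem _ _ (map_mem_MQ hasQ_fE')
    rw [← zsmul_eq_mul]
    exact zsmul_mem (map_mem_MQ hasQ_fD') t
  have hcoeffS : ∀ k, M.coeff k ∈ SQ p hp0 N := coeff_mem_of_forall_eval_mem _ M hval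
  have hcoeffI : ∀ k, M.coeff k ∈ coeffSubring algInt := by
    intro k
    apply coeff_prod_mem_subring
    intro i _ n
    have h1 := rootFam_mem_coeffSubring hp0 hζint (one_mem _) fD i
    have h2 := rootFam_mem_coeffSubring hp0 hζint (one_mem _) fE i
    rw [Polynomial.coeff_add, Polynomial.coeff_C_mul, Polynomial.coeff_X, Polynomial.coeff_C]
    refine add_mem (mul_mem h1 ?_) ?_
    · split_ifs
      · exact one_mem _
      · exact zero_mem _
    · split_ifs
      · exact neg_mem h2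
      · exact zero_mem _
  choose P hP hPM using fun k => exists_mem_Wspan_of_mem_SQ (hcoeffS k) (hcoeffI k)
  -- degree and leading coefficient
  have hdeg1 : ∀ i, (C (z i) * X + C (-(y i))).natDegree ≤ 1 := fun i =>
    Polynomial.natDegree_linear_le
  have hMdeg : M.natDegree < N + 1 := by
    have := Polynomial.natDegree_prod_le (Finset.univ : Finset (Option (Fin p)))
      (fun i => C (z i) * X + C (-(y i)))
    have h2 : ∑ i : Option (Fin p), (C (z i) * X + C (-(y i))).natDegree ≤ N := by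
      calc _ ≤ ∑ _i : Option (Fin p), 1 := Finset.sum_le_sum fun i _ => hdeg1 i
        _ = N := by simp [hN]
    exact Nat.lt_succ_of_le (this.trans h2)
  have hMlead : M.coeff N = ∏ i, z i := by
    have := Polynomial.coeff_prod_of_natDegree_le (Finset.univ : Finset (Option (Fin p)))
      (fun i => C (z i) * X + C (-(y i))) 1 (fun i _ => hdeg1 i)
    rw [hcardσ, mul_one] at this
    rw [hM, this]
    refine Finset.prod_congr rfl fun i _ => ?_
    simp
  obtain ⟨V, hV, hV1⟩ := exists_prod_rootFam_fD hp0 hζ.pow_eq_one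
  have hPN : ∀ m, ((PowerSeries.coeff m (P N) : ℤ) : ℂ) =
      PowerSeries.coeff (p * m) (PowerSeries.X ^ (p * N) * V) := by
    intro m
    rw [← hV, ← hMlead, hPM, PowerSeries.coeff_expand_mul, PowerSeries.coeff_map]
    rfl
  have hdvd : PowerSeries.X ^ N ∣ P N := by
    rw [PowerSeries.X_pow_dvd_iff]
    intro m hm
    have := hPN m
    rw [PowerSeries.coeff_X_pow_mul', if_neg (by
      rw [not_le]; exact Nat.mul_lt_mul_of_pos_left hm hp.pos)] at this
    exact_mod_cast this
  obtain ⟨c, hc⟩ := eq_smul_fD_pow N (P N) (hasQ_of_mem_Wspan (hP N)) hdvd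
  have hcc : c * c = 1 := by
    have h1 := hPN N
    rw [PowerSeries.coeff_X_pow_mul', if_pos le_rfl, Nat.sub_self,
      PowerSeries.coeff_zero_eq_constantCoeff, hc, map_zsmul, coeff_fD_pow] at h1
    have h2 : c ^ p = 1 := by
      have : ((c ^ p : ℤ) : ℂ) = 1 := by
        rw [← hV1, ← h1]; simp
      exact_mod_cast this
    have h3 : IsUnit c := IsUnit.of_pow_eq_one h2 hp0
    rcases Int.isUnit_iff.mp h3 with rfl | rfl <;> norm_num
  choose R hR using fun k => exists_poly_of_mem_Wspan (hP k)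
  set W := Vq ℂ p (DeltaS ℂ) with hW
  have hW0 : W ≠ 0 := by
    intro h
    exact DeltaS_ne_zero (BC.Vq_injective p (by rw [← hW, h, map_zero]))
  have hcL : (c : L) ≠ 0 := by
    intro h
    have : ((c * c : ℤ) : L) = 0 := by rw [Int.cast_mul, h, zero_mul]
    rw [hcc] at this
    simp at this
  -- the key identity
  have key : ∀ x : L, (c : L) * W ^ N *
      (x ^ N + ∑ k : Fin N, evZ (jd ℂ p) ((c : ℤ[X]) * R k) * x ^ (k : ℕ)) =
      ∏ i, (φ (z i) * x + -φ (y i)) := by
    intro x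
    have h1 : ∏ i, (φ (z i) * x + -φ (y i)) = M.eval₂ φ x := by
      rw [hM, Polynomial.eval₂_finsetProd]
      refine Finset.prod_congr rfl fun i _ => ?_
      simp
    rw [h1, Polynomial.eval₂_eq_sum_range' φ hMdeg, Finset.sum_range_succ, add_comm,
      ← Fin.sum_univ_eq_sum_range (fun k => φ (M.coeff k) * x ^ k) N, mul_add, Finset.mul_sum]
    congr 1
    · refine Finset.sum_congr rfl fun k _ => ?_
      rw [hPM, phi_expand, hR, map_mul (Vq ℂ p), map_pow (Vq ℂ p), Vq_evZ, map_mul (evZ (jd ℂ p)),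
        map_intCast]
      have : ((c : L) * (c : L)) = 1 := by exact_mod_cast congrArg (Int.cast : ℤ → L) hcc
      calc (c : L) * W ^ N * ((c : L) * evZ (jd ℂ p) (R k) * x ^ (k : ℕ))
          = ((c : L) * (c : L)) * (W ^ N * evZ (jd ℂ p) (R k) * x ^ (k : ℕ)) := by ring
        _ = _ := by rw [this, one_mul]; rfl
    · rw [hPM, phi_expand, hc, zsmul_eq_mul, map_mul, map_mul, map_mul, map_pow, map_pow, map_pow,
        ← DeltaS_eq]
      simp [hW]
  have hzero : ∀ x : L, (∃ i, φ (z i) * x + -φ (y i) = 0) →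
      ev2 ((mkPoly N fun k => (c : ℤ[X]) * R k).map (Polynomial.mapRingHom (Int.castRingHom ℂ)))
        x (jd ℂ p) = 0 := by
    rintro x ⟨i, hi⟩
    rw [ev2_mkPoly]
    have h1 := key x
    rw [Finset.prod_eq_zero (Finset.mem_univ i) hi] at h1
    exact (mul_eq_zero.mp h1).resolve_left (mul_ne_zero hcL (pow_ne_zero _ hW0))
  have hbase : φ (ι fD) * jqModC ℂ + -φ (ι fE) = 0 := by
    rw [← jq_mul_DeltaS, ← DeltaS_eq]; ring
  refine ⟨mkPoly N fun k => (c : ℤ[X]) * R k,
    BC.IsModPoly.of_map (f := Int.castRingHom ℂ) Int.cast_injective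
    ⟨(mkPoly_monic N _).map _, by rw [(mkPoly_monic N _).natDegree_map, mkPoly_natDegree], ?_, ?_⟩⟩
  · -- `Φ(j(q^p), j(q)) = 0`
    apply BC.Vq_injective p
    rw [map_zero, BC.Vq_ev2]
    apply hzero
    refine ⟨none, ?_⟩
    have h1 : φ (z none) = Vq ℂ (p * p) (φ (ι fD)) := by
      simp only [hz, rootFam, map_one, one_mul, phi_expand]
    have h2 : φ (y none) = Vq ℂ (p * p) (φ (ι fE)) := by
      simp only [hy, rootFam, map_one, one_mul, phi_expand]
    rw [h1, h2, jd, BC.Vq_Vq p p hp0 hp0, ← map_mul, ← map_neg, ← map_add, hbase, map_zero]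
  · -- `Φ(j(q), j(q^p)) = 0`
    apply hzero
    refine ⟨some ⟨0, hp.pos⟩, ?_⟩
    have h1 : z (some ⟨0, hp.pos⟩) = ι fD := by simp [hz, rootFam]
    have h2 : y (some ⟨0, hp.pos⟩) = ι fE := by simp [hy, rootFam]
    rw [h1, h2, hbase]


/-- The modular polynomial over any nontrivial commutative ring. -/
theorem hasModPoly (A : Type) [CommRing A] [Nontrivial A] {p : ℕ} (hp : p.Prime) :
    HasModPoly p A :=
  BC.HasModPoly.map (Int.castRingHom A) (hasModPoly_int hp)

/-- The equation of the modular unit over any nontrivial commutative ring. -/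
theorem hasUnitPoly (A : Type) [CommRing A] [Nontrivial A] {p : ℕ} (hp : p.Prime) :
    HasUnitPoly p A :=
  BC.HasUnitPoly.map (Int.castRingHom A) (hasUnitPoly_int hp)

end Fermat.Agent.S28.FN7
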