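/-
S28 (Igusa): shared definitions and the exact statements of all work packages.
Everything lives in the namespace `Fermat.Agent.S28`.  This file contains no proofs of the
work packages: each `WPx...` below is a `Prop`; a file in `Fermat/Agent/S28/` proves
`theorem wpx : WPx...`.
-/
import Mathlib
import Fermat.Prelude.Def_ModularCurve_IgusaScheme
import Fermat.Prelude.Def_ModularCurve_X0ModL
import Fermat.Prelude.Def_ModularForm_HeckeOperator

set_option autoImplicit false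

noncomputable section

namespace Fermat.Agent.S28

open ModularCurve Polynomial
open scoped TensorProduct

/-! ### Formal series -/

/-- Total version of the prelude's `qExpand` (`q ↦ q ^ d`); the identity for `d = 0`. -/
def Vq (A : Type) [CommRing A] (d : ℕ) : LaurentSeries A →+* LaurentSeries A :=
  if h : d = 0 then RingHom.id _ else @qExpand A _ d ⟨h⟩

theorem Vq_eq (A : Type) [CommRing A] (d : ℕ) [NeZero d] : Vq A d = qExpand A d := by
  rw [Vq, dif_neg (NeZero.ne d)]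

/-- `j(q^d)` with coefficients in `A`. -/
def jd (A : Type) [CommRing A] (d : ℕ) : LaurentSeries A := Vq A d (jqModC A)

/-- `Δ(q) = q ∏ (1 - q^n)^24` with coefficients in `A`. -/
def DeltaS (A : Type) [CommRing A] : LaurentSeries A :=
  HahnSeries.single (1 : ℤ) 1 *
    HahnSeries.ofPowerSeries ℤ A (dedekindEtaUnit.map (Int.castRingHom A))

/-- `1 / Δ(q)` with coefficients in `A`. -/
def DeltaInvS (A : Type) [CommRing A] : LaurentSeries A :=
  HahnSeries.single (-1 : ℤ) 1 *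
    HahnSeries.ofPowerSeries ℤ A (dedekindEtaUnitInv.map (Int.castRingHom A))

/-- `u_∞ = p^12 Δ(q^p) / Δ(q)`. -/
def uInf (A : Type) [CommRing A] (p : ℕ) : LaurentSeries A :=
  (p : LaurentSeries A) ^ 12 * Vq A p (DeltaS A) * DeltaInvS A

/-- `u_0 = Δ(q) / Δ(q^p)` (this is `Δ(τ/p)/Δ(τ)` written in the variable `q^(1/p)`). -/
def uZero (A : Type) [CommRing A] (p : ℕ) : LaurentSeries A :=
  DeltaS A * Vq A p (DeltaInvS A)

/-- Evaluate the inner variable `Y` at `y`. -/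
def evY {A : Type} [CommRing A] (y : LaurentSeries A) : A[X] →+* LaurentSeries A :=
  Polynomial.eval₂RingHom (HahnSeries.C : A →+* LaurentSeries A) y

/-- Evaluate `P ∈ A[Y][X]` at `X = x`, `Y = y`. -/
def ev2 {A : Type} [CommRing A] (P : A[X][X]) (x y : LaurentSeries A) : LaurentSeries A :=
  P.eval₂ (evY y) x

/-- `Φ` is a modular polynomial of prime level `p` over `A`. -/
def IsModPoly (p : ℕ) {A : Type} [CommRing A] (Φ : A[X][X]) : Prop :=
  Φ.Monic ∧ Φ.natDegree = p + 1 ∧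
    ev2 Φ (jd A p) (jqModC A) = 0 ∧ ev2 Φ (jqModC A) (jd A p) = 0

/-- `Ξ` is a "modular equation" of the unit `p^12 Δ(pτ)/Δ(τ)` over `A`. -/
def IsUnitPoly (p : ℕ) {A : Type} [CommRing A] (Ξ : A[X][X]) : Prop :=
  Ξ.Monic ∧ Ξ.natDegree = p + 1 ∧
    ev2 Ξ (uInf A p) (jqModC A) = 0 ∧ ev2 Ξ (uZero A p) (jd A p) = 0

def HasModPoly (p : ℕ) (A : Type) [CommRing A] : Prop := ∃ Φ : A[X][X], IsModPoly p Φ

def HasUnitPoly (p : ℕ) (A : Type) [CommRing A] : Prop := ∃ Ξ : A[X][X], IsUnitPoly p Ξ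

/-- The ring homomorphism `q ↦ c q` on Laurent series is specified by this property
(constructed in `Toolkit.lean`). -/
def IsScale {k : Type} [Field k] (c : k) (f : LaurentSeries k →+* LaurentSeries k) : Prop :=
  ∀ (x : LaurentSeries k) (n : ℤ), (f x).coeff n = c ^ n * x.coeff n

/-! ### Fields -/

/-- `k(j(q^d) : d ∣ M) ⊆ k((q))`. -/
abbrev Kf (k : Type) [Field k] (M : ℕ) : IntermediateField k (LaurentSeries k) :=
  modularFunctionFieldFullC k M

/-- `k(j(q^M)) ⊆ k((q))`. -/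
def Ej (k : Type) [Field k] (M : ℕ) : IntermediateField k (LaurentSeries k) :=
  IntermediateField.adjoin k {jd k M}

/-- degree of the tower step `M → M * p`. -/
def stepDeg (p M : ℕ) : ℕ := if p ∣ M then p else p + 1

/-- The next layer of the explicit basis. -/
def nextFam {A : Type} [CommRing A] (p M : ℕ) {ι : Type} (b : ι → LaurentSeries A) :
    Fin (stepDeg p M) × ι → LaurentSeries A :=
  fun x => jqModC A ^ (x.1 : ℕ) * Vq A p (b x.2)

/-- The subring `ℤ[j(q^d) : d ∣ M]` of `ℤ((q))`. -/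
def ZJ (M : ℕ) : Subring (LaurentSeries ℤ) :=
  Subring.closure {x | ∃ d : ℕ, d ∣ M ∧ x = jd ℤ d}

/-- coefficient change `ℤ((q)) → A((q))`. -/
abbrev cZ (A : Type) [CommRing A] : LaurentSeries ℤ →+* LaurentSeries A :=
  coeffMap (Int.castRingHom A)

/-- The output of the tower argument. -/
def TowerData (ℓ : ℕ) [Fact ℓ.Prime] (N : ℕ) : Prop :=
  ∃ (ι : Type) (_ : Fintype ι) (b : ι → LaurentSeries ℤ),
    (∀ i, b i ∈ ZJ N) ∧
    (∀ x ∈ Kf ℚ N, x ∈ Submodule.span (Ej ℚ N) (Set.range fun i => cZ ℚ (b i))) ∧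
    LinearIndependent (Ej (AlgebraicClosure (ZMod ℓ)) N)
      (fun i => cZ (AlgebraicClosure (ZMod ℓ)) (b i))

/-! ### Analytic side -/

open UpperHalfPlane in
/-- the analytic `j`-function. -/
def jfun (τ : UpperHalfPlane) : ℂ := ModularForm.E₄ τ ^ 3 / ModularForm.discriminant τ

/-- `τ ↦ p τ`. -/
def mulτ (p : ℕ) (τ : UpperHalfPlane) : UpperHalfPlane := ModularForm.heckeDiagMatrix p • τ

/-- evaluate `P ∈ ℂ[Y][X]` at complex numbers `X = x`, `Y = y`. -/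
def evC (P : ℂ[X][X]) (x y : ℂ) : ℂ := (P.map (Polynomial.evalRingHom y)).eval x

/-! ### Statements of the work packages -/

/-- WP1a. -/
def WP1a_Delta : Prop :=
  UpperHalfPlane.qExpansion 1 ModularForm.discriminant =
    PowerSeries.X * dedekindEtaUnit.map (Int.castRingHom ℂ)

def WP1a_E4 : Prop :=
  UpperHalfPlane.qExpansion 1 ModularForm.E₄ = eisenstein4.map (Int.castRingHom ℂ)

/-- WP1b+c, function level: the modular polynomial. -/
def WP1c_Phi : Prop :=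
  ∀ p : ℕ, p.Prime → ∃ Φ : ℂ[X][X], Φ.Monic ∧ Φ.natDegree = p + 1 ∧
    (∀ τ, evC Φ (jfun (mulτ p τ)) (jfun τ) = 0) ∧ (∀ τ, evC Φ (jfun τ) (jfun (mulτ p τ)) = 0)

/-- WP1b+c, function level: the equation of the modular unit. -/
def WP1c_Xi : Prop :=
  ∀ p : ℕ, p.Prime → ∃ Ξ : ℂ[X][X], Ξ.Monic ∧ Ξ.natDegree = p + 1 ∧
    (∀ τ, evC Ξ ((p : ℂ) ^ 12 * ModularForm.discriminant (mulτ p τ) / ModularForm.discriminant τ)
      (jfun τ) = 0) ∧
    (∀ τ, evC Ξ (ModularForm.discriminant τ / ModularForm.discriminant (mulτ p τ))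
      (jfun (mulτ p τ)) = 0)

/-- WP1d: from functions to formal Laurent series. -/
def WP1d : Prop :=
  WP1a_Delta → WP1a_E4 → WP1c_Phi → WP1c_Xi →
    ∀ p : ℕ, p.Prime → HasModPoly p ℂ ∧ HasUnitPoly p ℂ

/-- WP2: descent of the coefficients `ℂ → ℚ → ℤ_(ℓ)`. -/
def WP2 : Prop :=
  ∀ (ℓ : ℕ) [Fact ℓ.Prime] (p : ℕ), p.Prime →
    (HasModPoly p ℂ → HasModPoly p (GaloisRep.ratLocalizedAt ℓ)) ∧
    (HasUnitPoly p ℂ → HasUnitPoly p (GaloisRep.ratLocalizedAt ℓ))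

/-- WP4: the base case. -/
def WP4 : Prop :=
  ∀ (k : Type) [Field k] (p : ℕ), p.Prime → (p : k) ≠ 0 → HasModPoly p k → HasUnitPoly p k →
    jd k p ∉ Ej k 1 ∧ (minpoly (Ej k 1) (jd k p)).natDegree = p + 1

/-- WP5: explicit factorisation of `Φ_r(X, j(c^r s^(r a)))`; `σ c` is the substitution `q ↦ c q`. -/
def WP5 : Prop :=
  ∀ (k : Type) [Field k] [IsAlgClosed k] (r : ℕ), r.Prime → (r : k) ≠ 0 →
    ∀ Φ : k[X][X], IsModPoly r Φ →
    ∀ (σ : k → LaurentSeries k →+* LaurentSeries k), (∀ c, c ≠ 0 → IsScale c (σ c)) →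
    ∀ (c : k), c ≠ 0 → ∀ a : ℕ, 0 < a →
      Φ.map (evY (Vq k (r * a) (σ (c ^ r) (jqModC k)))) =
        (X - C (Vq k (r ^ 2 * a) (σ (c ^ r ^ 2) (jqModC k)))) *
          ∏ ζ ∈ Polynomial.nthRootsFinset r (1 : k), (X - C (Vq k a (σ (ζ * c) (jqModC k))))

/-- WP6 (T2): a new prime is not yet in the field. -/
def WP6 : Prop :=
  ∀ (k : Type) [Field k] [IsAlgClosed k] (p M : ℕ), p.Prime → 0 < M → ¬ p ∣ M →
    ((p * M : ℕ) : k) ≠ 0 → (∀ r : ℕ, r.Prime → r ∣ p * M → HasModPoly r k) → HasUnitPoly p k →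
    jd k p ∉ Kf k M

/-- WP7: lower bound step (any algebraically closed field in which `p M ≠ 0`). -/
def WP7 : Prop :=
  ∀ (k : Type) [Field k] [IsAlgClosed k] (p M : ℕ), p.Prime → 0 < M →
    ((p * M : ℕ) : k) ≠ 0 → (∀ r : ℕ, r.Prime → r ∣ p * M → HasModPoly r k) → HasUnitPoly p k →
    ∀ (ι : Type) (b : ι → LaurentSeries k), (∀ i, b i ∈ Kf k M) →
      LinearIndependent (Ej k M) b → LinearIndependent (Ej k (M * p)) (nextFam p M b)

/-- WP8: upper bound step in characteristic zero. -/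
def WP8 : Prop :=
  ∀ (p M : ℕ), p.Prime → 0 < M → (∀ r : ℕ, r.Prime → r ∣ p * M → HasModPoly r ℚ) →
    ∀ (ι : Type) (b : ι → LaurentSeries ℚ),
      (∀ x ∈ Kf ℚ M, x ∈ Submodule.span (Ej ℚ M) (Set.range b)) →
      ∀ x ∈ Kf ℚ (M * p), x ∈ Submodule.span (Ej ℚ (M * p)) (Set.range (nextFam p M b))

/-- Tower assembly. -/
def WPtower : Prop :=
  WP7 → WP8 → ∀ (ℓ : ℕ) [Fact ℓ.Prime] (N : ℕ), 0 < N → ¬ ℓ ∣ N →
    (∀ r : ℕ, r.Prime → r ∣ N → HasModPoly r (GaloisRep.ratLocalizedAt ℓ) ∧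
      HasUnitPoly r (GaloisRep.ratLocalizedAt ℓ)) → TowerData ℓ N

open IgusaScheme in
/-- The `q`-expansion principle for the chart `chartAlg N ℓ S`. -/
def QEP (N ℓ : ℕ) (S : Set ↥(modularFunctionFieldFull N)) : Prop :=
  (∀ x ∈ chartAlg N ℓ S, ∀ n : ℤ,
    (x : LaurentSeries ℚ).coeff n ∈ GaloisRep.ratLocalizedAt ℓ) ∧
  (∀ x ∈ chartAlg N ℓ S,
    (∀ n : ℤ, ∃ r ∈ GaloisRep.ratLocalizedAt ℓ, (x : LaurentSeries ℚ).coeff n = ℓ * r) →
    ∃ y ∈ chartAlg N ℓ S, x = (ℓ : ↥(modularFunctionFieldFull N)) * y)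

open IgusaScheme in
/-- WP9: commutative algebra, tower data ⟹ `q`-expansion principle. -/
def WP9 : Prop :=
  ∀ (N : ℕ) [NeZero N] (ℓ : ℕ) [Fact ℓ.Prime], TowerData ℓ N →
    (∀ r : ℕ, r.Prime → r ∣ N → HasModPoly r (GaloisRep.ratLocalizedAt ℓ)) →
    QEP N ℓ {jFull N} ∧ QEP N ℓ {(jFull N)⁻¹} ∧ QEP N ℓ {jFull N, (jFull N)⁻¹}

open IgusaScheme in
/-- WP10: `q`-expansion principle ⟹ the fibre ring is a domain. -/
def WP10 : Prop :=
  ∀ (N ℓ : ℕ) [Fact ℓ.Prime] (S : Set ↥(modularFunctionFieldFull N)), QEP N ℓ S →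
    ∀ (K : Type) [Field K] [CharP K ℓ] [Algebra ↥(GaloisRep.ratLocalizedAt ℓ) K],
      IsDomain (↥(chartAlg N ℓ S) ⊗[↥(GaloisRep.ratLocalizedAt ℓ)] K)

open IgusaScheme AlgebraicGeometry CategoryTheory CategoryTheory.Limits in
/-- WP11: scheme glue. -/
def WP11 : Prop :=
  ∀ (N : ℕ) [NeZero N] (ℓ : ℕ) [Fact ℓ.Prime]
    (K : Type) [Field K] [Algebra ↥(GaloisRep.ratLocalizedAt ℓ) K],
    IsDomain (↥(chartAlgFin N ℓ) ⊗[↥(GaloisRep.ratLocalizedAt ℓ)] K) →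
    IsDomain (↥(chartAlgInf N ℓ) ⊗[↥(GaloisRep.ratLocalizedAt ℓ)] K) →
    Nontrivial (↥(chartAlgMid N ℓ) ⊗[↥(GaloisRep.ratLocalizedAt ℓ)] K) →
    IsIntegral ↑(pullback (igusaTo N ℓ)
      (Spec.map (CommRingCat.ofHom (algebraMap ↥(GaloisRep.ratLocalizedAt ℓ) K))))

end Fermat.Agent.S28
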