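/-
S28 (Igusa), WP5: explicit factorisation of `Φ_r(X, j(c^r s^(r a)))`.
-/
import Mathlib
import Fermat.Agent.S28.Interface
import Fermat.Prelude.Thm_ModularCurve_coeff_jqModC_neg_one

set_option autoImplicit false

noncomputable section

namespace Fermat.Agent.S28

open ModularCurve Polynomial

namespace Factor

section Vq

variable {A : Type} [CommRing A]

theorem Vq_coeff_mul {d : ℕ} (hd : 0 < d) (f : LaurentSeries A) (n : ℤ) :
    (Vq A d f).coeff ((d : ℤ) * n) = f.coeff n := by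
  have : NeZero d := ⟨hd.ne'⟩
  rw [Vq_eq, qExpand_coeff_mul]

theorem Vq_coeff_of_not_dvd {d : ℕ} (hd : 0 < d) (f : LaurentSeries A) {n : ℤ}
    (hn : ¬ (d : ℤ) ∣ n) : (Vq A d f).coeff n = 0 := by
  have : NeZero d := ⟨hd.ne'⟩
  rw [Vq_eq, qExpand_coeff_of_not_dvd d f hn]

theorem Vq_Vq {m n : ℕ} (hm : 0 < m) (hn : 0 < n) (f : LaurentSeries A) :
    Vq A m (Vq A n f) = Vq A (m * n) f := by
  have : NeZero m := ⟨hm.ne'⟩
  have : NeZero n := ⟨hn.ne'⟩
  rw [Vq_eq, Vq_eq, Vq_eq, qExpand_qExpand]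

theorem Vq_C {d : ℕ} (x : A) : Vq A d (HahnSeries.C x) = HahnSeries.C x := by
  rcases Nat.eq_zero_or_pos d with rfl | hd
  · simp [Vq]
  · have : NeZero d := ⟨hd.ne'⟩
    rw [Vq_eq, qExpand_C]

/-- A ring endomorphism fixing the constants commutes with `evY`. -/
theorem comp_evY (g : LaurentSeries A →+* LaurentSeries A)
    (hg : ∀ x : A, g (HahnSeries.C x) = HahnSeries.C x) (y : LaurentSeries A) :
    g.comp (evY y) = evY (g y) := by
  apply Polynomial.ringHom_ext
  · intro a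
    simp only [evY, RingHom.comp_apply, Polynomial.coe_eval₂RingHom, Polynomial.eval₂_C]
    exact hg a
  · simp [evY]

theorem map_ev2 (g : LaurentSeries A →+* LaurentSeries A)
    (hg : ∀ x : A, g (HahnSeries.C x) = HahnSeries.C x) (P : A[X][X]) (x y : LaurentSeries A) :
    g (ev2 P x y) = ev2 P (g x) (g y) := by
  rw [ev2, ev2, Polynomial.hom_eval₂, comp_evY g hg]

theorem eval_map_evY (P : A[X][X]) (x y : LaurentSeries A) :
    (P.map (evY y)).eval x = ev2 P x y := by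
  rw [ev2, Polynomial.eval_map]

end Vq

section Scale

variable {k : Type} [Field k]

theorem scale_C {c : k} {f : LaurentSeries k →+* LaurentSeries k} (hf : IsScale c f) (x : k) :
    f (HahnSeries.C x) = HahnSeries.C x := by
  ext n
  rw [hf]
  rcases eq_or_ne n 0 with rfl | hn
  · simp
  · rw [HahnSeries.C_apply, HahnSeries.coeff_single_of_ne hn, mul_zero]

theorem scale_one {f : LaurentSeries k →+* LaurentSeries k} (hf : IsScale 1 f)
    (x : LaurentSeries k) : f x = x := by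
  ext n
  rw [hf, one_zpow, one_mul]

theorem scale_scale {c c' : k} {f f' f'' : LaurentSeries k →+* LaurentSeries k}
    (hf : IsScale c f) (hf' : IsScale c' f') (hf'' : IsScale (c * c') f'')
    (x : LaurentSeries k) : f (f' x) = f'' x := by
  ext n
  rw [hf, hf', hf'', mul_zpow, mul_assoc]

theorem scale_Vq {c : k} {m : ℕ} (hm : 0 < m) {f f' : LaurentSeries k →+* LaurentSeries k}
    (hf : IsScale c f) (hf' : IsScale (c ^ m) f') (x : LaurentSeries k) :
    f (Vq k m x) = Vq k m (f' x) := by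
  ext n
  rw [hf]
  by_cases hn : (m : ℤ) ∣ n
  · obtain ⟨t, rfl⟩ := hn
    rw [Vq_coeff_mul hm, Vq_coeff_mul hm, hf', zpow_mul, zpow_natCast]
  · rw [Vq_coeff_of_not_dvd hm _ hn, Vq_coeff_of_not_dvd hm _ hn, mul_zero]

end Scale

section Main

variable {k : Type} [Field k]

theorem card_nthRootsFinset_one [IsAlgClosed k] {r : ℕ} (hr : (r : k) ≠ 0) :
    (Polynomial.nthRootsFinset r (1 : k)).card = r := by
  have : NeZero (r : k) := ⟨hr⟩
  obtain ⟨ζ, hζ⟩ := HasEnoughRootsOfUnity.exists_primitiveRoot k r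
  exact hζ.card_nthRootsFinset

/-- The case `a = 1`, `c = 1`. -/
theorem factor_base [IsAlgClosed k] {r : ℕ} (hr : r.Prime) (hrk : (r : k) ≠ 0)
    {Φ : k[X][X]} (hΦ : IsModPoly r Φ)
    (σ : k → LaurentSeries k →+* LaurentSeries k) (hσ : ∀ c, c ≠ 0 → IsScale c (σ c)) :
    Φ.map (evY (jd k r)) =
      (X - C (jd k (r ^ 2))) *
        ∏ ζ ∈ Polynomial.nthRootsFinset r (1 : k), (X - C (σ ζ (jqModC k))) := by
  classical
  obtain ⟨hmonic, hdeg, h1, h2⟩ := hΦ
  have hr0 : 0 < r := hr.pos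
  have hζ : ∀ ζ ∈ Polynomial.nthRootsFinset r (1 : k), ζ ^ r = 1 ∧ ζ ≠ 0 := by
    intro ζ hζ
    have h := (Polynomial.mem_nthRootsFinset hr0 (1 : k)).mp hζ
    refine ⟨h, ?_⟩
    rintro rfl
    rw [zero_pow hr0.ne'] at h
    exact zero_ne_one h
  -- the roots
  have hroot_inf : ev2 Φ (jd k (r ^ 2)) (jd k r) = 0 := by
    have := congrArg (Vq k r) h1
    rw [map_ev2 (Vq k r) (fun x => Vq_C x), map_zero] at this
    rw [jd, Vq_Vq hr0 hr0, ← pow_two] at this
    exact this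
  have hroot : ∀ ζ ∈ Polynomial.nthRootsFinset r (1 : k),
      ev2 Φ (σ ζ (jqModC k)) (jd k r) = 0 := by
    intro ζ hz
    obtain ⟨hz1, hz0⟩ := hζ ζ hz
    have := congrArg (σ ζ) h2
    rw [map_ev2 (σ ζ) (fun x => scale_C (hσ ζ hz0) x), map_zero] at this
    have h3 : σ ζ (jd k r) = jd k r := by
      rw [jd, scale_Vq hr0 (hσ ζ hz0) (f' := σ 1) (by rw [hz1]; exact hσ 1 one_ne_zero),
        scale_one (hσ 1 one_ne_zero)]
    rwa [h3] at this
  -- distinctness
  have hinj : Set.InjOn (fun ζ => σ ζ (jqModC k)) (Polynomial.nthRootsFinset r (1 : k)) := by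
    intro ζ hz ζ' hz' h
    have h' : (σ ζ (jqModC k)).coeff (-1 : ℤ) = (σ ζ' (jqModC k)).coeff (-1 : ℤ) := by
      have h0 : σ ζ (jqModC k) = σ ζ' (jqModC k) := h
      rw [h0]
    rw [hσ ζ (hζ ζ hz).2, hσ ζ' (hζ ζ' hz').2, coeff_jqModC_neg_one, mul_one, mul_one,
      zpow_neg_one, zpow_neg_one] at h'
    exact inv_injective h'
  have hnotin : jd k (r ^ 2) ∉
      (Polynomial.nthRootsFinset r (1 : k)).image (fun ζ => σ ζ (jqModC k)) := by
    intro h
    obtain ⟨ζ, hz, h⟩ := Finset.mem_image.mp h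
    have h' : (σ ζ (jqModC k)).coeff (((r ^ 2 : ℕ) : ℤ) * (-1 : ℤ))
        = (jd k (r ^ 2)).coeff (((r ^ 2 : ℕ) : ℤ) * (-1 : ℤ)) := by rw [h]
    rw [jd, Vq_coeff_mul (pow_pos hr0 2), coeff_jqModC_neg_one, hσ ζ (hζ ζ hz).2,
      coeff_jqModC_of_lt, mul_zero] at h'
    · exact zero_ne_one h'
    · have : 2 ≤ r := hr.two_le
      have h4 : (2 : ℤ) ≤ (r : ℤ) := by exact_mod_cast this
      push_cast
      nlinarith
  set s : Finset (LaurentSeries k) :=
    insert (jd k (r ^ 2)) ((Polynomial.nthRootsFinset r (1 : k)).image (fun ζ => σ ζ (jqModC k)))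
    with hs
  have hcard : s.card = r + 1 := by
    rw [hs, Finset.card_insert_of_notMem hnotin, Finset.card_image_of_injOn hinj,
      card_nthRootsFinset_one hrk]
  set Q : (LaurentSeries k)[X] := (X - C (jd k (r ^ 2))) *
        ∏ ζ ∈ Polynomial.nthRootsFinset r (1 : k), (X - C (σ ζ (jqModC k))) with hQ
  have hQmonic : Q.Monic :=
    (monic_X_sub_C _).mul (monic_prod_of_monic _ _ fun ζ _ => monic_X_sub_C _)
  have hQdeg : Q.natDegree = r + 1 := by
    rw [hQ, Monic.natDegree_mul (monic_X_sub_C _)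
      (monic_prod_of_monic _ _ fun ζ _ => monic_X_sub_C _), natDegree_X_sub_C,
      natDegree_prod_of_monic _ _ (fun ζ _ => monic_X_sub_C _)]
    simp [card_nthRootsFinset_one hrk, add_comm]
  have hPmonic : (Φ.map (evY (jd k r))).Monic := hmonic.map _
  have hPdeg : (Φ.map (evY (jd k r))).natDegree = r + 1 := by
    rw [hmonic.natDegree_map, hdeg]
  apply Polynomial.eq_of_degree_sub_lt_of_eval_finset_eq s
  · rw [hcard]
    have h5 : (Φ.map (evY (jd k r))).degree = Q.degree := by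
      rw [degree_eq_natDegree hPmonic.ne_zero, degree_eq_natDegree hQmonic.ne_zero, hPdeg, hQdeg]
    have h6 := degree_sub_lt_left h5 hPmonic.ne_zero (by rw [hPmonic.leadingCoeff, hQmonic.leadingCoeff])
    rw [degree_eq_natDegree hPmonic.ne_zero, hPdeg] at h6
    exact h6
  · intro x hx
    rw [eval_map_evY]
    rcases Finset.mem_insert.mp hx with rfl | hx
    · rw [hroot_inf, hQ]
      simp
    · obtain ⟨ζ, hz, rfl⟩ := Finset.mem_image.mp hx
      rw [hroot ζ hz, hQ, eval_mul, eval_prod, Finset.prod_eq_zero hz (by simp), mul_zero]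

end Main

end Factor

open Factor in
theorem wp5 : WP5 := by
  intro k _ _ r hr hrk Φ hΦ σ hσ c hc a ha
  have hr0 : 0 < r := hr.pos
  have hbase := factor_base hr hrk hΦ σ hσ
  set g : LaurentSeries k →+* LaurentSeries k := (Vq k a).comp (σ c) with hg
  have hgC : ∀ x : k, g (HahnSeries.C x) = HahnSeries.C x := by
    intro x
    rw [hg, RingHom.comp_apply, scale_C (hσ c hc), Vq_C]
  have h := congrArg (Polynomial.map g) hbase
  rw [Polynomial.map_map, comp_evY g hgC, Polynomial.map_mul, Polynomial.map_prod] at h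
  simp only [Polynomial.map_sub, Polynomial.map_X, Polynomial.map_C] at h
  have e1 : g (jd k r) = Vq k (r * a) (σ (c ^ r) (jqModC k)) := by
    rw [hg, RingHom.comp_apply, jd, scale_Vq hr0 (hσ c hc) (hσ (c ^ r) (pow_ne_zero _ hc)),
      Vq_Vq ha hr0, mul_comm]
  have e2 : g (jd k (r ^ 2)) = Vq k (r ^ 2 * a) (σ (c ^ r ^ 2) (jqModC k)) := by
    rw [hg, RingHom.comp_apply, jd,
      scale_Vq (pow_pos hr0 2) (hσ c hc) (hσ (c ^ r ^ 2) (pow_ne_zero _ hc)),
      Vq_Vq ha (pow_pos hr0 2), mul_comm]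
  rw [e1, e2] at h
  rw [h]
  congr 1
  refine Finset.prod_congr rfl fun ζ hz => ?_
  have hz0 : ζ ≠ 0 := by
    have h' := (Polynomial.mem_nthRootsFinset hr0 (1 : k)).mp hz
    rintro rfl
    rw [zero_pow hr0.ne'] at h'
    exact zero_ne_one h'
  rw [hg, RingHom.comp_apply,
    scale_scale (hσ c hc) (hσ ζ hz0) (f'' := σ (ζ * c)) (by rw [mul_comm c ζ]; exact hσ _ (mul_ne_zero hz0 hc))]

end Fermat.Agent.S28
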