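import Fermat.Agent.S28.Interface

set_option autoImplicit false

noncomputable section

namespace Fermat.Agent.S28

open ModularCurve Polynomial

namespace Lower

variable (k : Type) [Field k]

theorem order_jqModC : (jqModC k).order = -1 := by
  have hne : jqModC k ≠ 0 := jqModC_ne_zero_of_nontrivial k
  apply le_antisymm
  · apply HahnSeries.order_le_of_coeff_ne_zero
    rw [coeff_jqModC_neg_one]; exact one_ne_zero
  · by_contra hlt
    push Not at hlt
    have h0 := coeff_jqModC_of_lt k hlt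
    exact hne (HahnSeries.coeff_order_eq_zero.1 h0)

theorem dvd_order_qExpand (p : ℕ) [NeZero p] (a : LaurentSeries k) :
    (p : ℤ) ∣ (qExpand k p a).order := by
  by_cases h0 : qExpand k p a = 0
  · rw [h0]; simp
  · by_contra hnd
    exact h0 (HahnSeries.coeff_order_eq_zero.1 (qExpand_coeff_of_not_dvd p a hnd))

/-- L1 : `1, j, …, j^(p-1)` are linearly independent over `k((q^p))`, polynomial form. -/
theorem eq_zero_of_aeval_j (p : ℕ) [NeZero p] (P : (LaurentSeries k)[X])
    (hP : ∀ n, P.coeff n ∈ Set.range (qExpand k p)) (hdeg : P.natDegree < p)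
    (h0 : P.eval (jqModC k) = 0) : P = 0 := by
  by_contra hne
  set t : ℕ → LaurentSeries k := fun i => P.coeff i * jqModC k ^ i with ht
  have hj : jqModC k ≠ 0 := jqModC_ne_zero_of_nontrivial k
  have htne : ∀ i ∈ P.support, t i ≠ 0 := by
    intro i hi
    exact mul_ne_zero (Polynomial.mem_support_iff.1 hi) (pow_ne_zero _ hj)
  have hord : ∀ i ∈ P.support, ∃ m : ℤ, (t i).order = p * m - i := by
    intro i hi
    obtain ⟨a, ha⟩ := hP i
    obtain ⟨m, hm⟩ := dvd_order_qExpand k p a
    refine ⟨m, ?_⟩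
    rw [ht]
    simp only
    rw [HahnSeries.order_mul (Polynomial.mem_support_iff.1 hi) (pow_ne_zero _ hj),
      HahnSeries.order_pow, order_jqModC, ← ha, hm]
    simp
    ring
  obtain ⟨i0, hi0, hmin⟩ := Finset.exists_min_image P.support (fun i => (t i).order)
    (Polynomial.support_nonempty.2 hne)
  have hlt : ∀ i ∈ P.support, i < p := fun i hi =>
    lt_of_le_of_lt (Polynomial.le_natDegree_of_mem_supp i hi) hdeg
  have hsum : (∑ i ∈ P.support, t i).coeff (t i0).order = (t i0).coeff (t i0).order := by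
    rw [HahnSeries.coeff_sum]
    apply Finset.sum_eq_single_of_mem i0 hi0
    intro i hi hne'
    apply HahnSeries.coeff_eq_zero_of_lt_order
    refine lt_of_le_of_ne (hmin i hi) ?_
    intro heq
    obtain ⟨m, hm⟩ := hord i hi
    obtain ⟨m0, hm0⟩ := hord i0 hi0
    rw [hm, hm0] at heq
    have h1 := hlt i hi
    have h2 := hlt i0 hi0
    apply hne'
    have h3 : (p : ℤ) ∣ (i : ℤ) - i0 := ⟨m - m0, by linarith⟩
    have h4 : (i : ℤ) - i0 = 0 := by
      apply Int.eq_zero_of_abs_lt_dvd h3
      rw [abs_lt]; constructor <;> omega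
    omega
  have hev : P.eval (jqModC k) = ∑ i ∈ P.support, t i := by
    rw [Polynomial.eval_eq_sum, Polynomial.sum_def]
  rw [← hev, h0] at hsum
  exact htne i0 hi0 (HahnSeries.coeff_order_eq_zero.1 (by rw [← hsum]; simp))


/-- L1, pulled back along `q ↦ q^p`. -/
theorem eq_zero_of_eval_map (p : ℕ) [NeZero p] (P : (LaurentSeries k)[X])
    (hdeg : P.natDegree < p) (h0 : (P.map (qExpand k p)).eval (jqModC k) = 0) : P = 0 := by
  have h := eq_zero_of_aeval_j k p (P.map (qExpand k p))
    (fun n => by rw [coeff_map]; exact ⟨_, rfl⟩) (by rw [natDegree_map]; exact hdeg) h0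
  exact (Polynomial.map_eq_zero _).1 h

theorem algebraMap_eq_C (a : k) : algebraMap k (LaurentSeries k) a = HahnSeries.C a := by
  rw [algebraMap_laurentSeries_eq_single]; rfl

theorem jd_eq (d : ℕ) [NeZero d] : jd k d = qExpand k d (jqModC k) := by
  rw [jd, Vq_eq]

theorem qExpand_jd (p d : ℕ) [NeZero p] [NeZero d] :
    qExpand k p (jd k d) = jd k (d * p) := by
  have : NeZero (d * p) := ⟨Nat.mul_ne_zero (NeZero.ne d) (NeZero.ne p)⟩
  have : NeZero (p * d) := ⟨Nat.mul_ne_zero (NeZero.ne p) (NeZero.ne d)⟩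
  rw [jd_eq, jd_eq, qExpand_qExpand]
  exact qExpand_congr (mul_comm p d) _

theorem qExpand_comp_evY (p : ℕ) [NeZero p] (y : LaurentSeries k) :
    (qExpand k p).comp (evY y) = evY (qExpand k p y) := by
  apply Polynomial.ringHom_ext
  · intro a
    simp [evY]
  · simp [evY]

theorem qExpand_ev2 (p : ℕ) [NeZero p] (Φ : k[X][X]) (x y : LaurentSeries k) :
    qExpand k p (ev2 Φ x y) = ev2 Φ (qExpand k p x) (qExpand k p y) := by
  rw [ev2, ev2, Polynomial.hom_eval₂, qExpand_comp_evY]

/-- Any nonzero polynomial over a subfield of `k((q^p))` killing `j` has degree at least `p`. -/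
theorem le_natDegree_of_aeval_eq_zero (p : ℕ) [NeZero p]
    (L : IntermediateField k (LaurentSeries k))
    (hL : ∀ x ∈ L, x ∈ Set.range (qExpand k p)) (P : L[X]) (hP : P ≠ 0)
    (h0 : aeval (jqModC k) P = 0) : p ≤ P.natDegree := by
  by_contra hlt
  push Not at hlt
  apply hP
  have h := eq_zero_of_aeval_j k p (P.map (algebraMap L (LaurentSeries k)))
    (fun n => by rw [coeff_map]; exact hL _ (P.coeff n).2) (by rw [natDegree_map]; exact hlt)
    (by rw [eval_map_algebraMap]; exact h0)
  exact (Polynomial.map_eq_zero _).1 h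

section Step

variable (p M : ℕ) [NeZero p]

/-- The field `V_p (K_M)`. -/
abbrev VK : IntermediateField k (LaurentSeries k) := (Kf k M).map (qExpandAlgHomC k p)

theorem VK_subset_range : ∀ x ∈ VK k p M, x ∈ Set.range (qExpand k p) := by
  intro x hx
  obtain ⟨y, _, hy⟩ := (IntermediateField.mem_map _).1 hx
  exact ⟨y, hy⟩

theorem jd_mem_VK : jd k p ∈ VK k p M := by
  refine (IntermediateField.mem_map _).2 ⟨jqModC k, jqModC_mem_full k M, ?_⟩
  rw [qExpandAlgHomC_apply, jd_eq]

/-- `Φ_p(X, j_p)` as a polynomial over `V_p (K_M)`. -/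
def PhiL (Φ : k[X][X]) : (VK k p M)[X] :=
  Φ.map ((aeval (⟨jd k p, jd_mem_VK k p M⟩ : VK k p M)).toRingHom)

theorem aeval_PhiL (Φ : k[X][X]) (x : LaurentSeries k) :
    aeval x (PhiL k p M Φ) = ev2 Φ x (jd k p) := by
  rw [PhiL, aeval_def, Polynomial.eval₂_map, ev2]
  congr 1
  apply Polynomial.ringHom_ext
  · intro a
    simp only [RingHom.comp_apply, AlgHom.toRingHom_eq_coe, RingHom.coe_coe, aeval_C, evY,
      coe_eval₂RingHom, eval₂_C]
    rw [← IsScalarTower.algebraMap_apply, algebraMap_eq_C]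
  · simp only [RingHom.comp_apply, AlgHom.toRingHom_eq_coe, RingHom.coe_coe, aeval_X, evY,
      coe_eval₂RingHom, eval₂_X]
    rfl

variable {p} in
theorem isIntegral_j (Φ : k[X][X]) (hΦ : IsModPoly p Φ) :
    IsIntegral (VK k p M) (jqModC k) := by
  refine ⟨PhiL k p M Φ, hΦ.1.map _, ?_⟩
  rw [← aeval_def, aeval_PhiL]
  exact hΦ.2.2.2

variable {p} in
theorem p_le_natDegree_minpoly (Φ : k[X][X]) (hΦ : IsModPoly p Φ) :
    p ≤ (minpoly (VK k p M) (jqModC k)).natDegree :=
  le_natDegree_of_aeval_eq_zero k p _ (VK_subset_range k p M) _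
    (minpoly.ne_zero (isIntegral_j k M Φ hΦ)) (minpoly.aeval _ _)

variable {p} in
theorem succ_le_natDegree_minpoly (hp : 2 ≤ p) (Φ : k[X][X]) (hΦ : IsModPoly p Φ)
    (hnot : jd k p ∉ Kf k M) :
    p + 1 ≤ (minpoly (VK k p M) (jqModC k)).natDegree := by
  have hint := isIntegral_j k M Φ hΦ
  have hge := p_le_natDegree_minpoly k M Φ hΦ
  set μ := minpoly (VK k p M) (jqModC k) with hμ
  have hμm : μ.Monic := minpoly.monic hint
  by_contra hlt
  have hdeg : μ.natDegree = p := by omega
  have hΦm : (PhiL k p M Φ).Monic := hΦ.1.map _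
  have hΦd : (PhiL k p M Φ).natDegree = p + 1 := by
    rw [PhiL, hΦ.1.natDegree_map, hΦ.2.1]
  obtain ⟨Q, hQ⟩ : μ ∣ PhiL k p M Φ := minpoly.dvd _ _ (by rw [aeval_PhiL]; exact hΦ.2.2.2)
  have hQm : Q.Monic := hμm.of_mul_monic_left (hQ ▸ hΦm)
  have hQd : Q.natDegree = 1 := by
    have := hμm.natDegree_mul hQm
    rw [← hQ, hΦd, hdeg] at this
    omega
  have hQX := hQm.eq_X_add_C hQd
  set t := Q.coeff 0 with ht
  -- the second root
  have hroot : aeval (qExpand k p (jd k p)) (PhiL k p M Φ) = 0 := by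
    rw [aeval_PhiL]
    have h := congrArg (qExpand k p) hΦ.2.2.1
    rw [qExpand_ev2, map_zero, ← jd_eq] at h
    exact h
  rw [hQ, map_mul, mul_eq_zero] at hroot
  rcases hroot with hroot | hroot
  · -- `j_{p^2}` is a root of `μ`
    have hlift : μ.map (algebraMap (VK k p M) (LaurentSeries k)) ∈ Polynomial.lifts (qExpand k p) := by
      rw [Polynomial.lifts_iff_coeff_lifts]
      intro n
      rw [coeff_map]
      exact VK_subset_range k p M _ (μ.coeff n).2
    obtain ⟨μ₀, hμ₀⟩ := (Polynomial.mem_lifts _).1 hlift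
    have hμ₀d : μ₀.natDegree = p := by
      rw [← hdeg, ← natDegree_map (algebraMap (VK k p M) (LaurentSeries k)), ← hμ₀, natDegree_map]
    have hμ₀ne : μ₀ ≠ 0 := by
      rintro rfl
      rw [natDegree_zero] at hμ₀d
      omega
    have hr0 : μ₀.IsRoot (jd k p) := by
      rw [IsRoot.def]
      apply (qExpand k p).injective
      rw [map_zero, ← Polynomial.eval₂_at_apply, ← Polynomial.eval_map, hμ₀, eval_map_algebraMap]
      exact hroot
    obtain ⟨ν, hν⟩ := Polynomial.dvd_iff_isRoot.2 hr0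
    have hνne : ν ≠ 0 := by
      rintro rfl
      exact hμ₀ne (by rw [hν, mul_zero])
    have hνd : ν.natDegree < p := by
      have := natDegree_mul (X_sub_C_ne_zero (jd k p)) hνne
      rw [← hν, hμ₀d, natDegree_X_sub_C] at this
      omega
    have hev : (μ₀.map (qExpand k p)).eval (jqModC k) = 0 := by
      rw [hμ₀, eval_map_algebraMap]
      exact minpoly.aeval _ _
    rw [hν, Polynomial.map_mul, eval_mul, mul_eq_zero] at hev
    rcases hev with hev | hev
    · have h1 := eq_zero_of_eval_map k p (X - C (jd k p))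
        (by rw [natDegree_X_sub_C]; omega) hev
      exact X_sub_C_ne_zero _ h1
    · exact hνne (eq_zero_of_eval_map k p ν hνd hev)
  · -- `j_{p^2} ∈ V_p K_M`
    rw [hQX, map_add, aeval_X, aeval_C] at hroot
    have hmem : qExpand k p (jd k p) ∈ VK k p M := by
      have : qExpand k p (jd k p) = ((-t : VK k p M) : LaurentSeries k) := by
        rw [eq_neg_of_add_eq_zero_left hroot]; rfl
      rw [this]
      exact (-t).2
    obtain ⟨y, hy, hyV⟩ := (IntermediateField.mem_map _).1 hmem
    rw [qExpandAlgHomC_apply] at hyV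
    exact hnot ((qExpand k p).injective hyV ▸ hy)

variable {p} in
theorem linearIndependent_pow_j (hp : 2 ≤ p) (Φ : k[X][X]) (hΦ : IsModPoly p Φ)
    (hnot : ¬ p ∣ M → jd k p ∉ Kf k M) :
    LinearIndependent (VK k p M) (fun i : Fin (stepDeg p M) => jqModC k ^ (i : ℕ)) := by
  have hle : stepDeg p M ≤ (minpoly (VK k p M) (jqModC k)).natDegree := by
    unfold stepDeg
    split_ifs with h
    · exact p_le_natDegree_minpoly k M Φ hΦ
    · exact succ_le_natDegree_minpoly k M hp Φ hΦ (hnot h)
  exact (linearIndependent_pow (K := VK k p M) (jqModC k)).comp (Fin.castLE hle)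
    (Fin.castLE_injective hle)

variable [NeZero M]

theorem Ej_map : (Ej k M).map (qExpandAlgHomC k p) = Ej k (M * p) := by
  rw [Ej, IntermediateField.adjoin_map, Set.image_singleton, qExpandAlgHomC_apply, qExpand_jd]
  rfl

theorem Ej_le_Kf : Ej k M ≤ Kf k M := by
  rw [Ej, IntermediateField.adjoin_le_iff, Set.singleton_subset_iff, jd_eq]
  exact jqModCd_mem_full k M dvd_rfl

theorem Ej_le_VK : Ej k (M * p) ≤ VK k p M := by
  rw [← Ej_map k p M]
  exact IntermediateField.map_mono _ (Ej_le_Kf k M)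

theorem linearIndependent_qExpand {ι : Type} (b : ι → LaurentSeries k)
    (hb : LinearIndependent (Ej k M) b) :
    LinearIndependent (Ej k (M * p)) (fun s => qExpand k p (b s)) := by
  have hmem : ∀ r : Ej k M, qExpand k p (r : LaurentSeries k) ∈ Ej k (M * p) := by
    intro r
    rw [← Ej_map k p M]
    exact (IntermediateField.mem_map _).2 ⟨r, r.2, rfl⟩
  refine hb.map_of_surjective_injective
    (fun r => (⟨qExpand k p r, hmem r⟩ : Ej k (M * p))) (qExpand k p).toAddMonoidHom ?_ ?_ ?_
  · rintro ⟨y, hy⟩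
    have hy' := hy
    rw [← Ej_map k p M] at hy'
    obtain ⟨x, hx, hxy⟩ := (IntermediateField.mem_map _).1 hy'
    exact ⟨⟨x, hx⟩, Subtype.ext hxy⟩
  · intro m hm
    exact (map_eq_zero (qExpand k p)).1 hm
  · intro r m
    show qExpand k p (r • m) = (⟨qExpand k p r, hmem r⟩ : Ej k (M * p)) • qExpand k p m
    rw [IntermediateField.smul_def, IntermediateField.smul_def, smul_eq_mul, smul_eq_mul, map_mul]

end Step

end Lower

open Lower in
theorem wp7 : WP6 → WP7 := by
  intro h6 k _ _ p M hp hM hpM hmod hunit ι b hbK hb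
  have : NeZero p := ⟨hp.ne_zero⟩
  have : NeZero M := ⟨hM.ne'⟩
  obtain ⟨Φ, hΦ⟩ := hmod p hp (dvd_mul_right p M)
  have hpow := linearIndependent_pow_j k M hp.two_le Φ hΦ
    (fun hnd => h6 k p M hp hM hnd hpM hmod hunit)
  have hVb := linearIndependent_qExpand k p M b hb
  have hle := Ej_le_VK k p M
  let _ : Algebra (Ej k (M * p)) (VK k p M) := (IntermediateField.inclusion hle).toRingHom.toAlgebra
  have : IsScalarTower (Ej k (M * p)) (VK k p M) (LaurentSeries k) :=
    IsScalarTower.of_algebraMap_eq (fun _ => rfl)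
  have hmem : ∀ s, qExpand k p (b s) ∈ VK k p M := fun s =>
    (IntermediateField.mem_map _).2 ⟨b s, hbK s, rfl⟩
  have hb' : LinearIndependent (Ej k (M * p))
      (fun s => (⟨qExpand k p (b s), hmem s⟩ : VK k p M)) := by
    apply LinearIndependent.of_comp
      (IsScalarTower.toAlgHom (Ej k (M * p)) (VK k p M) (LaurentSeries k)).toLinearMap
    exact hVb
  have key := linearIndependent_smul hb' hpow
  refine (linearIndependent_equiv' (Equiv.prodComm _ _) ?_).2 key
  funext x
  obtain ⟨i, s⟩ := x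
  simp only [Function.comp_apply, Equiv.prodComm_apply, Prod.swap_prod_mk, nextFam, Vq_eq]
  rw [IntermediateField.smul_def, smul_eq_mul, mul_comm]

end Fermat.Agent.S28
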