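/-
S28, work package WP6 (T2): a new prime is not yet in the field: `jd k p ∉ Kf k M` for `p ∤ M`.
-/
import Fermat.Agent.S28.Interface

set_option autoImplicit false

noncomputable section

namespace Fermat.Agent.S28

open ModularCurve Polynomial

namespace NewPrime

section general

variable {A : Type} [CommRing A]

theorem Vq_C (d : ℕ) (a : A) : Vq A d (HahnSeries.C a) = HahnSeries.C a := by
  by_cases h : d = 0
  · rw [Vq, dif_pos h]; rfl
  · have : NeZero d := ⟨h⟩
    rw [Vq_eq, qExpand_C]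

theorem Vq_Vq (a b : ℕ) (ha : a ≠ 0) (hb : b ≠ 0) (x : LaurentSeries A) :
    Vq A a (Vq A b x) = Vq A (a * b) x := by
  have : NeZero a := ⟨ha⟩
  have : NeZero b := ⟨hb⟩
  have : NeZero (a * b) := ⟨Nat.mul_ne_zero ha hb⟩
  rw [Vq_eq, Vq_eq, Vq_eq, qExpand_qExpand]

theorem jd_one : jd A 1 = jqModC A := by
  rw [jd, Vq_eq, qExpand_one_apply]

theorem Vq_jd (a b : ℕ) (ha : a ≠ 0) (hb : b ≠ 0) : Vq A a (jd A b) = jd A (a * b) := by
  rw [jd, jd, Vq_Vq a b ha hb]

theorem comp_evY {B : Type} [CommRing B] (g : LaurentSeries A →+* B) (h : A[X] →+* B)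
    (Y : LaurentSeries A) (hC : ∀ a, h (C a) = g (HahnSeries.C a)) (hX : h X = g Y) :
    h = g.comp (evY Y) := by
  apply Polynomial.ringHom_ext
  · intro a
    rw [hC, RingHom.comp_apply, evY, Polynomial.coe_eval₂RingHom, Polynomial.eval₂_C]
  · rw [hX, RingHom.comp_apply, evY, Polynomial.coe_eval₂RingHom, Polynomial.eval₂_X]

theorem evY_C (Y : LaurentSeries A) (a : A) : evY Y (C a) = HahnSeries.C a := by
  rw [evY, Polynomial.coe_eval₂RingHom, Polynomial.eval₂_C]

theorem evY_X (Y : LaurentSeries A) : evY Y X = Y := by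
  rw [evY, Polynomial.coe_eval₂RingHom, Polynomial.eval₂_X]

theorem map_ev2 (g : LaurentSeries A →+* LaurentSeries A)
    (hg : ∀ a, g (HahnSeries.C a) = HahnSeries.C a) (P : A[X][X]) (x y : LaurentSeries A) :
    g (ev2 P x y) = ev2 P (g x) (g y) := by
  rw [ev2, ev2, Polynomial.hom_eval₂]
  congr 1
  symm
  apply comp_evY
  · intro a; rw [evY_C, hg]
  · rw [evY_X]

theorem transport {T Ω : Type} [CommRing T] [CommRing Ω]
    (v : T →+* LaurentSeries A) (hv : Function.Injective v) (φ : T →+* Ω)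
    (alg : LaurentSeries A →+* Ω) (cT : A →+* T) (hc1 : ∀ b, v (cT b) = HahnSeries.C b)
    (hc2 : ∀ b, φ (cT b) = alg (HahnSeries.C b))
    (P : A[X][X]) (x y : T) (Y : LaurentSeries A) (hY : φ y = alg Y)
    (h : ev2 P (v x) (v y) = 0) : (P.map (evY Y)).eval₂ alg (φ x) = 0 := by
  have h1 : P.eval₂ (Polynomial.eval₂RingHom cT y) x = 0 := by
    apply hv
    rw [Polynomial.hom_eval₂, map_zero, ← h, ev2]
    congr 1
    apply Polynomial.ringHom_ext
    · intro a
      rw [RingHom.comp_apply, Polynomial.coe_eval₂RingHom, Polynomial.eval₂_C, hc1, evY_C]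
    · rw [RingHom.comp_apply, Polynomial.coe_eval₂RingHom, Polynomial.eval₂_X, evY_X]
  have h2 := congrArg φ h1
  rw [Polynomial.hom_eval₂, map_zero] at h2
  rw [Polynomial.eval₂_map, ← h2]
  congr 1
  symm
  apply comp_evY
  · intro a
    rw [RingHom.comp_apply, Polynomial.coe_eval₂RingHom, Polynomial.eval₂_C, hc2]
  · rw [RingHom.comp_apply, Polynomial.coe_eval₂RingHom, Polynomial.eval₂_X, hY]

end general

section field

variable {k : Type} [Field k]

theorem algebraMap_eq_C (c : k) : algebraMap k (LaurentSeries k) c = HahnSeries.C c := by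
  have h1 : algebraMap k (PowerSeries k) c = PowerSeries.C c := by simp
  rw [HahnSeries.algebraMap_apply', h1, HahnSeries.ofPowerSeries_C]

theorem jd_one_mem : jd k 1 ∈ Ej k 1 :=
  IntermediateField.subset_adjoin k _ (Set.mem_singleton _)

/-- the relation `Φ_r(j(q^(r d)), j(q^d)) = 0`. -/
theorem ev2_jd_mul {r : ℕ} (hr : r ≠ 0) {Φ : k[X][X]} (hΦ : IsModPoly r Φ) (d : ℕ) (hd : d ≠ 0) :
    ev2 Φ (jd k (d * r)) (jd k d) = 0 := by
  have h := congrArg (Vq k d) hΦ.2.2.1
  rw [map_zero, map_ev2 _ (Vq_C d), Vq_jd d r hd hr] at h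
  exact h

theorem isIntegral_jd (d : ℕ) : 0 < d → (∀ r : ℕ, r.Prime → r ∣ d → HasModPoly r k) →
    IsIntegral (Ej k 1) (jd k d) := by
  induction d using Nat.strong_induction_on with
  | _ d ih =>
    intro hd h
    rcases Nat.lt_or_ge 1 d with h1 | h1
    · have hr : d.minFac.Prime := Nat.minFac_prime (by omega)
      obtain ⟨d', hd'⟩ := Nat.minFac_dvd d
      set r := d.minFac with hrdef
      have hd'0 : 0 < d' := by
        rcases Nat.eq_zero_or_pos d' with h0 | h0
        · rw [h0, mul_zero] at hd'; omega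
        · exact h0
      have hlt : d' < d := by
        rw [hd']; exact lt_mul_of_one_lt_left hd'0 hr.one_lt
      have ih' := ih d' hlt hd'0 (fun s hs hsd => h s hs (hsd.trans ⟨r, by rw [hd', mul_comm]⟩))
      obtain ⟨Φ, hΦ⟩ := h r hr ⟨d', hd'⟩
      have hrel := ev2_jd_mul hr.ne_zero hΦ d' hd'0.ne'
      rw [mul_comm, ← hd'] at hrel
      -- the relative algebraic closure
      let E := algebraicClosure (Ej k 1) (LaurentSeries k)
      have hy : jd k d' ∈ E := mem_algebraicClosure_iff'.mpr ih'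
      let cE : k →+* E := (algebraMap (Ej k 1) E).comp (algebraMap k (Ej k 1))
      let evE : k[X] →+* E := Polynomial.eval₂RingHom cE ⟨jd k d', hy⟩
      have hE : IsIntegral E (jd k d) := by
        refine ⟨Φ.map evE, hΦ.1.map _, ?_⟩
        rw [Polynomial.eval₂_map, ← hrel, ev2]
        congr 1
        apply Polynomial.ringHom_ext
        · intro a
          rw [RingHom.comp_apply, Polynomial.coe_eval₂RingHom, Polynomial.eval₂_C, evY_C,
            ← algebraMap_eq_C]
          show algebraMap E (LaurentSeries k) (algebraMap (Ej k 1) E (algebraMap k (Ej k 1) a)) = _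
          rw [← IsScalarTower.algebraMap_apply (Ej k 1) E (LaurentSeries k),
            ← IsScalarTower.algebraMap_apply k (Ej k 1) (LaurentSeries k)]
        · rw [RingHom.comp_apply, Polynomial.coe_eval₂RingHom, Polynomial.eval₂_X, evY_X]
          rfl
      have hEint : Algebra.IsIntegral (Ej k 1) E :=
        (algebraicClosure.isAlgebraic (Ej k 1) (LaurentSeries k)).isIntegral
      exact isIntegral_trans (A := E) _ hE
    · have : d = 1 := by omega
      subst this
      exact isIntegral_algebraMap (R := Ej k 1) (x := ⟨jd k 1, jd_one_mem⟩)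

theorem scale_one (σ : LaurentSeries k →+* LaurentSeries k) (hσ : IsScale (1 : k) σ)
    (x : LaurentSeries k) : σ x = x := by
  ext n
  rw [hσ x n, one_zpow, one_mul]

theorem natCast_ne_zero_of_dvd {r n : ℕ} (h : r ∣ n) (hn : (n : k) ≠ 0) : (r : k) ≠ 0 := by
  intro h0
  obtain ⟨t, rfl⟩ := h
  apply hn
  rw [Nat.cast_mul, h0, zero_mul]

theorem Vq_jq_ne (p M : ℕ) (hp : p ≠ 0) (hM : M ≠ 0) (hpM : ¬ p ∣ M) (z : LaurentSeries k) :
    Vq k p z ≠ Vq k M (jqModC k) := by
  intro h
  have : NeZero p := ⟨hp⟩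
  have : NeZero M := ⟨hM⟩
  rw [Vq_eq, Vq_eq] at h
  have h1 := congrArg (fun x => x.coeff ((M : ℤ) * (-1))) h
  simp only [qExpand_coeff_mul] at h1
  rw [qExpand_coeff_of_not_dvd, coeff_jqModC_neg_one] at h1
  · exact zero_ne_one h1
  · rw [mul_neg_one, Int.dvd_neg, Int.natCast_dvd_natCast]
    exact hpM

theorem key (h4 : WP4) (h5 : WP5) [IsAlgClosed k]
    (σ : k → LaurentSeries k →+* LaurentSeries k) (hσ : ∀ c, c ≠ 0 → IsScale c (σ c))
    (p M : ℕ) (hp : p.Prime) (hM : 0 < M) (hpM : ¬ p ∣ M) (hchar : ((p * M : ℕ) : k) ≠ 0)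
    (hΦ : ∀ r : ℕ, r.Prime → r ∣ p * M → HasModPoly r k) (hΞ : HasUnitPoly p k)
    (Ω : Type) [Field Ω] [IsAlgClosed Ω] (alg : LaurentSeries k →+* Ω)
    (hmem : jd k p ∈ Kf k M) : False := by
  let F := Ej k 1
  let ι : LaurentSeries k →+* Ω := alg.comp (Vq k (p * M))
  let _ : Algebra F Ω := (ι.comp (algebraMap F (LaurentSeries k))).toAlgebra
  have halg : ∀ x : F, algebraMap F Ω x = alg (Vq k (p * M) (x : LaurentSeries k)) := fun x => rfl
  let S := divisorExpansionsC k M
  have hjdS : ∀ d : ℕ, d ∣ M → jd k d ∈ S := by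
    intro d hd
    have hd0 : d ≠ 0 := by
      rintro rfl
      rw [zero_dvd_iff] at hd
      omega
    have : NeZero d := ⟨hd0⟩
    exact ⟨d, this, hd, by rw [jd, Vq_eq]⟩
  have hint : ∀ s ∈ S, IsIntegral F s := by
    rintro s ⟨d, hne, hd, rfl⟩
    rw [← Vq_eq]
    exact isIntegral_jd d (Nat.pos_of_ne_zero hne.out)
      (fun r hr hrd => hΦ r hr ((hrd.trans hd).trans (dvd_mul_left M p)))
  have hK : ∀ s ∈ S, IsIntegral F s ∧ ((minpoly F s).map (algebraMap F Ω)).Splits :=
    fun s hs => ⟨hint s hs, IsAlgClosed.splits _⟩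
  have hx : jd k p ∈ IntermediateField.adjoin F S := by
    have hle : Kf k M ≤ (IntermediateField.adjoin F S).restrictScalars k := by
      rw [Kf, modularFunctionFieldFullC, IntermediateField.adjoin_le_iff]
      intro s hs
      exact IntermediateField.subset_adjoin F S hs
    exact hle hmem
  have hp0 : p ≠ 0 := hp.ne_zero
  have hM0 : M ≠ 0 := hM.ne'
  -- the minimal polynomial of `j(q^p)` over `k(j)`
  obtain ⟨Φ, hΦp⟩ := hΦ p hp (dvd_mul_right p M)
  let evF : k[X] →+* F := Polynomial.eval₂RingHom (algebraMap k F) ⟨jd k 1, jd_one_mem⟩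
  have hevF : (algebraMap F (LaurentSeries k)).comp evF = evY (jqModC k) := by
    apply Polynomial.ringHom_ext
    · intro a
      rw [RingHom.comp_apply, Polynomial.coe_eval₂RingHom, Polynomial.eval₂_C, evY_C,
        ← algebraMap_eq_C, ← IsScalarTower.algebraMap_apply k F (LaurentSeries k)]
    · rw [RingHom.comp_apply, Polynomial.coe_eval₂RingHom, Polynomial.eval₂_X, evY_X, ← jd_one]
      rfl
  have hroot : Polynomial.aeval (jd k p) (Φ.map evF) = 0 := by
    rw [Polynomial.aeval_def, Polynomial.eval₂_map, hevF]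
    exact hΦp.2.2.1
  have hmonF : (Φ.map evF).Monic := hΦp.1.map _
  have hintp : IsIntegral F (jd k p) := ⟨Φ.map evF, hmonF, hroot⟩
  have hmin : Φ.map evF = minpoly F (jd k p) := by
    apply Polynomial.eq_of_monic_of_dvd_of_natDegree_le (minpoly.monic hintp) hmonF
      (minpoly.dvd F _ hroot)
    rw [(h4 k p hp (natCast_ne_zero_of_dvd (dvd_mul_right p M) hchar) ⟨Φ, hΦp⟩ hΞ).2,
      hΦp.1.natDegree_map, hΦp.2.1]
  have hy : Polynomial.aeval (alg (Vq k M (jqModC k))) (minpoly F (jd k p)) = 0 := by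
    rw [← hmin, Polynomial.aeval_def, Polynomial.eval₂_map]
    have h1 : (algebraMap F Ω).comp evF = alg.comp (evY (Vq k M (jd k p))) := by
      apply comp_evY
      · intro a
        rw [RingHom.comp_apply, Polynomial.coe_eval₂RingHom, Polynomial.eval₂_C, halg,
          ← Vq_C (p * M) a, ← algebraMap_eq_C]
        rfl
      · rw [RingHom.comp_apply, Polynomial.coe_eval₂RingHom, Polynomial.eval₂_X, halg,
          Vq_jd M p hM0 hp0, mul_comm M p]
        show alg (Vq k (p * M) (jd k 1)) = _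
        rw [jd_one, jd]
    rw [h1, ← Polynomial.hom_eval₂]
    have h2 := congrArg (Vq k M) hΦp.2.2.2
    rw [map_zero, map_ev2 _ (Vq_C M)] at h2
    rw [ev2] at h2
    rw [h2, map_zero]
  obtain ⟨φ, hφ⟩ := IntermediateField.exists_algHom_adjoin_of_splits_of_aeval hK hx hy
  let T := IntermediateField.adjoin F S
  let cT : k →+* T := (algebraMap F T).comp (algebraMap k F)
  have hc1 : ∀ b, (algebraMap T (LaurentSeries k)) (cT b) = HahnSeries.C b := by
    intro b
    show algebraMap T (LaurentSeries k) (algebraMap F T (algebraMap k F b)) = _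
    rw [← IsScalarTower.algebraMap_apply F T (LaurentSeries k),
      ← IsScalarTower.algebraMap_apply k F (LaurentSeries k), algebraMap_eq_C]
  have hφF : ∀ x : F, φ (algebraMap F T x) = alg (Vq k (p * M) (x : LaurentSeries k)) := by
    intro x
    rw [φ.commutes, halg]
  have hc2 : ∀ b, (φ : T →+* Ω) (cT b) = alg (HahnSeries.C b) := by
    intro b
    show φ (algebraMap F T (algebraMap k F b)) = _
    rw [hφF, ← Vq_C (p * M) b, ← algebraMap_eq_C]
    rfl
  -- the conjugates of `j(q^d)`
  have hind : ∀ d : ℕ, d ∣ M → ∀ hd : jd k d ∈ T, ∃ (a : ℕ) (c : k), c ≠ 0 ∧ 0 < a ∧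
      p * (M / d) ∣ a ∧ φ ⟨jd k d, hd⟩ = alg (Vq k a (σ c (jqModC k))) := by
    intro d
    induction d using Nat.strong_induction_on with
    | _ d ih =>
      intro hdM hd
      have hd0 : 0 < d := Nat.pos_of_dvd_of_pos hdM hM
      rcases Nat.lt_or_ge 1 d with h1 | h1
      · have hr : d.minFac.Prime := Nat.minFac_prime (by omega)
        obtain ⟨d', hd'⟩ := Nat.minFac_dvd d
        set r := d.minFac with hrdef
        have hd'0 : 0 < d' := by
          rcases Nat.eq_zero_or_pos d' with h0 | h0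
          · rw [h0, mul_zero] at hd'; omega
          · exact h0
        have hlt : d' < d := by
          rw [hd']; exact lt_mul_of_one_lt_left hd'0 hr.one_lt
        have hd'M : d' ∣ M := (Dvd.intro_left r hd'.symm).trans hdM
        have hd'T : jd k d' ∈ T := IntermediateField.subset_adjoin F S (hjdS d' hd'M)
        obtain ⟨a, c, hc, ha, hdiv, hval⟩ := ih d' hlt hd'M hd'T
        obtain ⟨e, he⟩ := hdM
        have hMd : M / d = e := by rw [he]; exact Nat.mul_div_cancel_left e hd0
        have hMd' : M / d' = r * e := by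
          rw [he, hd', mul_comm r d', mul_assoc]; exact Nat.mul_div_cancel_left _ hd'0
        rw [hMd'] at hdiv
        obtain ⟨t, ht⟩ := hdiv
        have hrM : r ∣ p * M := ((Nat.minFac_dvd d).trans ⟨e, he⟩).trans (dvd_mul_left M p)
        obtain ⟨Φr, hΦr⟩ := hΦ r hr hrM
        obtain ⟨c', hc'⟩ := IsAlgClosed.exists_pow_nat_eq c hr.pos
        have hc'0 : c' ≠ 0 := by
          rintro rfl
          rw [zero_pow hr.ne_zero] at hc'
          exact hc hc'.symm
        have ha' : a = r * (p * e * t) := by rw [ht]; ring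
        have ha'0 : 0 < p * e * t := by
          rcases Nat.eq_zero_or_pos (p * e * t) with h0 | h0
          · rw [h0, mul_zero] at ha'; omega
          · exact h0
        have hrel := ev2_jd_mul hr.ne_zero hΦr d' hd'0.ne'
        rw [mul_comm, ← hd'] at hrel
        have htr := transport (algebraMap T (LaurentSeries k))
          (algebraMap T (LaurentSeries k)).injective (φ : T →+* Ω) alg cT hc1 hc2 Φr
          ⟨jd k d, hd⟩ ⟨jd k d', hd'T⟩ _ hval hrel
        rw [ha', ← hc', h5 k r hr (natCast_ne_zero_of_dvd hrM hchar) Φr hΦr σ hσ c' hc'0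
          (p * e * t) ha'0, Polynomial.eval₂_mul, Polynomial.eval₂_finsetProd] at htr
        rcases mul_eq_zero.mp htr with h0 | h0
        · rw [Polynomial.eval₂_sub, Polynomial.eval₂_X, Polynomial.eval₂_C, sub_eq_zero] at h0
          refine ⟨r ^ 2 * (p * e * t), c' ^ r ^ 2, pow_ne_zero _ hc'0,
            Nat.mul_pos (pow_pos hr.pos 2) ha'0, ?_, h0⟩
          rw [hMd]
          exact ⟨r ^ 2 * t, by ring⟩
        · obtain ⟨ζ, hζ, h0⟩ := Finset.prod_eq_zero_iff.mp h0
          rw [Polynomial.eval₂_sub, Polynomial.eval₂_X, Polynomial.eval₂_C, sub_eq_zero] at h0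
          have hζ0 : ζ ≠ 0 := by
            rintro rfl
            rw [Polynomial.mem_nthRootsFinset hr.pos, zero_pow hr.ne_zero] at hζ
            exact zero_ne_one hζ
          refine ⟨p * e * t, ζ * c', mul_ne_zero hζ0 hc'0, ha'0, ?_, h0⟩
          rw [hMd]
          exact ⟨t, rfl⟩
      · have h1' : d = 1 := by omega
        subst h1'
        refine ⟨p * M, 1, one_ne_zero, Nat.mul_pos hp.pos hM, by rw [Nat.div_one], ?_⟩
        rw [scale_one _ (hσ 1 one_ne_zero), ← jd_one]
        exact hφF ⟨jd k 1, jd_one_mem⟩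
  -- everything lands in `k((s^p))`
  let R : Subfield Ω := (alg.comp (Vq k p)).fieldRange
  have hR : ∀ x (hx : x ∈ T), φ ⟨x, hx⟩ ∈ R := by
    intro x hx
    induction hx using IntermediateField.adjoin_induction with
    | mem x hx =>
      obtain ⟨d, hne, hdM, rfl⟩ := hx
      have hd : jd k d ∈ T := IntermediateField.subset_adjoin F S (hjdS d hdM)
      obtain ⟨a, c, hc, ha, ⟨t, ht⟩, hval⟩ := hind d hdM hd
      have hmt : M / d * t ≠ 0 := by
        intro h0
        rw [mul_assoc, h0, mul_zero] at ht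
        omega
      have : φ ⟨qExpand k d (jqModC k), IntermediateField.subset_adjoin F S ⟨d, hne, hdM, rfl⟩⟩
          = φ ⟨jd k d, hd⟩ := by
        congr 2
        rw [jd, Vq_eq]
      rw [this, hval, ht, mul_assoc, ← Vq_Vq p _ hp0 hmt]
      exact ⟨_, rfl⟩
    | algebraMap x =>
      have : φ ⟨algebraMap F (LaurentSeries k) x, IntermediateField.algebraMap_mem _ x⟩
          = φ (algebraMap F T x) := rfl
      rw [this, hφF, ← Vq_Vq p M hp0 hM0]
      exact ⟨_, rfl⟩
    | add x y hx hy ihx ihy =>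
      have : φ ⟨x + y, add_mem hx hy⟩ = φ ⟨x, hx⟩ + φ ⟨y, hy⟩ := by
        rw [← map_add]; rfl
      rw [this]
      exact add_mem ihx ihy
    | inv x hx ih =>
      have : φ ⟨x⁻¹, inv_mem hx⟩ = (φ ⟨x, hx⟩)⁻¹ := by
        rw [← map_inv₀]; rfl
      rw [this]
      exact inv_mem ih
    | mul x y hx hy ihx ihy =>
      have : φ ⟨x * y, mul_mem hx hy⟩ = φ ⟨x, hx⟩ * φ ⟨y, hy⟩ := by
        rw [← map_mul]; rfl
      rw [this]
      exact mul_mem ihx ihy
  obtain ⟨z, hz⟩ := hR _ hx
  rw [hφ] at hz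
  exact Vq_jq_ne p M hp0 hM0 hpM z (alg.injective hz)

/-- the substitution `q ↦ c q`, as a function. -/
def scaleFun (c : k) (x : LaurentSeries k) : LaurentSeries k where
  coeff n := c ^ n * x.coeff n
  isPWO_support' := x.isPWO_support.mono (fun _ hn => right_ne_zero_of_mul hn)

theorem scaleFun_coeff (c : k) (x : LaurentSeries k) (n : ℤ) :
    (scaleFun c x).coeff n = c ^ n * x.coeff n := rfl

/-- the substitution `q ↦ c q`, as a ring homomorphism. -/
def scaleHom (c : k) (hc : c ≠ 0) : LaurentSeries k →+* LaurentSeries k where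
  toFun := scaleFun c
  map_one' := by
    ext n
    rw [scaleFun_coeff, HahnSeries.coeff_one]
    split_ifs with h
    · rw [h, zpow_zero, mul_one]
    · rw [mul_zero]
  map_zero' := by
    ext n
    rw [scaleFun_coeff, HahnSeries.coeff_zero, mul_zero]
  map_add' x y := by
    ext n
    rw [scaleFun_coeff, HahnSeries.coeff_add, HahnSeries.coeff_add, scaleFun_coeff,
      scaleFun_coeff, mul_add]
  map_mul' x y := by
    ext n
    rw [scaleFun_coeff, HahnSeries.coeff_mul, HahnSeries.coeff_mul, Finset.mul_sum]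
    apply Finset.sum_congr
    · ext ij
      simp only [Finset.mem_antidiagonal, HahnSeries.mem_support, scaleFun_coeff, ne_eq,
        mul_eq_zero, zpow_ne_zero _ hc, false_or]
    · intro ij hij
      have h := (Finset.mem_antidiagonal.mp hij).2.2
      rw [scaleFun_coeff, scaleFun_coeff, ← h, zpow_add₀ hc]
      ring

theorem exists_scale : ∃ σ : k → LaurentSeries k →+* LaurentSeries k,
    ∀ c, c ≠ 0 → IsScale c (σ c) := by
  classical
  refine ⟨fun c => if hc : c ≠ 0 then scaleHom c hc else RingHom.id _, ?_⟩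
  intro c hc x n
  simp only [dif_pos hc]
  rfl

end field

end NewPrime

/-- WP6 (T2): a new prime is not yet in the field. -/
theorem wp6 : WP4 → WP5 → WP6 := by
  intro h4 h5 k _ _ p M hp hM hpM hchar hΦ hΞ hmem
  obtain ⟨σ, hσ⟩ := NewPrime.exists_scale (k := k)
  exact NewPrime.key h4 h5 σ hσ p M hp hM hpM hchar hΦ hΞ (AlgebraicClosure (LaurentSeries k))
    (algebraMap _ _) hmem

end Fermat.Agent.S28
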