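/-
S28 (Igusa), package WPtower: assembly of the tower.
-/
import Fermat.Agent.S28.Interface

set_option autoImplicit false

noncomputable section

namespace Fermat.Agent.S28

open ModularCurve Polynomial

/-! ### Base change of the formal objects -/

section BaseChange

variable {A B : Type} [CommRing A] [CommRing B] (f : A →+* B)

theorem tower_coeffMap_Vq (d : ℕ) (x : LaurentSeries A) :
    coeffMap f (Vq A d x) = Vq B d (coeffMap f x) := by
  by_cases h : d = 0
  · simp [Vq, h]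
  · have : NeZero d := ⟨h⟩
    rw [Vq_eq, Vq_eq, coeffMap_qExpand]

theorem tower_coeffMap_jd (d : ℕ) : coeffMap f (jd A d) = jd B d := by
  rw [jd, tower_coeffMap_Vq, coeffMap_jqModC, jd]

theorem tower_map_map_intCast (P : PowerSeries ℤ) :
    (P.map (Int.castRingHom A)).map f = P.map (Int.castRingHom B) := by
  rw [← RingHom.comp_apply (PowerSeries.map f) (PowerSeries.map (Int.castRingHom A)),
    ← PowerSeries.map_comp, RingHom.ext_int (f.comp (Int.castRingHom A)) (Int.castRingHom B)]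

theorem tower_coeffMap_DeltaS : coeffMap f (DeltaS A) = DeltaS B := by
  rw [DeltaS, map_mul, coeffMap_single, map_one, coeffMap_ofPowerSeries, tower_map_map_intCast,
    DeltaS]

theorem tower_coeffMap_DeltaInvS : coeffMap f (DeltaInvS A) = DeltaInvS B := by
  rw [DeltaInvS, map_mul, coeffMap_single, map_one, coeffMap_ofPowerSeries,
    tower_map_map_intCast, DeltaInvS]

theorem tower_coeffMap_uInf (p : ℕ) : coeffMap f (uInf A p) = uInf B p := by
  rw [uInf, map_mul, map_mul, map_pow, map_natCast, tower_coeffMap_Vq, tower_coeffMap_DeltaS,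
    tower_coeffMap_DeltaInvS, uInf]

theorem tower_coeffMap_uZero (p : ℕ) : coeffMap f (uZero A p) = uZero B p := by
  rw [uZero, map_mul, tower_coeffMap_Vq, tower_coeffMap_DeltaS, tower_coeffMap_DeltaInvS, uZero]

theorem tower_coeffMap_C (a : A) :
    coeffMap f (HahnSeries.C a : LaurentSeries A) = HahnSeries.C (f a) := by
  rw [HahnSeries.C_apply, coeffMap_single, HahnSeries.C_apply]

theorem tower_coeffMap_comp_evY (y : LaurentSeries A) :
    (coeffMap f).comp (evY y) = (evY (coeffMap f y)).comp (Polynomial.mapRingHom f) := by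
  apply Polynomial.ringHom_ext
  · intro a
    simp [evY]
  · simp [evY]

theorem tower_coeffMap_ev2 (P : A[X][X]) (x y : LaurentSeries A) :
    coeffMap f (ev2 P x y) =
      ev2 (P.map (Polynomial.mapRingHom f)) (coeffMap f x) (coeffMap f y) := by
  rw [ev2, ev2, Polynomial.hom_eval₂, Polynomial.eval₂_map, tower_coeffMap_comp_evY]

theorem tower_isModPoly_map [Nontrivial B] {p : ℕ} {Φ : A[X][X]} (h : IsModPoly p Φ) :
    IsModPoly p (Φ.map (Polynomial.mapRingHom f)) := by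
  obtain ⟨h1, h2, h3, h4⟩ := h
  refine ⟨h1.map _, by rw [h1.natDegree_map, h2], ?_, ?_⟩
  · rw [← tower_coeffMap_jd f, ← coeffMap_jqModC f, ← tower_coeffMap_ev2, h3, map_zero]
  · rw [← tower_coeffMap_jd f, ← coeffMap_jqModC f, ← tower_coeffMap_ev2, h4, map_zero]

theorem tower_isUnitPoly_map [Nontrivial B] {p : ℕ} {Ξ : A[X][X]} (h : IsUnitPoly p Ξ) :
    IsUnitPoly p (Ξ.map (Polynomial.mapRingHom f)) := by
  obtain ⟨h1, h2, h3, h4⟩ := h
  refine ⟨h1.map _, by rw [h1.natDegree_map, h2], ?_, ?_⟩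
  · rw [← tower_coeffMap_uInf f, ← coeffMap_jqModC f, ← tower_coeffMap_ev2, h3, map_zero]
  · rw [← tower_coeffMap_uZero f, ← tower_coeffMap_jd f, ← tower_coeffMap_ev2, h4, map_zero]

include f in
theorem tower_hasModPoly_map [Nontrivial B] {p : ℕ} (h : HasModPoly p A) : HasModPoly p B :=
  h.elim fun _ hΦ => ⟨_, tower_isModPoly_map f hΦ⟩

include f in
theorem tower_hasUnitPoly_map [Nontrivial B] {p : ℕ} (h : HasUnitPoly p A) : HasUnitPoly p B :=
  h.elim fun _ hΞ => ⟨_, tower_isUnitPoly_map f hΞ⟩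

theorem tower_coeffMap_nextFam (p M : ℕ) {ι : Type} (b : ι → LaurentSeries A)
    (x : Fin (stepDeg p M) × ι) :
    coeffMap f (nextFam p M b x) = nextFam p M (fun i => coeffMap f (b i)) x := by
  simp only [nextFam, map_mul, map_pow, coeffMap_jqModC, tower_coeffMap_Vq]

end BaseChange

/-! ### The residue map `ℤ_(ℓ) → 𝔽̄_ℓ` -/

theorem tower_den_ne_zero (ℓ : ℕ) [Fact ℓ.Prime] (k : Type) [Field k] [CharP k ℓ]
    (x : GaloisRep.ratLocalizedAt ℓ) : ((x : ℚ).den : k) ≠ 0 := by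
  rw [Ne, CharP.cast_eq_zero_iff k ℓ]
  intro h
  have hx : (x : ℚ).den.Coprime ℓ := x.2
  have h1 : ℓ ∣ 1 := by
    rw [← hx]
    exact Nat.dvd_gcd h dvd_rfl
  exact (Fact.out : ℓ.Prime).one_lt.ne' (Nat.dvd_one.mp h1)

/-- The reduction `ℤ_(ℓ) → k` for a field `k` of characteristic `ℓ`. -/
def towerRed (ℓ : ℕ) [Fact ℓ.Prime] (k : Type) [Field k] [CharP k ℓ] :
    GaloisRep.ratLocalizedAt ℓ →+* k where
  toFun x := ((x : ℚ) : k)
  map_one' := by simp
  map_zero' := by simp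
  map_mul' x y := by
    simpa using Rat.cast_mul_of_ne_zero (tower_den_ne_zero ℓ k x) (tower_den_ne_zero ℓ k y)
  map_add' x y := by
    simpa using Rat.cast_add_of_ne_zero (tower_den_ne_zero ℓ k x) (tower_den_ne_zero ℓ k y)

/-! ### The subring `ZJ` -/

theorem tower_Vq_Vq (A : Type) [CommRing A] {p d : ℕ} (hp : p ≠ 0) (hd : d ≠ 0)
    (x : LaurentSeries A) : Vq A p (Vq A d x) = Vq A (p * d) x := by
  have : NeZero p := ⟨hp⟩
  have : NeZero d := ⟨hd⟩
  rw [Vq_eq, Vq_eq, Vq_eq, qExpand_qExpand]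

theorem tower_Vq_mem_ZJ {p M : ℕ} (hp : p ≠ 0) (hM : 0 < M) {x : LaurentSeries ℤ}
    (hx : x ∈ ZJ M) : Vq ℤ p x ∈ ZJ (M * p) := by
  have h : ZJ M ≤ (ZJ (M * p)).comap (Vq ℤ p) := by
    rw [ZJ, Subring.closure_le]
    rintro _ ⟨d, hd, rfl⟩
    have hd0 : d ≠ 0 := fun h => hM.ne' (Nat.eq_zero_of_zero_dvd (h ▸ hd))
    refine Subring.subset_closure ⟨p * d, ?_, ?_⟩
    · rw [mul_comm M p]
      exact Nat.mul_dvd_mul_left p hd
    · rw [jd, jd, tower_Vq_Vq ℤ hp hd0]
  exact h hx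

theorem tower_jq_mem_ZJ (M : ℕ) : jqModC ℤ ∈ ZJ M := by
  refine Subring.subset_closure ⟨1, one_dvd M, ?_⟩
  rw [jd, Vq_eq, qExpand_one_apply]

theorem tower_nextFam_mem_ZJ {p M : ℕ} (hp : p ≠ 0) (hM : 0 < M) {ι : Type}
    {b : ι → LaurentSeries ℤ} (hb : ∀ i, b i ∈ ZJ M) (x : Fin (stepDeg p M) × ι) :
    nextFam p M b x ∈ ZJ (M * p) :=
  Subring.mul_mem _ (Subring.pow_mem _ (tower_jq_mem_ZJ _) _) (tower_Vq_mem_ZJ hp hM (hb x.2))

theorem tower_cZ_mem_Kf (k : Type) [Field k] {M : ℕ} (hM : 0 < M) {x : LaurentSeries ℤ}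
    (hx : x ∈ ZJ M) : cZ k x ∈ Kf k M := by
  have h : ZJ M ≤ (Kf k M).toSubfield.toSubring.comap (cZ k) := by
    rw [ZJ, Subring.closure_le]
    rintro _ ⟨d, hd, rfl⟩
    have hd0 : d ≠ 0 := fun h => hM.ne' (Nat.eq_zero_of_zero_dvd (h ▸ hd))
    have : NeZero d := ⟨hd0⟩
    show cZ k (jd ℤ d) ∈ Kf k M
    rw [tower_coeffMap_jd, jd, Vq_eq]
    exact jqModCd_mem_full k M hd
  exact h hx

/-! ### The tower -/

theorem tower_base (ℓ : ℕ) [Fact ℓ.Prime] : TowerData ℓ 1 := by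
  refine ⟨Unit, inferInstance, fun _ => 1, fun _ => Subring.one_mem _, ?_, ?_⟩
  · intro x hx
    have hle : Kf ℚ 1 ≤ Ej ℚ 1 := by
      rw [Kf, modularFunctionFieldFullC, IntermediateField.adjoin_le_iff]
      rintro _ ⟨d, hd, hd1, rfl⟩
      obtain rfl : d = 1 := Nat.dvd_one.mp hd1
      refine IntermediateField.subset_adjoin _ _ ?_
      rw [Set.mem_singleton_iff, jd, Vq_eq]
    have h1 : (1 : LaurentSeries ℚ) ∈
        Submodule.span (Ej ℚ 1) (Set.range fun _ : Unit => cZ ℚ (1 : LaurentSeries ℤ)) :=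
      Submodule.subset_span ⟨(), map_one _⟩
    have h2 := Submodule.smul_mem _ (⟨x, hle hx⟩ : Ej ℚ 1) h1
    have h3 : (⟨x, hle hx⟩ : Ej ℚ 1) • (1 : LaurentSeries ℚ) = x := by
      rw [IntermediateField.smul_def, smul_eq_mul, mul_one]
    rwa [h3] at h2
  · rw [linearIndependent_unique_iff]
    simp

theorem wptower : WPtower := by
  intro wp7 wp8 ℓ _ N
  induction N using induction_on_primes with
  | zero => intro h; exact absurd h (lt_irrefl 0)
  | one => intro _ _ _; exact tower_base ℓ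
  | prime_mul p M hp ih =>
    intro hN hℓ hpoly
    rw [mul_comm p M] at hN hℓ hpoly ⊢
    have hM : 0 < M := Nat.pos_of_mul_pos_right hN
    obtain ⟨ι, hι, b, hb1, hb2, hb3⟩ := ih hM (fun h => hℓ (h.mul_right p))
      (fun r hr hrM => hpoly r hr (hrM.mul_right p))
    have hpoly' : ∀ r : ℕ, r.Prime → r ∣ p * M → HasModPoly r (GaloisRep.ratLocalizedAt ℓ) ∧
        HasUnitPoly r (GaloisRep.ratLocalizedAt ℓ) := by
      intro r hr hrN
      exact hpoly r hr (by rwa [mul_comm M p])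
    refine ⟨Fin (stepDeg p M) × ι, inferInstance, nextFam p M b,
      tower_nextFam_mem_ZJ hp.ne_zero hM hb1, ?_, ?_⟩
    · have h := wp8 p M hp hM
        (fun r hr hrN => tower_hasModPoly_map (GaloisRep.ratLocalizedAt ℓ).subtype
          (hpoly' r hr hrN).1) ι (fun i => cZ ℚ (b i)) hb2
      have he : (fun x => cZ ℚ (nextFam p M b x)) = nextFam p M (fun i => cZ ℚ (b i)) :=
        funext fun x => tower_coeffMap_nextFam _ p M b x
      rw [he]
      exact h
    · have hne : ((p * M : ℕ) : AlgebraicClosure (ZMod ℓ)) ≠ 0 := by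
        rw [Ne, CharP.cast_eq_zero_iff (AlgebraicClosure (ZMod ℓ)) ℓ, mul_comm p M]
        exact hℓ
      have h := wp7 (AlgebraicClosure (ZMod ℓ)) p M hp hM hne
        (fun r hr hrN => tower_hasModPoly_map (towerRed ℓ (AlgebraicClosure (ZMod ℓ)))
          (hpoly' r hr hrN).1)
        (tower_hasUnitPoly_map (towerRed ℓ (AlgebraicClosure (ZMod ℓ)))
          (hpoly' p hp (Nat.dvd_mul_right p M)).2)
        ι (fun i => cZ (AlgebraicClosure (ZMod ℓ)) (b i))
        (fun i => tower_cZ_mem_Kf _ hM (hb1 i)) hb3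
      have he : (fun x => cZ (AlgebraicClosure (ZMod ℓ)) (nextFam p M b x)) =
          nextFam p M (fun i => cZ (AlgebraicClosure (ZMod ℓ)) (b i)) :=
        funext fun x => tower_coeffMap_nextFam _ p M b x
      rw [he]
      exact h

end Fermat.Agent.S28
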