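/-
S28, work package WP8: the upper bound step of the tower in characteristic zero.
-/
import Fermat.Agent.S28.Interface

set_option autoImplicit false

noncomputable section

namespace Fermat.Agent.S28.Upper

open ModularCurve Polynomial

/-! ### Small toolkit for `Vq`, `evY`, `ev2` -/

section Toolkit

variable {A : Type} [CommRing A]

theorem Vq_one (x : LaurentSeries A) : Vq A 1 x = x := by
  rw [Vq_eq]; exact qExpand_one_apply x

theorem Vq_Vq {m n : ℕ} (hm : 0 < m) (hn : 0 < n) (x : LaurentSeries A) :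
    Vq A m (Vq A n x) = Vq A (m * n) x := by
  have : NeZero m := ⟨hm.ne'⟩
  have : NeZero n := ⟨hn.ne'⟩
  have : NeZero (m * n) := ⟨(Nat.mul_pos hm hn).ne'⟩
  rw [Vq_eq, Vq_eq, Vq_eq, qExpand_qExpand]

theorem Vq_C (d : ℕ) (a : A) : Vq A d (HahnSeries.C a) = HahnSeries.C a := by
  by_cases h : d = 0
  · rw [Vq, dif_pos h]; rfl
  · have : NeZero d := ⟨h⟩
    rw [Vq_eq, qExpand_C]

theorem coeff_Vq_mul {d : ℕ} (hd : 0 < d) (x : LaurentSeries A) (m : ℤ) :
    (Vq A d x).coeff ((d : ℤ) * m) = x.coeff m := by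
  have : NeZero d := ⟨hd.ne'⟩
  rw [Vq_eq, qExpand_coeff_mul]

theorem coeff_Vq_of_not_dvd {d : ℕ} (hd : 0 < d) (x : LaurentSeries A) {m : ℤ}
    (h : ¬ (d : ℤ) ∣ m) : (Vq A d x).coeff m = 0 := by
  have : NeZero d := ⟨hd.ne'⟩
  rw [Vq_eq, qExpand_coeff_of_not_dvd d x h]

theorem coeffMap_Vq {B : Type} [CommRing B] (f : A →+* B) (d : ℕ) (x : LaurentSeries A) :
    coeffMap f (Vq A d x) = Vq B d (coeffMap f x) := by
  by_cases h : d = 0
  · rw [Vq, Vq, dif_pos h, dif_pos h]; rfl
  · have : NeZero d := ⟨h⟩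
    rw [Vq_eq, Vq_eq, coeffMap_qExpand]

theorem coeffMap_C {B : Type} [CommRing B] (f : A →+* B) (a : A) :
    coeffMap f (HahnSeries.C a) = HahnSeries.C (f a) := by
  rw [HahnSeries.C_apply, HahnSeries.C_apply, coeffMap_single]

theorem coeffMap_jd {B : Type} [CommRing B] (f : A →+* B) (d : ℕ) :
    coeffMap f (jd A d) = jd B d := by
  rw [jd, jd, coeffMap_Vq, coeffMap_jqModC]

theorem comp_evY {B : Type} [CommRing B] (ι : A →+* B)
    (e : LaurentSeries A →+* LaurentSeries B)
    (he : ∀ a, e (HahnSeries.C a) = HahnSeries.C (ι a)) (y : LaurentSeries A) :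
    e.comp (evY y) = (evY (e y)).comp (Polynomial.mapRingHom ι) := by
  apply Polynomial.ringHom_ext
  · intro a
    simpa [evY] using he a
  · simp [evY]

theorem map_ev2 {B : Type} [CommRing B] (ι : A →+* B)
    (e : LaurentSeries A →+* LaurentSeries B)
    (he : ∀ a, e (HahnSeries.C a) = HahnSeries.C (ι a)) (P : A[X][X]) (x y : LaurentSeries A) :
    e (ev2 P x y) = ev2 (P.map (Polynomial.mapRingHom ι)) (e x) (e y) := by
  rw [ev2, ev2, Polynomial.hom_eval₂, Polynomial.eval₂_map, comp_evY ι e he]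

theorem map_ev2_id (e : LaurentSeries A →+* LaurentSeries A)
    (he : ∀ a, e (HahnSeries.C a) = HahnSeries.C a) (P : A[X][X]) (x y : LaurentSeries A) :
    e (ev2 P x y) = ev2 P (e x) (e y) := by
  have := map_ev2 (RingHom.id A) e he P x y
  rwa [Polynomial.mapRingHom_id, Polynomial.map_id] at this

theorem isModPoly_map {B : Type} [CommRing B] [Nontrivial B] (ι : A →+* B) {p : ℕ}
    {Φ : A[X][X]} (h : IsModPoly p Φ) : IsModPoly p (Φ.map (Polynomial.mapRingHom ι)) := by
  obtain ⟨h1, h2, h3, h4⟩ := h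
  refine ⟨h1.map _, by rw [h1.natDegree_map, h2], ?_, ?_⟩
  · have := map_ev2 ι (coeffMap ι) (coeffMap_C ι) Φ (jd A p) (jqModC A)
    rw [h3, map_zero, coeffMap_jd, coeffMap_jqModC] at this
    exact this.symm
  · have := map_ev2 ι (coeffMap ι) (coeffMap_C ι) Φ (jqModC A) (jd A p)
    rw [h4, map_zero, coeffMap_jd, coeffMap_jqModC] at this
    exact this.symm

end Toolkit

/-! ### The substitution `q ↦ c q` -/

section Scale

variable {k : Type} [Field k]

/-- `q ↦ c q` on Laurent series, as a function. -/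
def scaleFun (c : k) (x : LaurentSeries k) : LaurentSeries k where
  coeff n := c ^ n * x.coeff n
  isPWO_support' := x.isPWO_support.mono (fun _ hn => right_ne_zero_of_mul hn)

theorem scaleFun_coeff (c : k) (x : LaurentSeries k) (n : ℤ) :
    (scaleFun c x).coeff n = c ^ n * x.coeff n := rfl

theorem scaleFun_mul {c : k} (hc : c ≠ 0) (x y : LaurentSeries k) :
    scaleFun c (x * y) = scaleFun c x * scaleFun c y := by
  ext n
  rw [scaleFun_coeff, HahnSeries.coeff_mul, HahnSeries.coeff_mul, Finset.mul_sum]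
  have hsupp : ∀ z : LaurentSeries k, ∀ m : ℤ, m ∈ (scaleFun c z).support ↔ m ∈ z.support := by
    intro z m
    simp only [HahnSeries.mem_support, scaleFun_coeff, ne_eq, mul_eq_zero, not_or]
    exact ⟨fun h => h.2, fun h => ⟨zpow_ne_zero _ hc, h⟩⟩
  refine Finset.sum_congr ?_ ?_
  · ext ij
    simp only [Finset.mem_antidiagonal, hsupp]
  · intro ij hij
    rw [Finset.mem_antidiagonal] at hij
    rw [scaleFun_coeff, scaleFun_coeff, ← hij.2.2, zpow_add₀ hc]
    ring

/-- `q ↦ c q` on Laurent series, as a ring homomorphism (`c ≠ 0`). -/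
def scaleHom (c : k) (hc : c ≠ 0) : LaurentSeries k →+* LaurentSeries k where
  toFun := scaleFun c
  map_one' := by
    ext n
    rw [scaleFun_coeff, HahnSeries.coeff_one]
    split_ifs with h
    · subst h; simp
    · simp
  map_mul' := scaleFun_mul hc
  map_zero' := by
    ext n
    rw [scaleFun_coeff]; simp
  map_add' x y := by
    ext n
    rw [scaleFun_coeff, HahnSeries.coeff_add, HahnSeries.coeff_add, scaleFun_coeff,
      scaleFun_coeff, mul_add]

open Classical in
/-- total version. -/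
def scale (c : k) : LaurentSeries k →+* LaurentSeries k :=
  if hc : c = 0 then RingHom.id _ else scaleHom c hc

theorem isScale_scale (c : k) (hc : c ≠ 0) : IsScale c (scale c) := by
  intro x n
  rw [scale, dif_neg hc]
  rfl

theorem scale_one (x : LaurentSeries k) : scale (1 : k) x = x := by
  ext n
  rw [isScale_scale 1 one_ne_zero x n, one_zpow, one_mul]

theorem coeff_Vq_scale_top {n : ℕ} (hn : 0 < n) {c : k} (hc : c ≠ 0) :
    (Vq k n (scale c (jqModC k))).coeff (-(n : ℤ)) ≠ 0 := by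
  have h : (-(n : ℤ)) = (n : ℤ) * (-1) := by ring
  rw [h, coeff_Vq_mul hn, isScale_scale c hc, coeff_jqModC_neg_one, mul_one]
  exact zpow_ne_zero _ hc

theorem coeff_Vq_scale_low {n : ℕ} (hn : 0 < n) {c : k} (hc : c ≠ 0) {m : ℤ}
    (hm : m < -(n : ℤ)) : (Vq k n (scale c (jqModC k))).coeff m = 0 := by
  by_cases hd : (n : ℤ) ∣ m
  · obtain ⟨m', rfl⟩ := hd
    rw [coeff_Vq_mul hn, isScale_scale c hc, coeff_jqModC_of_lt, mul_zero]
    have hn' : (0 : ℤ) < n := by exact_mod_cast hn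
    nlinarith
  · exact coeff_Vq_of_not_dvd hn _ hd

end Scale

/-! ### An abstract criterion -/

theorem mem_range_of_unique_common_root {L B Ω : Type*} [Field L] [Field B] [Field Ω]
    [Algebra L B] [CharZero L] (x : B) (f g : L[X]) (hf0 : f ≠ 0) (hfx : aeval x f = 0)
    (hgx : aeval x g = 0) (e : B →+* Ω)
    (hs : (f.map (e.comp (algebraMap L B))).Splits)
    (huniq : ∀ a : Ω, (f.map (e.comp (algebraMap L B))).eval a = 0 →
      (g.map (e.comp (algebraMap L B))).eval a = 0 → a = e x) :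
    x ∈ (algebraMap L B).range := by
  have hint : IsIntegral L x := IsAlgebraic.isIntegral ⟨f, hf0, hfx⟩
  have hμf : minpoly L x ∣ f := minpoly.dvd L x hfx
  have hμg : minpoly L x ∣ g := minpoly.dvd L x hgx
  set μ := minpoly L x with hμ
  set i := e.comp (algebraMap L B) with hi
  have hsμ : (μ.map i).Splits :=
    hs.of_dvd ((Polynomial.map_ne_zero_iff i.injective).mpr hf0) (Polynomial.map_dvd i hμf)
  have hsep : (μ.map i).Separable := (minpoly.irreducible hint).separable.map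
  have hroots : ∀ a ∈ (μ.map i).roots, a = e x := by
    intro a ha
    have ha' : (μ.map i).eval a = 0 := (Polynomial.mem_roots'.mp ha).2
    apply huniq a
    · obtain ⟨q, hq⟩ := Polynomial.map_dvd i hμf
      rw [hq, eval_mul, ha', zero_mul]
    · obtain ⟨q, hq⟩ := Polynomial.map_dvd i hμg
      rw [hq, eval_mul, ha', zero_mul]
  have hcard : (μ.map i).roots.card ≤ 1 := by
    have hnd := Polynomial.nodup_roots hsep
    have : (μ.map i).roots ≤ {e x} := by
      rw [Multiset.le_iff_subset hnd]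
      intro a ha
      rw [Multiset.mem_singleton]
      exact hroots a ha
    simpa using Multiset.card_le_card this
  have hdeg : μ.natDegree = 1 := by
    have h1 : μ.natDegree ≤ 1 := by
      rw [← Polynomial.natDegree_map i, hsμ.natDegree_eq_card_roots]
      exact hcard
    have h2 : 0 < μ.natDegree := minpoly.natDegree_pos hint
    omega
  exact (minpoly.natDegree_eq_one_iff).mp hdeg

/-! ### Polynomials over an intermediate field -/

local notation "LS" => LaurentSeries ℚ

/-- `evY` with values in an intermediate field containing `y`. -/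
def evYK (K : IntermediateField ℚ LS) (y : K) : ℚ[X] →+* K :=
  Polynomial.eval₂RingHom (algebraMap ℚ K) y

theorem algebraMap_comp_evYK (K : IntermediateField ℚ LS) (y : K) :
    (algebraMap K LS).comp (evYK K y) = evY (y : LS) := by
  apply Polynomial.ringHom_ext
  · intro a
    simp only [evYK, evY, RingHom.comp_apply, Polynomial.coe_eval₂RingHom, Polynomial.eval₂_C]
    exact RingHom.congr_fun
      (RingHom.ext_rat ((algebraMap K LS).comp (algebraMap ℚ K)) HahnSeries.C) a
  · simp only [evYK, evY, RingHom.comp_apply, Polynomial.coe_eval₂RingHom, Polynomial.eval₂_X]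
    rfl

theorem aeval_map_evYK (K : IntermediateField ℚ LS) (y : K) (Φ : ℚ[X][X]) (x : LS) :
    aeval x (Φ.map (evYK K y)) = ev2 Φ x (y : LS) := by
  rw [Polynomial.aeval_def, Polynomial.eval₂_map, algebraMap_comp_evYK, ev2]

theorem map_map_evYK {B : Type} [CommRing B] (ι : ℚ →+* B) (e : LS →+* LaurentSeries B)
    (he : ∀ a, e (HahnSeries.C a) = HahnSeries.C (ι a))
    (K : IntermediateField ℚ LS) (y : K) (Φ : ℚ[X][X]) :
    (Φ.map (evYK K y)).map (e.comp (algebraMap K LS)) =
      (Φ.map (Polynomial.mapRingHom ι)).map (evY (e (y : LS))) := by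
  rw [Polynomial.map_map, Polynomial.map_map, RingHom.comp_assoc, algebraMap_comp_evYK,
    comp_evY ι e he]

/-! ### Generation -/

theorem jd_mem_of_common (hWP5 : WP5) (K : IntermediateField ℚ LS) {p r d' : ℕ}
    (hp : p.Prime) (hr : r.Prime) (hd' : 0 < d')
    {Φr : ℚ[X][X]} (hΦr : IsModPoly r Φr) {Φp : ℚ[X][X]} (hΦp : IsModPoly p Φp)
    (h1 : jd ℚ d' ∈ K) (h2 : jd ℚ (p * (r * d')) ∈ K) : jd ℚ (r * d') ∈ K := by
  have hp0 : 0 < p := hp.pos
  have hr0 : 0 < r := hr.pos
  set ι : ℚ →+* ℂ := algebraMap ℚ ℂ with hι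
  set e : LS →+* LaurentSeries ℂ := (Vq ℂ (p * r)).comp (coeffMap ι) with he_def
  have he : ∀ a, e (HahnSeries.C a) = HahnSeries.C (ι a) := by
    intro a
    rw [he_def, RingHom.comp_apply, coeffMap_C, Vq_C]
  have hejd : ∀ n : ℕ, 0 < n → e (jd ℚ n) = Vq ℂ (p * r * n) (jqModC ℂ) := by
    intro n hn
    rw [he_def, RingHom.comp_apply, coeffMap_jd, jd, Vq_Vq (Nat.mul_pos hp0 hr0) hn]
  -- the two polynomials
  set f : K[X] := Φr.map (evYK K ⟨jd ℚ d', h1⟩) with hf
  set g : K[X] := Φp.map (evYK K ⟨jd ℚ (p * (r * d')), h2⟩) with hg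
  have hf0 : f ≠ 0 := (hΦr.1.map _).ne_zero
  have hfx : aeval (jd ℚ (r * d')) f = 0 := by
    rw [hf, aeval_map_evYK]
    have := map_ev2_id (Vq ℚ d') (Vq_C d') Φr (jd ℚ r) (jqModC ℚ)
    rw [hΦr.2.2.1, map_zero, jd, Vq_Vq hd' hr0, mul_comm d' r] at this
    exact this.symm
  have hgx : aeval (jd ℚ (r * d')) g = 0 := by
    rw [hg, aeval_map_evYK]
    have := map_ev2_id (Vq ℚ (r * d')) (Vq_C (r * d')) Φp (jqModC ℚ) (jd ℚ p)
    rw [hΦp.2.2.2, map_zero, jd, Vq_Vq (Nat.mul_pos hr0 hd') hp0, mul_comm (r * d') p] at this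
    exact this.symm
  -- the factorisations
  have hfac1 := hWP5 ℂ r hr (Nat.cast_ne_zero.mpr hr.ne_zero) _ (isModPoly_map ι hΦr)
    scale isScale_scale 1 one_ne_zero (p * d') (Nat.mul_pos hp0 hd')
  have hfac2 := hWP5 ℂ p hp (Nat.cast_ne_zero.mpr hp.ne_zero) _ (isModPoly_map ι hΦp)
    scale isScale_scale 1 one_ne_zero (p * r * (r * d'))
    (Nat.mul_pos (Nat.mul_pos hp0 hr0) (Nat.mul_pos hr0 hd'))
  have hfmapL : f.map (e.comp (algebraMap K LS)) =
      map (evY ((Vq ℂ (r * (p * d'))) ((scale (1 ^ r)) (jqModC ℂ)))) (map (mapRingHom ι) Φr) := by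
    rw [hf, map_map_evYK ι e he]
    show Polynomial.map (evY (e (jd ℚ d'))) _ = _
    rw [hejd d' hd', show p * r * d' = r * (p * d') by ring, one_pow, scale_one]
  have hgmapL : g.map (e.comp (algebraMap K LS)) =
      map (evY ((Vq ℂ (p * (p * r * (r * d')))) ((scale (1 ^ p)) (jqModC ℂ))))
        (map (mapRingHom ι) Φp) := by
    rw [hg, map_map_evYK ι e he]
    show Polynomial.map (evY (e (jd ℚ (p * (r * d'))))) _ = _
    rw [hejd _ (Nat.mul_pos hp0 (Nat.mul_pos hr0 hd')),
      show p * r * (p * (r * d')) = p * (p * r * (r * d')) by ring, one_pow, scale_one]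
  have hfmap := hfmapL.trans hfac1
  have hgmap := hgmapL.trans hfac2
  have hmem := mem_range_of_unique_common_root (jd ℚ (r * d')) f g hf0 hfx hgx e ?_ ?_
  · obtain ⟨y, hy⟩ := hmem
    rw [← hy]
    exact y.2
  · rw [hfmap]
    exact (Splits.X_sub_C _).mul (Splits.prod fun ζ _ => Splits.X_sub_C _)
  · intro a ha1 ha2
    rw [hfmap] at ha1
    rw [hgmap] at ha2
    rw [eval_mul, eval_prod, mul_eq_zero, Finset.prod_eq_zero_iff] at ha1 ha2
    rcases ha1 with ha1 | ⟨ζ, hζ, ha1⟩
    · rw [eval_sub, eval_X, eval_C, sub_eq_zero] at ha1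
      rw [ha1, hejd _ (Nat.mul_pos hr0 hd'), one_pow, scale_one]
      congr 2
      ring
    · exfalso
      rw [eval_sub, eval_X, eval_C, sub_eq_zero] at ha1
      have hζ0 : ζ * 1 ≠ 0 := by
        rw [mul_one]
        rintro rfl
        rw [Polynomial.mem_nthRootsFinset hr0] at hζ
        rw [zero_pow hr.ne_zero] at hζ
        exact zero_ne_one hζ
      have hlow : ∀ m : ℤ, m < -((p * d' : ℕ) : ℤ) → a.coeff m = 0 := by
        intro m hm
        rw [ha1]
        exact coeff_Vq_scale_low (Nat.mul_pos hp0 hd') hζ0 hm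
      have hr2 : 2 ≤ r := hr.two_le
      have hp2 : 2 ≤ p := hp.two_le
      rcases ha2 with ha2 | ⟨ξ, hξ, ha2⟩
      · rw [eval_sub, eval_X, eval_C, sub_eq_zero] at ha2
        have hpos : 0 < p ^ 2 * (p * r * (r * d')) := by positivity
        have htop := coeff_Vq_scale_top (k := ℂ) hpos (c := 1 ^ p ^ 2) (by simp)
        rw [← ha2] at htop
        apply htop
        apply hlow
        have : p * d' < p ^ 2 * (p * r * (r * d')) := by
          have h1 : 1 < p ^ 2 * r * r := by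
            have h4 : 2 * 2 ≤ r * r := Nat.mul_le_mul hr2 hr2
            have h3 : 1 ≤ p ^ 2 := Nat.one_le_pow _ _ hp0
            calc 1 < 1 * (2 * 2) := by norm_num
              _ ≤ p ^ 2 * (r * r) := Nat.mul_le_mul h3 h4
              _ = p ^ 2 * r * r := by ring
          calc p * d' = 1 * (p * d') := by ring
            _ < (p ^ 2 * r * r) * (p * d') := by
                exact Nat.mul_lt_mul_of_pos_right h1 (Nat.mul_pos hp0 hd')
            _ = p ^ 2 * (p * r * (r * d')) := by ring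
        omega
      · rw [eval_sub, eval_X, eval_C, sub_eq_zero] at ha2
        have hξ0 : ξ * 1 ≠ 0 := by
          rw [mul_one]
          rintro rfl
          rw [Polynomial.mem_nthRootsFinset hp0] at hξ
          rw [zero_pow hp.ne_zero] at hξ
          exact zero_ne_one hξ
        have hpos : 0 < p * r * (r * d') := by positivity
        have htop := coeff_Vq_scale_top (k := ℂ) hpos hξ0
        rw [← ha2] at htop
        apply htop
        apply hlow
        have : p * d' < p * r * (r * d') := by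
          have h1 : 1 < r * r := by nlinarith
          calc p * d' = 1 * (p * d') := by ring
            _ < (r * r) * (p * d') := by
                exact Nat.mul_lt_mul_of_pos_right h1 (Nat.mul_pos hp0 hd')
            _ = p * r * (r * d') := by ring
        omega

/-! ### Bookkeeping -/

/-- `V_p` as a `ℚ`-algebra homomorphism. -/
def VAlg (p : ℕ) : LS →ₐ[ℚ] LS := (Vq ℚ p).toRatAlgHom

theorem VAlg_apply (p : ℕ) (x : LS) : VAlg p x = Vq ℚ p x := rfl

theorem jd_mem_Kf {M d : ℕ} (hd : 0 < d) (h : d ∣ M) : jd ℚ d ∈ Kf ℚ M := by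
  have : NeZero d := ⟨hd.ne'⟩
  rw [jd, Vq_eq]
  exact jqModCd_mem_full ℚ M h

theorem Vq_mem_Ej {p M : ℕ} (hp : 0 < p) (hM : 0 < M) {a : LS} (ha : a ∈ Ej ℚ M) :
    Vq ℚ p a ∈ Ej ℚ (M * p) := by
  have h : (Ej ℚ M).map (VAlg p) ≤ Ej ℚ (M * p) := by
    rw [Ej, IntermediateField.adjoin_map, Set.image_singleton, Ej, VAlg_apply, jd, Vq_Vq hp hM,
      mul_comm p M, jd]
  exact h ⟨a, ha, rfl⟩

theorem Vq_mem_span {p M : ℕ} (hp : 0 < p) (hM : 0 < M) {ι : Type} (b : ι → LS) {x : LS}
    (hx : x ∈ Submodule.span (Ej ℚ M) (Set.range b)) :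
    Vq ℚ p x ∈ Submodule.span (Ej ℚ (M * p)) (Set.range fun i => Vq ℚ p (b i)) := by
  induction hx using Submodule.span_induction with
  | mem x hx =>
    obtain ⟨i, rfl⟩ := hx
    exact Submodule.subset_span ⟨i, rfl⟩
  | zero => simp
  | add x y _ _ hx hy =>
    rw [map_add]
    exact add_mem hx hy
  | smul a x _ hx =>
    rw [show a • x = (a : LS) * x from rfl, map_mul]
    exact Submodule.smul_mem _ (⟨Vq ℚ p a, Vq_mem_Ej hp hM a.2⟩ : Ej ℚ (M * p)) hx

theorem pow_mul_mem_span {p M : ℕ} {ι : Type} (b : ι → LS) {i : ℕ} (hi : i < stepDeg p M)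
    {z : LS} (hz : z ∈ Submodule.span (Ej ℚ (M * p)) (Set.range fun i => Vq ℚ p (b i))) :
    jqModC ℚ ^ i * z ∈ Submodule.span (Ej ℚ (M * p)) (Set.range (nextFam p M b)) := by
  induction hz using Submodule.span_induction with
  | mem x hx =>
    obtain ⟨t, rfl⟩ := hx
    exact Submodule.subset_span ⟨(⟨i, hi⟩, t), rfl⟩
  | zero => simp
  | add x y _ _ hx hy =>
    rw [mul_add]
    exact add_mem hx hy
  | smul a x _ hx =>
    rw [mul_smul_comm]
    exact Submodule.smul_mem _ a hx

theorem jqModC_ne_jd {n : ℕ} (hn : 1 < n) : jqModC ℚ ≠ jd ℚ n := by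
  intro h
  have h1 : (jqModC ℚ).coeff (-1) = 1 := coeff_jqModC_neg_one ℚ
  rw [h, jd, coeff_Vq_of_not_dvd (by omega)] at h1
  · exact zero_ne_one h1
  · intro hd
    have := Int.eq_one_of_dvd_one (by positivity) ((dvd_neg).mp hd)
    omega

theorem exists_monic {p M : ℕ} (hp : p.Prime) {Φp : ℚ[X][X]} (hΦp : IsModPoly p Φp) :
    ∃ Q : ((Kf ℚ M).map (VAlg p))[X], Q.Monic ∧ Q.natDegree = stepDeg p M ∧
      aeval (jqModC ℚ) Q = 0 := by
  set F' := (Kf ℚ M).map (VAlg p) with hF'
  have hjp : jd ℚ p ∈ F' := ⟨jqModC ℚ, jqModC_mem_full ℚ M, rfl⟩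
  set Q₀ : F'[X] := Φp.map (evYK F' ⟨jd ℚ p, hjp⟩) with hQ₀
  have hQ₀m : Q₀.Monic := hΦp.1.map _
  have hQ₀d : Q₀.natDegree = p + 1 := by rw [hQ₀, hΦp.1.natDegree_map, hΦp.2.1]
  have hQ₀j : aeval (jqModC ℚ) Q₀ = 0 := by
    rw [hQ₀, aeval_map_evYK]
    exact hΦp.2.2.2
  by_cases hpM : p ∣ M
  · have ht : jd ℚ (p * p) ∈ F' :=
      ⟨jd ℚ p, jd_mem_Kf hp.pos hpM, by
        show Vq ℚ p (jd ℚ p) = _
        rw [jd, Vq_Vq hp.pos hp.pos, jd]⟩
    set t : F' := ⟨jd ℚ (p * p), ht⟩ with htdef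
    have hroot : Q₀.IsRoot t := by
      rw [Polynomial.IsRoot.def]
      apply (algebraMap F' LS).injective
      rw [map_zero, ← Polynomial.coe_aeval_eq_eval, ← Polynomial.aeval_algebraMap_apply, hQ₀,
        aeval_map_evYK]
      have := map_ev2_id (Vq ℚ p) (Vq_C p) Φp (jd ℚ p) (jqModC ℚ)
      rw [hΦp.2.2.1, map_zero] at this
      rw [jd, Vq_Vq hp.pos hp.pos] at this
      exact this.symm
    obtain ⟨Q, hQ⟩ := Polynomial.dvd_iff_isRoot.mpr hroot
    have hQm : Q.Monic := (Polynomial.monic_X_sub_C t).of_mul_monic_left (hQ ▸ hQ₀m)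
    refine ⟨Q, hQm, ?_, ?_⟩
    · have := (Polynomial.monic_X_sub_C t).natDegree_mul hQm
      rw [← hQ, hQ₀d, Polynomial.natDegree_X_sub_C] at this
      rw [stepDeg, if_pos hpM]
      omega
    · rw [hQ, map_mul, map_sub, aeval_X, aeval_C] at hQ₀j
      rcases mul_eq_zero.mp hQ₀j with h | h
      · exfalso
        have h2 : 1 < p * p := by nlinarith [hp.two_le]
        exact jqModC_ne_jd h2 (sub_eq_zero.mp h)
      · exact h
  · exact ⟨Q₀, hQ₀m, by rw [hQ₀d, stepDeg, if_neg hpM], hQ₀j⟩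

end Fermat.Agent.S28.Upper

namespace Fermat.Agent.S28

open ModularCurve Polynomial Upper

local notation "LS" => LaurentSeries ℚ

/-- WP8: the upper bound step in characteristic zero. -/
theorem wp8 : WP5 → WP8 := by
  intro hWP5 p M hp hM hΦ ι b hb x hx
  obtain ⟨Φp, hΦp⟩ := hΦ p hp (dvd_mul_right p M)
  set F' := (Kf ℚ M).map (VAlg p) with hF'
  set L : IntermediateField F' LS := IntermediateField.adjoin F' {jqModC ℚ} with hL
  have : @IsScalarTower ℚ F' LS Algebra.toSMul Algebra.toSMul Algebra.toSMul :=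
    IsScalarTower.of_algebraMap_eq' (RingHom.ext_rat _ _)
  set L₀ : IntermediateField ℚ LS := L.restrictScalars ℚ with hL₀
  have hF'L : ∀ a ∈ F', a ∈ L₀ := fun a ha => L.algebraMap_mem ⟨a, ha⟩
  have hjL : jqModC ℚ ∈ L₀ := IntermediateField.mem_adjoin_simple_self F' _
  have hVmem : ∀ d, 0 < d → d ∣ M → jd ℚ (p * d) ∈ L₀ := by
    intro d hd hdM
    refine hF'L _ ⟨jd ℚ d, jd_mem_Kf hd hdM, ?_⟩
    show Vq ℚ p (jd ℚ d) = _
    rw [jd, Vq_Vq hp.pos hd, jd]
  have hgen : ∀ d, 0 < d → d ∣ M → jd ℚ d ∈ L₀ := by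
    intro d
    induction d using Nat.strong_induction_on with
    | _ d ih =>
      intro hd hdM
      by_cases h1 : d = 1
      · subst h1
        rw [jd, Vq_one]
        exact hjL
      · obtain ⟨d', hd'⟩ := Nat.minFac_dvd d
        have hr : (d.minFac).Prime := Nat.minFac_prime h1
        set r := d.minFac with hrdef
        have hd'pos : 0 < d' := by
          rcases Nat.eq_zero_or_pos d' with h | h
          · rw [h, mul_zero] at hd'
            omega
          · exact h
        have hd'M : d' ∣ M := (Dvd.intro_left r hd'.symm).trans hdM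
        have hd'lt : d' < d := by
          rw [hd']
          exact lt_mul_of_one_lt_left hd'pos hr.one_lt
        have hrM : r ∣ p * M := ((Dvd.intro d' hd'.symm).trans hdM).mul_left p
        obtain ⟨Φr, hΦr⟩ := hΦ r hr hrM
        have h2 := hVmem d hd hdM
        rw [hd'] at h2 ⊢
        exact jd_mem_of_common hWP5 L₀ hp hr hd'pos hΦr hΦp (ih d' hd'lt hd'pos hd'M) h2
  have hle : Kf ℚ (M * p) ≤ L₀ := by
    rw [Kf, modularFunctionFieldFullC, IntermediateField.adjoin_le_iff]
    rintro y ⟨d, hne, hd, rfl⟩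
    have hd0 : 0 < d := Nat.pos_of_ne_zero hne.out
    have hy : qExpand ℚ d (jqModC ℚ) = jd ℚ d := by rw [jd, Vq_eq]
    rw [hy]
    by_cases hpd : p ∣ d
    · obtain ⟨d'', rfl⟩ := hpd
      have hd''0 : 0 < d'' := Nat.pos_of_mul_pos_left hd0
      refine hVmem d'' hd''0 ?_
      rw [mul_comm M p] at hd
      exact Nat.dvd_of_mul_dvd_mul_left hp.pos hd
    · have hcop : Nat.Coprime d p := ((Nat.Prime.coprime_iff_not_dvd hp).mpr hpd).symm
      exact hgen d hd0 (hcop.dvd_of_dvd_mul_right hd)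
  have hxL : x ∈ L := hle hx
  obtain ⟨Q, hQm, hQd, hQj⟩ := exists_monic (M := M) hp hΦp
  have hint : IsIntegral F' (jqModC ℚ) := ⟨Q, hQm, hQj⟩
  have hxA : x ∈ Algebra.adjoin F' {jqModC ℚ} := by
    rw [← IntermediateField.adjoin_simple_toSubalgebra_of_isAlgebraic hint.isAlgebraic]
    exact hxL
  rw [Algebra.adjoin_singleton_eq_range_aeval] at hxA
  obtain ⟨P, rfl⟩ := hxA
  have hdeg : (P %ₘ Q).natDegree < stepDeg p M := by
    rw [← hQd]
    apply Polynomial.natDegree_modByMonic_lt P hQm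
    intro h1
    rw [h1, Polynomial.natDegree_one] at hQd
    rw [stepDeg] at hQd
    have := hp.pos
    split_ifs at hQd <;> omega
  show aeval (jqModC ℚ) P ∈ _
  rw [← Polynomial.aeval_modByMonic_eq_self_of_root hQj, Polynomial.aeval_eq_sum_range' hdeg]
  refine Submodule.sum_mem _ fun i hi => ?_
  obtain ⟨y, hy, hyeq⟩ := ((P %ₘ Q).coeff i).2
  have h3 : (P %ₘ Q).coeff i • jqModC ℚ ^ i = jqModC ℚ ^ i * Vq ℚ p y := by
    rw [mul_comm]
    show (((P %ₘ Q).coeff i : F') : LS) * _ = _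
    rw [← hyeq]
    rfl
  rw [h3]
  exact pow_mul_mem_span b (Finset.mem_range.mp hi) (Vq_mem_span hp.pos hM b (hb y hy))

end Fermat.Agent.S28
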