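/-
S28: functoriality of the interface notions (`Vq`, `jd`, `DeltaS`, `uInf`, `uZero`, `ev2`,
`IsModPoly`, `IsUnitPoly`) under change of coefficients `coeffMap f` and under `Vq`.
-/
import Fermat.Agent.S28.Interface

set_option autoImplicit false

noncomputable section

namespace Fermat.Agent.S28.BC

open ModularCurve Polynomial Fermat.Agent.S28

variable {A B : Type} [CommRing A] [CommRing B]

theorem coeffMap_Vq (f : A →+* B) (d : ℕ) (x : LaurentSeries A) :
    coeffMap f (Vq A d x) = Vq B d (coeffMap f x) := by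
  by_cases h : d = 0
  · simp [Vq, h]
  · have : NeZero d := ⟨h⟩
    rw [Vq_eq, Vq_eq, coeffMap_qExpand]

theorem coeffMap_jd (f : A →+* B) (d : ℕ) : coeffMap f (jd A d) = jd B d := by
  rw [jd, coeffMap_Vq, coeffMap_jqModC, jd]

theorem map_map_intCast (f : A →+* B) (u : PowerSeries ℤ) :
    (u.map (Int.castRingHom A)).map f = u.map (Int.castRingHom B) := by
  ext n
  simp

theorem coeffMap_DeltaS (f : A →+* B) : coeffMap f (DeltaS A) = DeltaS B := by
  rw [DeltaS, map_mul, coeffMap_single, map_one, coeffMap_ofPowerSeries, map_map_intCast, DeltaS]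

theorem coeffMap_DeltaInvS (f : A →+* B) : coeffMap f (DeltaInvS A) = DeltaInvS B := by
  rw [DeltaInvS, map_mul, coeffMap_single, map_one, coeffMap_ofPowerSeries, map_map_intCast,
    DeltaInvS]

theorem coeffMap_uInf (f : A →+* B) (p : ℕ) : coeffMap f (uInf A p) = uInf B p := by
  rw [uInf, map_mul, map_mul, map_pow, map_natCast, coeffMap_Vq, coeffMap_DeltaS,
    coeffMap_DeltaInvS, uInf]

theorem coeffMap_uZero (f : A →+* B) (p : ℕ) : coeffMap f (uZero A p) = uZero B p := by
  rw [uZero, map_mul, coeffMap_Vq, coeffMap_DeltaS, coeffMap_DeltaInvS, uZero]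

theorem coeffMap_C (f : A →+* B) (a : A) :
    coeffMap f (HahnSeries.C a) = HahnSeries.C (f a) := by
  rw [HahnSeries.C_apply, coeffMap_single, HahnSeries.C_apply]

theorem coeffMap_comp_evY (f : A →+* B) (y : LaurentSeries A) :
    (coeffMap f).comp (evY y) = (evY (coeffMap f y)).comp (Polynomial.mapRingHom f) := by
  apply Polynomial.ringHom_ext
  · intro a
    simp [evY]
  · simp [evY]

theorem coeffMap_ev2 (f : A →+* B) (P : A[X][X]) (x y : LaurentSeries A) :
    coeffMap f (ev2 P x y) =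
      ev2 (P.map (Polynomial.mapRingHom f)) (coeffMap f x) (coeffMap f y) := by
  rw [ev2, ev2, Polynomial.hom_eval₂, Polynomial.eval₂_map, coeffMap_comp_evY]

theorem Vq_C (d : ℕ) (a : A) : Vq A d (HahnSeries.C a) = HahnSeries.C a := by
  by_cases h : d = 0
  · simp [Vq, h]
  · have : NeZero d := ⟨h⟩
    rw [Vq_eq, qExpand_C]

theorem Vq_comp_evY (d : ℕ) (y : LaurentSeries A) :
    (Vq A d).comp (evY y) = evY (Vq A d y) := by
  apply Polynomial.ringHom_ext
  · intro a
    have := Vq_C d a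
    rw [HahnSeries.C_apply] at this
    simp [evY, this]
  · simp [evY]

theorem Vq_ev2 (d : ℕ) (P : A[X][X]) (x y : LaurentSeries A) :
    Vq A d (ev2 P x y) = ev2 P (Vq A d x) (Vq A d y) := by
  rw [ev2, ev2, Polynomial.hom_eval₂, Vq_comp_evY]

theorem Vq_Vq (d e : ℕ) (hd : d ≠ 0) (he : e ≠ 0) (x : LaurentSeries A) :
    Vq A d (Vq A e x) = Vq A (d * e) x := by
  have : NeZero d := ⟨hd⟩
  have : NeZero e := ⟨he⟩
  have : NeZero (d * e) := ⟨Nat.mul_ne_zero hd he⟩
  rw [Vq_eq, Vq_eq, Vq_eq, qExpand_qExpand]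

theorem Vq_injective (d : ℕ) : Function.Injective (Vq A d) := by
  by_cases h : d = 0
  · simp only [Vq, h, dif_pos]
    exact fun _ _ h => h
  · have : NeZero d := ⟨h⟩
    rw [Vq_eq]
    exact qExpand_injective d

theorem coeffMap_injective {f : A →+* B} (hf : Function.Injective f) :
    Function.Injective (coeffMap f) := by
  intro x y h
  ext n
  apply hf
  rw [← coeffMap_coeff, ← coeffMap_coeff, h]

theorem IsModPoly.map [Nontrivial B] (f : A →+* B) {p : ℕ} {Φ : A[X][X]} (h : IsModPoly p Φ) :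
    IsModPoly p (Φ.map (Polynomial.mapRingHom f)) := by
  obtain ⟨h1, h2, h3, h4⟩ := h
  refine ⟨h1.map _, by rw [h1.natDegree_map, h2], ?_, ?_⟩
  · rw [← coeffMap_jd f, ← coeffMap_jqModC f, ← coeffMap_ev2, h3, map_zero]
  · rw [← coeffMap_jd f, ← coeffMap_jqModC f, ← coeffMap_ev2, h4, map_zero]

theorem IsUnitPoly.map [Nontrivial B] (f : A →+* B) {p : ℕ} {Ξ : A[X][X]} (h : IsUnitPoly p Ξ) :
    IsUnitPoly p (Ξ.map (Polynomial.mapRingHom f)) := by
  obtain ⟨h1, h2, h3, h4⟩ := h
  refine ⟨h1.map _, by rw [h1.natDegree_map, h2], ?_, ?_⟩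
  · rw [← coeffMap_uInf f, ← coeffMap_jqModC f, ← coeffMap_ev2, h3, map_zero]
  · rw [← coeffMap_uZero f, ← coeffMap_jd f, ← coeffMap_ev2, h4, map_zero]

theorem HasModPoly.map [Nontrivial B] (f : A →+* B) {p : ℕ} (h : HasModPoly p A) :
    HasModPoly p B := by
  obtain ⟨Φ, hΦ⟩ := h
  exact ⟨_, IsModPoly.map f hΦ⟩

theorem HasUnitPoly.map [Nontrivial B] (f : A →+* B) {p : ℕ} (h : HasUnitPoly p A) :
    HasUnitPoly p B := by
  obtain ⟨Ξ, hΞ⟩ := h
  exact ⟨_, IsUnitPoly.map f hΞ⟩

/-- Descent along an injective ring homomorphism, once the coefficients are known to lift. -/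
theorem IsModPoly.of_map {f : A →+* B} (hf : Function.Injective f) {p : ℕ} {Φ : A[X][X]}
    (h : IsModPoly p (Φ.map (Polynomial.mapRingHom f))) : IsModPoly p Φ := by
  have hinj : Function.Injective (Polynomial.mapRingHom f) := Polynomial.map_injective f hf
  obtain ⟨h1, h2, h3, h4⟩ := h
  refine ⟨Polynomial.monic_of_injective hinj h1,
    by rw [← h2, Polynomial.natDegree_map_eq_of_injective hinj], ?_, ?_⟩
  · apply coeffMap_injective hf
    rw [coeffMap_ev2, coeffMap_jd, coeffMap_jqModC, h3, map_zero]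
  · apply coeffMap_injective hf
    rw [coeffMap_ev2, coeffMap_jd, coeffMap_jqModC, h4, map_zero]

theorem IsUnitPoly.of_map {f : A →+* B} (hf : Function.Injective f) {p : ℕ} {Ξ : A[X][X]}
    (h : IsUnitPoly p (Ξ.map (Polynomial.mapRingHom f))) : IsUnitPoly p Ξ := by
  have hinj : Function.Injective (Polynomial.mapRingHom f) := Polynomial.map_injective f hf
  obtain ⟨h1, h2, h3, h4⟩ := h
  refine ⟨Polynomial.monic_of_injective hinj h1,
    by rw [← h2, Polynomial.natDegree_map_eq_of_injective hinj], ?_, ?_⟩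
  · apply coeffMap_injective hf
    rw [coeffMap_ev2, coeffMap_uInf, coeffMap_jqModC, h3, map_zero]
  · apply coeffMap_injective hf
    rw [coeffMap_ev2, coeffMap_uZero, coeffMap_jd, h4, map_zero]

end Fermat.Agent.S28.BC
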