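/-
S28, lemma L1 (ramification lemma): if `x ∈ k((q))` has order prime to `n`, then
`1, x, …, x^(n-1)` are linearly independent over `k((q^n)) = range (Vq k n)`.
Also: orders of `Vq`, `jd`, `DeltaS`, `uZero`, transcendence of `jd`, and the
"too many roots" lemma.
-/
import Fermat.Agent.S28.BaseChange

set_option autoImplicit false

noncomputable section

namespace Fermat.Agent.S28.L1

open ModularCurve Polynomial Fermat.Agent.S28

section Ring

variable {A : Type} [CommRing A]

theorem Vq_coeff_mul (d : ℕ) (hd : d ≠ 0) (x : LaurentSeries A) (m : ℤ) :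
    (Vq A d x).coeff ((d : ℤ) * m) = x.coeff m := by
  have : NeZero d := ⟨hd⟩
  rw [Vq_eq, qExpand_coeff_mul]

theorem Vq_coeff_of_not_dvd (d : ℕ) (hd : d ≠ 0) (x : LaurentSeries A) {m : ℤ}
    (hm : ¬ (d : ℤ) ∣ m) : (Vq A d x).coeff m = 0 := by
  have : NeZero d := ⟨hd⟩
  rw [Vq_eq, qExpand_coeff_of_not_dvd d x hm]

theorem order_Vq (d : ℕ) (hd : d ≠ 0) (x : LaurentSeries A) :
    (Vq A d x).order = (d : ℤ) * x.order := by
  rcases eq_or_ne x 0 with rfl | hx
  · simp
  have hVx : Vq A d x ≠ 0 := fun h => hx (BC.Vq_injective d (by rw [h, map_zero]))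
  have hdpos : (0 : ℤ) < d := by exact_mod_cast Nat.pos_of_ne_zero hd
  apply le_antisymm
  · apply HahnSeries.order_le_of_coeff_ne_zero
    rw [Vq_coeff_mul d hd]
    exact fun h => hx (HahnSeries.coeff_order_eq_zero.mp h)
  · rw [HahnSeries.le_order_iff_forall hVx]
    intro j hj
    by_cases hdj : (d : ℤ) ∣ j
    · obtain ⟨m, rfl⟩ := hdj
      rw [Vq_coeff_mul d hd]
      exact HahnSeries.coeff_eq_zero_of_lt_order (lt_of_mul_lt_mul_left hj hdpos.le)
    · exact Vq_coeff_of_not_dvd d hd x hdj

end Ring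

variable {k : Type} [Field k]

/-- **L1**: a polynomial of degree `< n` with coefficients in `k((q^n))` which kills an element
whose order is prime to `n` vanishes. -/
theorem eq_zero_of_eval₂_Vq (n : ℕ) (hn : n ≠ 0) (x : LaurentSeries k) (hx0 : x ≠ 0)
    (hx : IsCoprime x.order (n : ℤ)) (H : (LaurentSeries k)[X]) (hdeg : H.natDegree < n)
    (h0 : H.eval₂ (Vq k n) x = 0) : H = 0 := by
  by_contra hH
  set o : ℕ → ℤ := fun i => (n : ℤ) * (H.coeff i).order + (i : ℤ) * x.order with ho
  have hSne : H.support.Nonempty := by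
    rwa [Polynomial.support_nonempty]
  obtain ⟨i₀, hi₀, hmin⟩ := Finset.exists_min_image H.support o hSne
  have hlt : ∀ i ∈ H.support, i < n := fun i hi =>
    lt_of_le_of_lt (Polynomial.le_natDegree_of_mem_supp i hi) hdeg
  have hterm : ∀ i ∈ H.support, Vq k n (H.coeff i) * x ^ i ≠ 0 ∧
      (Vq k n (H.coeff i) * x ^ i).order = o i := by
    intro i hi
    have hc : H.coeff i ≠ 0 := Polynomial.mem_support_iff.mp hi
    have hV : Vq k n (H.coeff i) ≠ 0 := fun h => hc (BC.Vq_injective n (by rw [h, map_zero]))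
    refine ⟨mul_ne_zero hV (pow_ne_zero _ hx0), ?_⟩
    rw [HahnSeries.order_mul hV (pow_ne_zero _ hx0), order_Vq n hn, HahnSeries.order_pow]
    simp [ho]
  have hinj : ∀ i ∈ H.support, o i = o i₀ → i = i₀ := by
    intro i hi hoi
    have h1 : (n : ℤ) ∣ ((i : ℤ) - i₀) * x.order := by
      refine ⟨(H.coeff i₀).order - (H.coeff i).order, ?_⟩
      simp only [ho] at hoi
      linarith
    have h2 : (n : ℤ) ∣ (i : ℤ) - i₀ := hx.symm.dvd_of_dvd_mul_right h1
    have h3 : |(i : ℤ) - i₀| < n := by
      have := hlt i hi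
      have := hlt i₀ hi₀
      rw [abs_lt]
      constructor <;> omega
    have := Int.eq_zero_of_abs_lt_dvd h2 h3
    omega
  have hcoeff : (H.eval₂ (Vq k n) x).coeff (o i₀) =
      (Vq k n (H.coeff i₀) * x ^ i₀).coeff (o i₀) := by
    rw [Polynomial.eval₂_eq_sum, Polynomial.sum_def, HahnSeries.coeff_sum]
    apply Finset.sum_eq_single i₀
    · intro i hi hne
      apply HahnSeries.coeff_eq_zero_of_lt_order
      rw [(hterm i hi).2]
      exact lt_of_le_of_ne (hmin i hi) (fun h => hne (hinj i hi h.symm))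
    · intro h
      exact absurd hi₀ h
  rw [h0, HahnSeries.coeff_zero, ← (hterm i₀ hi₀).2] at hcoeff
  exact (hterm i₀ hi₀).1 (HahnSeries.coeff_order_eq_zero.mp hcoeff.symm)

/-- **Too many roots**: a polynomial `G₀` of degree `≤ n` over `k((q))`, having a root `α`, and such
that `V_n G₀` kills an element of order prime to `n`, vanishes. -/
theorem eq_zero_of_two_roots (n : ℕ) (hn : 2 ≤ n) (G₀ : (LaurentSeries k)[X])
    (hdeg : G₀.natDegree ≤ n) (α x : LaurentSeries k) (hα : G₀.eval α = 0)
    (hx : IsCoprime x.order (n : ℤ)) (hroot : G₀.eval₂ (Vq k n) x = 0) : G₀ = 0 := by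
  have hn0 : n ≠ 0 := by omega
  have hnd : ¬ (n : ℤ) ∣ x.order := by
    intro h
    have h1 : IsUnit (n : ℤ) := hx.symm.isUnit_of_dvd' dvd_rfl h
    rw [Int.isUnit_iff] at h1
    omega
  have hx0 : x ≠ 0 := by
    rintro rfl
    exact hnd (by simp)
  by_contra hG
  obtain ⟨H, hH⟩ : (X - C α) ∣ G₀ := Polynomial.dvd_iff_isRoot.mpr hα
  have hH0 : H ≠ 0 := by
    rintro rfl
    exact hG (by rw [hH, mul_zero])
  have hdegH : H.natDegree < n := by
    have : G₀.natDegree = 1 + H.natDegree := by
      rw [hH, Polynomial.natDegree_mul (Polynomial.X_sub_C_ne_zero α) hH0,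
        Polynomial.natDegree_X_sub_C]
    omega
  rw [hH, Polynomial.eval₂_mul] at hroot
  rcases mul_eq_zero.mp hroot with h | h
  · rw [Polynomial.eval₂_sub, Polynomial.eval₂_X, Polynomial.eval₂_C, sub_eq_zero] at h
    apply hnd
    rw [h, order_Vq n hn0]
    exact dvd_mul_right _ _
  · exact hH0 (eq_zero_of_eval₂_Vq n hn0 x hx0 hx H hdegH h)

/-- An element of nonzero order is transcendental over `k`. -/
theorem evY_injective (y : LaurentSeries k) (hy : y.order ≠ 0) :
    Function.Injective (evY y) := by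
  rw [injective_iff_map_eq_zero]
  intro P hP
  have hy0 : y ≠ 0 := by
    rintro rfl
    exact hy (by simp)
  set n : ℕ := y.order.natAbs * (P.natDegree + 1) + 1 with hn
  have hcop : IsCoprime y.order (n : ℤ) := by
    rcases le_total 0 y.order with h | h
    · refine ⟨-((P.natDegree : ℤ) + 1), 1, ?_⟩
      rw [hn]
      push_cast
      rw [abs_of_nonneg h]
      ring
    · refine ⟨((P.natDegree : ℤ) + 1), 1, ?_⟩
      rw [hn]
      push_cast
      rw [abs_of_nonpos h]
      ring
  have hpos : 0 < y.order.natAbs := Int.natAbs_pos.mpr hy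
  have hdeg : (P.map (HahnSeries.C : k →+* LaurentSeries k)).natDegree < n := by
    refine lt_of_le_of_lt Polynomial.natDegree_map_le ?_
    rw [hn]
    nlinarith
  have h0 : (P.map (HahnSeries.C : k →+* LaurentSeries k)).eval₂ (Vq k n) y = 0 := by
    rw [Polynomial.eval₂_map]
    have : (Vq k n).comp (HahnSeries.C : k →+* LaurentSeries k) = HahnSeries.C := by
      ext1 a
      exact BC.Vq_C n a
    rw [this]
    exact hP
  have := eq_zero_of_eval₂_Vq n (by omega) y hy0 hcop _ hdeg h0
  exact (Polynomial.map_eq_zero_iff HahnSeries.C_injective).mp this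

section Orders

variable (A : Type) [CommRing A] [Nontrivial A]

theorem order_single_mul_ofPowerSeries (m : ℤ) (u : PowerSeries A)
    (hu : PowerSeries.constantCoeff u = 1) :
    (HahnSeries.single m (1 : A) * HahnSeries.ofPowerSeries ℤ A u) ≠ 0 ∧
    (HahnSeries.single m (1 : A) * HahnSeries.ofPowerSeries ℤ A u).order = m := by
  have hc : (HahnSeries.single m (1 : A) * HahnSeries.ofPowerSeries ℤ A u).coeff m = 1 := by
    rw [HahnSeries.coeff_single_mul, one_mul, sub_self,
      show (0 : ℤ) = ((0 : ℕ) : ℤ) from rfl, HahnSeries.ofPowerSeries_apply_coeff,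
      PowerSeries.coeff_zero_eq_constantCoeff, hu]
  have hne : (HahnSeries.single m (1 : A) * HahnSeries.ofPowerSeries ℤ A u) ≠ 0 := by
    intro h
    rw [h, HahnSeries.coeff_zero] at hc
    exact zero_ne_one hc
  refine ⟨hne, le_antisymm (HahnSeries.order_le_of_coeff_ne_zero (by rw [hc]; exact one_ne_zero)) ?_⟩
  rw [HahnSeries.le_order_iff_forall hne]
  intro j hj
  rw [HahnSeries.coeff_single_mul, one_mul]
  exact ofPowerSeries_coeff_of_neg _ (by omega)

omit [Nontrivial A] in
theorem constantCoeff_map_intCast (u : PowerSeries ℤ) (hu : PowerSeries.constantCoeff u = 1) :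
    PowerSeries.constantCoeff (u.map (Int.castRingHom A)) = 1 := by
  rw [← PowerSeries.coeff_zero_eq_constantCoeff, PowerSeries.coeff_map,
    PowerSeries.coeff_zero_eq_constantCoeff, hu, map_one]

theorem order_jqModC : (jqModC A).order = -1 :=
  (order_single_mul_ofPowerSeries A (-1) _ (constantCoeff_map_intCast A _ constantCoeff_jNum)).2

theorem order_jd (d : ℕ) (hd : d ≠ 0) : (jd A d).order = -(d : ℤ) := by
  rw [jd, order_Vq d hd, order_jqModC]
  ring

theorem order_DeltaS : (DeltaS A).order = 1 :=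
  (order_single_mul_ofPowerSeries A 1 _
    (constantCoeff_map_intCast A _ constantCoeff_dedekindEtaUnit)).2

theorem DeltaS_ne_zero : DeltaS A ≠ 0 :=
  (order_single_mul_ofPowerSeries A 1 _
    (constantCoeff_map_intCast A _ constantCoeff_dedekindEtaUnit)).1

theorem order_DeltaInvS : (DeltaInvS A).order = -1 :=
  (order_single_mul_ofPowerSeries A (-1) _
    (constantCoeff_map_intCast A _ constantCoeff_dedekindEtaUnitInv)).2

theorem DeltaInvS_ne_zero : DeltaInvS A ≠ 0 :=
  (order_single_mul_ofPowerSeries A (-1) _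
    (constantCoeff_map_intCast A _ constantCoeff_dedekindEtaUnitInv)).1

omit [Nontrivial A] in
theorem DeltaS_mul_DeltaInvS : DeltaS A * DeltaInvS A = 1 := by
  rw [DeltaS, DeltaInvS, mul_mul_mul_comm, HahnSeries.single_mul_single, ← map_mul, ← map_mul,
    dedekindEtaUnit_mul_inv]
  simp

end Orders

theorem order_uZero (p : ℕ) (hp : p ≠ 0) : (uZero k p).order = 1 - (p : ℤ) := by
  have h : Vq k p (DeltaInvS k) ≠ 0 := fun h =>
    DeltaInvS_ne_zero k (BC.Vq_injective p (by rw [h, map_zero]))
  rw [uZero, HahnSeries.order_mul (DeltaS_ne_zero k) h, order_DeltaS, order_Vq p hp,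
    order_DeltaInvS]
  ring

end Fermat.Agent.S28.L1
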