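/-
S28 toolkit: Laurent series lemmas (`Vq`, orders, the substitution `q ↦ c q`, the series
`j`, `Δ`, `u_∞`, `u_0`).
-/
import Fermat.Agent.S28.BaseChange

set_option autoImplicit false

noncomputable section

namespace Fermat.Agent.S28

open ModularCurve Polynomial

section Ring

variable {A : Type} [CommRing A]

theorem Vq_one (x : LaurentSeries A) : Vq A 1 x = x := by
  rw [Vq_eq, qExpand_one_apply]

theorem Vq_zero (x : LaurentSeries A) : Vq A 0 x = x := by
  simp [Vq]

theorem Vq_coeff_mul {d : ℕ} (hd : d ≠ 0) (x : LaurentSeries A) (n : ℤ) :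
    (Vq A d x).coeff ((d : ℤ) * n) = x.coeff n := by
  have : NeZero d := ⟨hd⟩
  rw [Vq_eq, qExpand_coeff_mul]

theorem Vq_coeff_of_not_dvd {d : ℕ} (hd : d ≠ 0) (x : LaurentSeries A) {n : ℤ}
    (hn : ¬ (d : ℤ) ∣ n) : (Vq A d x).coeff n = 0 := by
  have : NeZero d := ⟨hd⟩
  rw [Vq_eq, qExpand_coeff_of_not_dvd d x hn]

theorem Vq_single {d : ℕ} (hd : d ≠ 0) (n : ℤ) (a : A) :
    Vq A d (HahnSeries.single n a) = HahnSeries.single ((d : ℤ) * n) a := by
  have : NeZero d := ⟨hd⟩
  rw [Vq_eq, qExpand_single]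

theorem Vq_eq_zero_iff (d : ℕ) (x : LaurentSeries A) : Vq A d x = 0 ↔ x = 0 :=
  map_eq_zero_iff _ (BC.Vq_injective d)

/-- the series `∑ x_{d n} q^n`. -/
def Uq (d : ℕ) (hd : d ≠ 0) (x : LaurentSeries A) : LaurentSeries A where
  coeff n := x.coeff ((d : ℤ) * n)
  isPWO_support' := by
    have hd' : (0 : ℤ) < d := by exact_mod_cast Nat.pos_of_ne_zero hd
    apply Set.IsWF.isPWO
    apply BddBelow.isWF
    refine ⟨x.order - |x.order|, ?_⟩
    intro n hn
    simp only [Function.mem_support] at hn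
    have h1 : x.order ≤ d * n := HahnSeries.order_le_of_coeff_ne_zero hn
    by_contra hlt
    push Not at hlt
    have h2 : n < 0 := by
      have := abs_nonneg x.order
      have := le_abs_self x.order
      omega
    have h3 : (d : ℤ) * n ≤ n := by nlinarith
    have := neg_abs_le x.order
    have := le_abs_self x.order
    omega

theorem mem_range_Vq_iff {d : ℕ} (hd : d ≠ 0) (x : LaurentSeries A) :
    x ∈ (Vq A d).range ↔ ∀ n : ℤ, ¬ (d : ℤ) ∣ n → x.coeff n = 0 := by
  constructor
  · rintro ⟨y, rfl⟩ n hn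
    exact Vq_coeff_of_not_dvd hd y hn
  · intro h
    refine ⟨Uq d hd x, ?_⟩
    ext n
    by_cases hn : (d : ℤ) ∣ n
    · obtain ⟨m, rfl⟩ := hn
      rw [Vq_coeff_mul hd]
      rfl
    · rw [Vq_coeff_of_not_dvd hd _ hn, h n hn]

theorem order_Vq {d : ℕ} (hd : d ≠ 0) (x : LaurentSeries A) :
    (Vq A d x).order = d * x.order := by
  by_cases hx : x = 0
  · simp [hx]
  have hd' : (0 : ℤ) < d := by exact_mod_cast Nat.pos_of_ne_zero hd
  have hVx : Vq A d x ≠ 0 := by rwa [Ne, Vq_eq_zero_iff]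
  apply le_antisymm
  · apply HahnSeries.order_le_of_coeff_ne_zero
    rw [Vq_coeff_mul hd]
    exact HahnSeries.coeff_order_eq_zero.not.mpr hx
  · have h1 : (Vq A d x).coeff (Vq A d x).order ≠ 0 := HahnSeries.coeff_order_eq_zero.not.mpr hVx
    by_cases hn : (d : ℤ) ∣ (Vq A d x).order
    · obtain ⟨m, hm⟩ := hn
      rw [hm] at h1 ⊢
      rw [Vq_coeff_mul hd] at h1
      exact mul_le_mul_of_nonneg_left (HahnSeries.order_le_of_coeff_ne_zero h1) hd'.le
    · exact absurd (Vq_coeff_of_not_dvd hd x hn) h1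

theorem leadingCoeff_Vq {d : ℕ} (hd : d ≠ 0) (x : LaurentSeries A) :
    (Vq A d x).leadingCoeff = x.leadingCoeff := by
  rw [HahnSeries.leadingCoeff_eq, HahnSeries.leadingCoeff_eq, order_Vq hd, Vq_coeff_mul hd]

theorem coeff_single_mul_ofPS (n : ℤ) (u : PowerSeries A) (m : ℤ) :
    (HahnSeries.single n (1 : A) * HahnSeries.ofPowerSeries ℤ A u).coeff m =
      if m < n then 0 else PowerSeries.coeff (m - n).natAbs u := by
  have h := HahnSeries.coeff_single_mul_add (r := (1 : A)) (x := HahnSeries.ofPowerSeries ℤ A u)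
    (a := m - n) (b := n)
  rw [sub_add_cancel, one_mul] at h
  rw [h]
  have := PowerSeries.coeff_coe u (m - n)
  rw [show (HahnSeries.ofPowerSeries ℤ A u) = (u : LaurentSeries A) from rfl, this]
  simp only [sub_neg]

theorem order_single_mul_ofPS [Nontrivial A] (n : ℤ) (u : PowerSeries A)
    (hu : PowerSeries.constantCoeff u = 1) :
    (HahnSeries.single n (1 : A) * HahnSeries.ofPowerSeries ℤ A u).order = n := by
  have h1 : (HahnSeries.single n (1 : A) * HahnSeries.ofPowerSeries ℤ A u).coeff n = 1 := by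
    rw [coeff_single_mul_ofPS]; simp [hu]
  apply le_antisymm
  · apply HahnSeries.order_le_of_coeff_ne_zero
    rw [h1]; exact one_ne_zero
  · by_contra hlt
    push Not at hlt
    have hne : (HahnSeries.single n (1 : A) * HahnSeries.ofPowerSeries ℤ A u) ≠ 0 := by
      intro h0; rw [h0] at h1; simp at h1
    apply HahnSeries.coeff_order_eq_zero.not.mpr hne
    rw [coeff_single_mul_ofPS, if_pos hlt]

theorem leadingCoeff_single_mul_ofPS [Nontrivial A] (n : ℤ) (u : PowerSeries A)
    (hu : PowerSeries.constantCoeff u = 1) :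
    (HahnSeries.single n (1 : A) * HahnSeries.ofPowerSeries ℤ A u).leadingCoeff = 1 := by
  rw [HahnSeries.leadingCoeff_eq, order_single_mul_ofPS n u hu, coeff_single_mul_ofPS]
  simp [hu]

theorem constantCoeff_map_intCast (u : PowerSeries ℤ) (hu : PowerSeries.constantCoeff u = 1) :
    PowerSeries.constantCoeff (u.map (Int.castRingHom A)) = 1 := by
  rw [← PowerSeries.coeff_zero_eq_constantCoeff_apply, PowerSeries.coeff_map,
    PowerSeries.coeff_zero_eq_constantCoeff_apply, hu]
  simp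

/-! ### `j` -/

theorem jd_one : jd A 1 = jqModC A := Vq_one _

theorem jd_zero : jd A 0 = jqModC A := Vq_zero _

theorem Vq_jd {d e : ℕ} (hd : d ≠ 0) (he : e ≠ 0) : Vq A d (jd A e) = jd A (d * e) :=
  BC.Vq_Vq d e hd he _

theorem order_jqModC [Nontrivial A] : (jqModC A).order = -1 :=
  order_single_mul_ofPS _ _ (constantCoeff_map_intCast _ constantCoeff_jNum)

theorem leadingCoeff_jqModC [Nontrivial A] : (jqModC A).leadingCoeff = 1 :=
  leadingCoeff_single_mul_ofPS _ _ (constantCoeff_map_intCast _ constantCoeff_jNum)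

theorem order_jd [Nontrivial A] {d : ℕ} (hd : d ≠ 0) : (jd A d).order = -(d : ℤ) := by
  rw [jd, order_Vq hd, order_jqModC]; ring

theorem leadingCoeff_jd [Nontrivial A] (d : ℕ) : (jd A d).leadingCoeff = 1 := by
  by_cases hd : d = 0
  · rw [hd, jd_zero, leadingCoeff_jqModC]
  · rw [jd, leadingCoeff_Vq hd, leadingCoeff_jqModC]

theorem jd_ne_zero [Nontrivial A] (d : ℕ) : jd A d ≠ 0 := by
  intro h
  have := leadingCoeff_jd (A := A) d
  rw [h] at this
  simp at this

/-! ### `Δ` -/

theorem DeltaS_mul_DeltaInvS : DeltaS A * DeltaInvS A = 1 := by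
  rw [DeltaS, DeltaInvS, mul_mul_mul_comm, HahnSeries.single_mul_single, ← map_mul,
    ← map_mul, dedekindEtaUnit_mul_inv]
  simp

theorem order_DeltaS [Nontrivial A] : (DeltaS A).order = 1 :=
  order_single_mul_ofPS _ _ (constantCoeff_map_intCast _ constantCoeff_dedekindEtaUnit)

theorem leadingCoeff_DeltaS [Nontrivial A] : (DeltaS A).leadingCoeff = 1 :=
  leadingCoeff_single_mul_ofPS _ _ (constantCoeff_map_intCast _ constantCoeff_dedekindEtaUnit)

theorem order_DeltaInvS [Nontrivial A] : (DeltaInvS A).order = -1 :=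
  order_single_mul_ofPS _ _ (constantCoeff_map_intCast _ constantCoeff_dedekindEtaUnitInv)

theorem leadingCoeff_DeltaInvS [Nontrivial A] : (DeltaInvS A).leadingCoeff = 1 :=
  leadingCoeff_single_mul_ofPS _ _ (constantCoeff_map_intCast _ constantCoeff_dedekindEtaUnitInv)

theorem uInf_mul_uZero (p : ℕ) : uInf A p * uZero A p = (p : LaurentSeries A) ^ 12 := by
  have h1 := DeltaS_mul_DeltaInvS (A := A)
  have h2 : Vq A p (DeltaS A) * Vq A p (DeltaInvS A) = 1 := by rw [← map_mul, h1, map_one]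
  rw [uInf, uZero]
  calc _ = (p : LaurentSeries A) ^ 12 * (Vq A p (DeltaS A) * Vq A p (DeltaInvS A)) *
        (DeltaS A * DeltaInvS A) := by ring
    _ = _ := by rw [h1, h2]; ring

end Ring

section Field
variable {k : Type} [Field k]

theorem order_uZero {p : ℕ} (hp : p ≠ 0) : (uZero k p).order = 1 - (p : ℤ) := by
  rw [uZero, HahnSeries.order_mul_of_ne_zero, order_DeltaS, order_Vq hp, order_DeltaInvS]
  · ring
  · rw [leadingCoeff_DeltaS, leadingCoeff_Vq hp, leadingCoeff_DeltaInvS]; simp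

theorem leadingCoeff_uZero {p : ℕ} (hp : p ≠ 0) : (uZero k p).leadingCoeff = 1 := by
  rw [uZero, HahnSeries.leadingCoeff_mul, leadingCoeff_DeltaS, leadingCoeff_Vq hp,
    leadingCoeff_DeltaInvS]; simp

theorem natCast_eq_C (p : ℕ) : (p : LaurentSeries k) = HahnSeries.C (p : k) := by
  simp

theorem order_uInf {p : ℕ} (hp : (p : k) ≠ 0) : (uInf k p).order = (p : ℤ) - 1 := by
  have hp0 : p ≠ 0 := by rintro rfl; simp at hp
  have hC : ((p : LaurentSeries k) ^ 12) = HahnSeries.single 0 ((p : k) ^ 12) := by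
    rw [natCast_eq_C, ← map_pow]; rfl
  have hl : ((p : LaurentSeries k) ^ 12).leadingCoeff = (p : k) ^ 12 := by
    rw [hC, HahnSeries.leadingCoeff_of_single]
  have ho : ((p : LaurentSeries k) ^ 12).order = 0 := by
    rw [hC, HahnSeries.order_single (pow_ne_zero _ hp)]
  rw [uInf, HahnSeries.order_mul_of_ne_zero, HahnSeries.order_mul_of_ne_zero, ho, order_Vq hp0,
    order_DeltaS, order_DeltaInvS]
  · ring
  · rw [hl, leadingCoeff_Vq hp0, leadingCoeff_DeltaS]; simpa using hp
  · rw [HahnSeries.leadingCoeff_mul, hl, leadingCoeff_Vq hp0, leadingCoeff_DeltaS,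
      leadingCoeff_DeltaInvS]; simpa using hp

theorem uInf_ne_zero {p : ℕ} (hp : (p : k) ≠ 0) : uInf k p ≠ 0 := by
  intro h
  have h1 := uInf_mul_uZero (A := k) p
  rw [h, zero_mul, natCast_eq_C, ← map_pow] at h1
  have := congrArg (fun x => HahnSeries.coeff x 0) h1
  simp only [HahnSeries.coeff_zero, HahnSeries.C_apply, HahnSeries.coeff_single_same] at this
  exact pow_ne_zero 12 hp this.symm

end Field

end Fermat.Agent.S28
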