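/- S28, WP4: the base case `j(q^p) ∉ k(j)` and `[k(j, j(q^p)) : k(j)] = p + 1`. -/
import Fermat.Agent.S28.Toolkit
import Fermat.Agent.S28.L1
set_option autoImplicit false
noncomputable section
namespace Fermat.Agent.S28
namespace Base
open ModularCurve Polynomial

variable {k : Type} [Field k]

theorem algebraMap_eq_C (a : k) : algebraMap k (LaurentSeries k) a = HahnSeries.C a := by
  rw [algebraMap_laurentSeries_eq_single]; rfl

theorem j_mem : jqModC k ∈ Ej k 1 := by
  rw [Ej, jd_one]; exact IntermediateField.mem_adjoin_simple_self k _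

/-- evaluation at `j` with values in `k(j)`. -/
def evE : k[X] →+* Ej k 1 := (Polynomial.aeval (⟨jqModC k, j_mem⟩ : Ej k 1)).toRingHom

theorem algebraMap_comp_evE :
    (algebraMap (Ej k 1) (LaurentSeries k)).comp evE = evY (jqModC k) := by
  apply Polynomial.ringHom_ext
  · intro a
    simp [evE, evY, algebraMap_laurentSeries_eq_single]
  · simp [evE, evY]

theorem eval₂_map_evE (f : LaurentSeries k →+* LaurentSeries k) (G : k[X][X])
    (x : LaurentSeries k) :
    (G.map evE).eval₂ (f.comp (algebraMap (Ej k 1) (LaurentSeries k))) x =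
      G.eval₂ (f.comp (evY (jqModC k))) x := by
  rw [Polynomial.eval₂_map, RingHom.comp_assoc, algebraMap_comp_evE]

theorem aeval_map_evE (G : k[X][X]) (x : LaurentSeries k) :
    Polynomial.aeval x (G.map evE) = ev2 G x (jqModC k) := by
  rw [Polynomial.aeval_def, Polynomial.eval₂_map, algebraMap_comp_evE, ev2]

/-- **Lemma T** (two roots). -/
theorem minpoly_eq_of_two_roots {p : ℕ} (hp : p.Prime) (G : k[X][X]) (hG : G.Monic)
    (hdeg : G.natDegree = p + 1) (z x : LaurentSeries k) (hz : ev2 G z (jqModC k) = 0)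
    (hx : ev2 G x (jd k p) = 0) (hcop : IsCoprime x.order (p : ℤ)) (hzE : z ∉ Ej k 1) :
    minpoly (Ej k 1) z = G.map evE := by
  have hp0 : p ≠ 0 := hp.ne_zero
  have hGE : (G.map evE).Monic := hG.map _
  have hGdeg : (G.map (evE (k := k))).natDegree = p + 1 := by rw [hG.natDegree_map, hdeg]
  have hint : IsIntegral (Ej k 1) z := ⟨G.map evE, hGE, by
    rw [← Polynomial.aeval_def, aeval_map_evE, hz]⟩
  have hμ : (minpoly (Ej k 1) z).Monic := minpoly.monic hint
  obtain ⟨R, hR⟩ : minpoly (Ej k 1) z ∣ G.map evE := minpoly.dvd _ _ (by rw [aeval_map_evE, hz])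
  have hR0 : R ≠ 0 := by
    rintro rfl
    rw [mul_zero] at hR
    exact hGE.ne_zero hR
  have hdegs : (minpoly (Ej k 1) z).natDegree + R.natDegree = p + 1 := by
    rw [← hGdeg, hR, Polynomial.natDegree_mul hμ.ne_zero hR0]
  have hx0 : x ≠ 0 := by
    rintro rfl
    rw [HahnSeries.order_zero, isCoprime_zero_left, Int.isUnit_iff] at hcop
    have := hp.two_le
    omega
  set ι := algebraMap (Ej k 1) (LaurentSeries k) with hι
  have hinj : Function.Injective ι := ι.injective
  have hev : (G.map evE).eval₂ ((Vq k p).comp ι) x = 0 := by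
    rw [eval₂_map_evE, BC.Vq_comp_evY]
    exact hx
  rw [hR, Polynomial.eval₂_mul] at hev
  have hkey : p + 1 ≤ (minpoly (Ej k 1) z).natDegree := by
    rcases mul_eq_zero.mp hev with h | h
    · by_contra hlt
      push Not at hlt
      have h1 : ((minpoly (Ej k 1) z).map ι) = 0 := by
        apply L1.eq_zero_of_two_roots p hp.two_le _ _ z x _ hcop
        · rw [Polynomial.eval₂_map]; exact h
        · rw [Polynomial.natDegree_map_eq_of_injective hinj]; omega
        · rw [Polynomial.eval_map, ← Polynomial.aeval_def, minpoly.aeval]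
      rw [Polynomial.map_eq_zero_iff hinj] at h1
      exact hμ.ne_zero h1
    · exfalso
      have h2 : p ≤ R.natDegree := by
        by_contra hlt
        push Not at hlt
        have h1 : R.map ι = 0 := by
          apply L1.eq_zero_of_eval₂_Vq p hp0 x hx0 hcop
          · rw [Polynomial.natDegree_map_eq_of_injective hinj]; exact hlt
          · rw [Polynomial.eval₂_map]; exact h
        rw [Polynomial.map_eq_zero_iff hinj] at h1
        exact hR0 h1
      have h3 : (minpoly (Ej k 1) z).natDegree = 1 := by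
        have := minpoly.natDegree_pos hint
        omega
      rw [minpoly.natDegree_eq_one_iff] at h3
      obtain ⟨y, hy⟩ := h3
      exact hzE (hy ▸ y.2)
  exact (Polynomial.eq_of_monic_of_dvd_of_natDegree_le hμ hGE ⟨R, hR⟩ (by omega)).symm


theorem transcendental_j : Transcendental k (jqModC k) := by
  rw [transcendental_iff_injective]
  have h := L1.evY_injective (jqModC k) (by rw [order_jqModC]; norm_num)
  intro P Q hPQ
  apply h
  have : ∀ P : k[X], evY (jqModC k) P = Polynomial.aeval (jqModC k) P := by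
    intro P
    rw [evY, Polynomial.coe_eval₂RingHom, Polynomial.aeval_def]
    congr 1
    ext1 a
    exact (algebraMap_eq_C a).symm
  rw [this, this, hPQ]

theorem coeff_evY_j (P : k[X]) : (evY (jqModC k) P).coeff (-(P.natDegree : ℤ)) = P.leadingCoeff := by
  rw [evY, Polynomial.coe_eval₂RingHom, Polynomial.eval₂_eq_sum_range, HahnSeries.coeff_sum]
  rw [Finset.sum_eq_single P.natDegree]
  · rw [HahnSeries.C_apply, HahnSeries.coeff_single_zero_mul, coeff_jqModC_pow_self, mul_one]
    rfl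
  · intro i hi hne
    have hi' : i < P.natDegree := by
      have := Finset.mem_range.mp hi
      omega
    rw [HahnSeries.C_apply, HahnSeries.coeff_single_zero_mul, coeff_jqModC_pow_of_lt, mul_zero]
    omega
  · intro h
    exact absurd (Finset.mem_range.mpr (Nat.lt_succ_self _)) h

theorem order_evY_j_le (P : k[X]) : (evY (jqModC k) P).order ≤ 0 := by
  by_cases hP : P = 0
  · simp [hP]
  have : (evY (jqModC k) P).order ≤ -(P.natDegree : ℤ) := by
    apply HahnSeries.order_le_of_coeff_ne_zero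
    rw [coeff_evY_j]
    exact Polynomial.leadingCoeff_ne_zero.mpr hP
  omega

/-- An element of `k(j)` which is integral over `k[j]` is a polynomial in `j`. -/
theorem exists_poly_of_mem (G : k[X][X]) (hG : G.Monic) (u : LaurentSeries k) (hu : u ∈ Ej k 1)
    (h0 : ev2 G u (jqModC k) = 0) : ∃ P : k[X], u = evY (jqModC k) P := by
  rw [Ej, jd_one] at hu
  set e := RatFunc.algEquivOfTranscendental (jqModC k) transcendental_j with he
  set φ : RatFunc k →+* LaurentSeries k :=
    (algebraMap (IntermediateField.adjoin k {jqModC k}) (LaurentSeries k)).comp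
      (e : RatFunc k →+* IntermediateField.adjoin k {jqModC k}) with hφ
  have hφ1 : φ.comp (algebraMap k[X] (RatFunc k)) = evY (jqModC k) := by
    apply Polynomial.ringHom_ext
    · intro a
      have h2 : (algebraMap k[X] (RatFunc k)) (Polynomial.C a) = algebraMap k (RatFunc k) a := by
        simp [RatFunc.algebraMap_eq_C]
      rw [RingHom.comp_apply, h2, hφ, RingHom.comp_apply]
      have h3 : (e : RatFunc k →+* IntermediateField.adjoin k {jqModC k})
          (algebraMap k (RatFunc k) a) = algebraMap k _ a := e.commutes a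
      rw [h3, ← IsScalarTower.algebraMap_apply, algebraMap_eq_C]
      simp [evY]
    · simp [hφ, he, evY]
  set r := e.symm ⟨u, hu⟩ with hr
  have hφr : φ r = u := by
    simp [hφ, hr]
  have h1 : Polynomial.aeval r G = 0 := by
    apply φ.injective
    rw [map_zero, Polynomial.aeval_def, Polynomial.hom_eval₂, hφ1, hφr]
    exact h0
  obtain ⟨P, hP⟩ := isInteger_of_is_root_of_monic hG h1
  refine ⟨P, ?_⟩
  rw [← hφr, ← hP, ← hφ1]
  rfl


theorem isCoprime_sub_one (p : ℕ) : IsCoprime ((p : ℤ) - 1) (p : ℤ) := ⟨-1, 1, by ring⟩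

theorem isCoprime_one_sub (p : ℕ) : IsCoprime (1 - (p : ℤ)) (p : ℤ) := ⟨1, 1, by ring⟩

theorem uInf_not_mem {p : ℕ} (hp : p.Prime) (hpk : (p : k) ≠ 0) (Ξ : k[X][X])
    (hΞ : IsUnitPoly p Ξ) : uInf k p ∉ Ej k 1 := by
  intro hmem
  obtain ⟨P, hP⟩ := exists_poly_of_mem Ξ hΞ.1 _ hmem hΞ.2.2.1
  have h1 := order_evY_j_le P
  rw [← hP, order_uInf hpk] at h1
  have := hp.two_le
  omega

theorem minpoly_uInf {p : ℕ} (hp : p.Prime) (hpk : (p : k) ≠ 0) (Ξ : k[X][X])
    (hΞ : IsUnitPoly p Ξ) : minpoly (Ej k 1) (uInf k p) = Ξ.map evE :=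
  minpoly_eq_of_two_roots hp Ξ hΞ.1 hΞ.2.1 _ (uZero k p) hΞ.2.2.1 hΞ.2.2.2
    (by rw [order_uZero hp.ne_zero]; exact isCoprime_one_sub p) (uInf_not_mem hp hpk Ξ hΞ)

/-- **Claim B**. -/
theorem jd_not_mem {p : ℕ} (hp : p.Prime) (hpk : (p : k) ≠ 0) (Ξ : k[X][X])
    (hΞ : IsUnitPoly p Ξ) : jd k p ∉ Ej k 1 := by
  intro hmem
  have hp0 : p ≠ 0 := hp.ne_zero
  set μ := minpoly (Ej k 1) (uInf k p) with hμ
  have hμeq : μ = Ξ.map evE := minpoly_uInf hp hpk Ξ hΞ
  have hint : IsIntegral (Ej k 1) (uInf k p) := by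
    by_contra h
    have h0 : μ = 0 := minpoly.eq_zero h
    rw [hμeq] at h0
    exact (hΞ.1.map evE).ne_zero h0
  have : Fact (Irreducible μ) := ⟨minpoly.irreducible hint⟩
  set ι := algebraMap (Ej k 1) (LaurentSeries k) with hι
  -- two ring homomorphisms
  let α : AdjoinRoot μ →+* LaurentSeries k := AdjoinRoot.lift ι (uInf k p) (by
    rw [← Polynomial.aeval_def]; exact minpoly.aeval _ _)
  let β : AdjoinRoot μ →+* LaurentSeries k := AdjoinRoot.lift ((Vq k p).comp ι) (uZero k p) (by
    rw [hμeq, eval₂_map_evE, BC.Vq_comp_evY]; exact hΞ.2.2.2)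
  have hαroot : α (AdjoinRoot.root μ) = uInf k p := AdjoinRoot.lift_root _
  have hβroot : β (AdjoinRoot.root μ) = uZero k p := AdjoinRoot.lift_root _
  have hαof : ∀ e : Ej k 1, α (AdjoinRoot.of μ e) = ι e := fun e => AdjoinRoot.lift_of _
  have hβof : ∀ e : Ej k 1, β (AdjoinRoot.of μ e) = Vq k p (ι e) := fun e => AdjoinRoot.lift_of _
  have hmul := uInf_mul_uZero (A := k) p
  have hu0 : uInf k p ≠ 0 := uInf_ne_zero hpk
  have hz0 : uZero k p ≠ 0 := by
    intro h
    rw [h, mul_zero] at hmul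
    have h12 : (p : LaurentSeries k) ≠ 0 := by
      rw [natCast_eq_C]
      intro h'
      exact hpk (HahnSeries.C_injective (by rw [h', map_zero]))
    exact pow_ne_zero 12 h12 hmul.symm
  set s : AdjoinRoot μ := (p : AdjoinRoot μ) ^ 12 * (AdjoinRoot.root μ)⁻¹ with hs
  have hαs : α s = uZero k p := by
    rw [hs, map_mul, map_pow, map_natCast, map_inv₀, hαroot, ← hmul]
    field_simp
  have hβs : β s = uInf k p := by
    rw [hs, map_mul, map_pow, map_natCast, map_inv₀, hβroot, ← hmul]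
    field_simp
  set γ : k[X] →+* AdjoinRoot μ :=
    (AdjoinRoot.of μ).comp (Polynomial.aeval (⟨jd k p, hmem⟩ : Ej k 1)).toRingHom with hγ
  have hαγ : α.comp γ = evY (jd k p) := by
    apply Polynomial.ringHom_ext
    · intro a
      simp only [hγ, RingHom.comp_apply, AlgHom.toRingHom_eq_coe, RingHom.coe_coe,
        Polynomial.aeval_C, hαof]
      rw [hι, ← IsScalarTower.algebraMap_apply, algebraMap_eq_C]
      simp [evY]
    · simp only [hγ, RingHom.comp_apply, AlgHom.toRingHom_eq_coe, RingHom.coe_coe,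
        Polynomial.aeval_X, hαof]
      simp [evY, hι]
  have hβγ : β.comp γ = evY (jd k (p * p)) := by
    apply Polynomial.ringHom_ext
    · intro a
      simp only [hγ, RingHom.comp_apply, AlgHom.toRingHom_eq_coe, RingHom.coe_coe,
        Polynomial.aeval_C, hβof]
      rw [hι, ← IsScalarTower.algebraMap_apply, algebraMap_eq_C, BC.Vq_C]
      simp [evY]
    · simp only [hγ, RingHom.comp_apply, AlgHom.toRingHom_eq_coe, RingHom.coe_coe,
        Polynomial.aeval_X, hβof]
      rw [← Vq_jd hp0 hp0]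
      simp [evY, hι]
  have hW : Ξ.eval₂ γ s = 0 := by
    apply α.injective
    rw [map_zero, Polynomial.hom_eval₂, hαγ, hαs]
    exact hΞ.2.2.2
  have hfin : Ξ.eval₂ (evY (jd k (p * p))) (uInf k p) = 0 := by
    rw [← hβγ, ← hβs, ← Polynomial.hom_eval₂, hW, map_zero]
  have hpp : p * p ≠ 0 := Nat.mul_ne_zero hp0 hp0
  have hzero : Ξ.map (evY (jqModC k)) = 0 := by
    apply L1.eq_zero_of_eval₂_Vq (p * p) hpp (uInf k p) hu0
    · rw [order_uInf hpk]
      push_cast
      exact (isCoprime_sub_one p).mul_right (isCoprime_sub_one p)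
    · rw [hΞ.1.natDegree_map, hΞ.2.1]
      have := hp.two_le
      nlinarith
    · rw [Polynomial.eval₂_map, BC.Vq_comp_evY]
      exact hfin
  exact (hΞ.1.map _).ne_zero hzero

/-- the minimal polynomial of `j(q^p)` over `k(j)` is `Φ(X, j)`. -/
theorem minpoly_jd {p : ℕ} (hp : p.Prime) (hpk : (p : k) ≠ 0) (Φ Ξ : k[X][X])
    (hΦ : IsModPoly p Φ) (hΞ : IsUnitPoly p Ξ) : minpoly (Ej k 1) (jd k p) = Φ.map evE :=
  minpoly_eq_of_two_roots hp Φ hΦ.1 hΦ.2.1 _ (jqModC k) hΦ.2.2.1 hΦ.2.2.2
    (by rw [order_jqModC]; exact ⟨-1, 0, by ring⟩) (jd_not_mem hp hpk Ξ hΞ)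

end Base

theorem wp4 : WP4 := by
  intro k _ p hp hpk ⟨Φ, hΦ⟩ ⟨Ξ, hΞ⟩
  refine ⟨Base.jd_not_mem hp hpk Ξ hΞ, ?_⟩
  rw [Base.minpoly_jd hp hpk Φ Ξ hΦ hΞ, hΦ.1.natDegree_map, hΦ.2.1]

end Fermat.Agent.S28
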