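import Mathlib

/-!
# S28, package F (part 1): pure commutative algebra

`isIntegral_of_smul_of_smul`: if `P` is an integrally closed domain, `π` a prime of `P`, `h ∈ P`
not divisible by `π`, and `π • y`, `h • y` are both integral over `P`, then `y` is integral over `P`.
-/

namespace Fermat.Agent.S28.QEP

open Polynomial

theorem isIntegral_of_smul_of_smul {P F : Type*} [CommRing P] [IsDomain P] [IsIntegrallyClosed P]
    [Field F] [Algebra P F] [FaithfulSMul P F]
    {π h : P} (hπ : Prime π) (hh : ¬ π ∣ h) {y : F}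
    (h1 : IsIntegral P (π • y)) (h2 : IsIntegral P (h • y)) : IsIntegral P y := by
  classical
  let Kf := FractionRing P
  letI : Algebra Kf F := FractionRing.liftAlgebra P F
  haveI : IsScalarTower P Kf F := FractionRing.isScalarTower_liftAlgebra P F
  have hπ0 : algebraMap P Kf π ≠ 0 := by
    simpa using hπ.ne_zero
  have hh0' : h ≠ 0 := fun h0 => hh (h0 ▸ dvd_zero π)
  have hh0 : algebraMap P Kf h ≠ 0 := by
    simpa using hh0'
  have hsm : ∀ (a : P) (z : F), a • z = (algebraMap P Kf a) • z := fun a z =>
    (algebraMap_smul Kf a z).symm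
  -- `y` is integral over the fraction field
  have hyK : IsIntegral Kf y := by
    have h3 : IsIntegral Kf (π • y) := h1.tower_top
    have h4 : y = (algebraMap P Kf π)⁻¹ • (π • y) := by
      rw [hsm, smul_smul, inv_mul_cancel₀ hπ0, one_smul]
    rw [h4]
    exact h3.smul _
  set m := minpoly Kf y with hm
  set d := m.natDegree with hd
  have e1 : (minpoly P (π • y)).map (algebraMap P Kf) = m.scaleRoots (algebraMap P Kf π) := by
    rw [← minpoly.isIntegrallyClosed_eq_field_fractions' Kf h1, hsm,
      IsIntegrallyClosed.minpoly_smul hπ0 hyK]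
  have e2 : (minpoly P (h • y)).map (algebraMap P Kf) = m.scaleRoots (algebraMap P Kf h) := by
    rw [← minpoly.isIntegrallyClosed_eq_field_fractions' Kf h2, hsm,
      IsIntegrallyClosed.minpoly_smul hh0 hyK]
  have hcoeff : ∀ i, ∃ w : P, algebraMap P Kf w = m.coeff i := by
    intro i
    have c1 := congrArg (fun p => p.coeff i) e1
    have c2 := congrArg (fun p => p.coeff i) e2
    simp only [coeff_map, coeff_scaleRoots] at c1 c2
    set e := m.natDegree - i with he
    set u := (minpoly P (π • y)).coeff i
    set u' := (minpoly P (h • y)).coeff i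
    have hrel : u * h ^ e = u' * π ^ e := by
      apply FaithfulSMul.algebraMap_injective P Kf
      rw [map_mul, map_mul, map_pow, map_pow, c1, c2]
      ring
    have hdvd : π ^ e ∣ u := by
      apply hπ.pow_dvd_of_dvd_mul_right e (fun hc => hh (hπ.dvd_of_dvd_pow hc))
      exact ⟨u', by rw [hrel]; ring⟩
    obtain ⟨w, hw⟩ := hdvd
    refine ⟨w, ?_⟩
    have hpe : (algebraMap P Kf π) ^ e ≠ 0 := pow_ne_zero _ hπ0
    apply mul_right_cancel₀ hpe
    rw [← c1, hw, map_mul, map_pow]
    ring
  have hlifts : m ∈ Polynomial.lifts (algebraMap P Kf) :=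
    (Polynomial.lifts_iff_coeff_lifts m).mpr fun i => by
      obtain ⟨w, hw⟩ := hcoeff i
      exact ⟨w, hw⟩
  obtain ⟨m', hm'm, -, hm'monic⟩ :=
    Polynomial.lifts_and_natDegree_eq_and_monic hlifts (minpoly.monic hyK)
  refine ⟨m', hm'monic, ?_⟩
  have : aeval y m = 0 := minpoly.aeval Kf y
  rw [← hm'm, aeval_map_algebraMap] at this
  exact this

end Fermat.Agent.S28.QEP
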