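/- S28: the substitution q ↦ c q on Laurent series over a field. -/
import Fermat.Agent.S28.Toolkit
set_option autoImplicit false
noncomputable section
namespace Fermat.Agent.S28
open ModularCurve Polynomial
open scoped Classical

section Field
variable {k : Type} [Field k]

/-- underlying function of `q ↦ c q`. -/
def scaleFun (c : k) (x : LaurentSeries k) : LaurentSeries k where
  coeff n := c ^ n * x.coeff n
  isPWO_support' := x.isPWO_support.mono (by
    intro n hn
    simp only [Function.mem_support, ne_eq, mul_eq_zero, not_or] at hn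
    exact hn.2)

theorem scaleFun_coeff (c : k) (x : LaurentSeries k) (n : ℤ) :
    (scaleFun c x).coeff n = c ^ n * x.coeff n := rfl

theorem scaleFun_support_subset (c : k) (x : LaurentSeries k) :
    (scaleFun c x).support ⊆ x.support := by
  intro n hn
  simp only [HahnSeries.mem_support, scaleFun_coeff, ne_eq, mul_eq_zero, not_or] at hn
  exact hn.2

theorem coeff_mul_both {x y : LaurentSeries k} {a : ℤ} {s t : Set ℤ} (hs : s.IsPWO)
    (ht : t.IsPWO) (hxs : x.support ⊆ s) (hyt : y.support ⊆ t) :
    (x * y).coeff a = ∑ ij ∈ Finset.antidiagonal hs ht a, x.coeff ij.1 * y.coeff ij.2 := by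
  rw [HahnSeries.coeff_mul_left' hs hxs]
  apply Finset.sum_subset
  · intro ij hij
    simp only [Finset.mem_antidiagonal] at hij ⊢
    exact ⟨hij.1, hyt hij.2.1, hij.2.2⟩
  · intro ij hij hn
    simp only [Finset.mem_antidiagonal, not_and] at hij hn
    have : ij.2 ∉ y.support := fun h => hn hij.1 h hij.2.2
    simp only [HahnSeries.mem_support, not_not] at this
    rw [this, mul_zero]

/-- the ring homomorphism `q ↦ c q` for `c ≠ 0`. -/
def scaleHom (c : k) (hc : c ≠ 0) : LaurentSeries k →+* LaurentSeries k where
  toFun := scaleFun c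
  map_zero' := by ext n; simp [scaleFun_coeff]
  map_one' := by
    ext n
    rw [scaleFun_coeff, HahnSeries.coeff_one]
    split_ifs with h
    · simp [h]
    · simp
  map_add' x y := by ext n; simp [scaleFun_coeff, mul_add]
  map_mul' x y := by
    ext n
    rw [scaleFun_coeff, HahnSeries.coeff_mul,
      coeff_mul_both x.isPWO_support y.isPWO_support (scaleFun_support_subset c x)
        (scaleFun_support_subset c y), Finset.mul_sum]
    apply Finset.sum_congr rfl
    intro ij hij
    simp only [Finset.mem_antidiagonal] at hij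
    rw [scaleFun_coeff, scaleFun_coeff, ← hij.2.2, zpow_add₀ hc]
    ring

/-- the substitution `q ↦ c q` (the identity if `c = 0`). -/
def scale (c : k) : LaurentSeries k →+* LaurentSeries k :=
  if hc : c = 0 then RingHom.id _ else scaleHom c hc

theorem isScale_scale {c : k} (hc : c ≠ 0) : IsScale c (scale c) := by
  intro x n
  rw [scale, dif_neg hc]
  rfl

theorem scale_coeff {c : k} (hc : c ≠ 0) (x : LaurentSeries k) (n : ℤ) :
    (scale c x).coeff n = c ^ n * x.coeff n := isScale_scale hc x n

theorem IsScale.eq_scale {c : k} (hc : c ≠ 0) {f : LaurentSeries k →+* LaurentSeries k}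
    (hf : IsScale c f) : f = scale c := by
  ext x n
  rw [hf x n, scale_coeff hc]

theorem scale_one (x : LaurentSeries k) : scale (1 : k) x = x := by
  ext n; rw [scale_coeff one_ne_zero]; simp

theorem scale_scale {c d : k} (hc : c ≠ 0) (hd : d ≠ 0) (x : LaurentSeries k) :
    scale c (scale d x) = scale (c * d) x := by
  ext n
  rw [scale_coeff hc, scale_coeff hd, scale_coeff (mul_ne_zero hc hd), mul_zpow]
  ring

theorem scale_injective (c : k) : Function.Injective (scale c) := (scale c).injective

theorem scale_C (c : k) (a : k) : scale c (HahnSeries.C a) = HahnSeries.C a := by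
  by_cases hc : c = 0
  · simp [scale, hc]
  ext n
  rw [scale_coeff hc, HahnSeries.C_apply, HahnSeries.coeff_single]
  split_ifs with h
  · simp [h]
  · simp

theorem scale_single {c : k} (hc : c ≠ 0) (n : ℤ) (a : k) :
    scale c (HahnSeries.single n a) = HahnSeries.single n (c ^ n * a) := by
  ext m
  rw [scale_coeff hc, HahnSeries.coeff_single, HahnSeries.coeff_single]
  split_ifs with h
  · rw [h]
  · simp

theorem scale_Vq {c : k} (hc : c ≠ 0) {d : ℕ} (hd : d ≠ 0) (x : LaurentSeries k) :
    scale c (Vq k d x) = Vq k d (scale (c ^ d) x) := by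
  ext n
  rw [scale_coeff hc]
  by_cases hn : (d : ℤ) ∣ n
  · obtain ⟨m, rfl⟩ := hn
    rw [Vq_coeff_mul hd, Vq_coeff_mul hd, scale_coeff (pow_ne_zero _ hc), zpow_mul, zpow_natCast]
  · rw [Vq_coeff_of_not_dvd hd _ hn, Vq_coeff_of_not_dvd hd _ hn, mul_zero]

/-- `q ↦ ζ q` with `ζ ^ d = 1` fixes `k((q^d))`. -/
theorem scale_Vq_of_pow_eq_one {c : k} {d : ℕ} (hd : d ≠ 0) (hc : c ^ d = 1)
    (x : LaurentSeries k) : scale c (Vq k d x) = Vq k d x := by
  have hc0 : c ≠ 0 := by rintro rfl; simp [hd] at hc
  rw [scale_Vq hc0 hd, hc, scale_one]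

theorem order_scale (c : k) (x : LaurentSeries k) : (scale c x).order = x.order := by
  by_cases hc : c = 0
  · simp [scale, hc]
  by_cases hx : x = 0
  · simp [hx]
  have hsx : scale c x ≠ 0 := by rwa [Ne, map_eq_zero_iff _ (scale_injective c)]
  apply le_antisymm
  · apply HahnSeries.order_le_of_coeff_ne_zero
    rw [scale_coeff hc]
    exact mul_ne_zero (zpow_ne_zero _ hc) (HahnSeries.coeff_order_eq_zero.not.mpr hx)
  · apply HahnSeries.order_le_of_coeff_ne_zero
    have := HahnSeries.coeff_order_eq_zero.not.mpr hsx
    rw [scale_coeff hc] at this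
    exact right_ne_zero_of_mul this

theorem leadingCoeff_scale {c : k} (hc : c ≠ 0) (x : LaurentSeries k) :
    (scale c x).leadingCoeff = c ^ x.order * x.leadingCoeff := by
  rw [HahnSeries.leadingCoeff_eq, HahnSeries.leadingCoeff_eq, order_scale, scale_coeff hc]

theorem scale_comp_evY (c : k) (y : LaurentSeries k) :
    (scale c).comp (evY y) = evY (scale c y) := by
  apply Polynomial.ringHom_ext
  · intro a
    have := scale_C c a
    rw [HahnSeries.C_apply] at this
    simp [evY, this]
  · simp [evY]

theorem scale_ev2 (c : k) (P : k[X][X]) (x y : LaurentSeries k) :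
    scale c (ev2 P x y) = ev2 P (scale c x) (scale c y) := by
  rw [ev2, ev2, Polynomial.hom_eval₂, scale_comp_evY]

end Field

end Fermat.Agent.S28
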