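import Mathlib
import Fermat.Prelude.Def_ModularCurve_IgusaScheme
import Fermat.Prelude.Def_ModularCurve_X0ModL

set_option linter.unusedSectionVars false

namespace Fermat.Agent.S28.QEP

open ModularCurve HahnSeries Polynomial

variable (ℓ : ℕ) [Fact ℓ.Prime]

set_option quotPrecheck false in
local notation "ℤℓ" => ↥(GaloisRep.ratLocalizedAt ℓ)

lemma mem_ratLocalizedAt_iff (q : ℚ) :
    q ∈ GaloisRep.ratLocalizedAt ℓ ↔ q = 0 ∨ 0 ≤ padicValRat ℓ q := by
  have hℓ : ℓ.Prime := Fact.out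
  constructor
  · intro h
    right
    have h' : q.den.Coprime ℓ := h
    rw [padicValRat.eq_1]
    have : padicValNat ℓ q.den = 0 := by
      apply padicValNat.eq_zero_of_not_dvd
      intro hd
      have := Nat.Coprime.eq_one_of_dvd h'.symm hd
      exact hℓ.one_lt.ne' this
    rw [this]
    simp
  · rintro (rfl | h)
    · exact (GaloisRep.ratLocalizedAt ℓ).zero_mem
    · show q.den.Coprime ℓ
      by_contra hc
      have hd : ℓ ∣ q.den := by
        rw [Nat.coprime_comm, hℓ.coprime_iff_not_dvd] at hc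
        exact not_not.mp hc
      have hn : ¬ (ℓ : ℤ) ∣ q.num := by
        intro hn
        have h1 : ℓ ∣ q.num.natAbs := Int.natCast_dvd.mp hn
        have := Nat.dvd_gcd h1 hd
        rw [q.reduced] at this
        exact hℓ.one_lt.ne' (Nat.dvd_one.mp this)
      rw [padicValRat.eq_1, padicValInt.eq_zero_of_not_dvd hn] at h
      have : 1 ≤ padicValNat ℓ q.den := one_le_padicValNat_of_dvd q.den_nz hd
      omega

lemma exists_pow_notMem {c d₀ : ℚ} (hc : c ∉ GaloisRep.ratLocalizedAt ℓ) (hd : d₀ ≠ 0) :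
    ∃ m : ℕ, d₀ * c ^ m ∉ GaloisRep.ratLocalizedAt ℓ := by
  rw [mem_ratLocalizedAt_iff] at hc
  push Not at hc
  obtain ⟨hc0, hcv⟩ := hc
  refine ⟨(padicValRat ℓ d₀).toNat + 1, ?_⟩
  rw [mem_ratLocalizedAt_iff]
  push Not
  refine ⟨mul_ne_zero hd (pow_ne_zero _ hc0), ?_⟩
  rw [padicValRat.mul hd (pow_ne_zero _ hc0), padicValRat.pow]
  have h1 : padicValRat ℓ d₀ ≤ (padicValRat ℓ d₀).toNat := Int.self_le_toNat _
  push_cast
  nlinarith



instance instIsFractionRing : IsFractionRing ℤℓ ℚ := by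
  refine IsFractionRing.of_field ℤℓ ℚ fun z => ?_
  refine ⟨(z.num : ℤℓ), (z.den : ℤℓ), ?_⟩
  simp [Rat.num_div_den]

lemma natCast_ne_zero' : ((ℓ : ℕ) : ℤℓ) ≠ 0 := by
  have hℓ : ℓ.Prime := Fact.out
  intro h
  have := congrArg (algebraMap ℤℓ ℚ) h
  simp at this
  exact hℓ.ne_zero this

lemma isUnit_or_dvd (a : ℤℓ) : IsUnit a ∨ ((ℓ : ℕ) : ℤℓ) ∣ a := by
  have hℓ : ℓ.Prime := Fact.out
  have hℓQ : (ℓ : ℚ) ≠ 0 := by exact_mod_cast hℓ.ne_zero
  rcases eq_or_ne a 0 with rfl | ha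
  · exact Or.inr (dvd_zero _)
  have haQ : (a : ℚ) ≠ 0 := fun h => ha (Subtype.ext h)
  have hv : 0 ≤ padicValRat ℓ (a : ℚ) := ((mem_ratLocalizedAt_iff ℓ _).mp a.2).resolve_left haQ
  rcases hv.eq_or_lt with h0 | hpos
  · left
    have hinv : (a : ℚ)⁻¹ ∈ GaloisRep.ratLocalizedAt ℓ := by
      rw [mem_ratLocalizedAt_iff]
      right
      rw [padicValRat.inv, ← h0]; simp
    exact IsUnit.of_mul_eq_one ⟨(a : ℚ)⁻¹, hinv⟩ (Subtype.ext (mul_inv_cancel₀ haQ))
  · right
    have hdiv : (a : ℚ) / ℓ ∈ GaloisRep.ratLocalizedAt ℓ := by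
      rw [mem_ratLocalizedAt_iff]
      right
      rw [padicValRat.div haQ hℓQ, padicValRat.self hℓ.one_lt]
      omega
    refine ⟨⟨(a : ℚ) / ℓ, hdiv⟩, Subtype.ext ?_⟩
    push_cast
    field_simp

section residue

variable {k : Type*} [Field k] [Algebra ↥(GaloisRep.ratLocalizedAt ℓ) k] [CharP k ℓ]

lemma algebraMap_eq_zero_iff (a : ℤℓ) : algebraMap ℤℓ k a = 0 ↔ ((ℓ : ℕ) : ℤℓ) ∣ a := by
  constructor
  · intro h
    rcases isUnit_or_dvd ℓ a with hu | hd
    · exact absurd h (hu.map (algebraMap ℤℓ k)).ne_zero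
    · exact hd
  · rintro ⟨b, rfl⟩
    rw [map_mul, map_natCast, CharP.cast_eq_zero, zero_mul]

include k in
lemma prime_natCast : Prime ((ℓ : ℕ) : ℤℓ) := by
  refine ⟨natCast_ne_zero' ℓ, ?_, ?_⟩
  · intro hu
    have := (hu.map (algebraMap ℤℓ k)).ne_zero
    rw [map_natCast, CharP.cast_eq_zero] at this
    exact this rfl
  · intro a b hab
    rw [← algebraMap_eq_zero_iff ℓ (k := k), map_mul, mul_eq_zero] at hab
    rwa [algebraMap_eq_zero_iff, algebraMap_eq_zero_iff] at hab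

lemma map_eq_zero_iff_C_dvd (p : ℤℓ[X]) :
    p.map (algebraMap ℤℓ k) = 0 ↔ Polynomial.C ((ℓ : ℕ) : ℤℓ) ∣ p := by
  rw [Polynomial.C_dvd_iff_dvd_coeff, Polynomial.ext_iff]
  simp only [Polynomial.coeff_map, Polynomial.coeff_zero, algebraMap_eq_zero_iff]

end residue

lemma exists_not_pow_dvd {h : ℤℓ[X]} (hh : h ≠ 0) :
    ∃ n : ℕ, ¬ Polynomial.C ((ℓ : ℕ) : ℤℓ) ^ (n + 1) ∣ h := by
  have hℓ : ℓ.Prime := Fact.out
  have hℓQ : (ℓ : ℚ) ≠ 0 := by exact_mod_cast hℓ.ne_zero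
  obtain ⟨i, hi⟩ : ∃ i, h.coeff i ≠ 0 := by
    by_contra hc
    push Not at hc
    exact hh (Polynomial.ext (by simpa using hc))
  have hiQ : ((h.coeff i : ℤℓ) : ℚ) ≠ 0 := fun h0 => hi (Subtype.ext h0)
  obtain ⟨n, hn⟩ : ∃ n : ℕ, n = (padicValRat ℓ ((h.coeff i : ℤℓ) : ℚ)).toNat := ⟨_, rfl⟩
  refine ⟨n, fun hd => ?_⟩
  rw [← Polynomial.C_pow, Polynomial.C_dvd_iff_dvd_coeff] at hd
  obtain ⟨c, hc⟩ := hd i
  have hcQ : ((h.coeff i : ℤℓ) : ℚ) = (ℓ : ℚ) ^ (n + 1) * (c : ℚ) := by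
    have := congrArg Subtype.val hc
    simpa using this
  have hc0 : (c : ℚ) ≠ 0 := by
    intro h0
    rw [h0, mul_zero] at hcQ
    exact hiQ hcQ
  have hvc : 0 ≤ padicValRat ℓ (c : ℚ) := ((mem_ratLocalizedAt_iff ℓ _).mp c.2).resolve_left hc0
  have h2 := congrArg (padicValRat ℓ) hcQ
  rw [padicValRat.mul (pow_ne_zero _ hℓQ) hc0, padicValRat.pow, padicValRat.self hℓ.one_lt] at h2
  have h1 : padicValRat ℓ ((h.coeff i : ℤℓ) : ℚ) ≤ (padicValRat ℓ ((h.coeff i : ℤℓ) : ℚ)).toNat :=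
    Int.self_le_toNat _
  push_cast at h2
  omega

/-- The subring `R((q))` of `ℓ`-integral Laurent series inside `ℚ((q))`. -/
noncomputable def intSubring : Subring (LaurentSeries ℚ) := (coeffMap (algebraMap ℤℓ ℚ)).range

lemma coeffMap_algebraMap_injective :
    Function.Injective (coeffMap (algebraMap ℤℓ ℚ)) := by
  intro x y h
  ext n
  have := congrArg (fun z => z.coeff n) h
  simpa using this

lemma mem_intSubring_iff {x : LaurentSeries ℚ} :
    x ∈ intSubring ℓ ↔ ∀ n, x.coeff n ∈ GaloisRep.ratLocalizedAt ℓ := by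
  constructor
  · rintro ⟨y, rfl⟩ n
    exact (y.coeff n).2
  · intro h
    refine ⟨⟨fun n => ⟨x.coeff n, h n⟩, x.isPWO_support'.mono ?_⟩, ?_⟩
    · intro n hn
      simp only [Function.mem_support, ne_eq] at hn ⊢
      intro h0
      exact hn (Subtype.ext h0)
    · ext n
      rfl

lemma leadingCoeff_mul_pow (d z : LaurentSeries ℚ) (m : ℕ) :
    (d * z ^ m).leadingCoeff = d.leadingCoeff * z.leadingCoeff ^ m := by
  induction m with
  | zero => simp
  | succ m ih =>
    rw [pow_succ, ← mul_assoc, HahnSeries.leadingCoeff_mul, ih, pow_succ, mul_assoc]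

/-- `R((q))` is completely integrally closed in `ℚ((q))`. -/
theorem mem_intSubring_of_forall_mul_pow {x d : LaurentSeries ℚ} (hd : d ≠ 0)
    (h : ∀ m : ℕ, d * x ^ m ∈ intSubring ℓ) : x ∈ intSubring ℓ := by
  classical
  by_contra hx
  rw [mem_intSubring_iff] at hx
  push Not at hx
  obtain ⟨n₀, hn₀, hmin⟩ := Int.exists_least_of_bdd
    (P := fun n => x.coeff n ∉ GaloisRep.ratLocalizedAt ℓ)
    ⟨x.order, fun z hz => HahnSeries.order_le_of_coeff_ne_zero
      (fun h0 => hz (h0 ▸ (GaloisRep.ratLocalizedAt ℓ).zero_mem))⟩ hx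
  set x' := HahnSeries.truncLT n₀ x with hx'
  have hx'int : x' ∈ intSubring ℓ := by
    rw [mem_intSubring_iff]
    intro n
    rcases lt_or_ge n n₀ with hn | hn
    · rw [hx', HahnSeries.coeff_truncLT_of_lt hn]
      by_contra hc
      exact absurd (hmin n hc) (not_le.mpr hn)
    · rw [hx', HahnSeries.coeff_truncLT_of_le hn]
      exact (GaloisRep.ratLocalizedAt ℓ).zero_mem
  set z := x - x' with hz
  have hzlt : ∀ n < n₀, z.coeff n = 0 := by
    intro n hn
    rw [hz, HahnSeries.coeff_sub, hx', HahnSeries.coeff_truncLT_of_lt hn, sub_self]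
  have hzn₀ : z.coeff n₀ = x.coeff n₀ := by
    rw [hz, HahnSeries.coeff_sub, hx', HahnSeries.coeff_truncLT_of_le le_rfl, sub_zero]
  have hc0 : x.coeff n₀ ≠ 0 := fun h0 => hn₀ (h0 ▸ (GaloisRep.ratLocalizedAt ℓ).zero_mem)
  have hz0 : z ≠ 0 := by
    intro h0
    rw [h0] at hzn₀
    exact hc0 hzn₀.symm
  have hzord : z.order = n₀ := by
    apply le_antisymm
    · exact HahnSeries.order_le_of_coeff_ne_zero (by rw [hzn₀]; exact hc0)
    · by_contra hlt
      exact (HahnSeries.coeff_order_eq_zero.not.mpr hz0) (hzlt _ (not_le.mp hlt))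
  have hzlead : z.leadingCoeff = x.coeff n₀ := by
    rw [HahnSeries.leadingCoeff_eq, hzord, hzn₀]
  have hzint : ∀ m : ℕ, d * z ^ m ∈ intSubring ℓ := by
    intro m
    rw [hz, sub_eq_add_neg, add_pow, Finset.mul_sum]
    refine Subring.sum_mem _ fun i _ => ?_
    have : d * (x ^ i * (-x') ^ (m - i) * (m.choose i : LaurentSeries ℚ)) =
        (d * x ^ i) * (-x') ^ (m - i) * (m.choose i : LaurentSeries ℚ) := by ring
    rw [this]
    exact Subring.mul_mem _ (Subring.mul_mem _ (h i)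
      (Subring.pow_mem _ (Subring.neg_mem _ hx'int) _)) (natCast_mem _ _)
  obtain ⟨m, hm⟩ := exists_pow_notMem ℓ hn₀ (HahnSeries.leadingCoeff_ne_zero.mpr hd)
  apply hm
  rw [← hzlead, ← leadingCoeff_mul_pow, HahnSeries.leadingCoeff_eq]
  exact (mem_intSubring_iff ℓ).mp (hzint m) _


/-- An element of `ℚ((q))` which is integral over `R((q))` and lies in its fraction field is
in `R((q))`. -/
theorem mem_intSubring_of_isIntegral {x a : LaurentSeries ℚ} (ha : a ≠ 0)
    (haA : a ∈ intSubring ℓ) (hax : a * x ∈ intSubring ℓ) (hx : IsIntegral (intSubring ℓ) x) :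
    x ∈ intSubring ℓ := by
  obtain ⟨p, hmonic, hroot⟩ := hx
  set n := p.natDegree with hn
  apply mem_intSubring_of_forall_mul_pow ℓ (pow_ne_zero n ha)
  intro m
  set r := (X ^ m : (intSubring ℓ)[X]) %ₘ p with hr
  have hxm : x ^ m = eval₂ (algebraMap (intSubring ℓ) (LaurentSeries ℚ)) x r := by
    have h1 := Polynomial.modByMonic_add_div (X ^ m : (intSubring ℓ)[X]) p
    have h2 := congrArg (eval₂ (algebraMap (intSubring ℓ) (LaurentSeries ℚ)) x) h1
    rw [eval₂_add, eval₂_mul, hroot, zero_mul, add_zero, eval₂_pow, eval₂_X] at h2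
    exact h2.symm
  have hn0 : p ≠ 1 := by
    rintro rfl
    simp at hroot
  have hdeg : r.natDegree < n := Polynomial.natDegree_modByMonic_lt _ hmonic hn0
  rw [hxm, eval₂_eq_sum_range' _ hdeg, Finset.mul_sum]
  refine Subring.sum_mem _ fun i hi => ?_
  have hi' : i < n := Finset.mem_range.mp hi
  have : a ^ n * (algebraMap (intSubring ℓ) (LaurentSeries ℚ) (r.coeff i) * x ^ i) =
      algebraMap (intSubring ℓ) (LaurentSeries ℚ) (r.coeff i) * a ^ (n - i) * (a * x) ^ i := by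
    have h3 : a ^ n = a ^ (n - i) * a ^ i := by rw [← _root_.pow_add]; congr 1; omega
    rw [h3, mul_pow]; ring
  rw [this]
  exact Subring.mul_mem _ (Subring.mul_mem _ (r.coeff i).2 (Subring.pow_mem _ haA _))
    (Subring.pow_mem _ hax _)


lemma qExpand_jq_mem_intSubring (d : ℕ) [NeZero d] : qExpand ℚ d jq ∈ intSubring ℓ :=
  ⟨qExpand ℤℓ d (jqModC ℤℓ), by rw [coeffMap_qExpand, coeffMap_jqModC]; rfl⟩

lemma jq_mem_intSubring : jq ∈ intSubring ℓ :=
  ⟨jqModC ℤℓ, by rw [coeffMap_jqModC]; rfl⟩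

lemma algebraMap_int_mem_intSubring (c : ℤ) :
    algebraMap ℚ (LaurentSeries ℚ) (c : ℚ) ∈ intSubring ℓ := by
  have : algebraMap ℚ (LaurentSeries ℚ) (c : ℚ) = (c : LaurentSeries ℚ) := by simp
  rw [this]
  exact intCast_mem _ _

/-- Every element of the function field is a quotient of `ℓ`-integral Laurent series. -/
lemma exists_denominator (N : ℕ) {x : LaurentSeries ℚ}
    (hx : x ∈ modularFunctionFieldFull N) :
    ∃ a ∈ intSubring ℓ, a ≠ 0 ∧ a * x ∈ intSubring ℓ := by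
  unfold modularFunctionFieldFull at hx
  induction hx using IntermediateField.adjoin_induction with
  | mem x hx =>
    obtain ⟨d, hd, -, rfl⟩ := hx
    exact ⟨1, Subring.one_mem _, one_ne_zero, by rw [one_mul]; exact qExpand_jq_mem_intSubring ℓ d⟩
  | algebraMap c =>
    refine ⟨algebraMap ℚ (LaurentSeries ℚ) ((c.den : ℤ) : ℚ), algebraMap_int_mem_intSubring ℓ _, ?_, ?_⟩
    · rw [Ne, map_eq_zero]
      exact_mod_cast c.den_nz
    · rw [← map_mul]
      have : ((c.den : ℤ) : ℚ) * c = ((c.num : ℤ) : ℚ) := by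
        push_cast
        rw [mul_comm]; exact Rat.mul_den_eq_num c
      rw [this]
      exact algebraMap_int_mem_intSubring ℓ _
  | add x y _ _ hx hy =>
    obtain ⟨a, haA, ha0, hax⟩ := hx
    obtain ⟨b, hbA, hb0, hby⟩ := hy
    refine ⟨a * b, Subring.mul_mem _ haA hbA, mul_ne_zero ha0 hb0, ?_⟩
    have : a * b * (x + y) = b * (a * x) + a * (b * y) := by ring
    rw [this]
    exact Subring.add_mem _ (Subring.mul_mem _ hbA hax) (Subring.mul_mem _ haA hby)
  | inv x _ hx =>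
    obtain ⟨a, haA, ha0, hax⟩ := hx
    rcases eq_or_ne x 0 with rfl | hx0
    · exact ⟨1, Subring.one_mem _, one_ne_zero, by simp⟩
    · refine ⟨a * x, hax, mul_ne_zero ha0 hx0, ?_⟩
      rw [mul_assoc, mul_inv_cancel₀ hx0, mul_one]
      exact haA
  | mul x y _ _ hx hy =>
    obtain ⟨a, haA, ha0, hax⟩ := hx
    obtain ⟨b, hbA, hb0, hby⟩ := hy
    refine ⟨a * b, Subring.mul_mem _ haA hbA, mul_ne_zero ha0 hb0, ?_⟩
    have : a * b * (x * y) = (a * x) * (b * y) := by ring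
    rw [this]
    exact Subring.mul_mem _ hax hby


open scoped ModularCurve.IgusaScheme
open ModularCurve.IgusaScheme

lemma algebraMap_mem_intSubring (a : ℤℓ) :
    algebraMap ℚ (LaurentSeries ℚ) (a : ℚ) ∈ intSubring ℓ :=
  ⟨HahnSeries.single 0 a, by rw [coeffMap_single, algebraMap_apply_eq_single]; rfl⟩

variable (N : ℕ) [NeZero N]

lemma coe_algebraMap_igusa (a : ℤℓ) :
    ((algebraMap ℤℓ ↥(modularFunctionFieldFull N) a : ↥(modularFunctionFieldFull N)) :
      LaurentSeries ℚ) = algebraMap ℚ (LaurentSeries ℚ) (a : ℚ) := by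
  have h : (algebraMap ↥(modularFunctionFieldFull N) (LaurentSeries ℚ)).comp
      (algebraMap ℚ ↥(modularFunctionFieldFull N)) = algebraMap ℚ (LaurentSeries ℚ) :=
    Subsingleton.elim _ _
  exact congrArg (fun f => f (a : ℚ)) h

lemma coe_mem_intSubring_of_mem_adjoin {S : Set ↥(modularFunctionFieldFull N)}
    (hS : ∀ s ∈ S, (s : LaurentSeries ℚ) ∈ intSubring ℓ) {x : ↥(modularFunctionFieldFull N)}
    (hx : x ∈ Algebra.adjoin ℤℓ S) : (x : LaurentSeries ℚ) ∈ intSubring ℓ := by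
  induction hx using Algebra.adjoin_induction with
  | mem y hy => exact hS y hy
  | algebraMap a => rw [coe_algebraMap_igusa]; exact algebraMap_mem_intSubring ℓ a
  | add y z _ _ hy hz => exact Subring.add_mem _ hy hz
  | mul y z _ _ hy hz => exact Subring.mul_mem _ hy hz

/-- **Claim (a)**: the chart algebras consist of `ℓ`-integral Laurent series. -/
theorem coe_mem_intSubring_of_mem_chartAlg {S : Set ↥(modularFunctionFieldFull N)}
    (hS : ∀ s ∈ S, (s : LaurentSeries ℚ) ∈ intSubring ℓ) {x : ↥(modularFunctionFieldFull N)}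
    (hx : x ∈ chartAlg N ℓ S) : (x : LaurentSeries ℚ) ∈ intSubring ℓ := by
  obtain ⟨a, haA, ha0, hax⟩ := exists_denominator ℓ N x.2
  refine mem_intSubring_of_isIntegral ℓ ha0 haA hax ?_
  rw [mem_chartAlg_iff] at hx
  let φ : Algebra.adjoin ℤℓ S →+* intSubring ℓ :=
    ((algebraMap ↥(modularFunctionFieldFull N) (LaurentSeries ℚ)).comp
      (Algebra.adjoin ℤℓ S).val.toRingHom).codRestrict
      (intSubring ℓ) (fun y => coe_mem_intSubring_of_mem_adjoin ℓ N hS y.2)
  exact hx.map_of_comp_eq φ (algebraMap ↥(modularFunctionFieldFull N) (LaurentSeries ℚ))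
    (by ext; rfl)

end Fermat.Agent.S28.QEP
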