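import Fermat.Agent.S28.Interface
import Fermat.Agent.S28.QEPLaurent

set_option linter.unusedSectionVars false

namespace Fermat.Agent.S28.QEP

open ModularCurve ModularCurve.IgusaScheme
open scoped TensorProduct

variable (ℓ : ℕ) [Fact ℓ.Prime]

set_option quotPrecheck false in
local notation "ℤℓ" => ↥(GaloisRep.ratLocalizedAt ℓ)

/-- every residue of an `ℓ`-integral rational number in a field of characteristic `ℓ` lies in
the prime field. -/
lemma exists_zmod_eq (K : Type*) [Field K] [CharP K ℓ] [Algebra ↥(GaloisRep.ratLocalizedAt ℓ) K]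
    (r : ℤℓ) : ∃ a : ZMod ℓ, algebraMap ℤℓ K r = ZMod.castHom (dvd_refl ℓ) K a := by
  have hℓ : ℓ.Prime := Fact.out
  have h1 : (((r : ℚ).den : ℕ) : ℤℓ) * r = (((r : ℚ).num : ℤ) : ℤℓ) := by
    apply Subtype.ext
    push_cast
    exact Rat.den_mul_eq_num _
  have h2 := congrArg (algebraMap ℤℓ K) h1
  rw [map_mul, map_natCast, map_intCast] at h2
  have hcop : (r : ℚ).den.Coprime ℓ := r.2
  have hnd : ¬ ℓ ∣ (r : ℚ).den := by
    intro hd
    exact hℓ.one_lt.ne' (Nat.Coprime.eq_one_of_dvd hcop.symm hd)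
  have h3 : (((r : ℚ).den : ℕ) : K) ≠ 0 := by
    rw [Ne, CharP.cast_eq_zero_iff K ℓ]
    exact hnd
  refine ⟨(((r : ℚ).num : ℤ) : ZMod ℓ) / (((r : ℚ).den : ℕ) : ZMod ℓ), ?_⟩
  rw [map_div₀, map_intCast, map_natCast, eq_div_iff h3, mul_comm]
  exact h2

section tensor

variable {B : Type*} [CommRing B] [Algebra ↥(GaloisRep.ratLocalizedAt ℓ) B]
  (K : Type*) [Field K] [CharP K ℓ] [Algebra ↥(GaloisRep.ratLocalizedAt ℓ) K]

/-- Every element of `B ⊗ K` is a combination of the vectors of an `𝔽_ℓ`-basis of `K` with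
coefficients in `B`. -/
lemma exists_finsupp_rep {I : Type*} (e : I → K)
    (he : ∀ c : K, ∃ a : I →₀ ℕ, c = a.sum fun i m => (m : K) * e i) (z : B ⊗[ℤℓ] K) :
    ∃ f : I →₀ B, z = f.sum fun i x => x ⊗ₜ[ℤℓ] e i := by
  classical
  induction z using TensorProduct.induction_on with
  | zero => exact ⟨0, by simp⟩
  | tmul x c =>
    obtain ⟨a, rfl⟩ := he c
    refine ⟨a.mapRange (fun m : ℕ => (m : B) * x) (by simp), ?_⟩
    rw [Finsupp.sum_mapRange_index (by simp), Finsupp.sum, TensorProduct.tmul_sum, Finsupp.sum]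
    refine Finset.sum_congr rfl fun i _ => ?_
    have h1 : ((a i : ℕ) : K) * e i = ((a i : ℕ) : ℤℓ) • e i := by
      rw [Algebra.smul_def, map_natCast]
    have h2 : ((a i : ℕ) : B) * x = ((a i : ℕ) : ℤℓ) • x := by
      rw [Algebra.smul_def, map_natCast]
    rw [h1, h2, TensorProduct.tmul_smul, TensorProduct.smul_tmul']
  | add z w hz hw =>
    obtain ⟨f, rfl⟩ := hz
    obtain ⟨g, rfl⟩ := hw
    refine ⟨f + g, ?_⟩
    rw [Finsupp.sum_add_index' (by simp) (by intro i x y; rw [TensorProduct.add_tmul])]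

/-- **Lemma T.**  If `B` maps to `R((q))` in such a way that an element all of whose coefficients
are divisible by `ℓ` is divisible by `ℓ` in `B`, then `B ⊗ K` embeds into `K((q))`. -/
theorem isDomain_tensor_of_hom (ψ : B →+* LaurentSeries ℤℓ)
    (hψC : ∀ r : ℤℓ, ψ (algebraMap ℤℓ B r) = HahnSeries.C r)
    (hψ : ∀ x : B, (∀ n, ((ℓ : ℕ) : ℤℓ) ∣ (ψ x).coeff n) → ∃ y : B, x = ((ℓ : ℕ) : ℤℓ) • y) :
    IsDomain (B ⊗[ℤℓ] K) := by
  classical
  let _ := ZMod.algebra K ℓ
  let e := Module.Basis.ofVectorSpace (ZMod ℓ) K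
  have he : ∀ c : K, ∃ a : _ →₀ ℕ, c = a.sum fun i m => (m : K) * e i := by
    intro c
    refine ⟨(e.repr c).mapRange ZMod.val (by simp), ?_⟩
    rw [Finsupp.sum_mapRange_index (by simp)]
    conv_lhs => rw [← e.linearCombination_repr c, Finsupp.linearCombination_apply]
    refine Finsupp.sum_congr fun i _ => ?_
    rw [Algebra.smul_def, ZMod.natCast_val]
    rfl
  let alg : Algebra ℤℓ (LaurentSeries K) :=
    ((HahnSeries.C : K →+* LaurentSeries K).comp (algebraMap ℤℓ K)).toAlgebra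
  let f₁ : B →ₐ[ℤℓ] LaurentSeries K :=
    { (coeffMap (algebraMap ℤℓ K)).comp ψ with
      commutes' := fun r => by
        show coeffMap (algebraMap ℤℓ K) (ψ (algebraMap ℤℓ B r)) =
          HahnSeries.C (algebraMap ℤℓ K r)
        rw [hψC, HahnSeries.C_apply, coeffMap_single, HahnSeries.C_apply] }
  let f₂ : K →ₐ[ℤℓ] LaurentSeries K :=
    { (HahnSeries.C : K →+* LaurentSeries K) with
      commutes' := fun r => rfl }
  let Ψ := Algebra.TensorProduct.productMap f₁ f₂
  have hinj : Function.Injective Ψ := by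
    rw [injective_iff_map_eq_zero]
    intro z hz
    obtain ⟨f, rfl⟩ := exists_finsupp_rep ℓ K e he z
    rw [Finsupp.sum, map_sum] at hz
    have hterm : ∀ i, Ψ (f i ⊗ₜ e i) =
        coeffMap (algebraMap ℤℓ K) (ψ (f i)) * HahnSeries.C (e i) := by
      intro i
      rw [Algebra.TensorProduct.productMap_apply_tmul]
      rfl
    have hcoef : ∀ n, ∑ i ∈ f.support, algebraMap ℤℓ K ((ψ (f i)).coeff n) * e i = 0 := by
      intro n
      have := congrArg (fun w => w.coeff n) hz
      simp only [hterm, HahnSeries.coeff_sum, HahnSeries.coeff_zero] at this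
      rw [← this]
      refine Finset.sum_congr rfl fun i _ => ?_
      rw [mul_comm _ (HahnSeries.C (e i)), HahnSeries.C_mul_eq_smul, HahnSeries.coeff_smul,
        smul_eq_mul, mul_comm]
      rfl
    choose a ha using exists_zmod_eq ℓ K
    have hzero : ∀ n, ∀ i ∈ f.support, a ((ψ (f i)).coeff n) = 0 := by
      intro n
      apply linearIndependent_iff'.mp e.linearIndependent f.support
        (fun i => a ((ψ (f i)).coeff n))
      rw [← hcoef n]
      refine Finset.sum_congr rfl fun i _ => ?_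
      rw [Algebra.smul_def, ha]
      rfl
    apply Finset.sum_eq_zero
    intro i hi
    obtain ⟨y, hy⟩ := hψ (f i) (fun n => by
      rw [← algebraMap_eq_zero_iff ℓ (k := K), ha, hzero n i hi, map_zero])
    show f i ⊗ₜ[ℤℓ] e i = 0
    rw [hy, TensorProduct.smul_tmul, Algebra.smul_def, map_natCast, CharP.cast_eq_zero,
      zero_mul, TensorProduct.tmul_zero]
  exact hinj.isDomain Ψ

end tensor

/-- `R((q))` is isomorphic to the subring of `ℓ`-integral series in `ℚ((q))`. -/
noncomputable def intEquiv : LaurentSeries ℤℓ ≃+* intSubring ℓ :=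
  RingEquiv.ofBijective (coeffMap (algebraMap ℤℓ ℚ)).rangeRestrict
    ⟨fun _ _ h => coeffMap_algebraMap_injective ℓ (congrArg Subtype.val h),
      RingHom.rangeRestrict_surjective _⟩

lemma coeffMap_intEquiv_symm (x : intSubring ℓ) :
    coeffMap (algebraMap ℤℓ ℚ) ((intEquiv ℓ).symm x) = x := by
  have := congrArg Subtype.val ((intEquiv ℓ).apply_symm_apply x)
  exact this

lemma coe_algebraMap_igusa' (N : ℕ) (a : ℤℓ) :
    ((algebraMap ℤℓ ↥(modularFunctionFieldFull N) a : ↥(modularFunctionFieldFull N)) :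
      LaurentSeries ℚ) = algebraMap ℚ (LaurentSeries ℚ) (a : ℚ) := by
  have h : (algebraMap ↥(modularFunctionFieldFull N) (LaurentSeries ℚ)).comp
      (algebraMap ℚ ↥(modularFunctionFieldFull N)) = algebraMap ℚ (LaurentSeries ℚ) :=
    Subsingleton.elim _ _
  exact congrArg (fun f => f (a : ℚ)) h

end Fermat.Agent.S28.QEP

namespace Fermat.Agent.S28

open ModularCurve ModularCurve.IgusaScheme QEP
open scoped TensorProduct

theorem wp10 : WP10 := by
  intro N ℓ _ S hQ K _ _ _
  obtain ⟨h1, h2⟩ := hQ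
  let ψ₀ : chartAlg N ℓ S →+* intSubring ℓ :=
    ((algebraMap ↥(modularFunctionFieldFull N) (LaurentSeries ℚ)).comp
      (chartAlg N ℓ S).val.toRingHom).codRestrict (intSubring ℓ)
      (fun x => (mem_intSubring_iff ℓ).mpr (h1 x x.2))
  let ψ : chartAlg N ℓ S →+* LaurentSeries ↥(GaloisRep.ratLocalizedAt ℓ) :=
    ((intEquiv ℓ).symm : intSubring ℓ →+* LaurentSeries ↥(GaloisRep.ratLocalizedAt ℓ)).comp ψ₀
  have hψ : ∀ x : chartAlg N ℓ S, coeffMap (algebraMap ↥(GaloisRep.ratLocalizedAt ℓ) ℚ) (ψ x) =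
      ((x : ↥(modularFunctionFieldFull N)) : LaurentSeries ℚ) := by
    intro x
    exact coeffMap_intEquiv_symm ℓ (ψ₀ x)
  refine isDomain_tensor_of_hom ℓ K ψ ?_ ?_
  · intro r
    apply coeffMap_algebraMap_injective ℓ
    rw [hψ, HahnSeries.C_apply, coeffMap_single]
    exact (coe_algebraMap_igusa' ℓ N r).trans (algebraMap_apply_eq_single _)
  · intro x hx
    obtain ⟨y, hy, hxy⟩ := h2 x x.2 (fun n => by
      obtain ⟨r, hr⟩ := hx n
      refine ⟨r, r.2, ?_⟩
      rw [← hψ]
      have h3 : (((ψ x).coeff n : ↥(GaloisRep.ratLocalizedAt ℓ)) : ℚ) = (ℓ : ℚ) * (r : ℚ) := by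
        have := congrArg Subtype.val hr
        simpa using this
      exact h3)
    refine ⟨⟨y, hy⟩, Subtype.ext ?_⟩
    rw [hxy]
    show _ = ((ℓ : ℕ) : ↥(GaloisRep.ratLocalizedAt ℓ)) • y
    rw [Algebra.smul_def, map_natCast]

end Fermat.Agent.S28
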