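import Fermat.Statements.S28

set_option autoImplicit false

open AlgebraicGeometry CategoryTheory CategoryTheory.Limits ModularCurve ModularCurve.IgusaScheme
open scoped TensorProduct

noncomputable section

namespace Fermat.Agent.S28

universe u

/-- A scheme with an open cover by integral schemes whose images pairwise meet is integral. -/
theorem isIntegral_of_openCover {Y : Scheme.{u}} (𝒰 : Y.OpenCover) [Nonempty 𝒰.I₀]
    (hint : ∀ i, IsIntegral (𝒰.X i))
    (hmeet : ∀ i j, (Set.range (𝒰.f i) ∩ Set.range (𝒰.f j)).Nonempty) :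
    IsIntegral Y := by
  have hred : IsReduced Y := IsReduced.of_openCover Y 𝒰
  have hpre : PreirreducibleSpace Y := by
    refine PreirreducibleSpace.of_isOpenCover (U := fun i => (𝒰.f i).opensRange) ?_ ?_ ?_
    · intro i j _
      rw [Function.onFun]
      intro hdis
      obtain ⟨x, hx1, hx2⟩ := hmeet i j
      have := (TopologicalSpace.Opens.coe_disjoint.mpr hdis)
      exact Set.disjoint_iff.mp this ⟨hx1, hx2⟩
    · exact 𝒰.isOpenCover_opensRange
    · intro i
      have h1 : IrreducibleSpace (𝒰.X i) := inferInstance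
      have h2 : IsIrreducible (Set.range (𝒰.f i)) := by
        rw [← Set.image_univ]
        exact (IrreducibleSpace.isIrreducible_univ _).image _ (𝒰.f i).continuous.continuousOn
      exact (Subtype.preirreducibleSpace h2.isPreirreducible)
  have hne : Nonempty Y := by
    obtain ⟨i⟩ := ‹Nonempty 𝒰.I₀›
    have : Nonempty (𝒰.X i) := inferInstance
    exact this.map (𝒰.f i)
  have : IrreducibleSpace Y := { toPreirreducibleSpace := hpre, toNonempty := hne }
  exact isIntegral_of_irreducibleSpace_of_isReduced Y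

/-- Fibre products of affine schemes whose tensor product is a domain are integral. -/
theorem isIntegral_pullback_Spec (R S T : Type u) [CommRing R] [CommRing S] [CommRing T]
    [Algebra R S] [Algebra R T] [IsDomain (S ⊗[R] T)] :
    IsIntegral (pullback (Spec.map (CommRingCat.ofHom (algebraMap R S)))
      (Spec.map (CommRingCat.ofHom (algebraMap R T)))) :=
  IsIntegral.of_isIso (pullbackSpecIso R S T).inv

/-- Variant of `isIntegral_pullback_Spec` for a morphism only propositionally equal to the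
structure morphism. -/
theorem isIntegral_pullback_chart (R S T : Type u) [CommRing R] [CommRing S] [CommRing T]
    [Algebra R S] [Algebra R T] [IsDomain (S ⊗[R] T)]
    (t : Spec (CommRingCat.of S) ⟶ Spec (CommRingCat.of R))
    (ht : t = Spec.map (CommRingCat.ofHom (algebraMap R S))) :
    IsIntegral (pullback t (Spec.map (CommRingCat.ofHom (algebraMap R T)))) := by
  subst ht
  exact isIntegral_pullback_Spec R S T

/-- Family version of `isIntegral_of_openCover`. -/
theorem isIntegral_of_family {Y : Scheme.{u}} {ι : Type*} [Nonempty ι] (X : ι → Scheme.{u})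
    (f : ∀ i, X i ⟶ Y) (hf : ∀ i, IsOpenImmersion (f i)) (hcov : ∀ y : Y, ∃ i x, f i x = y)
    (hint : ∀ i, IsIntegral (X i))
    (hmeet : ∀ i j, (Set.range (f i) ∩ Set.range (f j)).Nonempty) :
    IsIntegral Y :=
  @isIntegral_of_openCover Y (Scheme.Cover.mkOfCovers ι X f hcov hf) ‹_› hint hmeet

theorem range_pullback_map_left {X' X Y Z : Scheme.{u}} (c : X' ⟶ X) (f : X ⟶ Z) (g : Y ⟶ Z) :
    Set.range (pullback.map (c ≫ f) g f g c (𝟙 Y) (𝟙 Z) (by simp) (by simp)) =
      pullback.fst f g ⁻¹' Set.range c := by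
  rw [Scheme.Pullback.range_map]
  simp

/-- Integrality of a fibre product can be checked on an open cover of the left factor having a
member contained in all the others. -/
theorem isIntegral_pullback_of_cover {X Y Z : Scheme.{u}} (𝒰 : X.OpenCover) (f : X ⟶ Z)
    (g : Y ⟶ Z) (i₀ : 𝒰.I₀) (hint : ∀ i, IsIntegral (pullback (𝒰.f i ≫ f) g))
    (hsub : ∀ i, Set.range (𝒰.f i₀) ⊆ Set.range (𝒰.f i)) :
    IsIntegral (pullback f g) := by
  have hne : Nonempty 𝒰.I₀ := ⟨i₀⟩
  refine isIntegral_of_family (fun i : 𝒰.I₀ => pullback (𝒰.f i ≫ f) g)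
    (fun i => pullback.map (𝒰.f i ≫ f) g f g (𝒰.f i) (𝟙 Y) (𝟙 Z) (by simp) (by simp))
    (fun i => (Scheme.Pullback.openCoverOfLeft 𝒰 f g).map_prop i)
    (fun y => (Scheme.Pullback.openCoverOfLeft 𝒰 f g).exists_eq y) hint ?_
  intro i j
  have h0 : Nonempty ↑(pullback (𝒰.f i₀ ≫ f) g) := by
    have := hint i₀
    infer_instance
  obtain ⟨x⟩ := h0
  have hx : pullback.map (𝒰.f i₀ ≫ f) g f g (𝒰.f i₀) (𝟙 Y) (𝟙 Z) (by simp) (by simp) x ∈
      Set.range (pullback.map (𝒰.f i₀ ≫ f) g f g (𝒰.f i₀) (𝟙 Y) (𝟙 Z) (by simp) (by simp)) :=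
    ⟨x, rfl⟩
  rw [range_pullback_map_left] at hx
  refine ⟨pullback.map (𝒰.f i₀ ≫ f) g f g (𝒰.f i₀) (𝟙 Y) (𝟙 Z) (by simp) (by simp) x, ?_, ?_⟩
  · rw [range_pullback_map_left]; exact hsub i hx
  · rw [range_pullback_map_left]; exact hsub j hx

section Igusa

variable (N : ℕ) [NeZero N] (ℓ : ℕ) [Fact ℓ.Prime]

theorem mid_igusaTo :
    (fFin N ℓ ≫ ιFin N ℓ) ≫ igusaTo N ℓ =
      Spec.map (CommRingCat.ofHom
        (algebraMap ↥(GaloisRep.ratLocalizedAt ℓ) (chartAlgMid N ℓ))) := by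
  rw [Category.assoc, ιFin_igusaTo, ← Spec.map_comp, ← CommRingCat.ofHom_comp]
  congr 2

theorem ι_zero_eq_left :
    colimit.ι (span (fFin N ℓ) (fInf N ℓ)) WalkingSpan.zero = fFin N ℓ ≫ ιFin N ℓ :=
  (colimit.w (span (fFin N ℓ) (fInf N ℓ)) WalkingSpan.Hom.fst).symm

theorem ι_zero_eq_right :
    colimit.ι (span (fFin N ℓ) (fInf N ℓ)) WalkingSpan.zero = fInf N ℓ ≫ ιInf N ℓ :=
  (colimit.w (span (fFin N ℓ) (fInf N ℓ)) WalkingSpan.Hom.snd).symm

theorem isIntegral_pullback_of_isDomain (K : Type) [Field K]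
    [Algebra ↥(GaloisRep.ratLocalizedAt ℓ) K]
    (hFin : IsDomain (↥(chartAlgFin N ℓ) ⊗[↥(GaloisRep.ratLocalizedAt ℓ)] K))
    (hInf : IsDomain (↥(chartAlgInf N ℓ) ⊗[↥(GaloisRep.ratLocalizedAt ℓ)] K))
    (hMid : IsDomain (↥(chartAlgMid N ℓ) ⊗[↥(GaloisRep.ratLocalizedAt ℓ)] K)) :
    IsIntegral ↑(pullback (igusaTo N ℓ)
      (Spec.map (CommRingCat.ofHom (algebraMap ↥(GaloisRep.ratLocalizedAt ℓ) K)))) := by
  refine isIntegral_pullback_of_cover
    (Scheme.IsLocallyDirected.openCover (span (fFin N ℓ) (fInf N ℓ))) (igusaTo N ℓ) _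
    WalkingSpan.zero ?_ ?_
  · intro i
    rcases i with (_ | _ | _)
    · exact isIntegral_pullback_chart ↥(GaloisRep.ratLocalizedAt ℓ) ↥(chartAlgMid N ℓ) K _
        ((congrArg (· ≫ igusaTo N ℓ) (ι_zero_eq_left N ℓ)).trans (mid_igusaTo N ℓ))
    · exact isIntegral_pullback_chart ↥(GaloisRep.ratLocalizedAt ℓ) ↥(chartAlgFin N ℓ) K _
        (ιFin_igusaTo N ℓ)
    · exact isIntegral_pullback_chart ↥(GaloisRep.ratLocalizedAt ℓ) ↥(chartAlgInf N ℓ) K _
        (ιInf_igusaTo N ℓ)
  · intro i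
    rcases i with (_ | _ | _)
    · exact subset_rfl
    · rintro _ ⟨x, rfl⟩
      refine ⟨(fFin N ℓ) x, ?_⟩
      have := congrArg (fun φ : XMid N ℓ ⟶ ModularCurve.IgusaScheme N ℓ => φ x)
        (ι_zero_eq_left N ℓ)
      exact this.symm
    · rintro _ ⟨x, rfl⟩
      refine ⟨(fInf N ℓ) x, ?_⟩
      have := congrArg (fun φ : XMid N ℓ ⟶ ModularCurve.IgusaScheme N ℓ => φ x)
        (ι_zero_eq_right N ℓ)
      exact this.symm

end Igusa

end Fermat.Agent.S28
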