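import Fermat.Agent.S28.Interface
import Fermat.Agent.S28.Glue

set_option autoImplicit false

open AlgebraicGeometry CategoryTheory CategoryTheory.Limits ModularCurve ModularCurve.IgusaScheme
open scoped TensorProduct

noncomputable section

namespace Fermat.Agent.S28

universe u

theorem isOpenImmersion_pullback_map_left {X' X Y Z : Scheme.{u}} (c : X' ⟶ X)
    [IsOpenImmersion c] (f : X ⟶ Z) (g : Y ⟶ Z) :
    IsOpenImmersion (pullback.map (c ≫ f) g f g c (𝟙 Y) (𝟙 Z) (by simp) (by simp)) := by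
  have : pullback.map (c ≫ f) g f g c (𝟙 Y) (𝟙 Z) (by simp) (by simp) =
      (pullbackSymmetry _ _).hom ≫ (pullbackLeftPullbackSndIso _ _ _).inv ≫
        pullback.fst _ _ ≫ (pullbackSymmetry _ _).hom := by
    apply pullback.hom_ext
    · simp [pullback.map]
      exact pullback.lift_fst _ _ _
    · simp [pullback.map]
      exact pullback.lift_snd _ _ _
  rw [this]
  infer_instance

/-- An open subscheme chart of an integral fibre product is integral as soon as it is nonempty. -/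
theorem isIntegral_pullback_comp_of_nonempty {X' X Y Z : Scheme.{u}} (c : X' ⟶ X)
    [IsOpenImmersion c] (f : X ⟶ Z) (g : Y ⟶ Z) [IsIntegral (pullback f g)]
    [Nonempty ↑(pullback (c ≫ f) g)] : IsIntegral (pullback (c ≫ f) g) := by
  have := isOpenImmersion_pullback_map_left c f g
  exact isIntegral_of_isOpenImmersion
    (pullback.map (c ≫ f) g f g c (𝟙 Y) (𝟙 Z) _ _)

theorem nonempty_pullback_Spec (R S T : Type u) [CommRing R] [CommRing S] [CommRing T]
    [Algebra R S] [Algebra R T] [Nontrivial (S ⊗[R] T)] :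
    Nonempty ↑(pullback (Spec.map (CommRingCat.ofHom (algebraMap R S)))
      (Spec.map (CommRingCat.ofHom (algebraMap R T)))) := by
  have h : Nonempty ↑(Spec (CommRingCat.of (S ⊗[R] T))) :=
    inferInstanceAs (Nonempty (PrimeSpectrum (S ⊗[R] T)))
  exact h.map (pullbackSpecIso R S T).inv

theorem isDomain_of_isIntegral_pullback_Spec (R S T : Type u) [CommRing R] [CommRing S]
    [CommRing T] [Algebra R S] [Algebra R T]
    (h : IsIntegral (pullback (Spec.map (CommRingCat.ofHom (algebraMap R S)))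
      (Spec.map (CommRingCat.ofHom (algebraMap R T))))) : IsDomain (S ⊗[R] T) := by
  have h2 : IsIntegral (Spec (CommRingCat.of (S ⊗[R] T))) :=
    IsIntegral.of_isIso (pullbackSpecIso R S T).hom
  exact (affine_isIntegral_iff (CommRingCat.of (S ⊗[R] T))).mp h2

theorem isDomain_mid (N : ℕ) [NeZero N] (ℓ : ℕ) [Fact ℓ.Prime] (K : Type) [Field K]
    [Algebra ↥(GaloisRep.ratLocalizedAt ℓ) K]
    (hFin : IsDomain (↥(chartAlgFin N ℓ) ⊗[↥(GaloisRep.ratLocalizedAt ℓ)] K))
    (hMid : Nontrivial (↥(chartAlgMid N ℓ) ⊗[↥(GaloisRep.ratLocalizedAt ℓ)] K)) :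
    IsDomain (↥(chartAlgMid N ℓ) ⊗[↥(GaloisRep.ratLocalizedAt ℓ)] K) := by
  apply isDomain_of_isIntegral_pullback_Spec
  have e : fFin N ℓ ≫ Spec.map (CommRingCat.ofHom
        (algebraMap ↥(GaloisRep.ratLocalizedAt ℓ) (chartAlgFin N ℓ))) =
      Spec.map (CommRingCat.ofHom
        (algebraMap ↥(GaloisRep.ratLocalizedAt ℓ) (chartAlgMid N ℓ))) := by
    rw [← Spec.map_comp, ← CommRingCat.ofHom_comp]
    congr 2
  rw [← e]
  have h1 := isIntegral_pullback_Spec ↥(GaloisRep.ratLocalizedAt ℓ) ↥(chartAlgFin N ℓ) K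
  have h2 : Nonempty ↑(pullback (fFin N ℓ ≫ Spec.map (CommRingCat.ofHom
        (algebraMap ↥(GaloisRep.ratLocalizedAt ℓ) (chartAlgFin N ℓ))))
      (Spec.map (CommRingCat.ofHom (algebraMap ↥(GaloisRep.ratLocalizedAt ℓ) K)))) := by
    rw [e]
    exact nonempty_pullback_Spec ↥(GaloisRep.ratLocalizedAt ℓ) ↥(chartAlgMid N ℓ) K
  exact isIntegral_pullback_comp_of_nonempty (fFin N ℓ) _ _

theorem wp11 : WP11 := by
  intro N _ ℓ _ K _ _ hFin hInf hMid
  exact isIntegral_pullback_of_isDomain N ℓ K hFin hInf (isDomain_mid N ℓ K hFin hMid)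

end Fermat.Agent.S28
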