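/- S28: assembly of all work packages; everything except `WP9` is discharged here. -/
import Fermat.Agent.S28.BaseCase
import Fermat.Agent.S28.Factor
import Fermat.Agent.S28.NewPrime
import Fermat.Agent.S28.Lower
import Fermat.Agent.S28.Upper
import Fermat.Agent.S28.Tower
import Fermat.Agent.S28.QEPTensor
import Fermat.Agent.S28.WP11
import Fermat.Agent.S28.FN7f

set_option autoImplicit false

open AlgebraicGeometry CategoryTheory CategoryTheory.Limits ModularCurve ModularCurve.IgusaScheme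

noncomputable section

namespace Fermat.Agent.S28

theorem towerData (ℓ : ℕ) [Fact ℓ.Prime] (N : ℕ) (hN : 0 < N) (hℓN : ¬ ℓ ∣ N) : TowerData ℓ N :=
  wptower (wp7 (wp6 wp4 wp5)) (wp8 wp5) ℓ N hN hℓN
    (fun _ hr _ => ⟨FN7.hasModPoly _ hr, FN7.hasUnitPoly _ hr⟩)

set_option maxHeartbeats 4000000 in
set_option synthInstance.maxHeartbeats 400000 in
theorem main_of_wp9 (h9 : WP9)
    (N : ℕ) [NeZero N] (ℓ : ℕ) [Fact ℓ.Prime] (hℓN : ¬ ℓ ∣ N)
    (K : Type) [Field K] [CharP K ℓ] [Algebra ↥(GaloisRep.ratLocalizedAt ℓ) K] :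
    IsIntegral ↑(pullback (igusaTo N ℓ)
      (Spec.map (CommRingCat.ofHom (algebraMap ↥(GaloisRep.ratLocalizedAt ℓ) K)))) := by
  obtain ⟨hfin, hinf, hmid⟩ := h9 N ℓ (towerData ℓ N (Nat.pos_of_ne_zero (NeZero.ne N)) hℓN)
    (fun _ hr _ => FN7.hasModPoly _ hr)
  have h1 := wp10 N ℓ _ hfin K
  have h2 := wp10 N ℓ _ hinf K
  have h3 := wp10 N ℓ _ hmid K
  exact wp11 N ℓ K h1 h2 h3.toNontrivial

end Fermat.Agent.S28
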