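import Fermat.Agent.S28.QEPInt

set_option linter.unusedSectionVars false
set_option linter.style.haveILetI false

namespace Fermat.Agent.S28.QEP

open ModularCurve ModularCurve.IgusaScheme Polynomial

section span

variable (ℓ : ℕ) [Fact ℓ.Prime]

set_option quotPrecheck false in
local notation "ℤℓ" => ↥(GaloisRep.ratLocalizedAt ℓ)

/-- Evaluation of polynomials over `ℤ_(ℓ)` at a Laurent series over `ℚ`. -/
noncomputable def evQ (t : LaurentSeries ℚ) : ℤℓ[X] →+* LaurentSeries ℚ :=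
  (evY t).comp (Polynomial.mapRingHom (algebraMap ℤℓ ℚ))

lemma evQ_apply (t : LaurentSeries ℚ) (p : ℤℓ[X]) :
    evQ ℓ t p = evY t (p.map (algebraMap ℤℓ ℚ)) := rfl

lemma evQ_C (t : LaurentSeries ℚ) (a : ℤℓ) :
    evQ ℓ t (Polynomial.C a) = HahnSeries.C (a : ℚ) := by
  rw [evQ_apply, Polynomial.map_C, evY_apply, Polynomial.eval₂_C]
  rfl

lemma evQ_X (t : LaurentSeries ℚ) : evQ ℓ t Polynomial.X = t := by
  rw [evQ_apply, Polynomial.map_X, evY_apply, Polynomial.eval₂_X]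

lemma exists_frac_of_mem_adjoin {t c : LaurentSeries ℚ}
    (hc : c ∈ IntermediateField.adjoin ℚ {t}) :
    ∃ h g : ℤℓ[X], evQ ℓ t h ≠ 0 ∧ evQ ℓ t h * c = evQ ℓ t g := by
  induction hc using IntermediateField.adjoin_induction with
  | mem x hx =>
    rw [Set.mem_singleton_iff.mp hx]
    exact ⟨1, Polynomial.X, by rw [map_one]; exact one_ne_zero, by rw [map_one, one_mul, evQ_X]⟩
  | algebraMap c =>
    refine ⟨Polynomial.C ((c.den : ℕ) : ℤℓ), Polynomial.C ((c.num : ℤ) : ℤℓ), ?_, ?_⟩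
    · rw [evQ_C, Ne, map_eq_zero]
      push_cast
      exact_mod_cast c.den_nz
    · rw [evQ_C, evQ_C, algebraMap_apply_eq_single, ← HahnSeries.C_apply, ← map_mul]
      congr 1
      push_cast
      exact Rat.den_mul_eq_num c
  | add x y _ _ hx hy =>
    obtain ⟨h₁, g₁, hh₁, e₁⟩ := hx
    obtain ⟨h₂, g₂, hh₂, e₂⟩ := hy
    refine ⟨h₁ * h₂, h₂ * g₁ + h₁ * g₂, ?_, ?_⟩
    · rw [map_mul]; exact mul_ne_zero hh₁ hh₂
    · rw [map_mul, map_add, map_mul, map_mul, ← e₁, ← e₂]; ring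
  | inv x _ hx =>
    obtain ⟨h₁, g₁, hh₁, e₁⟩ := hx
    rcases eq_or_ne x 0 with rfl | hx0
    · exact ⟨1, 0, by rw [map_one]; exact one_ne_zero, by simp⟩
    · refine ⟨g₁, h₁, ?_, ?_⟩
      · rw [← e₁]; exact mul_ne_zero hh₁ hx0
      · rw [← e₁, mul_assoc, mul_inv_cancel₀ hx0, mul_one]
  | mul x y _ _ hx hy =>
    obtain ⟨h₁, g₁, hh₁, e₁⟩ := hx
    obtain ⟨h₂, g₂, hh₂, e₂⟩ := hy
    refine ⟨h₁ * h₂, g₁ * g₂, ?_, ?_⟩
    · rw [map_mul]; exact mul_ne_zero hh₁ hh₂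
    · rw [map_mul, map_mul, ← e₁, ← e₂]; ring

lemma exists_rel_of_mem_span {ι : Type} [Fintype ι] {t : LaurentSeries ℚ}
    (β : ι → LaurentSeries ℚ) {y : LaurentSeries ℚ}
    (hy : y ∈ Submodule.span (IntermediateField.adjoin ℚ {t}) (Set.range β)) :
    ∃ (h : ℤℓ[X]) (g : ι → ℤℓ[X]), evQ ℓ t h ≠ 0 ∧ evQ ℓ t h * y = ∑ i, evQ ℓ t (g i) * β i := by
  classical
  induction hy using Submodule.span_induction with
  | mem x hx =>
    obtain ⟨i, rfl⟩ := hx
    refine ⟨1, Pi.single i 1, by rw [map_one]; exact one_ne_zero, ?_⟩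
    rw [map_one, one_mul, Finset.sum_eq_single i]
    · rw [Pi.single_eq_same, map_one, one_mul]
    · intro j _ hj
      rw [Pi.single_eq_of_ne hj, map_zero, zero_mul]
    · intro hi
      exact absurd (Finset.mem_univ i) hi
  | zero => exact ⟨1, 0, by rw [map_one]; exact one_ne_zero, by simp⟩
  | add x y _ _ hx hy =>
    obtain ⟨h₁, g₁, hh₁, e₁⟩ := hx
    obtain ⟨h₂, g₂, hh₂, e₂⟩ := hy
    refine ⟨h₁ * h₂, fun i => h₂ * g₁ i + h₁ * g₂ i, ?_, ?_⟩
    · rw [map_mul]; exact mul_ne_zero hh₁ hh₂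
    · have : evQ ℓ t (h₁ * h₂) * (x + y) =
          evQ ℓ t h₂ * (evQ ℓ t h₁ * x) + evQ ℓ t h₁ * (evQ ℓ t h₂ * y) := by
        rw [map_mul]; ring
      rw [this, e₁, e₂, Finset.mul_sum, Finset.mul_sum, ← Finset.sum_add_distrib]
      refine Finset.sum_congr rfl fun i _ => ?_
      rw [map_add, map_mul, map_mul]; ring
  | smul c x _ hx =>
    obtain ⟨h₁, g₁, hh₁, e₁⟩ := hx
    obtain ⟨h₂, g₂, hh₂, e₂⟩ := exists_frac_of_mem_adjoin ℓ c.2
    refine ⟨h₂ * h₁, fun i => g₂ * g₁ i, ?_, ?_⟩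
    · rw [map_mul]; exact mul_ne_zero hh₂ hh₁
    · have : evQ ℓ t (h₂ * h₁) * (c • x) =
          (evQ ℓ t h₂ * (c : LaurentSeries ℚ)) * (evQ ℓ t h₁ * x) := by
        rw [map_mul, IntermediateField.smul_def, smul_eq_mul]; ring
      rw [this, e₁, e₂, Finset.mul_sum]
      refine Finset.sum_congr rfl fun i _ => ?_
      rw [map_mul]; ring

end span

section indep

lemma C_eq_algebraMap {k : Type} [Field k] (a : k) :
    (HahnSeries.C a : LaurentSeries k) = algebraMap k (LaurentSeries k) a := by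
  have h1 : algebraMap k (PowerSeries k) a = PowerSeries.C a := by
    simp
  rw [HahnSeries.algebraMap_apply', h1, HahnSeries.ofPowerSeries_C]

lemma evY_mem_adjoin {k : Type} [Field k] (t : LaurentSeries k) (p : k[X]) :
    evY t p ∈ IntermediateField.adjoin k {t} := by
  rw [evY_apply, Polynomial.eval₂_eq_sum_range]
  refine sum_mem fun i _ => mul_mem ?_ (pow_mem (IntermediateField.mem_adjoin_simple_self k t) i)
  rw [C_eq_algebraMap]
  exact IntermediateField.algebraMap_mem _ _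

lemma indep_poly {k : Type} [Field k] {ι : Type} [Fintype ι] {N : ℕ} (hN : N ≠ 0)
    {β : ι → LaurentSeries k} (hβ : LinearIndependent (Ej k N) β) (g : ι → k[X])
    (hg : ∑ i, evY (jd k N) (g i) * β i = 0) : ∀ i, g i = 0 := by
  intro i
  have h1 := Fintype.linearIndependent_iff.mp hβ
    (fun i => ⟨evY (jd k N) (g i), evY_mem_adjoin (jd k N) (g i)⟩) hg i
  have h2 : evY (jd k N) (g i) = 0 := congrArg Subtype.val h1
  exact (evY_eq_zero_iff (order_jd_neg N hN) _).mp h2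

end indep

section strip

variable (ℓ : ℕ) [Fact ℓ.Prime]

set_option quotPrecheck false in
local notation "ℤℓ" => ↥(GaloisRep.ratLocalizedAt ℓ)

lemma strip {k : Type} [Field k] [Algebra ↥(GaloisRep.ratLocalizedAt ℓ) k] [CharP k ℓ]
    {ι : Type} [Fintype ι] (t : LaurentSeries ℤℓ) (β : ι → LaurentSeries ℤℓ)
    (hind : ∀ g : ι → k[X], ∑ i, evY (coeffMap (algebraMap ℤℓ k) t) (g i) *
      coeffMap (algebraMap ℤℓ k) (β i) = 0 → ∀ i, g i = 0)
    (y : LaurentSeries ℤℓ) (n : ℕ) : ∀ (h : ℤℓ[X]) (g : ι → ℤℓ[X]),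
      ¬ Polynomial.C ((ℓ : ℕ) : ℤℓ) ^ (n + 1) ∣ h → evY t h * y = ∑ i, evY t (g i) * β i →
      ∃ (h' : ℤℓ[X]) (g' : ι → ℤℓ[X]), ¬ Polynomial.C ((ℓ : ℕ) : ℤℓ) ∣ h' ∧
        evY t h' * y = ∑ i, evY t (g' i) * β i := by
  induction n with
  | zero =>
    intro h g hh hrel
    exact ⟨h, g, by simpa using hh, hrel⟩
  | succ n ih =>
    intro h g hh hrel
    by_cases hd : Polynomial.C ((ℓ : ℕ) : ℤℓ) ∣ h
    · obtain ⟨h₁, rfl⟩ := hd
      have hred := congrArg (coeffMap (algebraMap ℤℓ k)) hrel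
      rw [map_mul, coeffMap_evY, map_sum,
        (map_eq_zero_iff_C_dvd ℓ (k := k) _).mpr (dvd_mul_right _ _), map_zero, zero_mul] at hred
      have hg0 := hind (fun i => (g i).map (algebraMap ℤℓ k)) (by
        rw [hred]
        refine Finset.sum_congr rfl fun i _ => ?_
        rw [map_mul, coeffMap_evY])
      have hgd : ∀ i, Polynomial.C ((ℓ : ℕ) : ℤℓ) ∣ g i :=
        fun i => (map_eq_zero_iff_C_dvd ℓ (k := k) _).mp (hg0 i)
      choose g₁ hg₁ using hgd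
      apply ih h₁ g₁
      · intro hd'
        apply hh
        rw [pow_succ']
        exact mul_dvd_mul_left _ hd'
      · have hC : evY t (Polynomial.C ((ℓ : ℕ) : ℤℓ)) ≠ 0 := by
          rw [evY_apply, Polynomial.eval₂_C]
          exact HahnSeries.C_ne_zero (natCast_ne_zero' ℓ)
        apply mul_left_cancel₀ hC
        rw [← mul_assoc, ← map_mul, hrel, Finset.mul_sum]
        refine Finset.sum_congr rfl fun i _ => ?_
        rw [hg₁ i, map_mul, mul_assoc]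
    · exact ⟨h, g, hd, hrel⟩

end strip

section main

variable (ℓ : ℕ) [Fact ℓ.Prime] (N : ℕ) [NeZero N]

set_option quotPrecheck false in
local notation "ℤℓ" => ↥(GaloisRep.ratLocalizedAt ℓ)

set_option quotPrecheck false in
local notation "F" => ↥(modularFunctionFieldFull N)

lemma polyHom_injective_of_order_neg {t : F} (ht : (t : LaurentSeries ℚ).order < 0) :
    Function.Injective (polyHom ℓ N t) := by
  rw [injective_iff_map_eq_zero]
  intro p hp
  have h1 : ((polyHom ℓ N t p : F) : LaurentSeries ℚ) = 0 := by rw [hp]; rfl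
  rw [coe_polyHom, evY_eq_zero_iff ht] at h1
  exact (Polynomial.map_eq_zero_iff (FaithfulSMul.algebraMap_injective ℤℓ ℚ)).mp h1

/-- The `q`-expansion principle for the finite chart. -/
theorem fin_qep (hT : TowerData ℓ N) (hΦ : ∀ r : ℕ, r.Prime → r ∣ N → HasModPoly r ℤℓ) {y : F}
    (hy : (y : LaurentSeries ℚ) ∈ intSubring ℓ) (hℓy : (ℓ : F) * y ∈ chartAlg N ℓ {jFull N}) :
    y ∈ chartAlg N ℓ {jFull N} := by
  obtain ⟨ι, _, b, hbZ, hspan, hind⟩ := hT
  letI : Algebra ℤℓ (AlgebraicClosure (ZMod ℓ)) := (resHom ℓ (AlgebraicClosure (ZMod ℓ))).toAlgebra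
  have hN : N ≠ 0 := NeZero.ne N
  let jN : F := ⟨jd ℚ N, jd_mem_full N hN dvd_rfl⟩
  have hchart : chartAlg N ℓ {jN} = chartAlg N ℓ {jFull N} :=
    chartAlg_jd_eq ℓ N hΦ N dvd_rfl jN rfl
  obtain ⟨y', hy'⟩ := hy
  obtain ⟨h, g, hh0, hrel⟩ := exists_rel_of_mem_span ℓ (t := jd ℚ N) (fun i => cZ ℚ (b i))
    (hspan y y.2)
  have hrel' : evY (jd ℤℓ N) h * y' = ∑ i, evY (jd ℤℓ N) (g i) * cZ ℤℓ (b i) := by
    apply coeffMap_algebraMap_injective ℓ
    rw [map_mul, map_sum, coeffMap_evY, coeffMap_jd, hy']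
    refine hrel.trans (Finset.sum_congr rfl fun i _ => ?_)
    rw [map_mul, coeffMap_evY, coeffMap_jd, coeffMap_cZ]
    rfl
  have hh : h ≠ 0 := by
    rintro rfl
    exact hh0 (map_zero _)
  obtain ⟨n, hn⟩ := exists_not_pow_dvd ℓ hh
  obtain ⟨h', g', hh', hrel''⟩ := strip ℓ (k := AlgebraicClosure (ZMod ℓ)) (jd ℤℓ N)
    (fun i => cZ ℤℓ (b i)) (by
      intro g hg
      apply indep_poly hN hind g
      rw [← hg]
      refine Finset.sum_congr rfl fun i _ => ?_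
      rw [coeffMap_jd, coeffMap_cZ]) y' n h g hn hrel'
  choose bF hbF hbF' using fun i => exists_mem_chartAlg_of_mem_ZJ ℓ N hΦ (hbZ i)
  have hrelF : polyHom ℓ N jN h' * y = ∑ i, polyHom ℓ N jN (g' i) * bF i := by
    apply (algebraMap F (LaurentSeries ℚ)).injective
    rw [map_mul, map_sum]
    have h3 := congrArg (coeffMap (algebraMap ℤℓ ℚ)) hrel''
    rw [map_mul, map_sum, coeffMap_evY, coeffMap_jd, hy'] at h3
    refine Eq.trans ?_ (h3.trans (Finset.sum_congr rfl fun i _ => ?_))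
    · congr 1
      exact coe_polyHom ℓ N jN h'
    · rw [map_mul, map_mul, coeffMap_evY, coeffMap_jd, coeffMap_cZ]
      congr 1
      · exact (coe_polyHom ℓ N jN (g' i)).symm
      · exact (hbF i).symm
  rw [← hchart] at hℓy ⊢
  refine mem_chartAlg_of_mul_mem ℓ N
    (polyHom_injective_of_order_neg ℓ N (t := jN) (order_jd_neg N hN)) hh' hℓy ?_
  rw [hrelF]
  refine sum_mem fun i _ => mul_mem ?_ ?_
  · exact adjoin_le_chartAlg N ℓ _ (polyHom_mem_adjoin ℓ N jN (g' i))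
  · rw [hchart]
    exact hbF' i

lemma order_jq_neg : (jq : LaurentSeries ℚ).order < 0 := by
  have h := order_jd_neg (A := ℚ) 1 one_ne_zero
  rw [jd_one] at h
  exact h

lemma isUnit_jqModC : IsUnit (jqModC ℤℓ) := by
  rw [HahnSeries.isUnit_iff]
  have h0 : jqModC ℤℓ ≠ 0 := jqModC_ne_zero_of_nontrivial _
  have hord : (jqModC ℤℓ).order = -1 := by
    apply le_antisymm
    · exact HahnSeries.order_le_of_coeff_ne_zero (by
        rw [coeff_jqModC_neg_one]; exact one_ne_zero)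
    · by_contra hlt
      exact (HahnSeries.coeff_order_eq_zero.not.mpr h0)
        (coeff_jqModC_of_lt _ (not_le.mp hlt))
  rw [HahnSeries.leadingCoeff_eq, hord, coeff_jqModC_neg_one]
  exact isUnit_one

lemma jq_inv_mem_intSubring : (jq : LaurentSeries ℚ)⁻¹ ∈ intSubring ℓ := by
  obtain ⟨u, hu⟩ := (isUnit_jqModC ℓ).exists_right_inv
  refine ⟨u, ?_⟩
  have h1 := congrArg (coeffMap (algebraMap ℤℓ ℚ)) hu
  rw [map_mul, map_one, coeffMap_jqModC] at h1
  exact eq_inv_of_mul_eq_one_right h1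

lemma coe_jFull_inv : (((jFull N)⁻¹ : F) : LaurentSeries ℚ) = (jq : LaurentSeries ℚ)⁻¹ := rfl

/-- The `q`-expansion principle for the middle chart. -/
theorem mid_qep (hfin : ∀ y : F, (y : LaurentSeries ℚ) ∈ intSubring ℓ →
      (ℓ : F) * y ∈ chartAlg N ℓ {jFull N} → y ∈ chartAlg N ℓ {jFull N}) {y : F}
    (hy : (y : LaurentSeries ℚ) ∈ intSubring ℓ)
    (hℓy : (ℓ : F) * y ∈ chartAlg N ℓ {jFull N, (jFull N)⁻¹}) :
    y ∈ chartAlg N ℓ {jFull N, (jFull N)⁻¹} := by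
  have hz : (ℓ : F) * y ∈ chartAlg N ℓ (insert (jFull N)⁻¹ {jFull N}) := by
    rw [show insert (jFull N)⁻¹ ({jFull N} : Set F) = {jFull N, (jFull N)⁻¹}
      from Set.pair_comm _ _]
    exact hℓy
  obtain ⟨n, hn⟩ := exists_pow_mul_mem_chartAlg (Set.mem_singleton _) (jFull_ne_zero N) hz
  have h1 : (jFull N) ^ n * y ∈ chartAlg N ℓ {jFull N} := by
    apply hfin
    · exact Subring.mul_mem _ (Subring.pow_mem _ (jq_mem_intSubring ℓ) n) hy
    · rw [mul_left_comm]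
      exact hn
  have h2 : (jFull N) ^ n * y ∈ chartAlg N ℓ {jFull N, (jFull N)⁻¹} :=
    chartAlg_mono N ℓ (sFin_subset N) h1
  have h3 : (jFull N)⁻¹ ∈ chartAlg N ℓ {jFull N, (jFull N)⁻¹} :=
    subset_chartAlg N ℓ _ (by simp)
  have h4 : y = (jFull N)⁻¹ ^ n * ((jFull N) ^ n * y) := by
    rw [← mul_assoc, ← mul_pow, inv_mul_cancel₀ (jFull_ne_zero N), one_pow, one_mul]
  rw [h4]
  exact mul_mem (pow_mem h3 n) h2

lemma polyHom_jFull_inv_injective : Function.Injective (polyHom ℓ N (jFull N)⁻¹) := by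
  have h1 : Function.Injective (polyHom ℓ N (jFull N)) :=
    polyHom_injective_of_order_neg ℓ N (t := jFull N) order_jq_neg
  have h2 : Transcendental ℤℓ (jFull N) := transcendental_iff_injective.mpr h1
  have h3 : Transcendental ℤℓ (jFull N)⁻¹ := by
    intro halg
    apply h2
    have := halg.inv
    rwa [inv_inv] at this
  exact transcendental_iff_injective.mp h3

/-- The `q`-expansion principle for the chart at infinity. -/
theorem inf_qep (hmid : ∀ y : F, (y : LaurentSeries ℚ) ∈ intSubring ℓ →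
      (ℓ : F) * y ∈ chartAlg N ℓ {jFull N, (jFull N)⁻¹} →
      y ∈ chartAlg N ℓ {jFull N, (jFull N)⁻¹}) {y : F}
    (hy : (y : LaurentSeries ℚ) ∈ intSubring ℓ)
    (hℓy : (ℓ : F) * y ∈ chartAlg N ℓ {(jFull N)⁻¹}) :
    y ∈ chartAlg N ℓ {(jFull N)⁻¹} := by
  have h1 : y ∈ chartAlg N ℓ {jFull N, (jFull N)⁻¹} :=
    hmid y hy (chartAlg_mono N ℓ (sInf_subset N) hℓy)
  have hz : y ∈ chartAlg N ℓ (insert (jFull N)⁻¹⁻¹ {(jFull N)⁻¹}) := by
    rw [inv_inv]; exact h1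
  obtain ⟨n, hn⟩ := exists_pow_mul_mem_chartAlg (Set.mem_singleton _)
    (inv_ne_zero (jFull_ne_zero N)) hz
  refine mem_chartAlg_of_mul_mem ℓ N (polyHom_jFull_inv_injective ℓ N)
    (h := Polynomial.X ^ n) ?_ hℓy ?_
  · intro hd
    rw [Polynomial.C_dvd_iff_dvd_coeff] at hd
    have := hd n
    rw [Polynomial.coeff_X_pow_self] at this
    exact (prime_natCast' ℓ).not_isUnit (isUnit_of_dvd_one this)
  · rw [map_pow, polyHom_X]
    exact hn

lemma qep_of {S : Set F} (hS : ∀ s ∈ S, (s : LaurentSeries ℚ) ∈ intSubring ℓ)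
    (hq : ∀ y : F, (y : LaurentSeries ℚ) ∈ intSubring ℓ → (ℓ : F) * y ∈ chartAlg N ℓ S →
      y ∈ chartAlg N ℓ S) : QEP N ℓ S := by
  have hℓ : ℓ.Prime := Fact.out
  have hℓQ : (ℓ : ℚ) ≠ 0 := by exact_mod_cast hℓ.ne_zero
  have hℓF : (ℓ : F) ≠ 0 := by exact_mod_cast hℓ.ne_zero
  refine ⟨fun x hx => (mem_intSubring_iff ℓ).mp (coe_mem_intSubring_of_mem_chartAlg ℓ N hS hx),
    fun x hx hdiv => ?_⟩
  have hxy : x = (ℓ : F) * ((ℓ : F)⁻¹ * x) := by
    rw [← mul_assoc, mul_inv_cancel₀ hℓF, one_mul]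
  refine ⟨(ℓ : F)⁻¹ * x, hq _ ?_ (hxy ▸ hx), hxy⟩
  have hcoe : (((ℓ : F)⁻¹ * x : F) : LaurentSeries ℚ) =
      HahnSeries.C ((ℓ : ℚ)⁻¹) * (x : LaurentSeries ℚ) := by
    have : (((ℓ : F)⁻¹ : F) : LaurentSeries ℚ) = HahnSeries.C ((ℓ : ℚ)⁻¹) := by
      rw [map_inv₀, map_natCast]
      rfl
    rw [← this]
    rfl
  rw [hcoe, mem_intSubring_iff]
  intro n
  obtain ⟨r, hr, hrn⟩ := hdiv n
  rw [HahnSeries.C_mul_eq_smul, HahnSeries.coeff_smul, hrn, smul_eq_mul, ← mul_assoc,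
    inv_mul_cancel₀ hℓQ, one_mul]
  exact hr

end main

end Fermat.Agent.S28.QEP

namespace Fermat.Agent.S28

open ModularCurve ModularCurve.IgusaScheme QEP

theorem wp9 : WP9 := by
  intro N _ ℓ _ hT hΦ
  have hfin : ∀ y : ↥(modularFunctionFieldFull N), (y : LaurentSeries ℚ) ∈ intSubring ℓ →
      (ℓ : ↥(modularFunctionFieldFull N)) * y ∈ chartAlg N ℓ {jFull N} →
      y ∈ chartAlg N ℓ {jFull N} := fun y hy h => fin_qep ℓ N hT hΦ hy h
  have hmid : ∀ y : ↥(modularFunctionFieldFull N), (y : LaurentSeries ℚ) ∈ intSubring ℓ →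
      (ℓ : ↥(modularFunctionFieldFull N)) * y ∈ chartAlg N ℓ {jFull N, (jFull N)⁻¹} →
      y ∈ chartAlg N ℓ {jFull N, (jFull N)⁻¹} := fun y hy h => mid_qep ℓ N hfin hy h
  have hinf : ∀ y : ↥(modularFunctionFieldFull N), (y : LaurentSeries ℚ) ∈ intSubring ℓ →
      (ℓ : ↥(modularFunctionFieldFull N)) * y ∈ chartAlg N ℓ {(jFull N)⁻¹} →
      y ∈ chartAlg N ℓ {(jFull N)⁻¹} := fun y hy h => inf_qep ℓ N hmid hy h
  refine ⟨qep_of ℓ N ?_ hfin, qep_of ℓ N ?_ hinf, qep_of ℓ N ?_ hmid⟩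
  · intro s hs
    rw [Set.mem_singleton_iff.mp hs]
    exact jq_mem_intSubring ℓ
  · intro s hs
    rw [Set.mem_singleton_iff.mp hs]
    exact jq_inv_mem_intSubring ℓ
  · intro s hs
    rcases hs with rfl | hs
    · exact jq_mem_intSubring ℓ
    · rw [Set.mem_singleton_iff.mp hs]
      exact jq_inv_mem_intSubring ℓ

end Fermat.Agent.S28
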