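/-
S28 / WP4 (base case), independent second attempt.
-/
import Fermat.Agent.S28.Toolkit
import Fermat.Agent.S28.L1

set_option autoImplicit false

noncomputable section

namespace Fermat.Agent.S28.BaseCaseB

open ModularCurve Polynomial Fermat.Agent.S28

variable {k : Type} [Field k]

local notation "L" => LaurentSeries k

theorem algebraMap_eq_C (c : k) : algebraMap k (LaurentSeries k) c = HahnSeries.C c := by
  have h1 : algebraMap k (PowerSeries k) c = PowerSeries.C c := by simp
  rw [HahnSeries.algebraMap_apply', h1, HahnSeries.ofPowerSeries_C]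

/-- evaluation of the inner variable at an element of an intermediate field. -/
def evK (K : IntermediateField k (LaurentSeries k)) (y : K) : k[X] →+* K :=
  Polynomial.eval₂RingHom (algebraMap k K) y

theorem comp_evK (K : IntermediateField k (LaurentSeries k)) (y : K) :
    (algebraMap K (LaurentSeries k)).comp (evK K y) = evY (y : LaurentSeries k) := by
  apply Polynomial.ringHom_ext
  · intro a
    rw [RingHom.comp_apply, evK, evY, Polynomial.coe_eval₂RingHom, Polynomial.coe_eval₂RingHom,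
      Polynomial.eval₂_C, Polynomial.eval₂_C, ← algebraMap_eq_C,
      ← IsScalarTower.algebraMap_apply k K (LaurentSeries k)]
  · rw [RingHom.comp_apply, evK, evY, Polynomial.coe_eval₂RingHom, Polynomial.coe_eval₂RingHom,
      Polynomial.eval₂_X, Polynomial.eval₂_X]
    rfl

/-! ### Two roots -/

theorem natDegree_minpoly_of_two_roots {p : ℕ} (hp : 2 ≤ p)
    (K : IntermediateField k (LaurentSeries k)) (G : K[X]) (hG : G.Monic)
    (hdeg : G.natDegree = p + 1) (α β : LaurentSeries k) (hα : aeval α G = 0) (hαK : α ∉ K)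
    (hβ : IsCoprime β.order (p : ℤ))
    (hβr : (G.map (algebraMap K (LaurentSeries k))).eval₂ (Vq k p) β = 0) :
    (minpoly K α).natDegree = p + 1 := by
  have hp0 : p ≠ 0 := by omega
  have hint : IsIntegral K α := ⟨G, hG, hα⟩
  have hinj : Function.Injective (algebraMap K (LaurentSeries k)) :=
    (algebraMap K (LaurentSeries k)).injective
  have hβ0 : β ≠ 0 := by
    rintro rfl
    rw [HahnSeries.order_zero, isCoprime_zero_left, Int.isUnit_iff] at hβ
    omega
  obtain ⟨B, hB⟩ := minpoly.dvd K α hα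
  have hμ : (minpoly K α).Monic := minpoly.monic hint
  have hB0 : B ≠ 0 := by
    rintro rfl
    rw [mul_zero] at hB
    exact hG.ne_zero hB
  have hdeg2 : G.natDegree = (minpoly K α).natDegree + B.natDegree := by
    rw [hB, Polynomial.natDegree_mul hμ.ne_zero hB0]
  have h2 : 2 ≤ (minpoly K α).natDegree := by
    rw [minpoly.two_le_natDegree_iff hint]
    rintro ⟨x, rfl⟩
    exact hαK x.2
  rw [hB, Polynomial.map_mul, Polynomial.eval₂_mul] at hβr
  rcases mul_eq_zero.mp hβr with h | h
  · by_contra hne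
    have hle : ((minpoly K α).map (algebraMap K (LaurentSeries k))).natDegree ≤ p := by
      rw [Polynomial.natDegree_map]
      omega
    have h0 := L1.eq_zero_of_two_roots p hp _ hle α β
      (by rw [Polynomial.eval_map_algebraMap]; exact minpoly.aeval K α) hβ h
    exact hμ.ne_zero ((Polynomial.map_eq_zero_iff hinj).mp h0)
  · exfalso
    have hlt : (B.map (algebraMap K (LaurentSeries k))).natDegree < p := by
      rw [Polynomial.natDegree_map]
      omega
    have h0 := L1.eq_zero_of_eval₂_Vq p hp0 β hβ0 hβ _ hlt h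
    exact hB0 ((Polynomial.map_eq_zero_iff hinj).mp h0)

/-! ### Polynomials in `j` -/

theorem leadingCoeff_pow' (x : LaurentSeries k) (n : ℕ) :
    (x ^ n).leadingCoeff = x.leadingCoeff ^ n := by
  induction n with
  | zero => simp
  | succ n ih => rw [pow_succ, HahnSeries.leadingCoeff_mul, ih, pow_succ]

theorem coeff_evY_j (P : k[X]) :
    (evY (jqModC k) P).coeff (-(P.natDegree : ℤ)) = P.leadingCoeff := by
  rw [evY, Polynomial.coe_eval₂RingHom, Polynomial.eval₂_eq_sum_range, HahnSeries.coeff_sum,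
    Finset.sum_eq_single P.natDegree]
  · rw [HahnSeries.C_mul_eq_smul, HahnSeries.coeff_smul, smul_eq_mul]
    have h1 : (jqModC k ^ P.natDegree).order = -(P.natDegree : ℤ) := by
      rw [HahnSeries.order_pow, order_jqModC]; simp
    rw [← h1, ← HahnSeries.leadingCoeff_eq, leadingCoeff_pow', leadingCoeff_jqModC, one_pow,
      mul_one]
    rfl
  · intro i hi hne
    rw [HahnSeries.C_mul_eq_smul, HahnSeries.coeff_smul, smul_eq_mul]
    have h1 : (jqModC k ^ i).order = -(i : ℤ) := by
      rw [HahnSeries.order_pow, order_jqModC]; simp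
    rw [HahnSeries.coeff_eq_zero_of_lt_order, mul_zero]
    rw [h1]
    have := Finset.mem_range.mp hi
    omega
  · intro h
    exact absurd (Finset.mem_range.mpr (Nat.lt_succ_self _)) h

theorem Ej_one : Ej k 1 = IntermediateField.adjoin k {jqModC k} := by
  rw [Ej, jd_one]

theorem jq_mem : jqModC k ∈ Ej k 1 := by
  rw [Ej_one]
  exact IntermediateField.subset_adjoin k {jqModC k} (Set.mem_singleton _)

/-- An element of positive order which is integral over `k[j]` is not in `k(j)`. -/
theorem not_mem_of_integral (x : LaurentSeries k) (hx0 : x ≠ 0) (hord : 0 < x.order)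
    (Ξ : k[X][X]) (hΞ : Ξ.Monic) (h : ev2 Ξ x (jqModC k) = 0) : x ∉ Ej k 1 := by
  intro hx
  set j' : Ej k 1 := ⟨jqModC k, jq_mem⟩ with hj'
  let _ : Algebra k[X] (Ej k 1) := (evK (Ej k 1) j').toAlgebra
  have hmap : ∀ P : k[X], ((algebraMap k[X] (Ej k 1) P : Ej k 1) : LaurentSeries k)
      = evY (jqModC k) P := by
    intro P
    have := congrArg (fun f => f P) (comp_evK (Ej k 1) j')
    exact this
  have hinjY : Function.Injective (evY (jqModC k)) :=
    L1.evY_injective _ (by rw [order_jqModC]; norm_num)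
  have : FaithfulSMul k[X] (Ej k 1) := by
    rw [faithfulSMul_iff_algebraMap_injective]
    intro P Q hPQ
    apply hinjY
    rw [← hmap, ← hmap, hPQ]
  have : IsFractionRing k[X] (Ej k 1) := by
    refine IsFractionRing.of_field _ _ fun z => ?_
    have hz : (z : LaurentSeries k) ∈ IntermediateField.adjoin k {jqModC k} := by
      exact (Ej_one (k := k)) ▸ z.2
    obtain ⟨r, s, hrs⟩ := (IntermediateField.mem_adjoin_simple_iff k _).mp hz
    refine ⟨r, s, Subtype.ext ?_⟩
    rw [hrs]
    have haev : ∀ P : k[X], aeval (jqModC k) P = evY (jqModC k) P := by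
      intro P
      rw [evY, Polynomial.coe_eval₂RingHom, Polynomial.aeval_def]
      congr 1
      exact RingHom.ext algebraMap_eq_C
    rw [haev, haev, ← hmap, ← hmap]
    rfl
  have hint : IsIntegral k[X] (⟨x, hx⟩ : Ej k 1) := by
    refine ⟨Ξ, hΞ, ?_⟩
    apply (algebraMap (Ej k 1) (LaurentSeries k)).injective
    rw [Polynomial.hom_eval₂, map_zero]
    have : (algebraMap (Ej k 1) (LaurentSeries k)).comp (algebraMap k[X] (Ej k 1))
        = evY (jqModC k) := comp_evK (Ej k 1) j'
    rw [this]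
    exact h
  obtain ⟨P, hP⟩ := IsIntegrallyClosed.algebraMap_eq_of_integral hint
  have hP' : evY (jqModC k) P = x := by
    rw [← hmap, hP]
  have h1 := coeff_evY_j P
  rw [hP', HahnSeries.coeff_eq_zero_of_lt_order (by omega)] at h1
  have hP0 : P = 0 := Polynomial.leadingCoeff_eq_zero.mp h1.symm
  rw [hP0, map_zero] at hP'
  exact hx0 hP'.symm

/-! ### Flip -/

/-- `T^n F(s/T)`. -/
def flip {R : Type} [CommRing R] (n : ℕ) (s : R) (F : R[X]) : R[X] :=
  ∑ i ∈ Finset.range (n + 1), C (F.coeff i * s ^ i) * X ^ (n - i)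

theorem eval₂_flip {R S : Type} [CommRing R] [CommRing S] (f : R →+* S) (n : ℕ) (s : R)
    (F : R[X]) (hF : F.natDegree ≤ n) (x y : S) (hxy : x * y = f s) :
    (flip n s F).eval₂ f x = x ^ n * F.eval₂ f y := by
  rw [flip, Polynomial.eval₂_finsetSum, Polynomial.eval₂_eq_sum_range' f (Nat.lt_succ_of_le hF),
    Finset.mul_sum]
  refine Finset.sum_congr rfl fun i hi => ?_
  have hi' : i ≤ n := Nat.lt_succ_iff.mp (Finset.mem_range.mp hi)
  rw [Polynomial.eval₂_mul, Polynomial.eval₂_C, Polynomial.eval₂_pow, Polynomial.eval₂_X, map_mul,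
    map_pow, ← hxy, mul_pow]
  calc f (F.coeff i) * (x ^ i * y ^ i) * x ^ (n - i)
      = (x ^ i * x ^ (n - i)) * (f (F.coeff i) * y ^ i) := by ring
    _ = _ := by rw [← pow_add, Nat.add_sub_cancel' hi']

/-! ### The base case -/

theorem wp4 : WP4 := by
  intro k _ p hp hpk hMod hUnit
  obtain ⟨Φ, hΦm, hΦd, hΦ1, hΦ2⟩ := hMod
  obtain ⟨Ξ, hΞm, hΞd, hΞ1, hΞ2⟩ := hUnit
  have hp0 : p ≠ 0 := hp.ne_zero
  have hp2 : 2 ≤ p := hp.two_le
  set K := Ej k 1 with hK
  set j' : K := ⟨jqModC k, jq_mem⟩ with hj'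
  set a := algebraMap K (LaurentSeries k) with ha
  have hcompV : ∀ (d : ℕ) (y : K), ((Vq k d).comp a).comp (evK K y)
      = evY (Vq k d (y : LaurentSeries k)) := by
    intro d y
    rw [RingHom.comp_assoc, comp_evK, BC.Vq_comp_evY]
  -- `u ∉ K`
  have hu0 : uInf k p ≠ 0 := uInf_ne_zero hpk
  have huo : (uInf k p).order = (p : ℤ) - 1 := order_uInf hpk
  have huK : uInf k p ∉ K :=
    not_mem_of_integral _ hu0 (by rw [huo]; omega) Ξ hΞm hΞ1
  have hz0 : uZero k p ≠ 0 := by
    intro h
    have := uInf_mul_uZero (A := k) p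
    rw [h, mul_zero, natCast_eq_C, ← map_pow] at this
    have h2 := congrArg (fun x => HahnSeries.coeff x 0) this
    simp only [HahnSeries.coeff_zero, HahnSeries.C_apply, HahnSeries.coeff_single_same] at h2
    exact pow_ne_zero 12 hpk h2.symm
  -- the minimal polynomial of `u`
  set ΞK : K[X] := Ξ.map (evK K j') with hΞK
  have hΞKm : ΞK.Monic := hΞm.map _
  have hΞKd : ΞK.natDegree = p + 1 := by rw [hΞK, hΞm.natDegree_map, hΞd]
  have hΞKu : aeval (uInf k p) ΞK = 0 := by
    rw [Polynomial.aeval_def, hΞK, Polynomial.eval₂_map, comp_evK]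
    exact hΞ1
  have hcop1 : IsCoprime (uZero k p).order (p : ℤ) := by
    rw [order_uZero hp0]
    exact ⟨1, 1, by ring⟩
  have hΞKz : (ΞK.map a).eval₂ (Vq k p) (uZero k p) = 0 := by
    rw [Polynomial.eval₂_map, hΞK, Polynomial.eval₂_map, hcompV]
    exact hΞ2
  have hmin : minpoly K (uInf k p) = ΞK := by
    have h1 := natDegree_minpoly_of_two_roots hp2 K ΞK hΞKm hΞKd _ _ hΞKu huK hcop1 hΞKz
    have hint : IsIntegral K (uInf k p) := ⟨ΞK, hΞKm, hΞKu⟩
    exact (Polynomial.eq_of_monic_of_dvd_of_natDegree_le (minpoly.monic hint) hΞKm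
      (minpoly.dvd K _ hΞKu) (by rw [h1, hΞKd])).symm
  -- `j_p ∉ K`
  have hjp : jd k p ∉ K := by
    intro hmem
    set jp' : K := ⟨jd k p, hmem⟩ with hjp'
    set F : K[X] := Ξ.map (evK K jp') with hF
    have hFd : F.natDegree ≤ p + 1 := by rw [hF, hΞm.natDegree_map, hΞd]
    set H : K[X] := flip (p + 1) ((p : K) ^ 12) F with hH
    have hHu : aeval (uInf k p) H = 0 := by
      rw [Polynomial.aeval_def, hH, eval₂_flip _ _ _ _ hFd _ (uZero k p)
        (by rw [uInf_mul_uZero]; simp), hF, Polynomial.eval₂_map, comp_evK]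
      have : eval₂ (evY ((jp' : K) : LaurentSeries k)) (uZero k p) Ξ = 0 := hΞ2
      rw [this, mul_zero]
    obtain ⟨Q, hQ⟩ := minpoly.dvd K _ hHu
    rw [hmin] at hQ
    have h1 : H.eval₂ ((Vq k p).comp a) (uZero k p) = 0 := by
      rw [hQ, Polynomial.eval₂_mul, ← Polynomial.eval₂_map, hΞKz, zero_mul]
    rw [hH, eval₂_flip _ _ _ _ hFd _ (uInf k p)
      (by rw [mul_comm, uInf_mul_uZero]; simp), hF, Polynomial.eval₂_map, hcompV] at h1
    have h2 : eval₂ (evY (Vq k p ((jp' : K) : LaurentSeries k))) (uInf k p) Ξ = 0 :=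
      (mul_eq_zero.mp h1).resolve_left (pow_ne_zero _ hz0)
    have h3 : Vq k p ((jp' : K) : LaurentSeries k) = Vq k (p ^ 2) (jqModC k) := by
      show Vq k p (jd k p) = _
      rw [jd, BC.Vq_Vq p p hp0 hp0, sq]
    rw [h3, ← BC.Vq_comp_evY, ← Polynomial.eval₂_map] at h2
    have hlt : (Ξ.map (evY (jqModC k))).natDegree < p ^ 2 := by
      rw [hΞm.natDegree_map, hΞd]
      nlinarith
    have hcop : IsCoprime (uInf k p).order ((p ^ 2 : ℕ) : ℤ) := by
      rw [huo]
      push_cast
      exact IsCoprime.pow_right ⟨-1, 1, by ring⟩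
    have h0 := L1.eq_zero_of_eval₂_Vq (p ^ 2) (pow_ne_zero 2 hp0) _ hu0 hcop _ hlt h2
    exact (hΞm.map (evY (jqModC k))).ne_zero h0
  refine ⟨hjp, ?_⟩
  -- the minimal polynomial of `j_p`
  set ΦK : K[X] := Φ.map (evK K j') with hΦK
  have hΦKm : ΦK.Monic := hΦm.map _
  have hΦKd : ΦK.natDegree = p + 1 := by rw [hΦK, hΦm.natDegree_map, hΦd]
  have hΦKj : aeval (jd k p) ΦK = 0 := by
    rw [Polynomial.aeval_def, hΦK, Polynomial.eval₂_map, comp_evK]
    exact hΦ1
  have hcop2 : IsCoprime (jqModC k).order (p : ℤ) := by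
    rw [order_jqModC]
    exact ⟨-1, 0, by ring⟩
  have hΦKz : (ΦK.map a).eval₂ (Vq k p) (jqModC k) = 0 := by
    rw [Polynomial.eval₂_map, hΦK, Polynomial.eval₂_map, hcompV]
    exact hΦ2
  exact natDegree_minpoly_of_two_roots hp2 K ΦK hΦKm hΦKd _ _ hΦKj hjp hcop2 hΦKz

end Fermat.Agent.S28.BaseCaseB
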