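/-
S28, WP2: descent of the coefficients of the modular polynomial and of the equation of the
modular unit, `ℂ → ℚ → ℤ_(ℓ)`.
-/
import Fermat.Agent.S28.L1
import Fermat.Agent.S28.Tower

set_option autoImplicit false

noncomputable section

namespace Fermat.Agent.S28.Descent

open ModularCurve Polynomial Fermat.Agent.S28

/-! ### Step 1: a linear retraction applied to the coefficients -/

section Retraction

/-- apply an additive map to the coefficients of a polynomial. -/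
def mapL {A B : Type} [Semiring A] [Semiring B] (ρ : B →+ A) : B[X] →+ A[X] where
  toFun P := P.sum fun i a => monomial i (ρ a)
  map_zero' := by simp
  map_add' P Q := by
    apply Polynomial.sum_add_index <;> simp

theorem mapL_monomial {A B : Type} [Semiring A] [Semiring B] (ρ : B →+ A) (i : ℕ) (a : B) :
    mapL ρ (monomial i a) = monomial i (ρ a) := by
  show (monomial i a).sum (fun i a => monomial i (ρ a)) = _
  rw [Polynomial.sum_monomial_index]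
  simp

theorem coeff_mapL {A B : Type} [Semiring A] [Semiring B] (ρ : B →+ A) (P : B[X]) (i : ℕ) :
    (mapL ρ P).coeff i = ρ (P.coeff i) := by
  induction P using Polynomial.induction_on' with
  | add p q hp hq => simp [map_add, hp, hq]
  | monomial n a =>
    rw [mapL_monomial, coeff_monomial, coeff_monomial]
    split_ifs <;> simp

/-- apply an additive map to the coefficients of a Laurent series. -/
def mapH {A B : Type} [CommRing A] [CommRing B] (ρ : B →+ A) :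
    LaurentSeries B →+ LaurentSeries A where
  toFun x := x.map ρ
  map_zero' := by ext; simp
  map_add' x y := by ext; simp

variable {A B : Type} [CommRing A] [CommRing B] [Algebra A B]

theorem mapH_C_mul (ρ : B →ₗ[A] A) (a : B) (z : LaurentSeries A) :
    mapH ρ.toAddMonoidHom (HahnSeries.C a * coeffMap (algebraMap A B) z) =
      HahnSeries.C (ρ a) * z := by
  ext n
  show ρ ((HahnSeries.C a * coeffMap (algebraMap A B) z).coeff n) = _
  rw [HahnSeries.C_apply, HahnSeries.C_apply, HahnSeries.coeff_single_zero_mul,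
    HahnSeries.coeff_single_zero_mul, coeffMap_coeff, mul_comm, ← Algebra.smul_def, map_smul,
    smul_eq_mul, mul_comm]

theorem mapH_ev2 (ρ : B →ₗ[A] A) (Φ : B[X][X]) (x y : LaurentSeries A) :
    mapH ρ.toAddMonoidHom
        (ev2 Φ (coeffMap (algebraMap A B) x) (coeffMap (algebraMap A B) y)) =
      ev2 (mapL (mapL ρ.toAddMonoidHom) Φ) x y := by
  induction Φ using Polynomial.induction_on' with
  | add p q hp hq =>
    simp only [ev2, eval₂_add, map_add] at hp hq ⊢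
    rw [hp, hq]
  | monomial i P =>
    induction P using Polynomial.induction_on' with
    | add p q hp hq =>
      simp only [ev2, eval₂_add, map_add] at hp hq ⊢
      rw [hp, hq]
    | monomial j a =>
      rw [mapL_monomial, mapL_monomial]
      simp only [ev2, eval₂_monomial, evY, coe_eval₂RingHom]
      rw [← map_pow, ← map_pow, mul_assoc, ← map_mul, mapH_C_mul, mul_assoc]
      rfl

theorem exists_retraction : ∃ ρ : ℂ →ₗ[ℚ] ℚ, ρ 1 = 1 := by
  obtain ⟨g, hg⟩ := LinearMap.exists_leftInverse_of_injective (Algebra.linearMap ℚ ℂ)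
    (LinearMap.ker_eq_bot.mpr (algebraMap ℚ ℂ).injective)
  refine ⟨g, ?_⟩
  have := LinearMap.congr_fun hg 1
  simpa using this

theorem monic_mapL (ρ : B →ₗ[A] A) (h1 : ρ 1 = 1) [Nontrivial A] {Φ : B[X][X]} (hΦ : Φ.Monic) :
    (mapL (mapL ρ.toAddMonoidHom) Φ).Monic ∧
      (mapL (mapL ρ.toAddMonoidHom) Φ).natDegree = Φ.natDegree := by
  have hle : (mapL (mapL ρ.toAddMonoidHom) Φ).natDegree ≤ Φ.natDegree := by
    rw [Polynomial.natDegree_le_iff_coeff_eq_zero]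
    intro i hi
    rw [coeff_mapL, Polynomial.coeff_eq_zero_of_natDegree_lt hi, map_zero]
  have hc : (mapL (mapL ρ.toAddMonoidHom) Φ).coeff Φ.natDegree = 1 := by
    rw [coeff_mapL, hΦ.coeff_natDegree, ← Polynomial.monomial_zero_one, mapL_monomial]
    simp [h1]
  refine ⟨Polynomial.monic_of_natDegree_le_of_coeff_eq_one _ hle hc, ?_⟩
  exact Polynomial.natDegree_eq_of_le_of_coeff_ne_zero hle (by rw [hc]; exact one_ne_zero)

theorem hasModPoly_rat {p : ℕ} (h : HasModPoly p ℂ) : HasModPoly p ℚ := by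
  obtain ⟨Φ, h1, h2, h3, h4⟩ := h
  obtain ⟨ρ, hρ⟩ := exists_retraction
  refine ⟨mapL (mapL ρ.toAddMonoidHom) Φ, (monic_mapL ρ hρ h1).1,
    by rw [(monic_mapL ρ hρ h1).2, h2], ?_, ?_⟩
  · rw [← mapH_ev2, BC.coeffMap_jd, coeffMap_jqModC, h3, map_zero]
  · rw [← mapH_ev2, BC.coeffMap_jd, coeffMap_jqModC, h4, map_zero]

theorem hasUnitPoly_rat {p : ℕ} (h : HasUnitPoly p ℂ) : HasUnitPoly p ℚ := by
  obtain ⟨Φ, h1, h2, h3, h4⟩ := h
  obtain ⟨ρ, hρ⟩ := exists_retraction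
  refine ⟨mapL (mapL ρ.toAddMonoidHom) Φ, (monic_mapL ρ hρ h1).1,
    by rw [(monic_mapL ρ hρ h1).2, h2], ?_, ?_⟩
  · rw [← mapH_ev2, BC.coeffMap_uInf, coeffMap_jqModC, h3, map_zero]
  · rw [← mapH_ev2, BC.coeffMap_uZero, BC.coeffMap_jd, h4, map_zero]

end Retraction

/-! ### Step 2: integrality at `ℓ` by "too many roots" -/

section Integrality

variable (ℓ : ℕ) [Fact ℓ.Prime]

/-- `ℤ_(ℓ)` as a type. -/
abbrev Rl (ℓ : ℕ) : Type := ↥(GaloisRep.ratLocalizedAt ℓ)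

theorem mem_of_eq_div {x : ℚ} (n : ℤ) (d : ℕ) (hd : ¬ ℓ ∣ d) (hx : x = n / d) :
    x ∈ GaloisRep.ratLocalizedAt ℓ := by
  show x.den.Coprime ℓ
  have h1 : ((x.den : ℤ)) ∣ (d : ℤ) := by
    rw [hx]
    exact_mod_cast Rat.den_dvd n d
  have h2 : x.den ∣ d := Int.natCast_dvd_natCast.mp h1
  exact Nat.Coprime.coprime_dvd_left h2
    ((Nat.Prime.coprime_iff_not_dvd (Fact.out : ℓ.Prime)).mpr hd).symm

theorem exists_pow_mul_mem (a : ℚ) : ∃ e : ℕ, (ℓ : ℚ) ^ e * a ∈ GaloisRep.ratLocalizedAt ℓ := by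
  obtain ⟨e, d', hd', hden⟩ :=
    Nat.exists_eq_pow_mul_and_not_dvd a.den_ne_zero ℓ (Fact.out : ℓ.Prime).ne_one
  refine ⟨e, mem_of_eq_div ℓ a.num d' hd' ?_⟩
  have hℓ : (ℓ : ℚ) ≠ 0 := by exact_mod_cast (Fact.out : ℓ.Prime).ne_zero
  have hd0 : (d' : ℚ) ≠ 0 := by
    intro h
    apply hd'
    have : d' = 0 := by exact_mod_cast h
    rw [this]
    exact dvd_zero _
  conv_lhs => rw [← Rat.num_div_den a, hden]
  push_cast
  field_simp

theorem dvd_of_towerRed_eq_zero (k : Type) [Field k] [CharP k ℓ] (x : Rl ℓ)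
    (hx : towerRed ℓ k x = 0) : (ℓ : Rl ℓ) ∣ x := by
  have h1 : (((x : ℚ).num : k) / ((x : ℚ).den : k)) = 0 := by
    rw [← Rat.cast_def]
    exact hx
  have h2 : ((x : ℚ).num : k) = 0 := by
    rcases div_eq_zero_iff.mp h1 with h | h
    · exact h
    · exact absurd h (tower_den_ne_zero ℓ k x)
  obtain ⟨m, hm⟩ := (CharP.intCast_eq_zero_iff k ℓ _).mp h2
  have hden : ¬ ℓ ∣ (x : ℚ).den := by
    intro h
    have hx' : (x : ℚ).den.Coprime ℓ := x.2
    have h1 : ℓ ∣ 1 := by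
      rw [← hx']
      exact Nat.dvd_gcd h dvd_rfl
    exact (Fact.out : ℓ.Prime).one_lt.ne' (Nat.dvd_one.mp h1)
  refine ⟨⟨(m : ℚ) / ((x : ℚ).den : ℚ), mem_of_eq_div ℓ m _ hden rfl⟩, ?_⟩
  apply Subtype.ext
  push_cast
  conv_lhs => rw [← Rat.num_div_den (x : ℚ), hm]
  push_cast
  ring

/-- the inclusion `ℤ_(ℓ) → ℚ`. -/
abbrev incl : (Rl ℓ) →+* ℚ := (GaloisRep.ratLocalizedAt ℓ).subtype

omit [Fact ℓ.Prime] in
theorem incl_injective : Function.Injective (incl ℓ) := Subtype.val_injective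

/-- `Φ` has `ℓ`-integral coefficients. -/
def Lifts (Φ : ℚ[X][X]) : Prop :=
  ∃ Ψ : (Rl ℓ)[X][X], Ψ.map (Polynomial.mapRingHom (incl ℓ)) = Φ

omit [Fact ℓ.Prime] in
theorem Lifts.add {Φ₁ Φ₂ : ℚ[X][X]} (h₁ : Lifts ℓ Φ₁) (h₂ : Lifts ℓ Φ₂) : Lifts ℓ (Φ₁ + Φ₂) := by
  obtain ⟨Ψ₁, rfl⟩ := h₁
  obtain ⟨Ψ₂, rfl⟩ := h₂
  exact ⟨Ψ₁ + Ψ₂, Polynomial.map_add _⟩

omit [Fact ℓ.Prime] in
theorem Lifts.pow_mul {Φ : ℚ[X][X]} (h : Lifts ℓ Φ) (e : ℕ) :
    Lifts ℓ (C (C ((ℓ : ℚ) ^ e)) * Φ) := by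
  obtain ⟨Ψ, rfl⟩ := h
  refine ⟨C (C ((ℓ : Rl ℓ) ^ e)) * Ψ, ?_⟩
  simp

theorem exists_pow_lifts (Φ : ℚ[X][X]) : ∃ e : ℕ, Lifts ℓ (C (C ((ℓ : ℚ) ^ e)) * Φ) := by
  have hadd : ∀ p q : ℚ[X][X], (∃ e : ℕ, Lifts ℓ (C (C ((ℓ : ℚ) ^ e)) * p)) →
      (∃ e : ℕ, Lifts ℓ (C (C ((ℓ : ℚ) ^ e)) * q)) →
      ∃ e : ℕ, Lifts ℓ (C (C ((ℓ : ℚ) ^ e)) * (p + q)) := by
    rintro p q ⟨e₁, h₁⟩ ⟨e₂, h₂⟩
    refine ⟨e₂ + e₁, ?_⟩
    have := (h₁.pow_mul ℓ e₂).add ℓ (h₂.pow_mul ℓ e₁)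
    convert this using 1
    simp only [pow_add, map_mul]
    ring
  induction Φ using Polynomial.induction_on' with
  | add p q hp hq => exact hadd p q hp hq
  | monomial i P =>
    induction P using Polynomial.induction_on' with
    | add p q hp hq =>
      rw [map_add]
      exact hadd _ _ hp hq
    | monomial j a =>
      obtain ⟨e, he⟩ := exists_pow_mul_mem ℓ a
      refine ⟨e, monomial i (monomial j ⟨_, he⟩), ?_⟩
      rw [Polynomial.C_mul_monomial, Polynomial.C_mul_monomial, Polynomial.map_monomial,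
        Polynomial.coe_mapRingHom, Polynomial.map_monomial]
      rfl

theorem dvd_of_map_eq_zero (k : Type) [Field k] [CharP k ℓ] (Ψ : (Rl ℓ)[X][X])
    (h : Ψ.map (Polynomial.mapRingHom (towerRed ℓ k)) = 0) : C (C (ℓ : Rl ℓ)) ∣ Ψ := by
  rw [Polynomial.C_dvd_iff_dvd_coeff]
  intro i
  rw [Polynomial.C_dvd_iff_dvd_coeff]
  intro j
  apply dvd_of_towerRed_eq_zero ℓ k
  have := congrArg (fun P => (P.coeff i).coeff j) h
  simpa using this

theorem ev2_C_mul {A : Type} [CommRing A] (Q : A[X]) (Φ : A[X][X]) (x y : LaurentSeries A) :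
    ev2 (C Q * Φ) x y = evY y Q * ev2 Φ x y := by
  rw [ev2, ev2, Polynomial.eval₂_mul, Polynomial.eval₂_C]

theorem towerRed_natCast_self (k : Type) [Field k] [CharP k ℓ] :
    towerRed ℓ k (ℓ : Rl ℓ) = 0 := by
  rw [map_natCast]
  exact CharP.cast_eq_zero k ℓ

/-- The abstract integrality statement. -/
theorem lifts_of_roots (p : ℕ) (hp : 2 ≤ p) (Φ : ℚ[X][X]) (hmonic : Φ.Monic)
    (hdeg : Φ.natDegree = p + 1) (α y x : LaurentSeries (Rl ℓ))
    (h1 : ev2 Φ (coeffMap (incl ℓ) α) (coeffMap (incl ℓ) y) = 0)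
    (h2 : ev2 Φ (coeffMap (incl ℓ) x) (coeffMap (incl ℓ) (Vq (Rl ℓ) p y)) = 0)
    (hy : (coeffMap (towerRed ℓ (ZMod ℓ)) y).order ≠ 0)
    (hx : IsCoprime (coeffMap (towerRed ℓ (ZMod ℓ)) x).order (p : ℤ)) : Lifts ℓ Φ := by
  classical
  set π₀ := towerRed ℓ (ZMod ℓ) with hπ₀
  have hex := exists_pow_lifts ℓ Φ
  rcases Nat.eq_zero_or_pos (Nat.find hex) with he | he
  · have := Nat.find_spec hex
    rw [he] at this
    simpa using this
  exfalso
  obtain ⟨e', he'⟩ : ∃ e', Nat.find hex = e' + 1 := ⟨Nat.find hex - 1, by omega⟩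
  obtain ⟨Ψ, hΨ⟩ := Nat.find_spec hex
  rw [he'] at hΨ
  have hinj : Function.Injective (Polynomial.mapRingHom (incl ℓ)) :=
    Polynomial.map_injective _ (incl_injective ℓ)
  -- the two vanishing statements for `Ψ`
  have hv1 : ev2 Ψ α y = 0 := by
    apply BC.coeffMap_injective (incl_injective ℓ)
    rw [BC.coeffMap_ev2, hΨ, ev2_C_mul, h1, mul_zero, map_zero]
  have hv2 : ev2 Ψ x (Vq (Rl ℓ) p y) = 0 := by
    apply BC.coeffMap_injective (incl_injective ℓ)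
    rw [BC.coeffMap_ev2, hΨ, ev2_C_mul, h2, mul_zero, map_zero]
  -- reduction
  set Ψb := Ψ.map (Polynomial.mapRingHom π₀) with hΨb
  have hcoeff : ∀ i, p < i → Ψb.coeff i = 0 := by
    intro i hi
    have hc : (Polynomial.mapRingHom (incl ℓ)) (Ψ.coeff i) =
        C ((ℓ : ℚ) ^ (e' + 1)) * Φ.coeff i := by
      rw [← Polynomial.coeff_map, hΨ, Polynomial.coeff_C_mul]
    rcases Nat.lt_or_ge (p + 1) i with hi' | hi'
    · rw [Polynomial.coeff_eq_zero_of_natDegree_lt (p := Φ) (by omega), mul_zero] at hc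
      have : Ψ.coeff i = 0 := hinj (by rw [hc, map_zero])
      rw [hΨb, Polynomial.coeff_map, this, map_zero]
    · have hi'' : i = Φ.natDegree := by omega
      rw [hi'', hmonic.coeff_natDegree, mul_one] at hc
      have : Ψ.coeff Φ.natDegree = C ((ℓ : Rl ℓ) ^ (e' + 1)) := hinj (by rw [hc]; simp)
      rw [hΨb, Polynomial.coeff_map, hi'', this]
      simp [hπ₀]
  have hdegb : Ψb.natDegree ≤ p := by
    rw [Polynomial.natDegree_le_iff_coeff_eq_zero]
    exact hcoeff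
  have hb1 : ev2 Ψb (coeffMap π₀ α) (coeffMap π₀ y) = 0 := by
    rw [hΨb, ← BC.coeffMap_ev2, hv1, map_zero]
  have hb2 : ev2 Ψb (coeffMap π₀ x) (Vq (ZMod ℓ) p (coeffMap π₀ y)) = 0 := by
    rw [hΨb, ← BC.coeffMap_Vq, ← BC.coeffMap_ev2, hv2, map_zero]
  have hG : Ψb.map (evY (coeffMap π₀ y)) = 0 := by
    apply L1.eq_zero_of_two_roots p hp _ (le_trans Polynomial.natDegree_map_le hdegb)
      (coeffMap π₀ α) (coeffMap π₀ x)
    · rw [Polynomial.eval_map]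
      exact hb1
    · exact hx
    · rw [Polynomial.eval₂_map, BC.Vq_comp_evY]
      exact hb2
  have hΨb0 : Ψb = 0 :=
    (Polynomial.map_eq_zero_iff (L1.evY_injective _ hy)).mp hG
  obtain ⟨Ψ', hΨ'⟩ := dvd_of_map_eq_zero ℓ (ZMod ℓ) Ψ hΨb0
  apply Nat.find_min hex (m := e') (by omega)
  refine ⟨Ψ', ?_⟩
  have hℓ : (C (C (ℓ : ℚ)) : ℚ[X][X]) ≠ 0 := by
    simp only [ne_eq, Polynomial.C_eq_zero]
    exact_mod_cast (Fact.out : ℓ.Prime).ne_zero
  apply mul_left_cancel₀ hℓ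
  have : (C (C (ℓ : ℚ)) : ℚ[X][X]) * Ψ'.map (Polynomial.mapRingHom (incl ℓ)) =
      Ψ.map (Polynomial.mapRingHom (incl ℓ)) := by
    rw [hΨ']
    simp
  rw [this, hΨ, pow_succ']
  simp only [map_mul]
  ring

end Integrality

/-- **WP2**. -/
theorem wp2 : WP2 := by
  intro ℓ _ p hp
  constructor
  · intro h
    obtain ⟨Φ, hΦ⟩ := hasModPoly_rat h
    have hL : Lifts ℓ Φ := by
      refine lifts_of_roots ℓ p hp.two_le Φ hΦ.1 hΦ.2.1 (jd (Rl ℓ) p) (jqModC (Rl ℓ))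
        (jqModC (Rl ℓ)) ?_ ?_ ?_ ?_
      · rw [BC.coeffMap_jd, coeffMap_jqModC]
        exact hΦ.2.2.1
      · rw [BC.coeffMap_Vq, coeffMap_jqModC]
        exact hΦ.2.2.2
      · rw [coeffMap_jqModC, L1.order_jqModC]
        decide
      · rw [coeffMap_jqModC, L1.order_jqModC]
        exact isCoprime_one_left.neg_left
    obtain ⟨Ψ, rfl⟩ := hL
    exact ⟨Ψ, BC.IsModPoly.of_map (incl_injective ℓ) hΦ⟩
  · intro h
    obtain ⟨Ξ, hΞ⟩ := hasUnitPoly_rat h
    have hL : Lifts ℓ Ξ := by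
      refine lifts_of_roots ℓ p hp.two_le Ξ hΞ.1 hΞ.2.1 (uInf (Rl ℓ) p) (jqModC (Rl ℓ))
        (uZero (Rl ℓ) p) ?_ ?_ ?_ ?_
      · rw [BC.coeffMap_uInf, coeffMap_jqModC]
        exact hΞ.2.2.1
      · rw [BC.coeffMap_Vq, coeffMap_jqModC, BC.coeffMap_uZero]
        exact hΞ.2.2.2
      · rw [coeffMap_jqModC, L1.order_jqModC]
        decide
      · rw [BC.coeffMap_uZero, L1.order_uZero p hp.ne_zero]
        exact ⟨1, 1, by ring⟩
    obtain ⟨Ψ, rfl⟩ := hL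
    exact ⟨Ψ, BC.IsUnitPoly.of_map (incl_injective ℓ) hΞ⟩

end Fermat.Agent.S28.Descent
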