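import Mathlib

/-!
# S28, formal route (helper7): generic algebra

* `esymm_mem_of_psum_mem`: Newton's identities for graded families of `ℚ`-subspaces.
* `coeff_mem_of_forall_eval_mem`: extraction of the coefficients of a polynomial from its values.
* `sum_rescale_pow`: the roots of unity filter on power series.
-/

set_option autoImplicit false

namespace Fermat.Agent.S28.FN7

open Finset

/-- Newton: if all the power sums `∑ x_i ^ m` lie in the `m`-th piece of a graded family of
`ℚ`-subspaces, then so do the elementary symmetric functions. -/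
theorem esymm_mem_of_psum_mem {B : Type*} [CommRing B] [Algebra ℚ B] (S : ℕ → Submodule ℚ B)
    (h1 : (1 : B) ∈ S 0) (hmul : ∀ a b x y, x ∈ S a → y ∈ S b → x * y ∈ S (a + b))
    {σ : Type*} [Fintype σ] (x : σ → B) (hp : ∀ m, 1 ≤ m → ∑ i, x i ^ m ∈ S m) (n : ℕ) :
    (Finset.univ.val.map x).esymm n ∈ S n := by
  induction n using Nat.strong_induction_on with
  | _ n ih =>
    rcases Nat.eq_zero_or_pos n with rfl | hn
    · simpa [Multiset.esymm] using h1
    have key := congrArg (MvPolynomial.aeval x) (MvPolynomial.mul_esymm_eq_sum σ ℚ n)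
    simp only [map_mul, map_natCast, map_pow, map_neg, map_one, map_sum,
      MvPolynomial.aeval_esymm_eq_multiset_esymm] at key
    have hps : ∀ m, MvPolynomial.aeval x (MvPolynomial.psum σ ℚ m) = ∑ i, x i ^ m := by
      intro m
      simp [MvPolynomial.psum]
    simp only [hps] at key
    have hsign : ∀ (k : ℕ) (y : B) (m : ℕ), y ∈ S m → (-1) ^ k * y ∈ S m := by
      intro k y m hy
      rcases neg_one_pow_eq_or B k with h | h
      · rw [h, one_mul]; exact hy
      · rw [h, neg_one_mul]; exact neg_mem hy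
    have hrhs : (n : B) * (Finset.univ.val.map x).esymm n ∈ S n := by
      rw [key]
      apply hsign
      apply Submodule.sum_mem
      intro a ha
      rw [Finset.mem_filter, Finset.HasAntidiagonal.mem_antidiagonal] at ha
      rw [mul_assoc]
      apply hsign
      have := hmul a.1 a.2 _ _ (ih a.1 ha.2) (hp a.2 (by omega))
      rwa [ha.1] at this
    have hn' : (n : ℚ) ≠ 0 := by exact_mod_cast hn.ne'
    have := (S n).smul_mem ((n : ℚ)⁻¹) hrhs
    have h2 : ((n : ℚ)⁻¹) • ((n : B) * (Finset.univ.val.map x).esymm n) =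
        (Finset.univ.val.map x).esymm n := by
      rw [← nsmul_eq_mul, ← Nat.cast_smul_eq_nsmul ℚ, smul_smul, inv_mul_cancel₀ hn', one_smul]
    rwa [h2] at this

/-- If all the values at integers of a polynomial with coefficients in a `ℚ`-vector space `B`
lie in a subspace `S`, then so do the coefficients. -/
theorem coeff_mem_of_forall_eval_mem {B : Type*} [CommRing B] [Algebra ℚ B] (S : Submodule ℚ B)
    (M : Polynomial B) (h : ∀ t : ℤ, M.eval (t : B) ∈ S) (n : ℕ) : M.coeff n ∈ S := by
  by_contra hn
  -- a functional vanishing on `S` but not on the coefficient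
  obtain ⟨f, hf1, hf2⟩ := Submodule.exists_le_ker_of_notMem hn
  -- the scalar polynomial
  let N : Polynomial ℚ := ∑ i ∈ Finset.range (M.natDegree + 1), Polynomial.monomial i (f (M.coeff i))
  have hN : ∀ t : ℤ, N.eval (t : ℚ) = 0 := by
    intro t
    have h1 : f (M.eval (t : B)) = 0 := hf2 (h t)
    rw [Polynomial.eval_eq_sum_range, map_sum] at h1
    simp only [N, Polynomial.eval_finsetSum, Polynomial.eval_monomial]
    rw [← h1]
    refine Finset.sum_congr rfl fun i _ => ?_
    have : M.coeff i * (t : B) ^ i = ((t : ℚ) ^ i) • M.coeff i := by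
      rw [Algebra.smul_def, map_pow, map_intCast, mul_comm]
    rw [this, map_smul, smul_eq_mul, mul_comm]
  have hN0 : N = 0 := by
    apply Polynomial.eq_zero_of_infinite_isRoot
    refine Set.Infinite.mono (s := Set.range fun t : ℤ => (t : ℚ)) ?_
      (Set.infinite_range_of_injective Int.cast_injective)
    rintro _ ⟨t, rfl⟩
    exact hN t
  have hc : N.coeff n = f (M.coeff n) := by
    simp only [N, Polynomial.finsetSum_coeff, Polynomial.coeff_monomial]
    rw [Finset.sum_ite_eq' ]
    split_ifs with hmem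
    · rfl
    · rw [Finset.mem_range, not_lt] at hmem
      rw [Polynomial.coeff_eq_zero_of_natDegree_lt (by omega), map_zero]
  rw [hN0, Polynomial.coeff_zero] at hc
  exact hf1 hc.symm


/-- The roots of unity filter. -/
theorem sum_rescale_pow {K : Type*} [Field K] {p : ℕ} (hp : p ≠ 0) {ζ : K}
    (hζ : IsPrimitiveRoot ζ p) (G : PowerSeries K) :
    ∑ b : Fin p, PowerSeries.rescale (ζ ^ (b : ℕ)) G =
      (p : K) • PowerSeries.expand p hp (PowerSeries.mk fun n => PowerSeries.coeff (n * p) G) := by
  ext n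
  rw [map_sum, PowerSeries.coeff_smul, PowerSeries.coeff_expand]
  simp only [PowerSeries.coeff_rescale]
  rw [← Finset.sum_mul, Fin.sum_univ_eq_sum_range (fun b => (ζ ^ b) ^ n) p]
  have h1 : ∀ b, (ζ ^ b) ^ n = (ζ ^ n) ^ b := fun b => by rw [← pow_mul, ← pow_mul, mul_comm]
  simp only [h1]
  split_ifs with hn
  · obtain ⟨k, rfl⟩ := hn
    have : ζ ^ (p * k) = 1 := by rw [pow_mul, hζ.pow_eq_one, one_pow]
    simp [this, Nat.mul_div_cancel_left _ (Nat.pos_of_ne_zero hp), mul_comm k p]
  · have h2 : ζ ^ n ≠ 1 := fun h => hn ((hζ.pow_eq_one_iff_dvd n).mp h)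
    have h3 : (ζ ^ n - 1) * ∑ b ∈ Finset.range p, (ζ ^ n) ^ b = 0 := by
      rw [mul_geom_sum, ← pow_mul, mul_comm, pow_mul, hζ.pow_eq_one, one_pow, sub_self]
    rcases mul_eq_zero.mp h3 with h | h
    · exact absurd (sub_eq_zero.mp h) h2
    · rw [h]; simp

/-- Power series all of whose coefficients lie in a subring. -/
noncomputable def coeffSubring {K : Type*} [CommRing K] (A : Subring K) : Subring (PowerSeries K) :=
  (PowerSeries.map A.subtype).range

theorem mem_coeffSubring {K : Type*} [CommRing K] {A : Subring K} {f : PowerSeries K} :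
    f ∈ coeffSubring A ↔ ∀ n, PowerSeries.coeff n f ∈ A := by
  constructor
  · rintro ⟨g, rfl⟩ n
    rw [PowerSeries.coeff_map]
    exact (PowerSeries.coeff n g).2
  · intro h
    refine ⟨PowerSeries.mk fun n => ⟨_, h n⟩, ?_⟩
    ext n
    simp

theorem rescale_mem_coeffSubring {K : Type*} [CommRing K] {A : Subring K} {f : PowerSeries K}
    (hf : f ∈ coeffSubring A) {a : K} (ha : a ∈ A) : PowerSeries.rescale a f ∈ coeffSubring A := by
  rw [mem_coeffSubring] at hf ⊢
  intro n
  rw [PowerSeries.coeff_rescale]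
  exact mul_mem (pow_mem ha n) (hf n)

theorem expand_mem_coeffSubring {K : Type*} [CommRing K] {A : Subring K} {f : PowerSeries K}
    (hf : f ∈ coeffSubring A) {p : ℕ} (hp : p ≠ 0) :
    PowerSeries.expand p hp f ∈ coeffSubring A := by
  rw [mem_coeffSubring] at hf ⊢
  intro n
  rw [PowerSeries.coeff_expand]
  split_ifs
  · exact hf _
  · exact zero_mem _

theorem map_int_mem_coeffSubring {K : Type*} [CommRing K] (A : Subring K) (P : PowerSeries ℤ) :
    P.map (Int.castRingHom K) ∈ coeffSubring A := by
  rw [mem_coeffSubring]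
  intro n
  rw [PowerSeries.coeff_map]
  exact intCast_mem A _

theorem esymm_mem_subring {B : Type*} [CommRing B] (A : Subring B) (s : Multiset B)
    (hs : ∀ x ∈ s, x ∈ A) (n : ℕ) : s.esymm n ∈ A := by
  rw [Multiset.esymm]
  apply Subring.multiset_sum_mem
  intro c hc
  obtain ⟨t, ht, rfl⟩ := Multiset.mem_map.mp hc
  apply Subring.multiset_prod_mem
  intro x hx
  exact hs x (Multiset.mem_of_le (Multiset.mem_powersetCard.mp ht).1 hx)

/-- the ring of algebraic integers in `ℂ` -/
noncomputable def algInt : Subring ℂ := (integralClosure ℤ ℂ).toSubring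

theorem mem_algInt {z : ℂ} : z ∈ algInt ↔ IsIntegral ℤ z := Iff.rfl

/-- A rational algebraic integer is an integer. -/
theorem exists_int_of_rat_of_mem_algInt {z : ℂ} (h1 : ∃ r : ℚ, z = r) (h2 : z ∈ algInt) :
    ∃ m : ℤ, z = m := by
  obtain ⟨r, rfl⟩ := h1
  have h3 : IsIntegral ℤ r := by
    have : IsIntegral ℤ (algebraMap ℚ ℂ r) := h2
    exact (isIntegral_algebraMap_iff (algebraMap ℚ ℂ).injective).mp this
  obtain ⟨m, hm⟩ := IsIntegrallyClosed.isIntegral_iff.mp h3
  exact ⟨m, by rw [← hm]; simp⟩

end Fermat.Agent.S28.FN7
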