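import Fermat.Agent.QInt.QMap
import Fermat.Agent.Common.QExpDelta
import Fermat.Prelude.Thm_UpperHalfPlane_qCoeff_heckeT
import Fermat.Prelude.Thm_ModularForm_isBoundedAtImInfty_heckeT
import Fermat.Prelude.Thm_ModularForm_heckeT_slash_eq_self_of_mem_Gamma0
import Fermat.Prelude.Thm_ModularForm_mdifferentiable_heckeT

/-!
# S28, package A: the only analytic input (AI)

The `ℤ`-span `Wspan m` of the formal series `E ^ a * D ^ (m - a)` (`E = E₄³`, `D = Δ`) is exactly
the set of integral `q`-expansions of level one forms of weight `12 m`, and it is stable under the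
formal Hecke operator `T_p`.
-/

set_option autoImplicit false

namespace Fermat.Agent.S28

open UpperHalfPlane ModularForm EisensteinSeries CongruenceSubgroup Matrix.SpecialLinearGroup
open Fermat.Agent.QInt Fermat.Agent.Common ModularCurve
open scoped MatrixGroups ModularForm Manifold

/-- the formal `E₄³` -/
noncomputable def fE : PowerSeries ℤ := eisenstein4 ^ 3

/-- the formal `Δ` -/
noncomputable def fD : PowerSeries ℤ := PowerSeries.X * dedekindEtaUnit

/-- The `ℤ`-span of `E ^ a * D ^ (m - a)`, `0 ≤ a ≤ m`. -/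
noncomputable def Wspan (m : ℕ) : Submodule ℤ (PowerSeries ℤ) :=
  Submodule.span ℤ (Set.range fun a : Fin (m + 1) => fE ^ (a : ℕ) * fD ^ (m - (a : ℕ)))

/-- The formal Hecke operator `T_p` in weight `k`. -/
noncomputable def formalT (p k : ℕ) (f : PowerSeries ℤ) : PowerSeries ℤ :=
  PowerSeries.mk fun n =>
    PowerSeries.coeff (n * p) f + if p ∣ n then (p : ℤ) ^ (k - 1) * PowerSeries.coeff (n / p) f else 0

local notation "ι" => PowerSeries.map (Int.castRingHom ℂ)

lemma map_injective_int : Function.Injective ι :=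
  PowerSeries.map_injective _ Int.cast_injective

/-- `P` is the `q`-expansion of a level one form of weight `k`. -/
def HasQ (k : ℤ) (P : PowerSeries ℤ) : Prop :=
  ∃ g : ℍ → ℂ, IsMF ⊤ k g ∧ qExpansion 1 g = ι P

lemma HasQ.congr_weight {k k' : ℤ} {P : PowerSeries ℤ} (h : HasQ k P) (hk : k = k') : HasQ k' P :=
  hk ▸ h

lemma HasQ.mul {k k' : ℤ} {P P' : PowerSeries ℤ} (h : HasQ k P) (h' : HasQ k' P') :
    HasQ (k + k') (P * P') := by
  obtain ⟨g, hg, hgq⟩ := h
  obtain ⟨g', hg', hgq'⟩ := h'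
  exact ⟨g * g', hg.mul hg', by
    rw [qExpansion_mul hg.isQ_top.analyticAt hg'.isQ_top.analyticAt, hgq, hgq', map_mul]⟩

lemma HasQ.add {k : ℤ} {P P' : PowerSeries ℤ} (h : HasQ k P) (h' : HasQ k P') :
    HasQ k (P + P') := by
  obtain ⟨g, hg, hgq⟩ := h
  obtain ⟨g', hg', hgq'⟩ := h'
  exact ⟨g + g', hg.add hg', by
    rw [qExpansion_add hg.isQ_top.analyticAt hg'.isQ_top.analyticAt, hgq, hgq', map_add]⟩

lemma HasQ.zero (k : ℤ) : HasQ k 0 := ⟨0, IsMF.zero, by rw [qExpansion_zero, map_zero]⟩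

lemma HasQ.one : HasQ 0 1 := ⟨1, IsMF.one, by rw [qExpansion_one, map_one]⟩

lemma HasQ.smul {k : ℤ} {P : PowerSeries ℤ} (c : ℤ) (h : HasQ k P) : HasQ k (c • P) := by
  obtain ⟨g, hg, hgq⟩ := h
  refine ⟨(c : ℂ) • g, hg.smul _, ?_⟩
  rw [qExpansion_smul hg.isQ_top.analyticAt, hgq]
  ext n
  rw [PowerSeries.coeff_smul, PowerSeries.coeff_map, PowerSeries.coeff_map, map_zsmul]
  simp

lemma HasQ.pow {k : ℤ} {P : PowerSeries ℤ} (h : HasQ k P) (n : ℕ) : HasQ (k * n) (P ^ n) := by
  induction n with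
  | zero => simpa using HasQ.one
  | succ n ih =>
    rw [pow_succ]
    exact (ih.mul h).congr_weight (by push_cast; ring)

lemma hasQ_eisenstein4 : HasQ 4 eisenstein4 := ⟨E₄, IsMF.of_levelOne E₄, qExpansion_E4⟩

lemma hasQ_fE : HasQ 12 fE := (hasQ_eisenstein4.pow 3).congr_weight (by norm_num)

lemma hasQ_fD : HasQ 12 fD :=
  ⟨ModularForm.discriminant, (IsCF.of_levelOne CuspForm.discriminant).isMF,
    qExpansion_discriminant⟩

lemma hasQ_of_mem_Wspan {m : ℕ} {P : PowerSeries ℤ} (h : P ∈ Wspan m) : HasQ (12 * m) P := by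
  induction h using Submodule.span_induction with
  | mem x hx =>
    obtain ⟨a, rfl⟩ := hx
    refine ((hasQ_fE.pow a).mul (hasQ_fD.pow (m - a))).congr_weight ?_
    have : (a : ℕ) ≤ m := Nat.lt_succ_iff.mp a.2
    push_cast [Nat.cast_sub this]
    ring
  | zero => exact HasQ.zero _
  | add x y _ _ hx hy => exact hx.add hy
  | smul c x _ hx => exact hx.smul c


lemma mul_pow_mem_Wspan {m a : ℕ} (ha : a ≤ m) : fE ^ a * fD ^ (m - a) ∈ Wspan m :=
  Submodule.subset_span ⟨⟨a, Nat.lt_succ_iff.mpr ha⟩, rfl⟩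

lemma fE_pow_mem_Wspan (m : ℕ) : fE ^ m ∈ Wspan m := by
  simpa using mul_pow_mem_Wspan (le_refl m)

lemma fD_mul_mem_Wspan {m : ℕ} {P : PowerSeries ℤ} (h : P ∈ Wspan m) : fD * P ∈ Wspan (m + 1) := by
  induction h using Submodule.span_induction with
  | mem x hx =>
    obtain ⟨a, rfl⟩ := hx
    have ha : (a : ℕ) ≤ m := Nat.lt_succ_iff.mp a.2
    have : fD * (fE ^ (a : ℕ) * fD ^ (m - (a : ℕ))) = fE ^ (a : ℕ) * fD ^ (m + 1 - (a : ℕ)) := by
      rw [Nat.succ_sub ha, pow_succ]; ring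
    rw [this]
    exact mul_pow_mem_Wspan (ha.trans (Nat.le_succ m))
  | zero => simp
  | add x y _ _ hx hy => rw [mul_add]; exact add_mem hx hy
  | smul c x _ hx => rw [mul_smul_comm]; exact Submodule.smul_mem _ _ hx

lemma constantCoeff_fE : PowerSeries.constantCoeff fE = 1 := by
  rw [fE, map_pow, constantCoeff_eisenstein4, one_pow]

/-- (A2) integral structure theorem in level one and weight `12 m`. -/
theorem mem_Wspan_of_hasQ : ∀ (m : ℕ) (P : PowerSeries ℤ), HasQ (12 * m) P → P ∈ Wspan m := by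
  intro m
  induction m with
  | zero =>
    rintro P ⟨g, hg, hgq⟩
    have hg0 : IsMF ⊤ 0 g := hg.congr_weight (by simp)
    obtain ⟨c, hc⟩ := ModularFormClass.levelOne_weight_zero_const hg0.toLevelOne
    have hc' : g = c • (1 : ℍ → ℂ) := by
      funext z
      have := congrFun hc z
      simpa using this
    have h1 : IsQ (1 : ℍ → ℂ) := (1 : QH).2
    rw [hc', qExpansion_smul h1.analyticAt, qExpansion_one] at hgq
    have hP : P = (PowerSeries.coeff 0 P) • (1 : PowerSeries ℤ) := by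
      ext n
      have := congrArg (PowerSeries.coeff n) hgq
      rw [PowerSeries.coeff_smul, PowerSeries.coeff_map, PowerSeries.coeff_one] at this
      rw [map_zsmul, PowerSeries.coeff_one]
      rcases eq_or_ne n 0 with rfl | hn
      · simp
      · simp only [hn, if_false, smul_zero] at this ⊢
        exact Int.cast_injective (α := ℂ) (by simpa using this.symm)
    rw [hP]
    refine Submodule.smul_mem _ _ ?_
    simpa using mul_pow_mem_Wspan (le_refl 0)
  | succ m ih =>
    intro P hP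
    set a0 : ℤ := PowerSeries.constantCoeff P with ha0
    have hP' : HasQ (12 * ((m + 1 : ℕ) : ℤ)) (P + (-a0) • fE ^ (m + 1)) :=
      hP.add ((hasQ_fE.pow (m + 1)).smul (-a0))
    obtain ⟨g, hg, hgq⟩ := hP'
    have hc0 : PowerSeries.constantCoeff (P + (-a0) • fE ^ (m + 1)) = 0 := by
      rw [map_add, map_zsmul, map_pow, constantCoeff_fE, one_pow]
      simp [ha0]
    obtain ⟨R, hR⟩ := PowerSeries.X_dvd_iff.mpr hc0
    have hcusp : (qExpansion 1 hg.toLevelOne).coeff 0 = 0 := by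
      rw [IsMF.coe_toLevelOne, hgq, PowerSeries.coeff_map, PowerSeries.coeff_zero_eq_constantCoeff,
        hc0, map_zero]
    have hfac := qExpansion_eq_qExpansion_discriminant_mul hg.toLevelOne hcusp
    set h := CuspForm.discriminantEquiv (toCuspForm hg.toLevelOne hcusp) with hh
    rw [IsMF.coe_toLevelOne, hgq, qExpansion_discriminant, hR, map_mul, map_mul,
      PowerSeries.map_X, mul_assoc] at hfac
    have h2 : ι R = ι dedekindEtaUnit * qExpansion 1 h :=
      mul_left_cancel₀ PowerSeries.X_ne_zero hfac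
    have h3 : qExpansion 1 h = ι (dedekindEtaUnitInv * R) := by
      rw [map_mul, h2, ← mul_assoc, ← map_mul, mul_comm dedekindEtaUnitInv,
        dedekindEtaUnit_mul_inv, map_one, one_mul]
    have h4 : dedekindEtaUnitInv * R ∈ Wspan m :=
      ih _ ⟨h, (IsMF.of_levelOne h).congr_weight (by push_cast; ring), h3⟩
    have h5 : P = a0 • fE ^ (m + 1) + fD * (dedekindEtaUnitInv * R) := by
      have : fD * (dedekindEtaUnitInv * R) = PowerSeries.X * R := by
        rw [fD, mul_assoc, ← mul_assoc dedekindEtaUnit, dedekindEtaUnit_mul_inv, one_mul]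
      rw [this, ← hR]
      simp
    rw [h5]
    exact add_mem (Submodule.smul_mem _ _ (fE_pow_mem_Wspan _)) (fD_mul_mem_Wspan h4)


lemma isMF_heckeT {k : ℤ} {g : ℍ → ℂ} (hg : IsMF ⊤ k g) {p : ℕ} (hp : p.Prime) :
    IsMF ⊤ k (heckeT k p g) := by
  have hinv : ∀ γ : SL(2, ℤ), heckeT k p g ∣[k] γ = heckeT k p g := by
    intro γ
    have hmem : ∀ γ : SL(2, ℤ), (mapGL ℝ γ) ∈ ((Gamma0 1 : Subgroup SL(2, ℤ)) :
        Subgroup (GL (Fin 2) ℝ)) := fun γ =>
      Subgroup.mem_map_of_mem _ (by rw [Gamma0_mem]; exact Subsingleton.elim _ _)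
    refine heckeT_slash_eq_self_of_mem_Gamma0 (N := 1) k hp (by simpa using hp.one_lt.ne') ?_
      (mapGL ℝ γ) (hmem γ)
    intro δ hδ
    obtain ⟨δ', -, rfl⟩ := Subgroup.mem_map.mp hδ
    exact hg.slash δ' trivial
  refine ⟨fun γ _ => hinv γ, mdifferentiable_heckeT hg.holo k p, fun γ => ?_⟩
  rw [hinv γ]
  exact isBoundedAtImInfty_heckeT hg.isQ_top.bdd k p

lemma HasQ.formalT {k : ℕ} (hk : 1 ≤ k) {P : PowerSeries ℤ} (h : HasQ k P) {p : ℕ}
    (hp : p.Prime) : HasQ k (formalT p k P) := by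
  obtain ⟨g, hg, hgq⟩ := h
  refine ⟨heckeT k p g, isMF_heckeT hg hp, ?_⟩
  ext n
  have h1 := UpperHalfPlane.qCoeff_heckeT hg.isQ_top.periodic hg.holo hg.isQ_top.bdd k hp.ne_zero n
  have h2 : (qExpansion 1 (heckeT k p g)).coeff n =
      coeffHeckeT k p (fun n => (qExpansion 1 g).coeff n) n := h1
  simp only [h2, coeffHeckeT_apply, hgq, PowerSeries.coeff_map, Fermat.Agent.S28.formalT,
    PowerSeries.coeff_mk]
  have h3 : ((k : ℤ) - 1) = ((k - 1 : ℕ) : ℤ) := by
    rw [Nat.cast_sub hk]; simp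
  rw [h3, zpow_natCast]
  split_ifs <;> simp

lemma formalT_add (p k : ℕ) (f g : PowerSeries ℤ) :
    formalT p k (f + g) = formalT p k f + formalT p k g := by
  ext n
  simp only [formalT, PowerSeries.coeff_mk, map_add]
  split_ifs <;> ring

lemma formalT_smul (p k : ℕ) (c : ℤ) (f : PowerSeries ℤ) :
    formalT p k (c • f) = c • formalT p k f := by
  ext n
  simp only [formalT, PowerSeries.coeff_mk, map_zsmul, smul_eq_mul]
  split_ifs <;> ring

/-- (AI) the formal Hecke operator `T_p` of weight `12 m` preserves `Wspan m`. -/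
theorem formalT_mem_Wspan {p : ℕ} (hp : p.Prime) {m : ℕ} (hm : 1 ≤ m) {f : PowerSeries ℤ}
    (hf : f ∈ Wspan m) : formalT p (12 * m) f ∈ Wspan m := by
  apply mem_Wspan_of_hasQ
  have h1 : HasQ ((12 * m : ℕ) : ℤ) f := (hasQ_of_mem_Wspan hf).congr_weight (by push_cast; ring)
  exact (h1.formalT (by omega) hp).congr_weight (by push_cast; ring)

/-- (A2) in terms of modular forms. -/
theorem levelOne_mem_Wspan (m : ℕ) (g : ModularForm 𝒮ℒ (12 * m)) (P : PowerSeries ℤ)
    (h : qExpansion 1 g = P.map (Int.castRingHom ℂ)) : P ∈ Wspan m :=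
  mem_Wspan_of_hasQ m P ⟨g, IsMF.of_levelOne g, h⟩

end Fermat.Agent.S28
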