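import Fermat.Agent.S28.FN7a
import Fermat.Agent.S28.HeckeFormal

/-!
# S28, formal route (helper7): the graded pieces `MQ n` and Newton
-/

set_option autoImplicit false

namespace Fermat.Agent.S28.FN7

open UpperHalfPlane ModularForm
open Fermat.Agent.QInt Fermat.Agent.Common Fermat.Agent.S28 ModularCurve
open scoped MatrixGroups ModularForm Manifold

local notation "ι" => PowerSeries.map (Int.castRingHom ℂ)

/-- power series with rational coefficients -/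
noncomputable def ratSeries : Subring (PowerSeries ℂ) := (PowerSeries.map (algebraMap ℚ ℂ)).range

theorem mem_ratSeries {f : PowerSeries ℂ} :
    f ∈ ratSeries ↔ ∀ n, ∃ r : ℚ, PowerSeries.coeff n f = r := by
  constructor
  · rintro ⟨g, rfl⟩ n
    exact ⟨PowerSeries.coeff n g, by simp⟩
  · intro h
    choose r hr using h
    refine ⟨PowerSeries.mk r, ?_⟩
    ext n
    simp [hr]

theorem map_int_mem_ratSeries (P : PowerSeries ℤ) : ι P ∈ ratSeries := by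
  rw [mem_ratSeries]
  intro n
  exact ⟨(PowerSeries.coeff n P : ℤ), by simp⟩

theorem rat_smul_mem_ratSeries (c : ℚ) {f : PowerSeries ℂ} (hf : f ∈ ratSeries) :
    c • f ∈ ratSeries := by
  rw [mem_ratSeries] at hf ⊢
  intro n
  obtain ⟨r, hr⟩ := hf n
  refine ⟨c * r, ?_⟩
  rw [← algebraMap_smul ℂ c f, PowerSeries.coeff_smul, hr]
  simp

/-- `q`-expansions with rational coefficients of level one forms of weight `12 n`. -/
noncomputable def MQ (n : ℕ) : Submodule ℚ (PowerSeries ℂ) where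
  carrier := {w | (∃ g : ℍ → ℂ, IsMF ⊤ (12 * n) g ∧ qExpansion 1 g = w) ∧ w ∈ ratSeries}
  add_mem' := by
    rintro a b ⟨⟨g, hg, rfl⟩, ha⟩ ⟨⟨g', hg', rfl⟩, hb⟩
    exact ⟨⟨g + g', hg.add hg', qExpansion_add hg.isQ_top.analyticAt hg'.isQ_top.analyticAt⟩,
      add_mem ha hb⟩
  zero_mem' := ⟨⟨0, IsMF.zero, qExpansion_zero 1⟩, zero_mem _⟩
  smul_mem' := by
    rintro c a ⟨⟨g, hg, rfl⟩, ha⟩
    refine ⟨⟨(c : ℂ) • g, hg.smul _, ?_⟩, rat_smul_mem_ratSeries c ha⟩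
    rw [qExpansion_smul hg.isQ_top.analyticAt, ← algebraMap_smul ℂ c (qExpansion 1 g)]
    rfl

theorem mem_MQ {n : ℕ} {w : PowerSeries ℂ} :
    w ∈ MQ n ↔ (∃ g : ℍ → ℂ, IsMF ⊤ (12 * n) g ∧ qExpansion 1 g = w) ∧ w ∈ ratSeries := Iff.rfl

theorem one_mem_MQ : (1 : PowerSeries ℂ) ∈ MQ 0 :=
  ⟨⟨1, IsMF.one.congr_weight (by simp), qExpansion_one 1⟩, one_mem _⟩

theorem mul_mem_MQ (a b : ℕ) (x y : PowerSeries ℂ) (hx : x ∈ MQ a) (hy : y ∈ MQ b) :
    x * y ∈ MQ (a + b) := by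
  obtain ⟨⟨g, hg, rfl⟩, ha⟩ := hx
  obtain ⟨⟨g', hg', rfl⟩, hb⟩ := hy
  exact ⟨⟨g * g', (hg.mul hg').congr_weight (by push_cast; ring),
    qExpansion_mul hg.isQ_top.analyticAt hg'.isQ_top.analyticAt⟩, mul_mem ha hb⟩

theorem pow_mem_MQ {a : ℕ} {x : PowerSeries ℂ} (hx : x ∈ MQ a) (m : ℕ) : x ^ m ∈ MQ (a * m) := by
  induction m with
  | zero => simpa using one_mem_MQ
  | succ m ih =>
    rw [pow_succ, Nat.mul_succ]
    exact mul_mem_MQ _ _ _ _ ih hx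

theorem map_mem_MQ {n : ℕ} {P : PowerSeries ℤ} (h : HasQ (12 * n) P) : ι P ∈ MQ n := by
  obtain ⟨g, hg, hgq⟩ := h
  exact ⟨⟨g, hg, hgq⟩, map_int_mem_ratSeries P⟩

/-- An element of `MQ n` with algebraic integer coefficients comes from `Wspan n`. -/
theorem exists_mem_Wspan {n : ℕ} {w : PowerSeries ℂ} (hw : w ∈ MQ n)
    (hint : w ∈ coeffSubring algInt) : ∃ P ∈ Wspan n, w = ι P := by
  obtain ⟨⟨g, hg, rfl⟩, hr⟩ := hw
  rw [mem_ratSeries] at hr
  rw [mem_coeffSubring] at hint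
  choose c hc using fun k => exists_int_of_rat_of_mem_algInt (hr k) (hint k)
  have h : qExpansion 1 g = ι (PowerSeries.mk c) := by
    ext k
    simp [hc]
  exact ⟨PowerSeries.mk c, mem_Wspan_of_hasQ n _ ⟨g, hg, h⟩, h⟩

/-- The formal Hecke operator on complex power series. -/
noncomputable def TC (p k : ℕ) (f : PowerSeries ℂ) : PowerSeries ℂ :=
  PowerSeries.mk fun n =>
    PowerSeries.coeff (n * p) f + if p ∣ n then (p : ℂ) ^ (k - 1) * PowerSeries.coeff (n / p) f else 0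

theorem TC_mem_MQ {p : ℕ} (hp : p.Prime) {m : ℕ} (hm : 1 ≤ m) {w : PowerSeries ℂ}
    (hw : w ∈ MQ m) : TC p (12 * m) w ∈ MQ m := by
  obtain ⟨⟨g, hg, rfl⟩, hr⟩ := hw
  refine ⟨⟨heckeT (12 * m) p g, isMF_heckeT hg hp, ?_⟩, ?_⟩
  · ext n
    have h1 := UpperHalfPlane.qCoeff_heckeT hg.isQ_top.periodic hg.holo hg.isQ_top.bdd (12 * m)
      hp.ne_zero n
    have h2 : (qExpansion 1 (heckeT (12 * m) p g)).coeff n =
        coeffHeckeT (12 * m) p (fun n => (qExpansion 1 g).coeff n) n := h1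
    simp only [h2, coeffHeckeT_apply, TC, PowerSeries.coeff_mk]
    have h3 : ((12 * m : ℤ) - 1) = ((12 * m - 1 : ℕ) : ℤ) := by
      rw [Nat.cast_sub (by omega)]; simp
    rw [h3, zpow_natCast]
  · rw [mem_ratSeries] at hr ⊢
    intro n
    obtain ⟨r1, h1⟩ := hr (n * p)
    obtain ⟨r2, h2⟩ := hr (n / p)
    simp only [TC, PowerSeries.coeff_mk, h1, h2]
    split_ifs
    · exact ⟨r1 + (p : ℚ) ^ (12 * m - 1) * r2, by push_cast; ring⟩
    · exact ⟨r1, by simp⟩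


/-- The graded pieces `V_p (MQ n)`. -/
noncomputable def SQ (p : ℕ) (hp0 : p ≠ 0) (n : ℕ) : Submodule ℚ (PowerSeries ℂ) :=
  (MQ n).map ((PowerSeries.expand p hp0 :
    PowerSeries ℂ →ₐ[ℂ] PowerSeries ℂ).restrictScalars ℚ).toLinearMap

theorem mem_SQ {p : ℕ} {hp0 : p ≠ 0} {n : ℕ} {x : PowerSeries ℂ} :
    x ∈ SQ p hp0 n ↔ ∃ w ∈ MQ n, PowerSeries.expand p hp0 w = x := Iff.rfl

theorem one_mem_SQ {p : ℕ} {hp0 : p ≠ 0} : (1 : PowerSeries ℂ) ∈ SQ p hp0 0 :=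
  mem_SQ.mpr ⟨1, one_mem_MQ, map_one _⟩

theorem mul_mem_SQ {p : ℕ} {hp0 : p ≠ 0} (a b : ℕ) (x y : PowerSeries ℂ) (hx : x ∈ SQ p hp0 a)
    (hy : y ∈ SQ p hp0 b) : x * y ∈ SQ p hp0 (a + b) := by
  obtain ⟨w, hw, rfl⟩ := hx
  obtain ⟨w', hw', rfl⟩ := hy
  exact mem_SQ.mpr ⟨w * w', mul_mem_MQ _ _ _ _ hw hw', map_mul _ _ _⟩

theorem expand_injective {p : ℕ} (hp0 : p ≠ 0) :
    Function.Injective (PowerSeries.expand p hp0 : PowerSeries ℂ → PowerSeries ℂ) := by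
  intro a b h
  ext n
  rw [← PowerSeries.coeff_expand_mul p hp0 a n, ← PowerSeries.coeff_expand_mul p hp0 b n, h]

/-- An element of `SQ n` with algebraic integer coefficients comes from `Wspan n`. -/
theorem exists_mem_Wspan_of_mem_SQ {p : ℕ} {hp0 : p ≠ 0} {n : ℕ} {x : PowerSeries ℂ}
    (hx : x ∈ SQ p hp0 n) (hint : x ∈ coeffSubring algInt) :
    ∃ P ∈ Wspan n, x = PowerSeries.expand p hp0 (ι P) := by
  obtain ⟨w, hw, rfl⟩ := hx
  have h : w ∈ coeffSubring algInt := by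
    rw [mem_coeffSubring] at hint ⊢
    intro k
    rw [← PowerSeries.coeff_expand_mul p hp0 w k]
    exact hint _
  obtain ⟨P, hP, rfl⟩ := exists_mem_Wspan hw h
  exact ⟨P, hP, rfl⟩

/-- The family of "conjugates" of `F`: `c F(Q^(p^2))` and `F(ζ^b Q)`. -/
noncomputable def rootFam (p : ℕ) (hp0 : p ≠ 0) (ζ c : ℂ) (F : PowerSeries ℂ) :
    Option (Fin p) → PowerSeries ℂ
  | none => PowerSeries.C c * PowerSeries.expand (p * p) (Nat.mul_ne_zero hp0 hp0) F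
  | some b => PowerSeries.rescale (ζ ^ (b : ℕ)) F

theorem TC_eq (p : ℕ) (hp0 : p ≠ 0) (k : ℕ) (G : PowerSeries ℂ) :
    TC p k G = (PowerSeries.mk fun n => PowerSeries.coeff (n * p) G) +
      PowerSeries.C ((p : ℂ) ^ (k - 1)) * PowerSeries.expand p hp0 G := by
  ext n
  simp only [TC, PowerSeries.coeff_mk, map_add, PowerSeries.coeff_C_mul, PowerSeries.coeff_expand]
  split_ifs <;> simp

theorem psum_rootFam {p : ℕ} (hp0 : p ≠ 0) {ζ : ℂ} (hζ : IsPrimitiveRoot ζ p)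
    (F : PowerSeries ℂ) {m : ℕ} (hm : 1 ≤ m) :
    ∑ i, rootFam p hp0 ζ ((p : ℂ) ^ 12) F i ^ m =
      (p : ℚ) • PowerSeries.expand p hp0 (TC p (12 * m) (F ^ m)) := by
  rw [Fintype.sum_option]
  simp only [rootFam]
  simp only [← map_pow]
  rw [sum_rescale_pow hp0 hζ (F ^ m), TC_eq p hp0, map_add, map_mul, smul_add,
    ← PowerSeries.expand_mul, mul_pow, ← map_pow, ← map_pow, PowerSeries.expand_C, add_comm]
  have hsm : ∀ y : PowerSeries ℂ, (p : ℚ) • y = (p : ℂ) • y := by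
    intro y
    rw [← algebraMap_smul ℂ (p : ℚ)]
    simp
  rw [hsm, hsm]
  congr 1
  rw [PowerSeries.smul_eq_C_mul, ← mul_assoc, ← map_mul]
  congr 3
  have : 12 * m = (12 * m - 1) + 1 := by omega
  rw [← pow_mul]
  conv_lhs => rw [this, pow_succ]
  rw [mul_comm]

/-- Newton: the elementary symmetric functions of the conjugates of `F ∈ MQ 1`. -/
theorem esymm_rootFam_mem {p : ℕ} (hp : p.Prime) {ζ : ℂ} (hζ : IsPrimitiveRoot ζ p)
    {F : PowerSeries ℂ} (hF : F ∈ MQ 1) (n : ℕ) :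
    (Finset.univ.val.map (rootFam p hp.ne_zero ζ ((p : ℂ) ^ 12) F)).esymm n ∈
      SQ p hp.ne_zero n := by
  apply esymm_mem_of_psum_mem (SQ p hp.ne_zero) one_mem_SQ mul_mem_SQ
  intro m hm
  rw [psum_rootFam hp.ne_zero hζ F hm]
  apply Submodule.smul_mem
  refine ⟨_, TC_mem_MQ hp hm ?_, rfl⟩
  simpa using pow_mem_MQ hF m

end Fermat.Agent.S28.FN7
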