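import Fermat.Agent.S28.FN7b
import Fermat.Agent.S28.BaseChange

/-!
# S28, formal route (helper7): from power series to Laurent series
-/

set_option autoImplicit false

namespace Fermat.Agent.S28.FN7

open Fermat.Agent.S28 ModularCurve Polynomial

local notation "ι" => PowerSeries.map (Int.castRingHom ℂ)
local notation "φ" => HahnSeries.ofPowerSeries ℤ ℂ
local notation "L" => LaurentSeries ℂ

theorem phi_expand (d : ℕ) (hd : d ≠ 0) (f : PowerSeries ℂ) :
    φ (PowerSeries.expand d hd f) = Vq ℂ d (φ f) := by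
  have : NeZero d := ⟨hd⟩
  rw [Vq_eq]
  ext k
  by_cases hk : (d : ℤ) ∣ k
  · obtain ⟨m, rfl⟩ := hk
    rw [qExpand_coeff_mul]
    rcases le_or_gt 0 m with hm | hm
    · lift m to ℕ using hm
      rw [show (d : ℤ) * (m : ℤ) = ((d * m : ℕ) : ℤ) by push_cast; ring,
        HahnSeries.ofPowerSeries_apply_coeff, HahnSeries.ofPowerSeries_apply_coeff,
        PowerSeries.coeff_expand_mul]
    · rw [ofPowerSeries_coeff_of_neg _ hm, ofPowerSeries_coeff_of_neg]
      have : (0 : ℤ) < d := by exact_mod_cast Nat.pos_of_ne_zero hd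
      exact mul_neg_of_pos_of_neg this hm
  · rw [qExpand_coeff_of_not_dvd _ _ hk]
    rcases le_or_gt 0 k with hk0 | hk0
    · lift k to ℕ using hk0
      rw [HahnSeries.ofPowerSeries_apply_coeff, PowerSeries.coeff_expand_of_not_dvd]
      exact fun h => hk (by exact_mod_cast h)
    · exact ofPowerSeries_coeff_of_neg _ hk0

theorem phi_injective : Function.Injective φ := HahnSeries.ofPowerSeries_injective

theorem DeltaS_eq : DeltaS ℂ = φ (ι fD) := by
  rw [DeltaS, fD, map_mul, map_mul, PowerSeries.map_X, HahnSeries.ofPowerSeries_X]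

theorem DeltaS_mul_DeltaInvS : DeltaS ℂ * DeltaInvS ℂ = 1 := by
  rw [DeltaS, DeltaInvS, mul_mul_mul_comm, HahnSeries.single_mul_single, ← map_mul, ← map_mul,
    dedekindEtaUnit_mul_inv]
  simp

theorem jq_mul_DeltaS : jqModC ℂ * DeltaS ℂ = φ (ι fE) := by
  rw [DeltaS, jqModC, mul_mul_mul_comm, HahnSeries.single_mul_single, ← map_mul, ← map_mul, jNum,
    mul_assoc, mul_comm dedekindEtaUnitInv, dedekindEtaUnit_mul_inv, fE]
  simp

/-- Evaluation of integer polynomials at a complex Laurent series. -/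
noncomputable def evZ (y : L) : ℤ[X] →+* L :=
  (evY y).comp (Polynomial.mapRingHom (Int.castRingHom ℂ))

theorem evZ_X (y : L) : evZ y X = y := by simp [evZ, evY]

theorem Vq_evZ (d : ℕ) (y : L) (R : ℤ[X]) : Vq ℂ d (evZ y R) = evZ (Vq ℂ d y) R := by
  rw [evZ, evZ, RingHom.comp_apply, RingHom.comp_apply, ← BC.Vq_comp_evY, RingHom.comp_apply]

/-- (★) dehomogenisation. -/
theorem exists_poly_of_mem_Wspan {n : ℕ} {P : PowerSeries ℤ} (h : P ∈ Wspan n) :
    ∃ R : ℤ[X], φ (ι P) = DeltaS ℂ ^ n * evZ (jqModC ℂ) R := by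
  induction h using Submodule.span_induction with
  | mem x hx =>
    obtain ⟨a, rfl⟩ := hx
    have ha : (a : ℕ) ≤ n := Nat.lt_succ_iff.mp a.2
    refine ⟨X ^ (a : ℕ), ?_⟩
    rw [map_pow, evZ_X, map_mul, map_mul, map_pow, map_pow, map_pow, map_pow, ← jq_mul_DeltaS,
      ← DeltaS_eq, mul_pow]
    have h2 : DeltaS ℂ ^ n = DeltaS ℂ ^ (n - (a : ℕ)) * DeltaS ℂ ^ (a : ℕ) := by
      rw [← pow_add, Nat.sub_add_cancel ha]
    rw [h2]
    ring
  | zero => exact ⟨0, by simp⟩
  | add x y _ _ hx hy =>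
    obtain ⟨R, hR⟩ := hx
    obtain ⟨R', hR'⟩ := hy
    exact ⟨R + R', by rw [map_add, map_add, hR, hR', map_add, mul_add]⟩
  | smul c x _ hx =>
    obtain ⟨R, hR⟩ := hx
    refine ⟨(c : ℤ[X]) * R, ?_⟩
    rw [zsmul_eq_mul, map_mul, map_mul, hR, map_mul, map_intCast, map_intCast, map_intCast]
    ring

/-- The shape of the polynomials we construct. -/
noncomputable def mkPoly (N : ℕ) (r : Fin N → ℤ[X]) : ℤ[X][X] :=
  X ^ N + ∑ k : Fin N, C (r k) * X ^ (k : ℕ)

theorem mkPoly_monic (N : ℕ) (r : Fin N → ℤ[X]) : (mkPoly N r).Monic :=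
  Polynomial.monic_X_pow_add (Polynomial.degree_sum_fin_lt r)

theorem mkPoly_natDegree (N : ℕ) (r : Fin N → ℤ[X]) : (mkPoly N r).natDegree = N :=
  by
  have h := Polynomial.degree_sum_fin_lt r
  rw [mkPoly, add_comm]
  apply Polynomial.natDegree_eq_of_degree_eq_some
  rw [Polynomial.degree_add_eq_right_of_degree_lt (by rwa [Polynomial.degree_X_pow]),
    Polynomial.degree_X_pow]

theorem ev2_mkPoly (N : ℕ) (r : Fin N → ℤ[X]) (x y : L) :
    ev2 ((mkPoly N r).map (Polynomial.mapRingHom (Int.castRingHom ℂ))) x y =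
      x ^ N + ∑ k : Fin N, evZ y (r k) * x ^ (k : ℕ) := by
  rw [ev2, Polynomial.eval₂_map, mkPoly, Polynomial.eval₂_add, Polynomial.eval₂_pow,
    Polynomial.eval₂_X, Polynomial.eval₂_finsetSum]
  simp [evZ]

end Fermat.Agent.S28.FN7
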