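import Fermat.Agent.S28.FN7c

/-!
# S28, formal route (helper7): the equation of the modular unit over `ℤ`
-/

set_option autoImplicit false

namespace Fermat.Agent.S28.FN7

open Fermat.Agent.S28 ModularCurve Polynomial

local notation "ι" => PowerSeries.map (Int.castRingHom ℂ)
local notation "φ" => HahnSeries.ofPowerSeries ℤ ℂ
local notation "L" => LaurentSeries ℂ

theorem eval_eq_of_monic {B : Type*} [CommRing B] {G : B[X]} {N : ℕ} (hG : G.Monic)
    (hN : G.natDegree = N) (z : B) :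
    G.eval z = z ^ N + ∑ k : Fin N, G.coeff k * z ^ (k : ℕ) := by
  rw [Polynomial.eval_eq_sum_range, hN, Finset.sum_range_succ, ← hN, hG.coeff_natDegree, one_mul,
    add_comm, hN, Fin.sum_univ_eq_sum_range (fun k => G.coeff k * z ^ k) N]

theorem homogenize_aux {B : Type*} [CommRing B] {N : ℕ} (d x : B) (e w : Fin N → B)
    (h : ∀ k : Fin N, w k = d ^ (N - (k : ℕ)) * e k) :
    d ^ N * (x ^ N + ∑ k : Fin N, e k * x ^ (k : ℕ)) =
      (x * d) ^ N + ∑ k : Fin N, w k * (x * d) ^ (k : ℕ) := by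
  rw [mul_add, Finset.mul_sum, mul_pow, mul_comm (d ^ N)]
  congr 1
  refine Finset.sum_congr rfl fun k _ => ?_
  have h2 : d ^ N = d ^ (N - (k : ℕ)) * d ^ (k : ℕ) := by
    rw [← pow_add, Nat.sub_add_cancel k.2.le]
  rw [h k, h2, mul_pow]
  ring

theorem rootFam_mem_coeffSubring {p : ℕ} (hp0 : p ≠ 0) {ζ c : ℂ} (hζ : ζ ∈ algInt)
    (hc : c ∈ algInt) (P : PowerSeries ℤ) (i : Option (Fin p)) :
    rootFam p hp0 ζ c (ι P) i ∈ coeffSubring algInt := by
  rcases i with _ | b
  · refine mul_mem ?_ (expand_mem_coeffSubring (map_int_mem_coeffSubring _ P) _)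
    rw [mem_coeffSubring]
    intro n
    rw [PowerSeries.coeff_C]
    split_ifs
    · exact hc
    · exact zero_mem _
  · exact rescale_mem_coeffSubring (map_int_mem_coeffSubring _ P) (pow_mem hζ _)

theorem DeltaS_ne_zero : DeltaS ℂ ≠ 0 := by
  intro h
  have := DeltaS_mul_DeltaInvS
  rw [h, zero_mul] at this
  exact zero_ne_one this

theorem hasQ_fD' : HasQ (12 * ((1 : ℕ) : ℤ)) fD := hasQ_fD.congr_weight (by simp)

theorem hasQ_fE' : HasQ (12 * ((1 : ℕ) : ℤ)) fE := hasQ_fE.congr_weight (by simp)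

theorem hasUnitPoly_int {p : ℕ} (hp : p.Prime) : HasUnitPoly p ℤ := by
  classical
  have hp0 := hp.ne_zero
  obtain ⟨ζ, hζ⟩ : ∃ ζ : ℂ, IsPrimitiveRoot ζ p := ⟨_, Complex.isPrimitiveRoot_exp p hp0⟩
  have hζint : ζ ∈ algInt := hζ.isIntegral hp.pos
  have hcint : ((p : ℂ) ^ 12) ∈ algInt := pow_mem (natCast_mem _ p) 12
  set x := rootFam p hp0 ζ ((p : ℂ) ^ 12) (ι fD) with hx
  set s : Multiset (PowerSeries ℂ) := Finset.univ.val.map x with hs
  set N : ℕ := p + 1 with hN
  have hcard : Multiset.card s = N := by simp [hs, hN]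
  set G : (PowerSeries ℂ)[X] := (s.map fun t => X - C t).prod with hG
  have hGmonic : G.Monic := Polynomial.monic_multiset_prod_of_monic _ _ fun t _ => monic_X_sub_C t
  have hGdeg : G.natDegree = N := by
    rw [hG, Polynomial.natDegree_multiset_prod_X_sub_C_eq_card, hcard]
  have hroot : ∀ i, G.eval (x i) = 0 := by
    intro i
    rw [hG, Polynomial.eval_multiset_prod]
    apply Multiset.prod_eq_zero
    rw [Multiset.mem_map]
    refine ⟨X - C (x i), Multiset.mem_map.mpr ⟨x i, ?_, rfl⟩, by simp⟩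
    exact Multiset.mem_map.mpr ⟨i, Finset.mem_univ_val i, rfl⟩
  have hcoeff : ∀ k : Fin N, ∃ P ∈ Wspan (N - (k : ℕ)),
      G.coeff k = PowerSeries.expand p hp0 (ι P) := by
    intro k
    have h1 : G.coeff k = (-1) ^ (N - (k : ℕ)) * s.esymm (N - (k : ℕ)) := by
      rw [hG, Multiset.prod_X_sub_C_coeff s (by rw [hcard]; exact k.2.le), hcard]
    have h2 : s.esymm (N - (k : ℕ)) ∈ SQ p hp0 (N - (k : ℕ)) :=
      esymm_rootFam_mem hp hζ (map_mem_MQ hasQ_fD') _
    have h3 : s.esymm (N - (k : ℕ)) ∈ coeffSubring algInt := by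
      apply esymm_mem_subring
      intro y hy
      obtain ⟨i, -, rfl⟩ := Multiset.mem_map.mp hy
      exact rootFam_mem_coeffSubring hp0 hζint hcint fD i
    apply exists_mem_Wspan_of_mem_SQ
    · rw [h1]
      rcases neg_one_pow_eq_or (PowerSeries ℂ) (N - (k : ℕ)) with h | h
      · rw [h, one_mul]; exact h2
      · rw [h, neg_one_mul]; exact neg_mem h2
    · rw [h1]
      exact mul_mem (pow_mem (neg_mem (one_mem _)) _) h3
  choose P hP hPG using hcoeff
  choose R hR using fun k => exists_poly_of_mem_Wspan (hP k)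
  refine ⟨mkPoly N R, BC.IsUnitPoly.of_map (f := Int.castRingHom ℂ) Int.cast_injective
    ⟨(mkPoly_monic N R).map _, by rw [(mkPoly_monic N R).natDegree_map, mkPoly_natDegree], ?_, ?_⟩⟩
  · -- the root `u_∞`
    rw [ev2_mkPoly]
    have h1 := homogenize_aux (DeltaS ℂ) (uInf ℂ p) (fun k => evZ (jqModC ℂ) (R k))
      (fun k => φ (ι (P k))) hR
    set ξ : PowerSeries ℂ := PowerSeries.C ((p : ℂ) ^ 12) * PowerSeries.expand p hp0 (ι fD) with hξ
    have h2 : uInf ℂ p * DeltaS ℂ = φ ξ := by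
      rw [uInf, mul_assoc, mul_comm (DeltaInvS ℂ), DeltaS_mul_DeltaInvS, mul_one, hξ, map_mul,
        phi_expand, ← DeltaS_eq, map_pow, map_pow]
      simp
    have h3 : ξ ^ N + ∑ k : Fin N, ι (P k) * ξ ^ (k : ℕ) = 0 := by
      apply expand_injective hp0
      rw [map_zero, map_add, map_pow, map_sum]
      simp only [map_mul, map_pow, ← hPG]
      rw [← eval_eq_of_monic hGmonic hGdeg]
      have : PowerSeries.expand p hp0 ξ = x none := by
        rw [hξ, map_mul, PowerSeries.expand_C, ← PowerSeries.expand_mul]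
        rfl
      rw [this]
      exact hroot none
    rw [h2] at h1
    have h4 : φ ξ ^ N + ∑ k : Fin N, φ (ι (P k)) * φ ξ ^ (k : ℕ) = 0 := by
      have := congrArg φ h3
      simpa only [map_add, map_pow, map_sum, map_mul, map_zero] using this
    rw [h4] at h1
    exact (mul_eq_zero.mp h1).resolve_left (pow_ne_zero _ DeltaS_ne_zero)
  · -- the root `u_0`
    rw [ev2_mkPoly]
    have hR' : ∀ k : Fin N, φ (G.coeff k) =
        Vq ℂ p (DeltaS ℂ) ^ (N - (k : ℕ)) * evZ (jd ℂ p) (R k) := by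
      intro k
      rw [hPG, phi_expand, hR, map_mul, map_pow, Vq_evZ]
      rfl
    have h1 := homogenize_aux (Vq ℂ p (DeltaS ℂ)) (uZero ℂ p) (fun k => evZ (jd ℂ p) (R k))
      (fun k => φ (G.coeff k)) hR'
    have h2 : uZero ℂ p * Vq ℂ p (DeltaS ℂ) = φ (ι fD) := by
      rw [uZero, mul_assoc, ← map_mul, mul_comm (DeltaInvS ℂ), DeltaS_mul_DeltaInvS, map_one,
        mul_one, DeltaS_eq]
    have h3 : x (some ⟨0, hp.pos⟩) = ι fD := by
      simp [hx, rootFam]
    have h4 : φ (ι fD) ^ N + ∑ k : Fin N, φ (G.coeff k) * φ (ι fD) ^ (k : ℕ) = 0 := by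
      have := congrArg φ (hroot (some ⟨0, hp.pos⟩))
      rw [h3, eval_eq_of_monic hGmonic hGdeg] at this
      simpa only [map_add, map_pow, map_sum, map_mul, map_zero] using this
    rw [h2, h4] at h1
    refine (mul_eq_zero.mp h1).resolve_left (pow_ne_zero _ ?_)
    intro h
    exact DeltaS_ne_zero (BC.Vq_injective p (by rw [h, map_zero]))

end Fermat.Agent.S28.FN7
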