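import Fermat.Agent.S28.FN7d

/-!
# S28, formal route (helper7): forms of weight `12 n` vanishing to order `n` at infinity
-/

set_option autoImplicit false

namespace Fermat.Agent.S28.FN7

open UpperHalfPlane ModularForm
open Fermat.Agent.QInt Fermat.Agent.Common Fermat.Agent.S28 ModularCurve
open scoped MatrixGroups ModularForm Manifold

local notation "ι" => PowerSeries.map (Int.castRingHom ℂ)

theorem hasQ_div_fD {m : ℕ} {P : PowerSeries ℤ} (hP : HasQ (12 * ((m + 1 : ℕ) : ℤ)) P)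
    (hc0 : PowerSeries.constantCoeff P = 0) : ∃ P₁, HasQ (12 * (m : ℤ)) P₁ ∧ P = fD * P₁ := by
  obtain ⟨g, hg, hgq⟩ := hP
  obtain ⟨R, hR⟩ := PowerSeries.X_dvd_iff.mpr hc0
  have hcusp : (qExpansion 1 hg.toLevelOne).coeff 0 = 0 := by
    rw [IsMF.coe_toLevelOne, hgq, PowerSeries.coeff_map, PowerSeries.coeff_zero_eq_constantCoeff,
      hc0, map_zero]
  have hfac := qExpansion_eq_qExpansion_discriminant_mul hg.toLevelOne hcusp
  set h := CuspForm.discriminantEquiv (toCuspForm hg.toLevelOne hcusp) with hh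
  rw [IsMF.coe_toLevelOne, hgq, qExpansion_discriminant, hR, map_mul, map_mul,
    PowerSeries.map_X, mul_assoc] at hfac
  have h2 : ι R = ι dedekindEtaUnit * qExpansion 1 h :=
    mul_left_cancel₀ PowerSeries.X_ne_zero hfac
  have h3 : qExpansion 1 h = ι (dedekindEtaUnitInv * R) := by
    rw [map_mul, h2, ← mul_assoc, ← map_mul, mul_comm dedekindEtaUnitInv,
      dedekindEtaUnit_mul_inv, map_one, one_mul]
  refine ⟨dedekindEtaUnitInv * R,
    ⟨h, (IsMF.of_levelOne h).congr_weight (by push_cast; ring), h3⟩, ?_⟩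
  rw [hR, fD, mul_assoc, ← mul_assoc dedekindEtaUnit, dedekindEtaUnit_mul_inv, one_mul]

theorem hasQ_zero_const {P : PowerSeries ℤ} (hP : HasQ 0 P) : ∃ c : ℤ, P = c • (1 : PowerSeries ℤ) := by
  have h := mem_Wspan_of_hasQ 0 P (hP.congr_weight (by simp))
  rw [Wspan, Submodule.mem_span_range_iff_exists_fun] at h
  obtain ⟨c, hc⟩ := h
  refine ⟨c 0, ?_⟩
  rw [← hc]
  simp

theorem eq_smul_fD_pow : ∀ (n : ℕ) (P : PowerSeries ℤ), HasQ (12 * (n : ℤ)) P →
    PowerSeries.X ^ n ∣ P → ∃ c : ℤ, P = c • fD ^ n := by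
  intro n
  induction n with
  | zero =>
    intro P hP _
    simpa using hasQ_zero_const (hP.congr_weight (by simp))
  | succ n ih =>
    intro P hP hdvd
    have hc0 : PowerSeries.constantCoeff P = 0 :=
      PowerSeries.X_dvd_iff.mp ((dvd_pow_self _ (Nat.succ_ne_zero n)).trans hdvd)
    obtain ⟨P₁, hP₁, rfl⟩ := hasQ_div_fD hP hc0
    have h1 : PowerSeries.X ^ n ∣ P₁ := by
      rw [fD, mul_assoc, pow_succ'] at hdvd
      have h2 : PowerSeries.X ^ n ∣ dedekindEtaUnit * P₁ :=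
        (mul_dvd_mul_iff_left PowerSeries.X_ne_zero).mp hdvd
      have h3 := Dvd.dvd.mul_left h2 dedekindEtaUnitInv
      rwa [← mul_assoc, mul_comm dedekindEtaUnitInv, dedekindEtaUnit_mul_inv, one_mul] at h3
    obtain ⟨c, rfl⟩ := ih P₁ hP₁ h1
    exact ⟨c, by rw [pow_succ', mul_smul_comm]⟩

theorem coeff_fD_pow (n : ℕ) : PowerSeries.coeff n (fD ^ n) = 1 := by
  rw [fD, mul_pow, PowerSeries.coeff_X_pow_mul', if_pos le_rfl, Nat.sub_self,
    PowerSeries.coeff_zero_eq_constantCoeff, map_pow, constantCoeff_dedekindEtaUnit, one_pow]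

end Fermat.Agent.S28.FN7
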