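/-
S28, package B (hedge): the formal Newton argument.

From the single analytic input `FN.AI` (the formal Hecke operator `T_p` in weight `12 m` preserves
the `ℤ`-span of the `E^a D^(m-a)`; this is helper7's `formalT_mem_Wspan`, the definitions
`FN.fE, FN.fD, FN.Wspan, FN.formalT` are verbatim copies of his) we deduce the existence over `ℂ`
(more generally over every field of characteristic zero containing a primitive `p`-th root of
unity) of the modular polynomial and of the equation of the modular unit: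

  `FN.formalNewton : FN.AI → ∀ p, p.Prime → HasModPoly p ℂ ∧ HasUnitPoly p ℂ`.
-/
import Fermat.Agent.S28.Interface

set_option autoImplicit false

noncomputable section

namespace Fermat.Agent.S28
namespace FN

open Polynomial ModularCurve

/-! ### Abstract algebra -/

/-- Newton: if all power sums lie in a subring closed under division by positive integers,
so do the elementary symmetric functions. -/
theorem esymm_mem_of_psum_mem {R : Type*} [CommRing R] {σ : Type*} [Fintype σ] (S : Subring R)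
    (hdiv : ∀ (m : ℕ) (x : R), 0 < m → (m : R) * x ∈ S → x ∈ S) (r : σ → R)
    (hps : ∀ m : ℕ, 0 < m → ∑ i, r i ^ m ∈ S) (m : ℕ) :
    (Finset.univ.val.map r).esymm m ∈ S := by
  induction m using Nat.strong_induction_on with
  | _ m ih =>
    rcases Nat.eq_zero_or_pos m with rfl | hm
    · rw [Multiset.esymm, Multiset.powersetCard_zero_left]
      simp
    · apply hdiv m _ hm
      have h := congrArg (MvPolynomial.aeval r) (MvPolynomial.mul_esymm_eq_sum σ ℤ m)
      simp only [map_mul, map_natCast, map_pow, map_neg, map_one, map_sum,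
        MvPolynomial.aeval_esymm_eq_multiset_esymm] at h
      rw [h]
      refine S.mul_mem (S.pow_mem (S.neg_mem S.one_mem) _) (S.sum_mem fun a ha => ?_)
      rw [Finset.mem_filter, Finset.HasAntidiagonal.mem_antidiagonal] at ha
      refine S.mul_mem (S.mul_mem (S.pow_mem (S.neg_mem S.one_mem) _) (ih _ ha.2)) ?_
      have : MvPolynomial.aeval r (MvPolynomial.psum σ ℤ a.2) = ∑ i, r i ^ a.2 := by
        simp [MvPolynomial.psum]
      rw [this]
      exact hps _ (by omega)

/-- coefficients of `∏ (X - r i)` from the elementary symmetric functions. -/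
theorem coeff_prod_mem {R : Type*} [CommRing R] [Nontrivial R] {σ : Type*} [Fintype σ]
    (S : Subring R)
    (r : σ → R) (h : ∀ m, (Finset.univ.val.map r).esymm m ∈ S) (k : ℕ) :
    (∏ i, (X - C (r i))).coeff k ∈ S := by
  have h1 : (∏ i, (X - C (r i))) = ((Finset.univ.val.map r).map fun t => X - C t).prod := by
    rw [Multiset.map_map]; rfl
  rw [h1]
  by_cases hk : k ≤ Multiset.card (Finset.univ.val.map r)
  · rw [Multiset.prod_X_sub_C_coeff _ hk]
    exact S.mul_mem (S.pow_mem (S.neg_mem S.one_mem) _) (h _)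
  · rw [Polynomial.coeff_eq_zero_of_natDegree_lt]
    · exact S.zero_mem
    · rw [Polynomial.natDegree_multiset_prod_X_sub_C_eq_card]
      omega

/-- A polynomial with coefficients in a vector space taking values in a subspace at all scalars
has its coefficients in the subspace. -/
theorem coeff_mem_of_eval_mem {K V : Type*} [Field K] [Infinite K] [CommRing V] [Module K V]
    (ι : K →+* V) (hι : ∀ (c : K) (x : V), ι c * x = c • x)
    (S : Submodule K V) (P : V[X]) (h : ∀ t : K, P.eval (ι t) ∈ S) (k : ℕ) :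
    P.coeff k ∈ S := by
  rw [← Subspace.forall_mem_dualAnnihilator_apply_eq_zero_iff]
  intro φ hφ
  rw [Submodule.mem_dualAnnihilator] at hφ
  set Q : K[X] := ∑ i ∈ Finset.range (P.natDegree + 1), Polynomial.C (φ (P.coeff i)) * X ^ i with hQ
  have hQ0 : Q = 0 := by
    apply Polynomial.funext
    intro t
    have := hφ _ (h t)
    rw [Polynomial.eval_eq_sum_range, map_sum] at this
    rw [hQ, Polynomial.eval_finsetSum, Polynomial.eval_zero, ← this]
    refine Finset.sum_congr rfl fun i _ => ?_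
    rw [← map_pow, mul_comm (P.coeff i), hι, map_smul, Polynomial.eval_mul,
      Polynomial.eval_C, Polynomial.eval_pow, Polynomial.eval_X, smul_eq_mul, mul_comm]
  have := congrArg (fun q => Polynomial.coeff q k) hQ0
  simp only [hQ, Polynomial.finsetSum_coeff, Polynomial.coeff_C_mul, Polynomial.coeff_X_pow,
    Polynomial.coeff_zero] at this
  by_cases hk : k ≤ P.natDegree
  · simpa [Finset.sum_ite_eq, hk, Nat.lt_succ_iff] using this
  · rw [Polynomial.coeff_eq_zero_of_natDegree_lt (by omega), map_zero]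

/-! ### The hypothesis (AI) -/

/-- `E₄³` as a formal power series. -/
def fE : PowerSeries ℤ := eisenstein4 ^ 3

/-- `Δ` as a formal power series. -/
def fD : PowerSeries ℤ := PowerSeries.X * dedekindEtaUnit

/-- The `ℤ`-span of `E^a D^(m-a)`. -/
def Wspan (m : ℕ) : Submodule ℤ (PowerSeries ℤ) :=
  Submodule.span ℤ (Set.range fun a : Fin (m + 1) => fE ^ (a : ℕ) * fD ^ (m - (a : ℕ)))

/-- The formal Hecke operator `T_p` in weight `k`. -/
def formalT (p k : ℕ) (f : PowerSeries ℤ) : PowerSeries ℤ :=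
  PowerSeries.mk fun n => PowerSeries.coeff (n * p) f +
    if p ∣ n then (p : ℤ) ^ (k - 1) * PowerSeries.coeff (n / p) f else 0

/-- The only analytic input. -/
def AI : Prop :=
  ∀ p : ℕ, p.Prime → ∀ m : ℕ, 1 ≤ m → ∀ f ∈ Wspan m, formalT p (12 * m) f ∈ Wspan m

/-! ### Extension of scalars -/

section field

variable (K : Type) [Field K]

def EK : PowerSeries K := fE.map (Int.castRingHom K)

def DK : PowerSeries K := fD.map (Int.castRingHom K)

def WK (m : ℕ) : Submodule K (PowerSeries K) :=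
  Submodule.span K (Set.range fun a : Fin (m + 1) => EK K ^ (a : ℕ) * DK K ^ (m - (a : ℕ)))

def TK (p k : ℕ) : PowerSeries K →ₗ[K] PowerSeries K where
  toFun f := PowerSeries.mk fun n => PowerSeries.coeff (n * p) f +
    if p ∣ n then (p : K) ^ (k - 1) * PowerSeries.coeff (n / p) f else 0
  map_add' f g := by
    ext n
    simp only [PowerSeries.coeff_mk, map_add]
    split_ifs <;> ring
  map_smul' c f := by
    ext n
    simp only [PowerSeries.coeff_mk, map_smul, smul_eq_mul, RingHom.id_apply]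
    split_ifs <;> ring

theorem coeff_TK (p k : ℕ) (f : PowerSeries K) (n : ℕ) :
    PowerSeries.coeff n (TK K p k f) = PowerSeries.coeff (n * p) f +
    if p ∣ n then (p : K) ^ (k - 1) * PowerSeries.coeff (n / p) f else 0 := by
  simp only [TK, LinearMap.coe_mk, AddHom.coe_mk, PowerSeries.coeff_mk]

theorem TK_map (p k : ℕ) (f : PowerSeries ℤ) :
    TK K p k (f.map (Int.castRingHom K)) = (formalT p k f).map (Int.castRingHom K) := by
  ext n
  rw [coeff_TK, PowerSeries.coeff_map, PowerSeries.coeff_map, PowerSeries.coeff_map, formalT,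
    PowerSeries.coeff_mk]
  split_ifs <;> simp

theorem map_mem_WK {m : ℕ} {f : PowerSeries ℤ} (hf : f ∈ Wspan m) :
    f.map (Int.castRingHom K) ∈ WK K m := by
  induction hf using Submodule.span_induction with
  | mem x hx =>
    obtain ⟨a, rfl⟩ := hx
    apply Submodule.subset_span
    exact ⟨a, by simp [EK, DK]⟩
  | zero => simp
  | add x y _ _ hx hy => rw [map_add]; exact add_mem hx hy
  | smul c x _ hx =>
    have : (c • x).map (Int.castRingHom K) = (c : K) • x.map (Int.castRingHom K) := by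
      rw [zsmul_eq_mul, map_mul, map_intCast, PowerSeries.smul_eq_C_mul, map_intCast]
    rw [this]
    exact Submodule.smul_mem _ _ hx

theorem TK_mem (hAI : AI) {p : ℕ} (hp : p.Prime) {m : ℕ} (hm : 1 ≤ m) {f : PowerSeries K}
    (hf : f ∈ WK K m) : TK K p (12 * m) f ∈ WK K m := by
  induction hf using Submodule.span_induction with
  | mem x hx =>
    obtain ⟨a, rfl⟩ := hx
    have h1 : EK K ^ (a : ℕ) * DK K ^ (m - (a : ℕ)) =
        (fE ^ (a : ℕ) * fD ^ (m - (a : ℕ))).map (Int.castRingHom K) := by simp [EK, DK]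
    simp only [h1]
    rw [TK_map]
    exact map_mem_WK K (hAI p hp m hm _ (Submodule.subset_span ⟨a, rfl⟩))
  | zero => simp
  | add x y _ _ hx hy => rw [map_add]; exact add_mem hx hy
  | smul c x _ hx => rw [map_smul]; exact Submodule.smul_mem _ _ hx

theorem WK_mul {a b : ℕ} {f g : PowerSeries K} (hf : f ∈ WK K a) (hg : g ∈ WK K b) :
    f * g ∈ WK K (a + b) := by
  induction hf using Submodule.span_induction with
  | mem x hx =>
    obtain ⟨i, rfl⟩ := hx
    induction hg using Submodule.span_induction with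
    | mem y hy =>
      obtain ⟨j, rfl⟩ := hy
      apply Submodule.subset_span
      refine ⟨⟨i + j, by omega⟩, ?_⟩
      have h1 : a + b - ((i : ℕ) + j) = (a - i) + (b - j) := by omega
      simp only [h1, pow_add]
      ring
    | zero => simp
    | add x y _ _ hx hy => rw [mul_add]; exact add_mem hx hy
    | smul c x _ hx => rw [mul_smul_comm]; exact Submodule.smul_mem _ _ hx
  | zero => simp
  | add x y _ _ hx hy => rw [add_mul]; exact add_mem hx hy
  | smul c x _ hx => rw [smul_mul_assoc]; exact Submodule.smul_mem _ _ hx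

theorem one_mem_WK : (1 : PowerSeries K) ∈ WK K 0 :=
  Submodule.subset_span ⟨0, by simp⟩

theorem pow_mem_WK {F : PowerSeries K} (hF : F ∈ WK K 1) (m : ℕ) : F ^ m ∈ WK K m := by
  induction m with
  | zero => simpa using one_mem_WK K
  | succ n ih => rw [pow_succ]; exact WK_mul K ih hF

theorem DK_mem : DK K ∈ WK K 1 := Submodule.subset_span ⟨0, by simp⟩

theorem EK_mem : EK K ∈ WK K 1 := Submodule.subset_span ⟨1, by simp⟩


variable {K}

/-! ### Laurent series -/

/-- The coercion from power series to Laurent series. -/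
abbrev cL : PowerSeries K →+* LaurentSeries K := HahnSeries.ofPowerSeries ℤ K

theorem cL_injective : Function.Injective (cL (K := K)) := HahnSeries.ofPowerSeries_injective

theorem cL_DK : cL (DK K) = DeltaS K := by
  rw [DK, fD, map_mul, map_mul, PowerSeries.map_X, HahnSeries.ofPowerSeries_X, DeltaS]

theorem DeltaS_mul_inv : DeltaS K * DeltaInvS K = 1 := by
  rw [DeltaS, DeltaInvS, mul_mul_mul_comm, ← map_mul, ← map_mul, dedekindEtaUnit_mul_inv,
    HahnSeries.single_mul_single]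
  simp

theorem jq_eq : jqModC K = cL (EK K) * DeltaInvS K := by
  rw [jqModC, jNum, EK, fE, DeltaInvS, map_mul, map_mul]
  ring

theorem cL_EK : cL (EK K) = jqModC K * DeltaS K := by
  rw [jq_eq, mul_assoc, mul_comm (DeltaInvS K), DeltaS_mul_inv, mul_one]

theorem Vq_coeff_mul {d : ℕ} (hd : d ≠ 0) (f : LaurentSeries K) (k : ℤ) :
    (Vq K d f).coeff ((d : ℤ) * k) = f.coeff k := by
  have : NeZero d := ⟨hd⟩
  rw [Vq_eq, qExpand_coeff_mul]

theorem Vq_coeff_of_not_dvd {d : ℕ} (hd : d ≠ 0) (f : LaurentSeries K) {k : ℤ}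
    (hk : ¬ (d : ℤ) ∣ k) : (Vq K d f).coeff k = 0 := by
  have : NeZero d := ⟨hd⟩
  rw [Vq_eq, qExpand_coeff_of_not_dvd _ _ hk]

theorem Vq_injective {d : ℕ} (hd : d ≠ 0) : Function.Injective (Vq K d) := by
  have : NeZero d := ⟨hd⟩
  rw [Vq_eq]
  exact qExpand_injective d

theorem Vq_C {d : ℕ} (hd : d ≠ 0) (a : K) : Vq K d (HahnSeries.C a) = HahnSeries.C a := by
  have : NeZero d := ⟨hd⟩
  rw [Vq_eq, qExpand_C]

theorem Vq_Vq {d e : ℕ} (hd : d ≠ 0) (he : e ≠ 0) (f : LaurentSeries K) :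
    Vq K d (Vq K e f) = Vq K (d * e) f := by
  have : NeZero d := ⟨hd⟩
  have : NeZero e := ⟨he⟩
  have : NeZero (d * e) := ⟨mul_ne_zero hd he⟩
  rw [Vq_eq, Vq_eq, Vq_eq, qExpand_qExpand]

theorem cL_expand {d : ℕ} (hd : d ≠ 0) (f : PowerSeries K) :
    cL (PowerSeries.expand d hd f) = Vq K d (cL f) := by
  ext k
  by_cases hk : (d : ℤ) ∣ k
  · obtain ⟨m, rfl⟩ := hk
    rw [Vq_coeff_mul hd]
    rcases le_or_gt 0 m with hm | hm
    · lift m to ℕ using hm
      rw [← Nat.cast_mul, HahnSeries.ofPowerSeries_apply_coeff, HahnSeries.ofPowerSeries_apply_coeff,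
        PowerSeries.coeff_expand_mul]
    · rw [ofPowerSeries_coeff_of_neg _ hm, ofPowerSeries_coeff_of_neg]
      exact mul_neg_of_pos_of_neg (by exact_mod_cast Nat.pos_of_ne_zero hd) hm
  · rw [Vq_coeff_of_not_dvd hd _ hk]
    rcases le_or_gt 0 k with hk0 | hk0
    · lift k to ℕ using hk0
      rw [HahnSeries.ofPowerSeries_apply_coeff, PowerSeries.coeff_expand_of_not_dvd]
      exact fun h => hk (by exact_mod_cast h)
    · exact ofPowerSeries_coeff_of_neg _ hk0

theorem cL_C (a : K) : cL (PowerSeries.C a) = HahnSeries.C a := HahnSeries.ofPowerSeries_C a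

theorem mem_range_of_mem_WK {m : ℕ} {f : PowerSeries K} (hf : f ∈ WK K m) :
    cL f * DeltaInvS K ^ m ∈ (evY (jqModC K)).range := by
  induction hf using Submodule.span_induction with
  | mem x hx =>
    obtain ⟨a, rfl⟩ := hx
    refine ⟨X ^ (a : ℕ), ?_⟩
    obtain ⟨a, ha⟩ := a
    obtain ⟨b, rfl⟩ : ∃ b, m = a + b := ⟨m - a, by omega⟩
    simp only [map_mul, map_pow, cL_EK, cL_DK, Nat.add_sub_cancel_left]
    rw [mul_pow, pow_add, evY, Polynomial.coe_eval₂RingHom, Polynomial.eval₂_X]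
    have h2 := DeltaS_mul_inv (K := K)
    calc jqModC K ^ a = jqModC K ^ a * (DeltaS K * DeltaInvS K) ^ a *
          (DeltaS K * DeltaInvS K) ^ b := by rw [h2]; simp
      _ = _ := by rw [mul_pow, mul_pow]; ring
  | zero => simp
  | add x y _ _ hx hy => rw [map_add, add_mul]; exact add_mem hx hy
  | smul c x _ hx =>
    rw [PowerSeries.smul_eq_C_mul, map_mul, cL_C, mul_assoc]
    refine mul_mem ⟨C c, ?_⟩ hx
    rw [evY, Polynomial.coe_eval₂RingHom, Polynomial.eval₂_C]

/-- The `p + 1` "conjugates" of a weight 12 form `F`, in the variable `Q = q^(1/p)`. -/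
def xr (p : ℕ) (hp0 : p ≠ 0) (ζ : K) (F : PowerSeries K) : Option (Fin p) → PowerSeries K
  | none => PowerSeries.C ((p : K) ^ 12) * PowerSeries.expand (p ^ 2) (pow_ne_zero 2 hp0) F
  | some b => PowerSeries.rescale (ζ ^ (b : ℕ)) F

theorem sum_pow_of_dvd {p : ℕ} {ζ : K} (hζ : IsPrimitiveRoot ζ p) {n : ℕ} (h : p ∣ n) :
    ∑ b : Fin p, (ζ ^ (b : ℕ)) ^ n = p := by
  have : ∀ b : Fin p, (ζ ^ (b : ℕ)) ^ n = 1 := by
    intro b
    rw [← pow_mul, mul_comm, pow_mul, (hζ.pow_eq_one_iff_dvd n).2 h, one_pow]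
  simp [this]

theorem sum_pow_of_not_dvd {p : ℕ} (hp : p.Prime) {ζ : K} (hζ : IsPrimitiveRoot ζ p) {n : ℕ}
    (h : ¬ p ∣ n) : ∑ b : Fin p, (ζ ^ (b : ℕ)) ^ n = 0 := by
  have h1 : IsPrimitiveRoot (ζ ^ n) p :=
    hζ.pow_of_coprime n ((Nat.Prime.coprime_iff_not_dvd hp).2 h).symm
  have h2 := h1.geom_sum_eq_zero hp.one_lt
  rw [← h2, Fin.sum_univ_eq_sum_range (fun b => (ζ ^ b) ^ n) p]
  refine Finset.sum_congr rfl fun b _ => ?_
  rw [← pow_mul, ← pow_mul, mul_comm]

theorem psum_xr {p : ℕ} (hp : p.Prime) {ζ : K} (hζ : IsPrimitiveRoot ζ p) (F : PowerSeries K)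
    {m : ℕ} (hm : 0 < m) :
    ∑ i, xr p hp.ne_zero ζ F i ^ m =
      PowerSeries.C (p : K) * PowerSeries.expand p hp.ne_zero (TK K p (12 * m) (F ^ m)) := by
  rw [Fintype.sum_option]
  simp only [xr, mul_pow, ← map_pow]
  ext n
  rw [map_add, map_sum, PowerSeries.coeff_C_mul, PowerSeries.coeff_C_mul, PowerSeries.coeff_expand,
    PowerSeries.coeff_expand]
  simp only [PowerSeries.coeff_rescale]
  rw [← Finset.sum_mul]
  by_cases h : p ∣ n
  · obtain ⟨n', rfl⟩ := h
    rw [sum_pow_of_dvd hζ (dvd_mul_right p n'), if_pos (dvd_mul_right p n'),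
      Nat.mul_div_cancel_left _ hp.pos, coeff_TK, mul_comm n' p]
    have h1 : p ^ 2 ∣ p * n' ↔ p ∣ n' := by
      rw [pow_two]; exact Nat.mul_dvd_mul_iff_left hp.pos
    have h2 : p * n' / p ^ 2 = n' / p := by
      rw [pow_two, Nat.mul_div_mul_left _ _ hp.pos]
    have h3 : ((p : K) ^ 12) ^ m = p * (p : K) ^ (12 * m - 1) := by
      rw [← pow_mul, ← pow_succ']
      congr 1
      omega
    simp only [h1, h2, h3]
    split_ifs <;> ring
  · have h1 : ¬ p ^ 2 ∣ n := fun h' => h ((dvd_pow_self p two_ne_zero).trans h')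
    rw [sum_pow_of_not_dvd hp hζ h, if_neg h, if_neg h1]
    simp


/-! ### The main lemma -/

theorem Vq_comp_C {d : ℕ} (hd : d ≠ 0) :
    (Vq K d).comp (HahnSeries.C : K →+* LaurentSeries K) = HahnSeries.C :=
  RingHom.ext fun a => Vq_C hd a

theorem Vq_evY {d : ℕ} (hd : d ≠ 0) (y : LaurentSeries K) (g : K[X]) :
    Vq K d (evY y g) = evY (Vq K d y) g := by
  rw [evY, evY, Polynomial.coe_eval₂RingHom, Polynomial.coe_eval₂RingHom, Polynomial.hom_eval₂,
    Vq_comp_C hd]

theorem Vq_comp_evY {d : ℕ} (hd : d ≠ 0) (y : LaurentSeries K) :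
    (Vq K d).comp (evY y) = evY (Vq K d y) :=
  RingHom.ext fun g => Vq_evY hd y g

theorem Vq_ev2 {d : ℕ} (hd : d ≠ 0) (P : K[X][X]) (x y : LaurentSeries K) :
    Vq K d (ev2 P x y) = ev2 P (Vq K d x) (Vq K d y) := by
  rw [ev2, ev2, Polynomial.hom_eval₂, Vq_comp_evY hd]

theorem evY_C (y : LaurentSeries K) (a : K) : evY y (C a) = HahnSeries.C a := by
  rw [evY, Polynomial.coe_eval₂RingHom, Polynomial.eval₂_C]

theorem C_mem_range (y : LaurentSeries K) (a : K) : HahnSeries.C a ∈ (evY y).range :=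
  ⟨C a, evY_C y a⟩

theorem range_div [CharZero K] (y : LaurentSeries K) (m : ℕ) (x : LaurentSeries K) (hm : 0 < m)
    (h : (m : LaurentSeries K) * x ∈ (evY y).range) : x ∈ (evY y).range := by
  have h1 : x = HahnSeries.C ((m : K)⁻¹) * ((m : LaurentSeries K) * x) := by
    rw [← mul_assoc, ← map_natCast (HahnSeries.C : K →+* LaurentSeries K), ← map_mul,
      inv_mul_cancel₀ (by exact_mod_cast hm.ne'), map_one, one_mul]
  rw [h1]
  exact mul_mem (C_mem_range y _) h

/-- The normalised conjugates `x_i(F) / Δ(Q^p)`. -/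
def rr (p : ℕ) (hp0 : p ≠ 0) (ζ : K) (F : PowerSeries K) (i : Option (Fin p)) : LaurentSeries K :=
  cL (xr p hp0 ζ F i) * Vq K p (DeltaInvS K)

theorem psum_rr_mem (hAI : AI) {p : ℕ} (hp : p.Prime) {ζ : K} (hζ : IsPrimitiveRoot ζ p)
    {F : PowerSeries K} (hF : F ∈ WK K 1) {m : ℕ} (hm : 0 < m) :
    ∑ i, rr p hp.ne_zero ζ F i ^ m ∈ (evY (jd K p)).range := by
  simp only [rr, mul_pow]
  rw [← Finset.sum_mul]
  simp only [← map_pow]
  rw [← map_sum, psum_xr hp hζ F hm, map_mul, cL_C, cL_expand, mul_assoc, ← map_mul]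
  refine mul_mem (C_mem_range _ _) ?_
  obtain ⟨g, hg⟩ := mem_range_of_mem_WK (TK_mem K hAI hp hm (pow_mem_WK K hF m))
  exact ⟨g, by rw [← hg, Vq_evY hp.ne_zero, jd]⟩

theorem esymm_rr_mem [CharZero K] (hAI : AI) {p : ℕ} (hp : p.Prime) {ζ : K}
    (hζ : IsPrimitiveRoot ζ p) {F : PowerSeries K} (hF : F ∈ WK K 1) (m : ℕ) :
    (Finset.univ.val.map (rr p hp.ne_zero ζ F)).esymm m ∈ (evY (jd K p)).range :=
  esymm_mem_of_psum_mem _ (range_div _) _ (fun _ hm => psum_rr_mem hAI hp hζ hF hm) m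

theorem coeff_prod_rr_mem [CharZero K] (hAI : AI) {p : ℕ} (hp : p.Prime) {ζ : K}
    (hζ : IsPrimitiveRoot ζ p) {F : PowerSeries K} (hF : F ∈ WK K 1) (k : ℕ) :
    (∏ i, (X - C (rr p hp.ne_zero ζ F i))).coeff k ∈ (evY (jd K p)).range :=
  coeff_prod_mem _ _ (esymm_rr_mem hAI hp hζ hF) k

theorem exists_poly_of_coeff_mem (y : LaurentSeries K) (P : (LaurentSeries K)[X]) (hP : P.Monic)
    (h : ∀ k, P.coeff k ∈ (evY y).range) :
    ∃ Ξ : K[X][X], Ξ.Monic ∧ Ξ.natDegree = P.natDegree ∧ Ξ.map (evY y) = P := by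
  have h1 : P ∈ Polynomial.lifts (evY y) := by
    rw [Polynomial.lifts_iff_coeff_lifts]
    exact h
  obtain ⟨q, hq1, hq2, hq3⟩ := Polynomial.lifts_and_natDegree_eq_and_monic h1 hP
  exact ⟨q, hq3, hq2, hq1⟩

theorem ev2_eq (P : K[X][X]) (x y : LaurentSeries K) : ev2 P x y = (P.map (evY y)).eval x := by
  rw [ev2, Polynomial.eval_map]

theorem natDegree_prod_X_sub_C {p : ℕ} (r : Option (Fin p) → LaurentSeries K) :
    (∏ i, (X - C (r i))).natDegree = p + 1 := by
  rw [Polynomial.natDegree_finsetProd_X_sub_C_eq_card]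
  simp

theorem eval_prod_eq_zero {p : ℕ} (r : Option (Fin p) → LaurentSeries K) (i : Option (Fin p)) :
    (∏ i, (X - C (r i))).eval (r i) = 0 := by
  rw [Polynomial.eval_prod]
  exact Finset.prod_eq_zero (Finset.mem_univ i) (by simp)


theorem rr_none (p : ℕ) (hp0 : p ≠ 0) (ζ : K) (F : PowerSeries K) :
    rr p hp0 ζ F none = (p : LaurentSeries K) ^ 12 * Vq K p (Vq K p (cL F)) *
      Vq K p (DeltaInvS K) := by
  rw [rr, xr, map_mul, cL_C, cL_expand, Vq_Vq hp0 hp0, map_pow, map_natCast, pow_two]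

theorem rr_zero (p : ℕ) (hp0 : p ≠ 0) (ζ : K) (F : PowerSeries K) :
    rr p hp0 ζ F (some ⟨0, Nat.pos_of_ne_zero hp0⟩) = cL F * Vq K p (DeltaInvS K) := by
  rw [rr, xr]
  simp

theorem hasUnitPoly [CharZero K] (hAI : AI) {p : ℕ} (hp : p.Prime) {ζ : K}
    (hζ : IsPrimitiveRoot ζ p) : HasUnitPoly p K := by
  obtain ⟨Ξ, hmonic, hdeg, hmap⟩ := exists_poly_of_coeff_mem (jd K p)
    (∏ i, (X - C (rr p hp.ne_zero ζ (DK K) i))) (Polynomial.monic_prod_X_sub_C _ _)
    (coeff_prod_rr_mem hAI hp hζ (DK_mem K))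
  refine ⟨Ξ, hmonic, by rw [hdeg, natDegree_prod_X_sub_C], ?_, ?_⟩
  · apply Vq_injective hp.ne_zero
    rw [Vq_ev2 hp.ne_zero, map_zero, ← jd, ev2_eq, hmap]
    have : Vq K p (uInf K p) = rr p hp.ne_zero ζ (DK K) none := by
      rw [rr_none, uInf, cL_DK, map_mul, map_mul, map_pow, map_natCast]
    rw [this]
    exact eval_prod_eq_zero _ _
  · rw [ev2_eq, hmap]
    have : uZero K p = rr p hp.ne_zero ζ (DK K) (some ⟨0, hp.pos⟩) := by
      rw [rr_zero, uZero, cL_DK]
    rw [this]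
    exact eval_prod_eq_zero _ _

/-! ### The product of the conjugates of `Δ` is a constant -/

theorem cL_comp_C : (cL (K := K)).comp PowerSeries.C = HahnSeries.C :=
  RingHom.ext fun a => cL_C a

/-- A polynomial in `y = 1 / w` (`w` a power series without constant term) which is a power
series is a constant. -/
theorem const_of_powerSeries {y : LaurentSeries K} {w : PowerSeries K} (hy : y * cL w = 1)
    (hw : PowerSeries.constantCoeff w = 0) (g : K[X]) (u : PowerSeries K)
    (h : evY y g = cL u) : ∃ a : K, cL u = HahnSeries.C a := by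
  have hd : g.natDegree = 0 := by
    by_contra hd
    let _ : Invertible y := ⟨cL w, by rw [mul_comm]; exact hy, hy⟩
    have h1 := Polynomial.eval₂_reverse_mul_pow (HahnSeries.C : K →+* LaurentSeries K) y g
    have h2 : ⅟y = cL w := rfl
    rw [h2] at h1
    rw [evY, Polynomial.coe_eval₂RingHom] at h
    rw [h] at h1
    have h3 : Polynomial.eval₂ (HahnSeries.C : K →+* LaurentSeries K) (cL w) g.reverse =
        cL (u * w ^ g.natDegree) := by
      rw [map_mul, ← h1, map_pow, mul_assoc, ← mul_pow, hy, one_pow, mul_one]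
    rw [← cL_comp_C, ← Polynomial.hom_eval₂] at h3
    have h4 := congrArg PowerSeries.constantCoeff (cL_injective h3)
    rw [Polynomial.hom_eval₂, map_mul, map_pow, hw, zero_pow hd, mul_zero] at h4
    have h5 : (PowerSeries.constantCoeff (R := K)).comp PowerSeries.C = RingHom.id K :=
      RingHom.ext fun a => by simp
    rw [h5, Polynomial.eval₂_at_zero, Polynomial.coeff_zero_reverse, RingHom.id_apply,
      Polynomial.leadingCoeff_eq_zero] at h4
    rw [h4] at hd
    simp at hd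
  rw [Polynomial.natDegree_eq_zero] at hd
  obtain ⟨a, rfl⟩ := hd
  exact ⟨a, by rw [← h, evY_C]⟩

theorem constantCoeff_EK : PowerSeries.constantCoeff (EK K) = 1 := by
  rw [EK, fE, ← PowerSeries.coeff_zero_eq_constantCoeff_apply, PowerSeries.coeff_map,
    PowerSeries.coeff_zero_eq_constantCoeff_apply, map_pow, constantCoeff_eisenstein4]
  simp

theorem constantCoeff_DK : PowerSeries.constantCoeff (DK K) = 0 := by
  rw [DK, fD, map_mul, map_mul, PowerSeries.map_X]
  simp

theorem jq_mul_inv : jqModC K * cL (DK K * (EK K)⁻¹) = 1 := by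
  have h1 : EK K * (EK K)⁻¹ = 1 :=
    PowerSeries.mul_inv_cancel _ (by rw [constantCoeff_EK]; exact one_ne_zero)
  have h2 := congrArg cL h1
  rw [map_mul, map_one] at h2
  rw [jq_eq, map_mul, cL_DK]
  calc cL (EK K) * DeltaInvS K * (DeltaS K * cL (EK K)⁻¹)
      = (cL (EK K) * cL (EK K)⁻¹) * (DeltaS K * DeltaInvS K) := by ring
    _ = 1 := by rw [h2, DeltaS_mul_inv, one_mul]

theorem jd_mul_inv {p : ℕ} (hp0 : p ≠ 0) :
    jd K p * cL (PowerSeries.expand p hp0 (DK K * (EK K)⁻¹)) = 1 := by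
  rw [jd, cL_expand, ← map_mul, jq_mul_inv, map_one]


theorem DK_eq : DK K = PowerSeries.X * dedekindEtaUnit.map (Int.castRingHom K) := by
  rw [DK, fD, map_mul, PowerSeries.map_X]

theorem DK_ne_zero : DK K ≠ 0 := by
  intro h
  have h1 := DeltaS_mul_inv (K := K)
  rw [← cL_DK, h, map_zero, zero_mul] at h1
  exact zero_ne_one h1

theorem Vq_DeltaInvS_ne_zero {p : ℕ} : Vq K p (DeltaInvS K) ≠ 0 := by
  intro h
  have h1 := congrArg (Vq K p) (DeltaS_mul_inv (K := K))
  rw [map_mul, h, mul_zero, map_one] at h1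
  exact zero_ne_one h1

theorem expand_ne_zero {d : ℕ} (hd : d ≠ 0) {f : PowerSeries K} (hf : f ≠ 0) :
    PowerSeries.expand d hd f ≠ 0 := by
  intro h
  have h1 := congrArg cL h
  rw [cL_expand, map_zero] at h1
  have h2 := Vq_injective hd (h1.trans (map_zero _).symm)
  exact hf (cL_injective (h2.trans (map_zero _).symm))

theorem xr_ne_zero [CharZero K] {p : ℕ} (hp0 : p ≠ 0) {ζ : K} (hζ : IsPrimitiveRoot ζ p)
    {F : PowerSeries K} (hF : F ≠ 0) (i : Option (Fin p)) : xr p hp0 ζ F i ≠ 0 := by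
  cases i with
  | none =>
    rw [xr]
    refine mul_ne_zero ?_ (expand_ne_zero _ hF)
    rw [Ne, ← map_zero (PowerSeries.C (R := K)), PowerSeries.C_injective.eq_iff]
    exact pow_ne_zero _ (by exact_mod_cast hp0)
  | some b =>
    rw [xr]
    intro h
    exact hF (PowerSeries.rescale_injective (pow_ne_zero _ (hζ.ne_zero hp0))
      (h.trans (map_zero _).symm))

theorem rr_ne_zero [CharZero K] {p : ℕ} (hp0 : p ≠ 0) {ζ : K} (hζ : IsPrimitiveRoot ζ p)
    {F : PowerSeries K} (hF : F ≠ 0) (i : Option (Fin p)) : rr p hp0 ζ F i ≠ 0 := by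
  rw [rr]
  refine mul_ne_zero ?_ Vq_DeltaInvS_ne_zero
  intro h
  exact xr_ne_zero hp0 hζ hF i (cL_injective (h.trans (map_zero _).symm))

theorem pow_dvd_prod_xr (p : ℕ) (hp0 : p ≠ 0) (ζ : K) :
    (PowerSeries.X ^ p) ^ (p + 1) ∣ ∏ i, xr p hp0 ζ (DK K) i := by
  rw [Fintype.prod_option]
  have h1 : ((PowerSeries.X : PowerSeries K) ^ p) ^ (p + 1) =
      PowerSeries.X ^ (p ^ 2) * ∏ _b : Fin p, PowerSeries.X := by
    rw [Finset.prod_const, Finset.card_univ, Fintype.card_fin, ← pow_mul, ← pow_add]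
    congr 1
    ring
  rw [h1]
  refine mul_dvd_mul ?_ (Finset.prod_dvd_prod_of_dvd _ _ fun b _ => ?_)
  · rw [xr, DK_eq, map_mul, PowerSeries.expand_X]
    exact Dvd.dvd.mul_left (Dvd.intro _ rfl) _
  · rw [xr, DK_eq, map_mul, PowerSeries.rescale_X]
    exact Dvd.dvd.mul_right (Dvd.intro_left _ rfl) _

theorem cL_X_pow_mul {p : ℕ} (hp0 : p ≠ 0) :
    cL ((PowerSeries.X : PowerSeries K) ^ p) * Vq K p (HahnSeries.single (-1 : ℤ) 1) = 1 := by
  rw [← PowerSeries.expand_X p hp0, cL_expand, ← map_mul, HahnSeries.ofPowerSeries_X,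
    HahnSeries.single_mul_single]
  simp

theorem prod_rr_DK_eq (p : ℕ) (hp0 : p ≠ 0) (ζ : K) :
    ∃ u : PowerSeries K, ∏ i, rr p hp0 ζ (DK K) i = cL u := by
  obtain ⟨v, hv⟩ := pow_dvd_prod_xr p hp0 ζ
  refine ⟨v * (PowerSeries.expand p hp0 (dedekindEtaUnitInv.map (Int.castRingHom K))) ^ (p + 1), ?_⟩
  simp only [rr]
  rw [Finset.prod_mul_distrib, ← map_prod, hv, Finset.prod_const, Finset.card_univ,
    Fintype.card_option, Fintype.card_fin, DeltaInvS, map_mul (Vq K p), map_mul cL, map_mul cL,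
    map_pow cL _ (p + 1), map_pow cL _ (p + 1), cL_expand, mul_pow]
  calc cL (PowerSeries.X ^ p) ^ (p + 1) * cL v * (Vq K p (HahnSeries.single (-1 : ℤ) 1) ^ (p + 1) *
        Vq K p (cL (dedekindEtaUnitInv.map (Int.castRingHom K))) ^ (p + 1))
      = (cL (PowerSeries.X ^ p) * Vq K p (HahnSeries.single (-1 : ℤ) 1)) ^ (p + 1) * (cL v *
        Vq K p (cL (dedekindEtaUnitInv.map (Int.castRingHom K))) ^ (p + 1)) := by
          rw [mul_pow]; ring
    _ = _ := by rw [cL_X_pow_mul hp0, one_pow, one_mul]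

theorem prod_neg_mem [CharZero K] (hAI : AI) {p : ℕ} (hp : p.Prime) {ζ : K}
    (hζ : IsPrimitiveRoot ζ p) {F : PowerSeries K} (hF : F ∈ WK K 1) :
    ∏ i, (- rr p hp.ne_zero ζ F i) ∈ (evY (jd K p)).range := by
  have h := coeff_prod_rr_mem hAI hp hζ hF 0
  rw [Polynomial.coeff_zero_eq_eval_zero, Polynomial.eval_prod] at h
  simpa using h

theorem prod_rr_DK_const [CharZero K] (hAI : AI) {p : ℕ} (hp : p.Prime) {ζ : K}
    (hζ : IsPrimitiveRoot ζ p) :
    ∃ a : K, a ≠ 0 ∧ ∏ i, rr p hp.ne_zero ζ (DK K) i = HahnSeries.C a := by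
  obtain ⟨u, hu⟩ := prod_rr_DK_eq p hp.ne_zero ζ
  have h1 : ∏ i, rr p hp.ne_zero ζ (DK K) i ∈ (evY (jd K p)).range := by
    have h := prod_neg_mem hAI hp hζ (DK_mem K)
    rw [Finset.prod_neg] at h
    have h2 := mul_mem (pow_mem (neg_mem (one_mem (evY (jd K p)).range))
      (Finset.univ : Finset (Option (Fin p))).card) h
    rwa [← mul_assoc, ← mul_pow, neg_mul_neg, one_mul, one_pow, one_mul] at h2
  obtain ⟨g, hg⟩ := h1
  obtain ⟨a, ha⟩ := const_of_powerSeries (jd_mul_inv hp.ne_zero)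
    (by rw [PowerSeries.constantCoeff_expand, map_mul, constantCoeff_DK, zero_mul]) g u
    (hg.trans hu)
  refine ⟨a, ?_, hu.trans ha⟩
  rintro rfl
  rw [map_zero] at ha
  rw [ha] at hu
  exact Finset.prod_ne_zero_iff.2 (fun i _ => rr_ne_zero hp.ne_zero hζ DK_ne_zero i) hu


/-! ### The modular polynomial -/

/-- The range of `evY y` as a `K`-subspace. -/
def rangeSub (y : LaurentSeries K) : Submodule K (LaurentSeries K) where
  carrier := (evY y).range
  add_mem' := add_mem
  zero_mem' := zero_mem _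
  smul_mem' c x hx := by
    rw [← HahnSeries.C_mul_eq_smul]
    exact mul_mem (C_mem_range y c) hx

theorem mem_rangeSub {y x : LaurentSeries K} : x ∈ rangeSub y ↔ x ∈ (evY y).range := Iff.rfl

theorem xr_sub_smul (p : ℕ) (hp0 : p ≠ 0) (ζ : K) (F G : PowerSeries K) (t : K)
    (i : Option (Fin p)) :
    xr p hp0 ζ (F - t • G) i = xr p hp0 ζ F i - PowerSeries.C t * xr p hp0 ζ G i := by
  cases i with
  | none =>
    simp only [xr]
    rw [map_sub, PowerSeries.expand_smul, PowerSeries.smul_eq_C_mul]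
    ring
  | some b =>
    simp only [xr]
    ext n
    simp only [PowerSeries.coeff_rescale, map_sub, PowerSeries.coeff_C_mul, PowerSeries.coeff_smul,
      smul_eq_mul]
    ring

theorem rr_sub_smul (p : ℕ) (hp0 : p ≠ 0) (ζ : K) (F G : PowerSeries K) (t : K)
    (i : Option (Fin p)) :
    rr p hp0 ζ (F - t • G) i = rr p hp0 ζ F i - HahnSeries.C t * rr p hp0 ζ G i := by
  rw [rr, rr, rr, xr_sub_smul, map_sub, map_mul, cL_C]
  ring

/-- The conjugates of `j`. -/
def jc (p : ℕ) (hp0 : p ≠ 0) (ζ : K) (i : Option (Fin p)) : LaurentSeries K :=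
  rr p hp0 ζ (EK K) i * (rr p hp0 ζ (DK K) i)⁻¹

theorem eval_prod_jc_mem [CharZero K] (hAI : AI) {p : ℕ} (hp : p.Prime) {ζ : K}
    (hζ : IsPrimitiveRoot ζ p) (t : K) :
    (∏ i, (X - C (jc p hp.ne_zero ζ i))).eval (HahnSeries.C t) ∈ (evY (jd K p)).range := by
  obtain ⟨a, ha0, ha⟩ := prod_rr_DK_const hAI hp hζ
  have hF : EK K - t • DK K ∈ WK K 1 :=
    sub_mem (EK_mem K) (Submodule.smul_mem _ _ (DK_mem K))
  have h1 := prod_neg_mem hAI hp hζ hF
  have h2 : ∏ i, (- rr p hp.ne_zero ζ (EK K - t • DK K) i) =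
      HahnSeries.C a * (∏ i, (X - C (jc p hp.ne_zero ζ i))).eval (HahnSeries.C t) := by
    rw [← ha, Polynomial.eval_prod, ← Finset.prod_mul_distrib]
    refine Finset.prod_congr rfl fun i _ => ?_
    have h3 := rr_ne_zero hp.ne_zero hζ (DK_ne_zero (K := K)) i
    rw [rr_sub_smul, jc, Polynomial.eval_sub, Polynomial.eval_X, Polynomial.eval_C]
    field_simp
    ring
  have h4 : (∏ i, (X - C (jc p hp.ne_zero ζ i))).eval (HahnSeries.C t) =
      HahnSeries.C a⁻¹ * ∏ i, (- rr p hp.ne_zero ζ (EK K - t • DK K) i) := by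
    rw [h2, ← mul_assoc, ← map_mul, inv_mul_cancel₀ ha0, map_one, one_mul]
  rw [h4]
  exact mul_mem (C_mem_range _ _) h1

theorem coeff_prod_jc_mem [CharZero K] (hAI : AI) {p : ℕ} (hp : p.Prime) {ζ : K}
    (hζ : IsPrimitiveRoot ζ p) (k : ℕ) :
    (∏ i, (X - C (jc p hp.ne_zero ζ i))).coeff k ∈ (evY (jd K p)).range := by
  rw [← mem_rangeSub]
  refine coeff_mem_of_eval_mem (K := K) (V := LaurentSeries K) HahnSeries.C
    (fun _ _ => HahnSeries.C_mul_eq_smul) (rangeSub (jd K p)) _ (fun t => ?_) k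
  rw [mem_rangeSub]
  exact eval_prod_jc_mem hAI hp hζ t

theorem jc_zero {p : ℕ} (hp0 : p ≠ 0) (ζ : K) :
    jc p hp0 ζ (some ⟨0, Nat.pos_of_ne_zero hp0⟩) = jqModC K := by
  rw [jc, rr_zero, rr_zero, cL_EK, cL_DK]
  have h1 : DeltaS K ≠ 0 := by rw [← cL_DK]; exact fun h => DK_ne_zero (cL_injective (h.trans (map_zero _).symm))
  have h2 := Vq_DeltaInvS_ne_zero (K := K) (p := p)
  field_simp

theorem jc_none [CharZero K] {p : ℕ} (hp0 : p ≠ 0) (ζ : K) :
    jc p hp0 ζ none = Vq K p (jd K p) := by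
  rw [jc, rr_none, rr_none, cL_EK, cL_DK, jd, map_mul, map_mul]
  have h1 : Vq K p (Vq K p (DeltaS K)) ≠ 0 := by
    intro h
    have h1 := congrArg (fun x => Vq K p (Vq K p x)) (DeltaS_mul_inv (K := K))
    simp only [map_mul, h, zero_mul, map_one] at h1
    exact zero_ne_one h1
  have h2 := Vq_DeltaInvS_ne_zero (K := K) (p := p)
  have h3 : (p : LaurentSeries K) ≠ 0 := by
    rw [← map_natCast (HahnSeries.C : K →+* LaurentSeries K), Ne, ← map_zero (HahnSeries.C : K →+* LaurentSeries K),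
      HahnSeries.C_injective.eq_iff]
    exact_mod_cast hp0
  field_simp

theorem hasModPoly [CharZero K] (hAI : AI) {p : ℕ} (hp : p.Prime) {ζ : K}
    (hζ : IsPrimitiveRoot ζ p) : HasModPoly p K := by
  obtain ⟨Φ, hmonic, hdeg, hmap⟩ := exists_poly_of_coeff_mem (jd K p)
    (∏ i, (X - C (jc p hp.ne_zero ζ i))) (Polynomial.monic_prod_X_sub_C _ _)
    (coeff_prod_jc_mem hAI hp hζ)
  refine ⟨Φ, hmonic, by rw [hdeg, natDegree_prod_X_sub_C], ?_, ?_⟩
  · apply Vq_injective hp.ne_zero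
    rw [Vq_ev2 hp.ne_zero, map_zero, ← jd, ev2_eq, hmap, ← jc_none hp.ne_zero ζ]
    exact eval_prod_eq_zero _ _
  · rw [ev2_eq, hmap]
    conv_lhs => rw [← jc_zero hp.ne_zero ζ]
    exact eval_prod_eq_zero _ _

end field

/-- **Package B**: the formal Newton argument. -/
theorem formalNewton (hAI : AI) (p : ℕ) (hp : p.Prime) : HasModPoly p ℂ ∧ HasUnitPoly p ℂ :=
  ⟨hasModPoly hAI hp (Complex.isPrimitiveRoot_exp p hp.ne_zero),
    hasUnitPoly hAI hp (Complex.isPrimitiveRoot_exp p hp.ne_zero)⟩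

end FN
end Fermat.Agent.S28

end
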