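/-
S28, WP1n: Newton's identities at the level of functions.
If all power sums of finitely many functions `x i : T → ℂ` are polynomials in a function `J`,
then `∏ (X - x i)` is the specialisation at `Y = J τ` of one monic polynomial in `ℂ[Y][X]`.
-/
import Mathlib

set_option autoImplicit false

namespace Fermat.Agent.S28

open Polynomial Finset

/-- elementary symmetric functions are polynomials in `J` if the power sums are. -/
theorem exists_esymm_poly {T ι : Type} [Fintype ι] (x : ι → T → ℂ) (J : T → ℂ)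
    (h : ∀ m : ℕ, 1 ≤ m → ∃ P : ℂ[X], ∀ τ, ∑ i, x i τ ^ m = P.eval (J τ)) (n : ℕ) :
    ∃ E : ℂ[X], ∀ τ, ((Finset.univ : Finset ι).val.map fun i => x i τ).esymm n = E.eval (J τ) := by
  induction n using Nat.strong_induction_on with
  | _ n ih =>
    rcases Nat.eq_zero_or_pos n with rfl | hn
    · exact ⟨1, fun τ => by simp [Multiset.esymm]⟩
    · choose! E hE using ih
      choose! P hP using h
      refine ⟨C ((n : ℂ)⁻¹) * ((-1) ^ (n + 1) *
        ∑ a ∈ antidiagonal n with a.1 < n, (-1) ^ a.1 * E a.1 * P a.2), fun τ => ?_⟩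
      have key := congrArg (MvPolynomial.aeval (fun i => x i τ))
        (MvPolynomial.mul_esymm_eq_sum ι ℂ n)
      simp only [map_mul, map_natCast, map_pow, map_neg, map_one, map_sum,
        MvPolynomial.aeval_esymm_eq_multiset_esymm, MvPolynomial.psum, MvPolynomial.aeval_X] at key
      have hn0 : (n : ℂ) ≠ 0 := by exact_mod_cast hn.ne'
      rw [eval_mul, eval_C, eval_mul, eval_pow, eval_neg, eval_one, eval_finsetSum]
      rw [eq_inv_mul_iff_mul_eq₀ hn0, key]
      congr 1
      refine Finset.sum_congr rfl fun a ha => ?_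
      obtain ⟨ha1, ha2⟩ := Finset.mem_filter.mp ha
      have ha3 : a.1 + a.2 = n := Finset.HasAntidiagonal.mem_antidiagonal.mp ha1
      rw [eval_mul, eval_mul, eval_pow, eval_neg, eval_one, ← hE a.1 ha2 τ,
        ← hP a.2 (by omega) τ]

/-- **WP1n**. -/
theorem exists_poly_of_psums {T ι : Type} [Fintype ι] (x : ι → T → ℂ) (J : T → ℂ)
    (h : ∀ m : ℕ, 1 ≤ m → ∃ P : ℂ[X], ∀ τ, ∑ i, x i τ ^ m = P.eval (J τ)) :
    ∃ Φ : ℂ[X][X], Φ.Monic ∧ Φ.natDegree = Fintype.card ι ∧
      ∀ τ, Φ.map (Polynomial.evalRingHom (J τ)) = ∏ i, (X - C (x i τ)) := by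
  choose E hE using exists_esymm_poly x J h
  set n := Fintype.card ι with hn
  -- the lower order part
  set L : ℂ[X][X] := ∑ j ∈ Finset.range n, (-1) ^ (j + 1) * (C (E (j + 1)) * X ^ (n - (j + 1)))
    with hL
  have hLdeg : L.degree < (n : WithBot ℕ) := by
    rw [← Polynomial.mem_degreeLT, hL]
    refine Submodule.sum_mem _ fun j hj => ?_
    rw [Finset.mem_range] at hj
    have h1 : ((-1 : ℂ[X][X]) ^ (j + 1) * (C (E (j + 1)) * X ^ (n - (j + 1)))) =
        C ((-1) ^ (j + 1) * E (j + 1)) * X ^ (n - (j + 1)) := by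
      rw [C_mul, C_pow, C_neg, C_1, mul_assoc]
    rw [h1, Polynomial.mem_degreeLT]
    refine (Polynomial.degree_C_mul_X_pow_le _ _).trans_lt ?_
    exact_mod_cast (by omega : n - (j + 1) < n)
  have hmonic : (X ^ n + L).Monic := Polynomial.monic_X_pow_add hLdeg
  refine ⟨X ^ n + L, hmonic, ?_, fun τ => ?_⟩
  · have hd : (X ^ n + L).degree = (n : WithBot ℕ) := by
      rw [Polynomial.degree_add_eq_left_of_degree_lt (by rwa [degree_X_pow]), degree_X_pow]
    exact Polynomial.natDegree_eq_of_degree_eq_some hd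
  · have hv := Multiset.prod_X_sub_X_eq_sum_esymm
      ((Finset.univ : Finset ι).val.map fun i => x i τ)
    rw [Multiset.map_map, Multiset.card_map, Finset.card_val, Finset.card_univ, ← hn] at hv
    have hprod : ∏ i, (X - C (x i τ)) =
        (Multiset.map ((fun t => X - C t) ∘ fun i => x i τ) (Finset.univ : Finset ι).val).prod := rfl
    rw [hprod, hv, Finset.sum_range_succ', Polynomial.map_add, Polynomial.map_pow, map_X, hL,
      Polynomial.map_sum, add_comm]
    congr 1
    · refine Finset.sum_congr rfl fun j _ => ?_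
      rw [Polynomial.map_mul, Polynomial.map_mul, Polynomial.map_pow, Polynomial.map_pow,
        Polynomial.map_neg, Polynomial.map_one, map_X, map_C, hE (j + 1) τ]
      rfl
    · simp [Multiset.esymm]

end Fermat.Agent.S28
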