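/-
S28, WP1c: infrastructure shared by `FunPhi.lean` and `FunXi.lean`.
-/
import Fermat.Agent.S28.Interface
import Fermat.Agent.S28.Newton
import Fermat.Agent.S24.KeyLemma
import Fermat.Prelude.Thm_ModularForm_heckeT_slash_eq_self_of_mem_Gamma0
import Fermat.Prelude.Thm_ModularForm_mdifferentiable_heckeT
import Fermat.Prelude.Thm_ModularForm_isBoundedAtImInfty_heckeT

set_option autoImplicit false

noncomputable section

namespace Fermat.Agent.S28

open UpperHalfPlane ModularForm Polynomial Filter Asymptotics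
open scoped MatrixGroups Manifold Topology

namespace FunC

/-- Statement of S24-B5a (`Fermat.Agent.S24.exists_polynomial_of_invariant`). -/
def KeyStmt : Prop :=
  ∀ (h : ℍ → ℂ), MDiff h → (∀ (γ : SL(2, ℤ)) (τ : ℍ), h (γ • τ) = h τ) → ∀ m : ℕ,
    IsBoundedAtImInfty (fun τ => h τ * discriminant τ ^ m) →
    ∃ P : ℂ[X], P.natDegree ≤ m ∧ ∀ τ, h τ = P.eval (jfun τ)

/-- Statement of WP1n (`exists_poly_of_psums`). -/
def NewtonStmt : Prop :=
  ∀ {ι : Type} [Fintype ι] (x : ι → ℍ → ℂ) (J : ℍ → ℂ),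
    (∀ m : ℕ, 1 ≤ m → ∃ P : ℂ[X], ∀ τ, ∑ i, x i τ ^ m = P.eval (J τ)) →
    ∃ Φ : ℂ[X][X], Φ.Monic ∧ Φ.natDegree = Fintype.card ι ∧
      ∀ τ, Φ.map (Polynomial.evalRingHom (J τ)) = ∏ i, (X - C (x i τ))

theorem keyStmt : KeyStmt := fun h hh hinv m hb =>
  Fermat.Agent.S24.exists_polynomial_of_invariant h hh hinv m hb

theorem newtonStmt : NewtonStmt := fun x J h => exists_poly_of_psums x J h

/-! ### Slash invariance versus functional equations -/

theorem apply_smul_of_slash {k : ℤ} {f : ℍ → ℂ} (hf : ∀ γ : SL(2, ℤ), f ∣[k] γ = f)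
    (γ : SL(2, ℤ)) (τ : ℍ) : f (γ • τ) = denom γ τ ^ k * f τ := by
  have h := congrFun (hf γ) τ
  rw [SL_slash_apply, zpow_neg] at h
  have hd : denom γ τ ^ k ≠ 0 := zpow_ne_zero _ (denom_ne_zero _ _)
  field_simp at h
  rw [h, mul_comm]

theorem slash_of_apply_smul {k : ℤ} {f : ℍ → ℂ}
    (hf : ∀ (γ : SL(2, ℤ)) (τ : ℍ), f (γ • τ) = denom γ τ ^ k * f τ) (γ : SL(2, ℤ)) :
    f ∣[k] γ = f := by
  funext τ
  rw [SL_slash_apply, hf, zpow_neg]
  have hd : denom γ τ ^ k ≠ 0 := zpow_ne_zero _ (denom_ne_zero _ _)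
  field_simp

theorem heckeT_slash_SL (k : ℤ) {p : ℕ} (hp : p.Prime) {f : ℍ → ℂ}
    (hf : ∀ γ : SL(2, ℤ), f ∣[k] γ = f) (γ : SL(2, ℤ)) :
    heckeT k p f ∣[k] γ = heckeT k p f := by
  refine ModularForm.heckeT_slash_eq_self_of_mem_Gamma0 (N := 1) k hp
    (fun h => hp.one_lt.ne' (Nat.dvd_one.mp h)) ?_ _ ?_
  · rintro _ ⟨γ', _, rfl⟩
    exact hf γ'
  · exact ⟨γ, by rw [SetLike.mem_coe, CongruenceSubgroup.Gamma0_mem]; exact Subsingleton.elim _ _,
      rfl⟩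

theorem discriminant_smul (γ : SL(2, ℤ)) (τ : ℍ) :
    discriminant (γ • τ) = denom γ τ ^ (12 : ℤ) * discriminant τ :=
  apply_smul_of_slash
    (SlashInvariantForm.slash_action_generators_SL2Z discriminant_S_invariant
      discriminant_T_invariant) γ τ

theorem E₄_smul (γ : SL(2, ℤ)) (τ : ℍ) : E₄ (γ • τ) = denom γ τ ^ (4 : ℤ) * E₄ τ :=
  apply_smul_of_slash (f := E₄)
    (fun γ => SlashInvariantFormClass.slash_action_eq E₄ _ ⟨γ, rfl⟩) γ τ

theorem jfun_smul (γ : SL(2, ℤ)) (τ : ℍ) : jfun (γ • τ) = jfun τ := by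
  have hd : denom γ τ ≠ 0 := denom_ne_zero _ _
  have hΔ := discriminant_ne_zero τ
  rw [jfun, jfun, discriminant_smul, E₄_smul]
  norm_cast
  field_simp

theorem discriminant_mdiff : MDiff discriminant := CuspForm.discriminant.holo'

theorem mdiff_div_discriminant_pow {f : ℍ → ℂ} (hf : MDiff f) (m : ℕ) :
    MDiff (fun τ => f τ / discriminant τ ^ m) :=
  hf.div (discriminant_mdiff.pow m) fun z => pow_ne_zero _ (discriminant_ne_zero z)

theorem jfun_mdiff : MDiff jfun :=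
  ((ModularFormClass.holo E₄).pow 3).div discriminant_mdiff discriminant_ne_zero

theorem isBoundedAtImInfty_pow {f : ℍ → ℂ} (hf : IsBoundedAtImInfty f) (m : ℕ) :
    IsBoundedAtImInfty (f ^ m) := by
  have h : (f ^ m) =O[atImInfty] ((1 : ℍ → ℝ) ^ m) := IsBigO.pow hf m
  rwa [one_pow] at h

/-! ### The Hecke representatives -/

theorem mul_heckeT_apply (k : ℤ) {p : ℕ} (hp : p ≠ 0) (f : ℍ → ℂ) (τ : ℍ) :
    (p : ℂ) * heckeT k p f τ =
      (p : ℂ) ^ k * f (heckeDiagMatrix p • τ) + ∑ b : Fin p, f (heckeMatrix p b • τ) := by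
  have hp' : (p : ℂ) ≠ 0 := by exact_mod_cast hp
  rw [heckeT_apply k hp, Finset.sum_range, zpow_sub_one₀ hp']
  field_simp
  ring

theorem heckeMatrix_zero_smul_mulτ {p : ℕ} (hp : p ≠ 0) (τ : ℍ) :
    heckeMatrix p 0 • mulτ p τ = τ := by
  have hp' : (p : ℂ) ≠ 0 := by exact_mod_cast hp
  apply UpperHalfPlane.ext
  rw [coe_heckeMatrix_smul hp, mulτ, coe_heckeDiagMatrix_smul hp]
  field_simp
  simp

end FunC

end Fermat.Agent.S28
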