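/-
S28, WP1c_Phi: function-level modular polynomial.
-/
import Fermat.Agent.S28.FunCommon

set_option autoImplicit false

noncomputable section

namespace Fermat.Agent.S28

open UpperHalfPlane ModularForm Polynomial Filter Asymptotics
open scoped MatrixGroups Manifold Topology Real

namespace FunC

/-- The `p + 1` conjugates of `j(pτ)`. -/
def phiRoot (p : ℕ) : Option (Fin p) → ℍ → ℂ
  | none => fun τ => jfun (mulτ p τ)
  | some b => fun τ => jfun (heckeMatrix p b • τ)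

theorem phi_psum {p : ℕ} (hp : p ≠ 0) (m : ℕ) (τ : ℍ) :
    ∑ i, phiRoot p i τ ^ m = (p : ℂ) * heckeT 0 p (jfun ^ m) τ := by
  rw [Fintype.sum_option, mul_heckeT_apply _ hp]
  simp only [phiRoot, Pi.pow_apply, mulτ, zpow_zero, one_mul]

theorem jfun_pow_slash (m : ℕ) (γ : SL(2, ℤ)) : (jfun ^ m) ∣[(0 : ℤ)] γ = jfun ^ m := by
  refine slash_of_apply_smul (fun γ τ => ?_) γ
  simp only [Pi.pow_apply, jfun_smul, zpow_zero, one_mul]

/-- Growth: `j(ατ) Δ(τ)^p` is bounded at `i∞` if `Im (ατ) ≤ p Im τ` and `ατ → i∞`. -/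
theorem isBoundedAtImInfty_jfun_comp_mul {α : ℍ → ℍ} (hα : Tendsto α atImInfty atImInfty)
    {p : ℕ} (him : ∀ τ, (α τ).im ≤ p * τ.im) :
    IsBoundedAtImInfty (fun τ => jfun (α τ) * discriminant τ ^ p) := by
  have h1 : (fun τ => E₄ (α τ)) =O[atImInfty] (1 : ℍ → ℝ) :=
    (ModularFormClass.bdd_at_infty E₄ : IsBoundedAtImInfty E₄).comp_tendsto hα
  have h2 : discriminant =O[atImInfty] fun τ : ℍ => Real.exp (-2 * π * τ.im) := by
    simpa using CuspFormClass.exp_decay_atImInfty (h := 1) CuspForm.discriminant one_pos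
      one_mem_strictPeriods_SL
  have h3 : (fun τ : ℍ => Real.exp (-2 * π * (α τ).im)) =O[atImInfty]
      fun τ => discriminant (α τ) := exp_isBigO_discriminant.comp_tendsto hα
  have h4 : (fun τ => (discriminant (α τ))⁻¹) =O[atImInfty]
      fun τ : ℍ => (Real.exp (-2 * π * (α τ).im))⁻¹ :=
    h3.inv_rev (Eventually.of_forall fun τ h => absurd h (Real.exp_pos _).ne')
  have h5 := ((h1.pow 3).mul ((h2.pow p).mul h4))
  have h6 : (fun τ : ℍ => (1 : ℍ → ℝ) τ ^ 3 * (Real.exp (-2 * π * τ.im) ^ p *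
      (Real.exp (-2 * π * (α τ).im))⁻¹)) =O[atImInfty] (1 : ℍ → ℝ) := by
    refine IsBigO.of_bound 1 (Eventually.of_forall fun τ => ?_)
    simp only [Pi.one_apply, one_pow, one_mul, norm_one]
    rw [← Real.exp_nat_mul, ← Real.exp_neg, ← Real.exp_add,
      Real.norm_of_nonneg (Real.exp_pos _).le, Real.exp_le_one_iff]
    have := him τ
    have hpi := Real.pi_pos
    nlinarith
  refine (h5.trans h6).congr_left fun τ => ?_
  rw [jfun]
  ring

theorem tendsto_mulτ {p : ℕ} (hp : p ≠ 0) : Tendsto (mulτ p) atImInfty atImInfty :=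
  tendsto_smul_atImInfty (by simp [val_heckeDiagMatrix hp])

theorem tendsto_heckeMatrix_smul {p : ℕ} (hp : p ≠ 0) (b : ℕ) :
    Tendsto (fun τ : ℍ => heckeMatrix p b • τ) atImInfty atImInfty :=
  tendsto_smul_atImInfty (by simp [val_heckeMatrix hp])

theorem im_mulτ {p : ℕ} (hp : p ≠ 0) (τ : ℍ) : (mulτ p τ).im = p * τ.im := by
  rw [← UpperHalfPlane.coe_im, mulτ, coe_heckeDiagMatrix_smul hp]
  simp

theorem im_heckeMatrix_smul {p : ℕ} (hp : p ≠ 0) (b : ℕ) (τ : ℍ) :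
    (heckeMatrix p b • τ).im = τ.im / p := by
  rw [← UpperHalfPlane.coe_im, coe_heckeMatrix_smul hp]
  have : (((τ : ℂ) + b) / p) = (((τ : ℂ) + b) / ((p : ℝ) : ℂ)) := by simp
  rw [this, Complex.div_ofReal_im]
  simp

theorem isBoundedAtImInfty_phiRoot {p : ℕ} (hp : p ≠ 0) (i : Option (Fin p)) :
    IsBoundedAtImInfty (fun τ => phiRoot p i τ * discriminant τ ^ p) := by
  have hp1 : (1 : ℝ) ≤ p := by exact_mod_cast Nat.one_le_iff_ne_zero.mpr hp
  cases i with
  | none => exact isBoundedAtImInfty_jfun_comp_mul (tendsto_mulτ hp) fun τ => (im_mulτ hp τ).le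
  | some b =>
    refine isBoundedAtImInfty_jfun_comp_mul (tendsto_heckeMatrix_smul hp b) fun τ => ?_
    rw [im_heckeMatrix_smul hp]
    have h := τ.im_pos
    calc τ.im / p ≤ τ.im := div_le_self h.le hp1
      _ ≤ p * τ.im := le_mul_of_one_le_left h.le hp1

theorem phi_psum_poly (hKey : KeyStmt) {p : ℕ} (hp : p.Prime) (m : ℕ) :
    ∃ P : ℂ[X], ∀ τ, ∑ i, phiRoot p i τ ^ m = P.eval (jfun τ) := by
  set G : ℍ → ℂ := heckeT 0 p (jfun ^ m) with hG
  have hGd : MDiff G := ModularForm.mdifferentiable_heckeT (jfun_mdiff.pow m) _ _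
  have hGs : ∀ (γ : SL(2, ℤ)) (τ : ℍ), G (γ • τ) = denom γ τ ^ (0 : ℤ) * G τ :=
    apply_smul_of_slash (heckeT_slash_SL _ hp (jfun_pow_slash m))
  obtain ⟨P, -, hP⟩ := hKey (fun τ => (p : ℂ) * G τ) (mdifferentiable_const.mul hGd)
    (fun γ τ => by rw [hGs, zpow_zero, one_mul]) (p * m)
    (by
      have h1 : IsBoundedAtImInfty
          (∑ i, (fun τ => phiRoot p i τ * discriminant τ ^ p) ^ m) :=
        sum_mem (S := boundedAtImInftySubalgebra ℂ) fun i _ =>
          isBoundedAtImInfty_pow (isBoundedAtImInfty_phiRoot hp.ne_zero i) m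
      refine h1.congr_left fun τ => ?_
      rw [← phi_psum hp.ne_zero, Finset.sum_apply, Finset.sum_mul]
      refine Finset.sum_congr rfl fun i _ => ?_
      simp only [Pi.pow_apply]
      rw [mul_pow, pow_mul])
  exact ⟨P, fun τ => by rw [phi_psum hp.ne_zero, ← hP]⟩

theorem wp1c_Phi_of (hKey : KeyStmt) (hNewton : NewtonStmt) : WP1c_Phi := by
  intro p hp
  obtain ⟨Φ, hmon, hdeg, hΦ⟩ := hNewton (phiRoot p) jfun (fun m _ => phi_psum_poly hKey hp m)
  refine ⟨Φ, hmon, by simpa using hdeg, fun τ => ?_, fun τ => ?_⟩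
  · rw [evC, hΦ, eval_prod]
    refine Finset.prod_eq_zero (Finset.mem_univ none) ?_
    simp [phiRoot]
  · rw [evC, hΦ, eval_prod]
    have : NeZero p := ⟨hp.ne_zero⟩
    refine Finset.prod_eq_zero (Finset.mem_univ (some (0 : Fin p))) ?_
    simp [phiRoot, heckeMatrix_zero_smul_mulτ hp.ne_zero]

end FunC

theorem wp1c_Phi : WP1c_Phi := FunC.wp1c_Phi_of FunC.keyStmt FunC.newtonStmt

end Fermat.Agent.S28
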