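/-
S28, WP1d: from identities between functions on the upper half plane to identities between
formal Laurent series.
-/
import Fermat.Agent.S28.Interface
import Fermat.Agent.QInt.QMap
import Fermat.Prelude.Thm_UpperHalfPlane_qCoeff_heckeT
import Fermat.Prelude.Thm_UpperHalfPlane_qCoeff_heckeU
import Fermat.Prelude.Thm_ModularForm_periodic_heckeT_comp_ofComplex
import Fermat.Prelude.Thm_ModularForm_periodic_heckeU_comp_ofComplex
import Fermat.Prelude.Thm_ModularForm_mdifferentiable_heckeT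
import Fermat.Prelude.Thm_ModularForm_mdifferentiable_heckeU
import Fermat.Prelude.Thm_ModularForm_isBoundedAtImInfty_heckeT
import Fermat.Prelude.Thm_ModularForm_isBoundedAtImInfty_heckeU

set_option autoImplicit false

noncomputable section

namespace Fermat.Agent.S28

open ModularCurve Polynomial UpperHalfPlane ModularForm
open Fermat.Agent.QInt
open scoped MatrixGroups ModularForm Manifold

namespace FunToFormal

/-! ### `f(τ) ↦ f(pτ)` on `QH` -/

theorem comp_mulτ_eq (p : ℕ) (hp : p ≠ 0) (f : ℍ → ℂ) :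
    (fun τ => f (mulτ p τ)) = heckeT 1 p f - heckeU 1 p f := by
  funext τ
  rw [heckeT_eq_heckeU_add, add_sub_cancel_left, slash_heckeDiagMatrix_apply 1 hp]
  simp [mulτ]

theorem isQ_heckeT {f : ℍ → ℂ} (h : IsQ f) (k : ℤ) (p : ℕ) : IsQ (heckeT k p f) :=
  ⟨by simpa using periodic_heckeT_comp_ofComplex (by simpa using h.periodic) k p,
    mdifferentiable_heckeT h.holo k p, isBoundedAtImInfty_heckeT h.bdd k p⟩

theorem isQ_heckeU {f : ℍ → ℂ} (h : IsQ f) (k : ℤ) (p : ℕ) : IsQ (heckeU k p f) :=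
  ⟨by simpa using periodic_heckeU_comp_ofComplex (by simpa using h.periodic) k p,
    mdifferentiable_heckeU h.holo k p, isBoundedAtImInfty_heckeU h.bdd k p⟩

theorem isQ_comp_mulτ {f : ℍ → ℂ} (h : IsQ f) (p : ℕ) (hp : p ≠ 0) :
    IsQ (fun τ => f (mulτ p τ)) := by
  rw [comp_mulτ_eq p hp]
  exact QH.sub_mem (isQ_heckeT h 1 p) (isQ_heckeU h 1 p)

theorem qExpansion_comp_mulτ_coeff {f : ℍ → ℂ} (h : IsQ f) (p : ℕ) (hp : p ≠ 0) (n : ℕ) :
    (qExpansion 1 (fun τ => f (mulτ p τ))).coeff n =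
      if p ∣ n then (qExpansion 1 f).coeff (n / p) else 0 := by
  have hper : Function.Periodic (f ∘ UpperHalfPlane.ofComplex) 1 := by simpa using h.periodic
  have hT := UpperHalfPlane.qCoeff_heckeT hper h.holo h.bdd 1 hp n
  have hU := UpperHalfPlane.qCoeff_heckeU hper h.holo h.bdd 1 hp n
  have hsub : qExpansion 1 (heckeT 1 p f - heckeU 1 p f) =
      qExpansion 1 (heckeT 1 p f) - qExpansion 1 (heckeU 1 p f) :=
    qExpansion_sub (isQ_heckeT h 1 p).analyticAt (isQ_heckeU h 1 p).analyticAt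
  rw [comp_mulτ_eq p hp, hsub, map_sub]
  simp only [ModularFormClass.qCoeff] at hT hU
  rw [hT, hU, coeffHeckeT_eq_coeffHeckeU_add]
  simp [ModularFormClass.qCoeff]

/-! ### The localisation of `QH` at the nowhere vanishing functions -/

/-- the ring homomorphism `QH → ℂ((q))`. -/
def L : QH →+* LaurentSeries ℂ :=
  (HahnSeries.ofPowerSeries ℤ ℂ).comp (qMap : QH →+* PowerSeries ℂ)

theorem L_apply (g : QH) : L g = HahnSeries.ofPowerSeries ℤ ℂ (qExpansion 1 (g : ℍ → ℂ)) := rfl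

theorem L_injective : Function.Injective L :=
  (HahnSeries.ofPowerSeries_injective).comp qMap_injective

/-- nowhere vanishing elements of `QH`. -/
def nv : Submonoid QH where
  carrier := {b | ∀ τ, (b : ℍ → ℂ) τ ≠ 0}
  one_mem' := fun _ => one_ne_zero
  mul_mem' := fun ha hb τ => mul_ne_zero (ha τ) (hb τ)

abbrev QL := Localization nv

theorem isUnit_val (b : nv) : IsUnit (QH.val.toRingHom (b : QH)) := by
  rw [Pi.isUnit_iff]
  intro τ
  exact (b.2 τ).isUnit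

theorem isUnit_L (b : nv) : IsUnit (L (b : QH)) := by
  apply IsUnit.mk0
  intro h
  have h0 : (b : QH) = 0 := L_injective (by rw [h, map_zero])
  exact b.2 UpperHalfPlane.I (by rw [h0]; rfl)

/-- value as a function. -/
def toF : QL →+* (ℍ → ℂ) := IsLocalization.lift (M := nv) (g := QH.val.toRingHom) isUnit_val

/-- value as a formal Laurent series. -/
def toS : QL →+* LaurentSeries ℂ := IsLocalization.lift (M := nv) (g := L) isUnit_L

theorem toF_injective : Function.Injective toF := by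
  rw [toF, IsLocalization.lift_injective_iff]
  intro x y
  constructor
  · intro h
    have := congrArg toF h
    simpa [toF, IsLocalization.lift_eq] using this
  · intro h
    have : x = y := Subtype.ext h
    rw [this]

/-- constants. -/
def cst : ℂ →+* QL := (algebraMap QH QL).comp (algebraMap ℂ QH)

theorem toF_cst (c : ℂ) (τ : ℍ) : toF (cst c) τ = c := by
  simp [toF, cst, IsLocalization.lift_eq]

theorem toS_cst (c : ℂ) : toS (cst c) = HahnSeries.C c := by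
  simp only [toS, cst, RingHom.comp_apply, IsLocalization.lift_eq, L]
  have : (qMap : QH →+* PowerSeries ℂ) (algebraMap ℂ QH c) = algebraMap ℂ (PowerSeries ℂ) c :=
    qMap.commutes c
  rw [this]
  simp

theorem transfer (G : ℂ[X][X]) (x y : QL) (h : ∀ τ, evC G (toF x τ) (toF y τ) = 0) :
    ev2 G (toS x) (toS y) = 0 := by
  set e : QL := G.eval₂ (Polynomial.eval₂RingHom cst y) x with he
  have h1 : toF e = 0 := by
    funext τ
    have : toF e τ = evC G (toF x τ) (toF y τ) := by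
      show ((Pi.evalRingHom (fun _ => ℂ) τ).comp toF) e = _
      rw [he, Polynomial.hom_eval₂, evC, Polynomial.eval_map]
      congr 1
      apply Polynomial.ringHom_ext
      · intro c
        simp [toF_cst]
      · simp
    rw [this, h τ]
    rfl
  have h2 : e = 0 := toF_injective (by rw [h1, map_zero])
  have h3 : toS e = ev2 G (toS x) (toS y) := by
    rw [he, Polynomial.hom_eval₂, ev2]
    congr 1
    apply Polynomial.ringHom_ext
    · intro c
      simp [toS_cst, evY]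
    · simp [evY]
  rw [← h3, h2, map_zero]

/-- fractions -/
def frac (a : QH) (b : QH) (hb : ∀ τ, (b : ℍ → ℂ) τ ≠ 0) : QL :=
  IsLocalization.mk' QL a (⟨b, hb⟩ : nv)

theorem toF_frac (a b : QH) (hb : ∀ τ, (b : ℍ → ℂ) τ ≠ 0) (τ : ℍ) :
    toF (frac a b hb) τ = (a : ℍ → ℂ) τ / (b : ℍ → ℂ) τ := by
  have h : toF (frac a b hb) = fun τ => (a : ℍ → ℂ) τ / (b : ℍ → ℂ) τ := by
    rw [toF, frac, IsLocalization.lift_mk'_spec]
    funext τ
    show (a : ℍ → ℂ) τ = (b : ℍ → ℂ) τ * ((a : ℍ → ℂ) τ / (b : ℍ → ℂ) τ)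
    field_simp [hb τ]
  rw [h]

theorem toS_frac (a b : QH) (hb : ∀ τ, (b : ℍ → ℂ) τ ≠ 0) (s : LaurentSeries ℂ)
    (hs : L a = L b * s) : toS (frac a b hb) = s := by
  rw [toS, frac, IsLocalization.lift_mk'_spec]
  exact hs

/-! ### The concrete functions -/

def E4Q : QH := ⟨⇑E₄, IsMF.isQ_top (IsMF.of_levelOne E₄)⟩

def DQ : QH := ⟨ModularForm.discriminant, IsMF.isQ_top (IsCF.of_levelOne CuspForm.discriminant).isMF⟩

/-- `f(τ) ↦ f(pτ)`. -/
def cmp (p : ℕ) (hp : p ≠ 0) (f : QH) : QH := ⟨fun τ => (f : ℍ → ℂ) (mulτ p τ), isQ_comp_mulτ f.2 p hp⟩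

theorem L_cmp (p : ℕ) (hp : p ≠ 0) (f : QH) : L (cmp p hp f) = Vq ℂ p (L f) := by
  have : NeZero p := ⟨hp⟩
  rw [Vq_eq]
  ext n
  by_cases hd : (p : ℤ) ∣ n
  · obtain ⟨m, rfl⟩ := hd
    rw [qExpand_coeff_mul]
    rcases lt_or_ge m 0 with hm | hm
    · have hpm : (p : ℤ) * m < 0 := mul_neg_of_pos_of_neg (by positivity) hm
      rw [L_apply, L_apply, ofPowerSeries_coeff_of_neg _ hpm, ofPowerSeries_coeff_of_neg _ hm]
    · lift m to ℕ using hm
      rw [L_apply, L_apply, ← Nat.cast_mul, HahnSeries.ofPowerSeries_apply_coeff,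
        HahnSeries.ofPowerSeries_apply_coeff]
      show (qExpansion 1 (fun τ => (f : ℍ → ℂ) (mulτ p τ))).coeff (p * m) = _
      rw [qExpansion_comp_mulτ_coeff f.2 p hp, if_pos (Dvd.intro m rfl),
        Nat.mul_div_cancel_left _ (Nat.pos_of_ne_zero hp)]
  · rw [qExpand_coeff_of_not_dvd _ _ hd]
    rcases lt_or_ge n 0 with hn | hn
    · rw [L_apply, ofPowerSeries_coeff_of_neg _ hn]
    · lift n to ℕ using hn
      rw [L_apply, HahnSeries.ofPowerSeries_apply_coeff]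
      show (qExpansion 1 (fun τ => (f : ℍ → ℂ) (mulτ p τ))).coeff n = _
      rw [qExpansion_comp_mulτ_coeff f.2 p hp, if_neg (fun h => hd (by exact_mod_cast h))]

theorem DQ_ne (τ : ℍ) : (DQ : ℍ → ℂ) τ ≠ 0 := ModularForm.discriminant_ne_zero τ

theorem cmp_DQ_ne (p : ℕ) (hp : p ≠ 0) (τ : ℍ) : (cmp p hp DQ : ℍ → ℂ) τ ≠ 0 :=
  ModularForm.discriminant_ne_zero _

theorem DeltaS_mul_inv (A : Type) [CommRing A] : DeltaS A * DeltaInvS A = 1 := by
  rw [DeltaS, DeltaInvS, mul_mul_mul_comm, HahnSeries.single_mul_single, ← map_mul, ← map_mul,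
    dedekindEtaUnit_mul_inv]
  simp

theorem L_DQ (h : WP1a_Delta) : L DQ = DeltaS ℂ := by
  rw [L_apply]
  show HahnSeries.ofPowerSeries ℤ ℂ (qExpansion 1 ModularForm.discriminant) = _
  rw [h, map_mul, HahnSeries.ofPowerSeries_X, DeltaS]

theorem L_E4Q (h : WP1a_E4) :
    L E4Q = HahnSeries.ofPowerSeries ℤ ℂ (eisenstein4.map (Int.castRingHom ℂ)) := by
  rw [L_apply]
  show HahnSeries.ofPowerSeries ℤ ℂ (qExpansion 1 ⇑E₄) = _
  rw [h]

theorem L_j (h1 : WP1a_Delta) (h2 : WP1a_E4) : L (E4Q ^ 3) = L DQ * jqModC ℂ := by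
  rw [map_pow, L_DQ h1, L_E4Q h2, DeltaS, jqModC, mul_mul_mul_comm, HahnSeries.single_mul_single,
    ← map_mul, ← map_mul, jNum, mul_left_comm, dedekindEtaUnit_mul_inv]
  simp

/-- `j(τ)`. -/
def jL : QL := frac (E4Q ^ 3) DQ DQ_ne

/-- `j(pτ)`. -/
def jpL (p : ℕ) (hp : p ≠ 0) : QL := frac (cmp p hp (E4Q ^ 3)) (cmp p hp DQ) (cmp_DQ_ne p hp)

/-- `p^12 Δ(pτ)/Δ(τ)`. -/
def uInfL (p : ℕ) (hp : p ≠ 0) : QL := frac ((p : QH) ^ 12 * cmp p hp DQ) DQ DQ_ne

/-- `Δ(τ)/Δ(pτ)`. -/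
def uZeroL (p : ℕ) (hp : p ≠ 0) : QL := frac DQ (cmp p hp DQ) (cmp_DQ_ne p hp)

theorem toF_jL (τ : ℍ) : toF jL τ = jfun τ := by
  rw [jL, toF_frac]; rfl

theorem toF_jpL (p : ℕ) (hp : p ≠ 0) (τ : ℍ) : toF (jpL p hp) τ = jfun (mulτ p τ) := by
  rw [jpL, toF_frac]; rfl

theorem toF_uInfL (p : ℕ) (hp : p ≠ 0) (τ : ℍ) : toF (uInfL p hp) τ =
    (p : ℂ) ^ 12 * ModularForm.discriminant (mulτ p τ) / ModularForm.discriminant τ := by
  rw [uInfL, toF_frac]; rfl

theorem toF_uZeroL (p : ℕ) (hp : p ≠ 0) (τ : ℍ) : toF (uZeroL p hp) τ =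
    ModularForm.discriminant τ / ModularForm.discriminant (mulτ p τ) := by
  rw [uZeroL, toF_frac]; rfl

theorem toS_jL (h1 : WP1a_Delta) (h2 : WP1a_E4) : toS jL = jqModC ℂ :=
  toS_frac _ _ _ _ (L_j h1 h2)

theorem toS_jpL (h1 : WP1a_Delta) (h2 : WP1a_E4) (p : ℕ) (hp : p ≠ 0) :
    toS (jpL p hp) = jd ℂ p := by
  apply toS_frac
  rw [L_cmp, L_cmp, L_j h1 h2, map_mul, jd]

theorem toS_uInfL (h1 : WP1a_Delta) (p : ℕ) (hp : p ≠ 0) : toS (uInfL p hp) = uInf ℂ p := by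
  apply toS_frac
  rw [map_mul, map_pow, map_natCast, L_cmp, L_DQ h1, uInf]
  calc (p : LaurentSeries ℂ) ^ 12 * Vq ℂ p (DeltaS ℂ)
      = (p : LaurentSeries ℂ) ^ 12 * Vq ℂ p (DeltaS ℂ) * (DeltaS ℂ * DeltaInvS ℂ) := by
        rw [DeltaS_mul_inv, mul_one]
    _ = _ := by ring

theorem toS_uZeroL (h1 : WP1a_Delta) (p : ℕ) (hp : p ≠ 0) : toS (uZeroL p hp) = uZero ℂ p := by
  apply toS_frac
  rw [L_cmp, L_DQ h1, uZero]
  calc DeltaS ℂ = DeltaS ℂ * Vq ℂ p (DeltaS ℂ * DeltaInvS ℂ) := by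
        rw [DeltaS_mul_inv, map_one, mul_one]
    _ = _ := by rw [map_mul]; ring

end FunToFormal

open FunToFormal in
theorem wp1d : WP1d := by
  intro h1 h2 hΦ hΞ p hp
  have hp0 : p ≠ 0 := hp.ne_zero
  constructor
  · obtain ⟨Φ, hm, hd, e1, e2⟩ := hΦ p hp
    refine ⟨Φ, hm, hd, ?_, ?_⟩
    · rw [← toS_jL h1 h2, ← toS_jpL h1 h2 p hp0]
      apply transfer
      intro τ
      rw [toF_jL, toF_jpL]
      exact e1 τ
    · rw [← toS_jL h1 h2, ← toS_jpL h1 h2 p hp0]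
      apply transfer
      intro τ
      rw [toF_jL, toF_jpL]
      exact e2 τ
  · obtain ⟨Ξ, hm, hd, e1, e2⟩ := hΞ p hp
    refine ⟨Ξ, hm, hd, ?_, ?_⟩
    · rw [← toS_jL h1 h2, ← toS_uInfL h1 p hp0]
      apply transfer
      intro τ
      rw [toF_jL, toF_uInfL]
      exact e1 τ
    · rw [← toS_jpL h1 h2 p hp0, ← toS_uZeroL h1 p hp0]
      apply transfer
      intro τ
      rw [toF_jpL, toF_uZeroL]
      exact e2 τ

end Fermat.Agent.S28
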