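/-
S28, WP1c_Xi: function-level equation of the modular unit `p^12 Δ(pτ)/Δ(τ)`.
-/
import Fermat.Agent.S28.FunCommon

set_option autoImplicit false

noncomputable section

namespace Fermat.Agent.S28

open UpperHalfPlane ModularForm Polynomial Filter Asymptotics
open scoped MatrixGroups Manifold Topology

namespace FunC

/-- The `p + 1` conjugates of the modular unit. -/
def xiRoot (p : ℕ) : Option (Fin p) → ℍ → ℂ
  | none => fun τ => (p : ℂ) ^ 12 * discriminant (mulτ p τ) / discriminant τ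
  | some b => fun τ => discriminant (heckeMatrix p b • τ) / discriminant τ

theorem xi_psum {p : ℕ} (hp : p ≠ 0) (m : ℕ) (τ : ℍ) :
    ∑ i, xiRoot p i τ ^ m =
      (p : ℂ) * heckeT (12 * (m : ℤ)) p (discriminant ^ m) τ / discriminant τ ^ m := by
  rw [Fintype.sum_option, mul_heckeT_apply _ hp, add_div, Finset.sum_div]
  congr 1
  · simp only [xiRoot, Pi.pow_apply, div_pow, mul_pow, mulτ]
    congr 2
    rw [zpow_mul, zpow_natCast]
    norm_cast
  · refine Finset.sum_congr rfl fun b _ => ?_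
    simp only [xiRoot, Pi.pow_apply, div_pow]

theorem discriminant_pow_slash (m : ℕ) (γ : SL(2, ℤ)) :
    (discriminant ^ m) ∣[12 * (m : ℤ)] γ = discriminant ^ m := by
  refine slash_of_apply_smul (fun γ τ => ?_) γ
  simp only [Pi.pow_apply]
  rw [discriminant_smul, mul_pow, zpow_mul, zpow_natCast]

theorem xi_psum_poly (hKey : KeyStmt) {p : ℕ} (hp : p.Prime) (m : ℕ) :
    ∃ P : ℂ[X], ∀ τ, ∑ i, xiRoot p i τ ^ m = P.eval (jfun τ) := by
  set G : ℍ → ℂ := heckeT (12 * (m : ℤ)) p (discriminant ^ m) with hG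
  have hGd : MDiff G := ModularForm.mdifferentiable_heckeT (discriminant_mdiff.pow m) _ _
  have hGs : ∀ (γ : SL(2, ℤ)) (τ : ℍ), G (γ • τ) = denom γ τ ^ (12 * (m : ℤ)) * G τ :=
    apply_smul_of_slash (heckeT_slash_SL _ hp (discriminant_pow_slash m))
  have hGb : IsBoundedAtImInfty G :=
    ModularForm.isBoundedAtImInfty_heckeT
      (isBoundedAtImInfty_pow discriminant_isZeroAtImInfty.isBoundedAtImInfty m) _ _
  obtain ⟨P, -, hP⟩ := hKey (fun τ => (p : ℂ) * G τ / discriminant τ ^ m)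
    (mdiff_div_discriminant_pow (f := fun τ => (p : ℂ) * G τ) (mdifferentiable_const.mul hGd) m)
    (fun γ τ => by
      have hd : denom γ τ ≠ 0 := denom_ne_zero _ _
      have hΔ := discriminant_ne_zero τ
      rw [hGs, discriminant_smul, mul_pow, zpow_mul, zpow_natCast]
      have : (denom γ τ ^ (12 : ℤ)) ^ m ≠ 0 := pow_ne_zero _ (zpow_ne_zero _ hd)
      field_simp) m
    (by
      have h1 : IsBoundedAtImInfty (fun τ => (p : ℂ) * G τ) :=
        (const_boundedAtFilter _ (p : ℂ)).mul hGb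
      refine h1.congr_left fun τ => ?_
      have hΔ := discriminant_ne_zero τ
      field_simp)
  exact ⟨P, fun τ => by rw [xi_psum hp.ne_zero, ← hP]⟩

theorem wp1c_Xi_of (hKey : KeyStmt) (hNewton : NewtonStmt) : WP1c_Xi := by
  intro p hp
  obtain ⟨Ξ, hmon, hdeg, hΞ⟩ := hNewton (xiRoot p) jfun (fun m _ => xi_psum_poly hKey hp m)
  refine ⟨Ξ, hmon, by simpa using hdeg, fun τ => ?_, fun τ => ?_⟩
  · rw [evC, hΞ, eval_prod]
    refine Finset.prod_eq_zero (Finset.mem_univ none) ?_
    simp [xiRoot]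
  · rw [evC, hΞ, eval_prod]
    have : NeZero p := ⟨hp.ne_zero⟩
    refine Finset.prod_eq_zero (Finset.mem_univ (some (0 : Fin p))) ?_
    simp [xiRoot, heckeMatrix_zero_smul_mulτ hp.ne_zero]

end FunC

theorem wp1c_Xi : WP1c_Xi := FunC.wp1c_Xi_of FunC.keyStmt FunC.newtonStmt

end Fermat.Agent.S28
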