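/-
S28, WP9 (part P2): `ℤ_(ℓ)[θ]` for a transcendental `θ` is an integrally closed domain in which
`ℓ` is prime; the resulting integrality criterion.
-/
import Fermat.Agent.S28.QEPAlg
import Fermat.Agent.S28.QEPLaurent

set_option autoImplicit false
set_option linter.unusedSectionVars false

noncomputable section

namespace Fermat.Agent.S28.QEP9

open Polynomial Fermat.Agent.S28.QEP

variable (ℓ : ℕ) [Fact ℓ.Prime]

set_option quotPrecheck false in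
local notation "ℤℓ" => ↥(GaloisRep.ratLocalizedAt ℓ)

/-- `ZMod ℓ` as an algebra over `ℤ_(ℓ)`-free statement: `ℓ` is prime in `ℤ_(ℓ)`. -/
lemma prime_ell : Prime ((ℓ : ℕ) : ℤℓ) := by
  have hℓ : ℓ.Prime := Fact.out
  refine ⟨natCast_ne_zero' ℓ, ?_, ?_⟩
  · intro hu
    obtain ⟨v, hv⟩ := hu.exists_right_inv
    have h1 : (ℓ : ℚ) * (v : ℚ) = 1 := by
      have := congrArg Subtype.val hv
      simpa using this
    have hℓQ : (ℓ : ℚ) ≠ 0 := by exact_mod_cast hℓ.ne_zero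
    have hv0 : (v : ℚ) ≠ 0 := by
      intro h0; rw [h0, mul_zero] at h1; exact zero_ne_one h1
    have h2 := ((mem_ratLocalizedAt_iff ℓ _).mp v.2).resolve_left hv0
    have h3 := congrArg (padicValRat ℓ) h1
    rw [padicValRat.mul hℓQ hv0, padicValRat.self hℓ.one_lt, padicValRat.one] at h3
    omega
  · intro a b hab
    rcases isUnit_or_dvd ℓ a with ha | ha
    · right
      exact (ha.dvd_mul_left).mp hab
    · exact Or.inl ha

lemma exists_assoc_pow {x : ℤℓ} (hx : x ≠ 0) : ∃ n : ℕ, Associated (((ℓ : ℕ) : ℤℓ) ^ n) x := by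
  classical
  have hC : (C x : ℤℓ[X]) ≠ 0 := by simpa using hx
  have hex : ∃ n : ℕ, ¬ ((ℓ : ℕ) : ℤℓ) ^ (n + 1) ∣ x := by
    obtain ⟨n, hn⟩ := exists_not_pow_dvd ℓ hC
    refine ⟨n, fun hd => hn ?_⟩
    rw [← C_pow]
    exact map_dvd C hd
  have hmin := Nat.find_spec hex
  set n := Nat.find hex with hn
  have hdvd : ((ℓ : ℕ) : ℤℓ) ^ n ∣ x := by
    rcases Nat.eq_zero_or_pos n with h0 | hpos
    · rw [h0, pow_zero]; exact one_dvd _
    · have := Nat.find_min hex (m := n - 1) (by omega)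
      rw [not_not, Nat.sub_add_cancel hpos] at this
      exact this
  obtain ⟨u, hu⟩ := hdvd
  refine ⟨n, ?_⟩
  rcases isUnit_or_dvd ℓ u with h | h
  · obtain ⟨u', rfl⟩ := h
    exact ⟨u', hu.symm⟩
  · exfalso
    apply hmin
    obtain ⟨w, rfl⟩ := h
    exact ⟨w, by rw [hu]; ring⟩

instance instUFM : UniqueFactorizationMonoid ℤℓ :=
  IsDiscreteValuationRing.HasUnitMulPowIrreducibleFactorization.toUniqueFactorizationMonoid
    ⟨((ℓ : ℕ) : ℤℓ), (prime_ell ℓ).irreducible, fun hx => exists_assoc_pow ℓ hx⟩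

section adjoin

variable {F : Type*} [Field F] [Algebra ↥(GaloisRep.ratLocalizedAt ℓ) F]

/-- `ℤ_(ℓ)[X] ≃ ℤ_(ℓ)[θ]`. -/
def adjEquiv (θ : F) (hθ : Function.Injective (aeval θ : ℤℓ[X] →ₐ[ℤℓ] F)) :
    ℤℓ[X] ≃ₐ[ℤℓ] Algebra.adjoin ℤℓ {θ} :=
  (AlgEquiv.ofInjective (aeval θ) hθ).trans
    (Subalgebra.equivOfEq _ _ (Algebra.adjoin_singleton_eq_range_aeval ℤℓ θ).symm)

lemma coe_adjEquiv (θ : F) (hθ : Function.Injective (aeval θ : ℤℓ[X] →ₐ[ℤℓ] F)) (h : ℤℓ[X]) :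
    ((adjEquiv ℓ θ hθ h : Algebra.adjoin ℤℓ {θ}) : F) = aeval θ h := rfl

/-- The integrality criterion. -/
theorem isIntegral_adjoin_of (θ : F) (hθ : Function.Injective (aeval θ : ℤℓ[X] →ₐ[ℤℓ] F))
    (h : ℤℓ[X]) (hh : ¬ C ((ℓ : ℕ) : ℤℓ) ∣ h) (y : F)
    (h1 : IsIntegral (Algebra.adjoin ℤℓ {θ}) ((ℓ : F) * y))
    (h2 : IsIntegral (Algebra.adjoin ℤℓ {θ}) (aeval θ h * y)) :
    IsIntegral (Algebra.adjoin ℤℓ {θ}) y := by
  have : IsIntegrallyClosed (Algebra.adjoin ℤℓ {θ}) :=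
    IsIntegrallyClosed.of_equiv (adjEquiv ℓ θ hθ).toRingEquiv
  have hπ : Prime (adjEquiv ℓ θ hθ (C ((ℓ : ℕ) : ℤℓ))) :=
    (MulEquiv.prime_iff (adjEquiv ℓ θ hθ)).mpr (prime_C_iff.mpr (prime_ell ℓ))
  have hnd : ¬ (adjEquiv ℓ θ hθ (C ((ℓ : ℕ) : ℤℓ))) ∣ adjEquiv ℓ θ hθ h := by
    intro hd
    apply hh
    have := map_dvd (adjEquiv ℓ θ hθ).symm hd
    simpa using this
  refine isIntegral_of_smul_of_smul hπ hnd ?_ ?_
  · have : (adjEquiv ℓ θ hθ (C ((ℓ : ℕ) : ℤℓ))) • y = (ℓ : F) * y := by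
      rw [Subalgebra.smul_def, coe_adjEquiv, aeval_C, map_natCast, smul_eq_mul]
    rw [this]; exact h1
  · have : (adjEquiv ℓ θ hθ h) • y = aeval θ h * y := by
      rw [Subalgebra.smul_def, coe_adjEquiv, smul_eq_mul]
    rw [this]; exact h2

end adjoin

end Fermat.Agent.S28.QEP9
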