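/-
S28, WP9 (core): from the tower data, every `ℓ`-integral series in the function field has a
denominator `h(j_N)` with `h` not divisible by `ℓ`.
-/
import Fermat.Agent.S28.Interface
import Fermat.Agent.S28.QEPLaurent
import Fermat.Agent.S28.L1
import Fermat.Agent.S28.Tower

set_option autoImplicit false
set_option linter.unusedSectionVars false

noncomputable section

namespace Fermat.Agent.S28.QEP9

open Polynomial ModularCurve Fermat.Agent.S28.QEP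

variable (ℓ : ℕ) [Fact ℓ.Prime] (N : ℕ)

set_option quotPrecheck false in
local notation "ℤℓ" => ↥(GaloisRep.ratLocalizedAt ℓ)

/-- evaluation of `P ∈ ℤ_(ℓ)[X]` at `j(q^N) ∈ ℚ((q))`. -/
def evQ : ℤℓ[X] →+* LaurentSeries ℚ := (evY (jd ℚ N)).comp (mapRingHom (algebraMap ℤℓ ℚ))

lemma evQ_eq (P : ℤℓ[X]) : evQ ℓ N P = coeffMap (algebraMap ℤℓ ℚ) (evY (jd ℤℓ N) P) := by
  have h := BC.coeffMap_comp_evY (algebraMap ℤℓ ℚ) (jd ℤℓ N)
  rw [BC.coeffMap_jd] at h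
  exact (congrArg (fun f => f P) h).symm

lemma evQ_X : evQ ℓ N X = jd ℚ N := by simp [evQ, evY]

lemma evQ_C (a : ℤℓ) : evQ ℓ N (C a) = HahnSeries.C (a : ℚ) := by
  simp only [evQ, evY, RingHom.comp_apply, coe_mapRingHom, map_C, coe_eval₂RingHom, eval₂_C]
  rfl

lemma order_jd_ne_zero (k : Type) [Field k] (hN : N ≠ 0) : (jd k N).order ≠ 0 := by
  rw [L1.order_jd k N hN]
  simpa using hN

lemma evQ_injective (hN : N ≠ 0) : Function.Injective (evQ ℓ N) :=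
  (L1.evY_injective _ (order_jd_ne_zero N ℚ hN)).comp
    (Polynomial.map_injective _ (FaithfulSMul.algebraMap_injective ℤℓ ℚ))

lemma evQ_ne_zero (hN : N ≠ 0) {s : ℤℓ[X]} (hs : s ≠ 0) : evQ ℓ N s ≠ 0 := fun h =>
  hs (evQ_injective ℓ N hN (by rw [h, map_zero]))

lemma algebraMap_eq_C' (k : Type) [Field k] (c : k) :
    algebraMap k (LaurentSeries k) c = HahnSeries.C c := by
  rw [HahnSeries.algebraMap_apply', PowerSeries.algebraMap_apply, HahnSeries.ofPowerSeries_C]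
  rfl

/-- (A) elements of `ℚ(j_N)` are fractions. -/
lemma exists_frac (hN : N ≠ 0) {c : LaurentSeries ℚ} (hc : c ∈ Ej ℚ N) :
    ∃ s r : ℤℓ[X], s ≠ 0 ∧ evQ ℓ N s * c = evQ ℓ N r := by
  unfold Ej at hc
  induction hc using IntermediateField.adjoin_induction with
  | mem x hx =>
    rw [Set.mem_singleton_iff] at hx
    exact ⟨1, X, one_ne_zero, by rw [map_one, one_mul, evQ_X, hx]⟩
  | algebraMap c =>
    refine ⟨C ((c.den : ℕ) : ℤℓ), C ((c.num : ℤ) : ℤℓ), ?_, ?_⟩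
    · rw [Ne, C_eq_zero]
      intro h
      have := congrArg Subtype.val h
      simp at this
    · rw [evQ_C, evQ_C, algebraMap_eq_C', ← map_mul]
      congr 1
      push_cast
      exact Rat.den_mul_eq_num c
  | add x y _ _ hx hy =>
    obtain ⟨s₁, r₁, hs₁, h₁⟩ := hx
    obtain ⟨s₂, r₂, hs₂, h₂⟩ := hy
    refine ⟨s₁ * s₂, r₁ * s₂ + r₂ * s₁, mul_ne_zero hs₁ hs₂, ?_⟩
    rw [map_mul, map_add, map_mul, map_mul, ← h₁, ← h₂]
    ring
  | inv x _ hx =>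
    obtain ⟨s, r, hs, h⟩ := hx
    by_cases hr : r = 0
    · have hx0 : x = 0 := by
        rw [hr, map_zero] at h
        exact (mul_eq_zero.mp h).resolve_left (evQ_ne_zero ℓ N hN hs)
      exact ⟨1, 0, one_ne_zero, by rw [hx0, inv_zero, mul_zero, map_zero]⟩
    · have hx0 : x ≠ 0 := by
        rintro rfl
        rw [mul_zero] at h
        exact evQ_ne_zero ℓ N hN hr h.symm
      exact ⟨r, s, hr, by rw [← h, mul_assoc, mul_inv_cancel₀ hx0, mul_one]⟩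
  | mul x y _ _ hx hy =>
    obtain ⟨s₁, r₁, hs₁, h₁⟩ := hx
    obtain ⟨s₂, r₂, hs₂, h₂⟩ := hy
    refine ⟨s₁ * s₂, r₁ * r₂, mul_ne_zero hs₁ hs₂, ?_⟩
    rw [map_mul, map_mul, ← h₁, ← h₂]
    ring

variable {ι : Type} [Fintype ι] (b : ι → LaurentSeries ℤ)

/-- (B) clearing denominators in the span. -/
lemma exists_denom_span (hN : N ≠ 0) {x : LaurentSeries ℚ}
    (hx : x ∈ Submodule.span (Ej ℚ N) (Set.range fun i => cZ ℚ (b i))) :
    ∃ h : ℤℓ[X], h ≠ 0 ∧ ∃ g : ι → ℤℓ[X],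
      evQ ℓ N h * x = ∑ i, evQ ℓ N (g i) * cZ ℚ (b i) := by
  classical
  induction hx using Submodule.span_induction with
  | mem x hx =>
    obtain ⟨i, rfl⟩ := hx
    refine ⟨1, one_ne_zero, Pi.single i 1, ?_⟩
    rw [Finset.sum_eq_single i]
    · simp
    · intro j _ hj
      simp [Pi.single_eq_of_ne hj]
    · simp
  | zero => exact ⟨1, one_ne_zero, 0, by simp⟩
  | add x y _ _ hx hy =>
    obtain ⟨h₁, hh₁, g₁, e₁⟩ := hx
    obtain ⟨h₂, hh₂, g₂, e₂⟩ := hy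
    refine ⟨h₁ * h₂, mul_ne_zero hh₁ hh₂, fun i => h₂ * g₁ i + h₁ * g₂ i, ?_⟩
    have : evQ ℓ N (h₁ * h₂) * (x + y) =
        evQ ℓ N h₂ * (evQ ℓ N h₁ * x) + evQ ℓ N h₁ * (evQ ℓ N h₂ * y) := by
      rw [map_mul]; ring
    rw [this, e₁, e₂, Finset.mul_sum, Finset.mul_sum, ← Finset.sum_add_distrib]
    refine Finset.sum_congr rfl fun i _ => ?_
    rw [map_add, map_mul, map_mul]; ring
  | smul a x _ hx =>
    obtain ⟨h₁, hh₁, g₁, e₁⟩ := hx
    obtain ⟨s, r, hs, e⟩ := exists_frac ℓ N hN a.2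
    refine ⟨s * h₁, mul_ne_zero hs hh₁, fun i => r * g₁ i, ?_⟩
    have : evQ ℓ N (s * h₁) * (a • x) = (evQ ℓ N s * (a : LaurentSeries ℚ)) * (evQ ℓ N h₁ * x) := by
      rw [map_mul, IntermediateField.smul_def, smul_eq_mul]; ring
    rw [this, e, e₁, Finset.mul_sum]
    refine Finset.sum_congr rfl fun i _ => ?_
    rw [map_mul]; ring

/-- The relation `h(j_N) z = ∑ g_i(j_N) b_i` over `ℤ_(ℓ)`. -/
def Rel (z : LaurentSeries ℤℓ) (h : ℤℓ[X]) : Prop :=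
  ∃ g : ι → ℤℓ[X], evY (jd ℤℓ N) h * z = ∑ i, evY (jd ℤℓ N) (g i) * cZ ℤℓ (b i)

lemma coeffMap_cZ {A B : Type} [CommRing A] [CommRing B] (f : A →+* B) (x : LaurentSeries ℤ) :
    coeffMap f (cZ A x) = cZ B x := by
  rw [coeffMap_coeffMap]
  exact coeffMap_congr (Subsingleton.elim _ _) x

/-- (C) -/
lemma exists_rel (hN : N ≠ 0) (z : LaurentSeries ℤℓ)
    (hz : coeffMap (algebraMap ℤℓ ℚ) z ∈
      Submodule.span (Ej ℚ N) (Set.range fun i => cZ ℚ (b i))) :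
    ∃ h : ℤℓ[X], h ≠ 0 ∧ Rel ℓ N b z h := by
  obtain ⟨h, hh, g, e⟩ := exists_denom_span ℓ N b hN hz
  refine ⟨h, hh, g, coeffMap_algebraMap_injective ℓ ?_⟩
  rw [map_mul, map_sum, ← evQ_eq, e]
  refine Finset.sum_congr rfl fun i _ => ?_
  rw [map_mul, ← evQ_eq, coeffMap_cZ]

lemma evY_mem_Ej (k : Type) [Field k] (M : ℕ) (P : k[X]) : evY (jd k M) P ∈ Ej k M := by
  rw [evY, coe_eval₂RingHom, eval₂_eq_sum_range]
  refine sum_mem fun i _ => mul_mem ?_ (pow_mem (IntermediateField.mem_adjoin_simple_self k _) _)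
  rw [← algebraMap_eq_C']
  exact IntermediateField.algebraMap_mem _ _

/-- (D) the descent step. -/
lemma rel_descent (hN : N ≠ 0)
    (hind : LinearIndependent (Ej (AlgebraicClosure (ZMod ℓ)) N)
      (fun i => cZ (AlgebraicClosure (ZMod ℓ)) (b i)))
    (z : LaurentSeries ℤℓ) (h : ℤℓ[X]) (hr : Rel ℓ N b z (C ((ℓ : ℕ) : ℤℓ) * h)) :
    Rel ℓ N b z h := by
  obtain ⟨g, e⟩ := hr
  let φ : ℤℓ →+* AlgebraicClosure (ZMod ℓ) := towerRed ℓ (AlgebraicClosure (ZMod ℓ))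
  let _ : Algebra ℤℓ (AlgebraicClosure (ZMod ℓ)) := φ.toAlgebra
  have hcomp := BC.coeffMap_comp_evY φ (jd ℤℓ N)
  rw [BC.coeffMap_jd] at hcomp
  have hev : ∀ P : ℤℓ[X], coeffMap φ (evY (jd ℤℓ N) P) =
      evY (jd (AlgebraicClosure (ZMod ℓ)) N) (P.map φ) := fun P => congrArg (fun f => f P) hcomp
  have e1 := congrArg (coeffMap φ) e
  rw [map_mul, map_sum, hev, Polynomial.map_mul, Polynomial.map_C, map_natCast,
    CharP.cast_eq_zero, map_zero, zero_mul, map_zero, zero_mul] at e1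
  have e2 : ∑ i, (⟨_, evY_mem_Ej (AlgebraicClosure (ZMod ℓ)) N ((g i).map φ)⟩ :
      Ej (AlgebraicClosure (ZMod ℓ)) N) • cZ (AlgebraicClosure (ZMod ℓ)) (b i) = 0 := by
    rw [e1]
    refine Finset.sum_congr rfl fun i _ => ?_
    rw [map_mul, hev, coeffMap_cZ, IntermediateField.smul_def, smul_eq_mul]
  have e3 := Fintype.linearIndependent_iff.mp hind _ e2
  have e4 : ∀ i, C ((ℓ : ℕ) : ℤℓ) ∣ g i := by
    intro i
    have h1 : evY (jd (AlgebraicClosure (ZMod ℓ)) N) ((g i).map φ) = 0 :=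
      congrArg Subtype.val (e3 i)
    have h2 := (injective_iff_map_eq_zero _).mp
      (L1.evY_injective _ (order_jd_ne_zero N (AlgebraicClosure (ZMod ℓ)) hN)) _ h1
    exact (map_eq_zero_iff_C_dvd ℓ (k := AlgebraicClosure (ZMod ℓ)) (g i)).mp h2
  choose g' hg' using e4
  refine ⟨g', ?_⟩
  have hC : evY (jd ℤℓ N) (C ((ℓ : ℕ) : ℤℓ)) ≠ 0 := by
    intro h0
    have : evY (jd ℤℓ N) (C ((ℓ : ℕ) : ℤℓ)) = HahnSeries.C ((ℓ : ℕ) : ℤℓ) := by simp [evY]
    rw [this] at h0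
    exact natCast_ne_zero' ℓ (HahnSeries.C_injective (by rw [h0, map_zero]))
  apply mul_left_cancel₀ hC
  rw [← mul_assoc, ← map_mul, e, Finset.mul_sum]
  refine Finset.sum_congr rfl fun i _ => ?_
  rw [← mul_assoc, ← map_mul, ← hg' i]

/-- (E) the core statement. -/
theorem exists_good_denominator (hN : N ≠ 0)
    (hind : LinearIndependent (Ej (AlgebraicClosure (ZMod ℓ)) N)
      (fun i => cZ (AlgebraicClosure (ZMod ℓ)) (b i)))
    (z : LaurentSeries ℤℓ)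
    (hz : coeffMap (algebraMap ℤℓ ℚ) z ∈
      Submodule.span (Ej ℚ N) (Set.range fun i => cZ ℚ (b i))) :
    ∃ h : ℤℓ[X], ¬ C ((ℓ : ℕ) : ℤℓ) ∣ h ∧ Rel ℓ N b z h := by
  obtain ⟨h, hh, hr⟩ := exists_rel ℓ N b hN z hz
  obtain ⟨n, hn⟩ := exists_not_pow_dvd ℓ hh
  induction n generalizing h with
  | zero => exact ⟨h, by simpa using hn, hr⟩
  | succ n ih =>
    by_cases hd : C ((ℓ : ℕ) : ℤℓ) ∣ h
    · obtain ⟨h', rfl⟩ := hd
      refine ih h' (right_ne_zero_of_mul hh) (rel_descent ℓ N b hN hind z h' hr) ?_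
      intro hd'
      apply hn
      rw [pow_succ' _ (n + 1)]
      exact mul_dvd_mul_left _ hd'
    · exact ⟨h, hd, hr⟩

end Fermat.Agent.S28.QEP9
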