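/-
S28, WP9 (part): the `q`-expansion principle for the charts `{j, 1/j}` and `{1/j}` follows from
the one for the chart `{j}`.
-/
import Fermat.Agent.S28.Interface
import Fermat.Agent.S28.QEPAdjoin
import Fermat.Agent.S28.L1

set_option autoImplicit false
set_option linter.unusedSectionVars false

noncomputable section

namespace Fermat.Agent.S28.QEP9

open Polynomial ModularCurve ModularCurve.IgusaScheme Fermat.Agent.S28.QEP
open scoped ModularCurve.IgusaScheme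

variable (ℓ : ℕ) [Fact ℓ.Prime]

set_option quotPrecheck false in
local notation "ℤℓ" => ↥(GaloisRep.ratLocalizedAt ℓ)

/-! ### `1/j` -/

/-- the formal series `1/j`. -/
def jInvS (A : Type) [CommRing A] : LaurentSeries A :=
  HahnSeries.single (1 : ℤ) 1 *
    HahnSeries.ofPowerSeries ℤ A ((jNum.invOfUnit 1).map (Int.castRingHom A))

lemma jqModC_mul_jInvS (A : Type) [CommRing A] : jqModC A * jInvS A = 1 := by
  rw [jqModC, jInvS, mul_mul_mul_comm, HahnSeries.single_mul_single, ← map_mul, ← map_mul,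
    PowerSeries.mul_invOfUnit _ _ (by rw [constantCoeff_jNum]; rfl)]
  simp

lemma jq_inv_eq : jq⁻¹ = jInvS ℚ :=
  (eq_inv_of_mul_eq_one_right (jqModC_mul_jInvS ℚ)).symm

lemma coeffMap_jInvS {A B : Type} [CommRing A] [CommRing B] (f : A →+* B) :
    coeffMap f (jInvS A) = jInvS B := by
  rw [jInvS, jInvS, map_mul, coeffMap_single, map_one, coeffMap_ofPowerSeries]
  congr 2
  ext n
  simp

lemma jq_inv_mem_intSubring : jq⁻¹ ∈ intSubring ℓ :=
  ⟨jInvS ℤℓ, by rw [coeffMap_jInvS, jq_inv_eq]⟩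

lemma order_jInvS : (jInvS ℚ).order = 1 := by
  refine (L1.order_single_mul_ofPowerSeries ℚ 1 _ (L1.constantCoeff_map_intCast ℚ _ ?_)).2
  have h := congrArg (PowerSeries.constantCoeff (R := ℤ))
    (PowerSeries.mul_invOfUnit jNum 1 (by rw [constantCoeff_jNum]; rfl))
  rwa [map_mul, constantCoeff_jNum, one_mul, map_one] at h

/-! ### divisibility by `ℓ` of a series -/

lemma natCast_mul_coeff (z : LaurentSeries ℚ) (n : ℤ) :
    ((ℓ : LaurentSeries ℚ) * z).coeff n = (ℓ : ℚ) * z.coeff n := by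
  have : (ℓ : LaurentSeries ℚ) = HahnSeries.C (ℓ : ℚ) := by simp
  rw [this, HahnSeries.C_mul_eq_smul, HahnSeries.coeff_smul, smul_eq_mul]

lemma forall_coeff_iff (x : LaurentSeries ℚ) :
    (∀ n : ℤ, ∃ r ∈ GaloisRep.ratLocalizedAt ℓ, x.coeff n = ℓ * r) ↔
      ∃ z ∈ intSubring ℓ, x = (ℓ : LaurentSeries ℚ) * z := by
  have hℓ : ℓ.Prime := Fact.out
  have hℓQ : (ℓ : ℚ) ≠ 0 := by exact_mod_cast hℓ.ne_zero
  constructor
  · intro h
    refine ⟨HahnSeries.C ((ℓ : ℚ)⁻¹) * x, ?_, ?_⟩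
    · rw [mem_intSubring_iff]
      intro n
      obtain ⟨r, hr, hx⟩ := h n
      rw [HahnSeries.C_mul_eq_smul, HahnSeries.coeff_smul, hx, smul_eq_mul,
        inv_mul_cancel_left₀ hℓQ]
      exact hr
    · ext n
      rw [natCast_mul_coeff, HahnSeries.C_mul_eq_smul, HahnSeries.coeff_smul, smul_eq_mul,
        mul_inv_cancel_left₀ hℓQ]
  · rintro ⟨z, hz, rfl⟩ n
    exact ⟨z.coeff n, (mem_intSubring_iff ℓ).mp hz n, natCast_mul_coeff ℓ z n⟩

variable (N : ℕ) [NeZero N]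

/-! ### part 1 of `QEP` -/

lemma qep_one {S : Set ↥(modularFunctionFieldFull N)}
    (hS : ∀ s ∈ S, (s : LaurentSeries ℚ) ∈ intSubring ℓ) :
    ∀ x ∈ chartAlg N ℓ S, ∀ n : ℤ, (x : LaurentSeries ℚ).coeff n ∈ GaloisRep.ratLocalizedAt ℓ :=
  fun _ hx => (mem_intSubring_iff ℓ).mp (coe_mem_intSubring_of_mem_chartAlg ℓ N hS hx)

lemma coe_jFull_inv : (((jFull N)⁻¹ : ↥(modularFunctionFieldFull N)) : LaurentSeries ℚ) = jq⁻¹ := rfl

/-! ### transcendence -/

lemma coe_algebraMap_igusa_C (a : ℤℓ) :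
    ((algebraMap ℤℓ ↥(modularFunctionFieldFull N) a : ↥(modularFunctionFieldFull N)) :
      LaurentSeries ℚ) = HahnSeries.C (a : ℚ) := by
  rw [coe_algebraMap_igusa, algebraMap_apply_eq_single]
  rfl

lemma coe_aeval (θ : ↥(modularFunctionFieldFull N)) (P : ℤℓ[X]) :
    ((aeval θ P : ↥(modularFunctionFieldFull N)) : LaurentSeries ℚ) =
      evY (θ : LaurentSeries ℚ) (P.map (algebraMap ℤℓ ℚ)) := by
  have h : ((algebraMap ↥(modularFunctionFieldFull N) (LaurentSeries ℚ)).comp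
      (aeval θ : ℤℓ[X] →ₐ[ℤℓ] ↥(modularFunctionFieldFull N)).toRingHom) =
      (evY (θ : LaurentSeries ℚ)).comp (mapRingHom (algebraMap ℤℓ ℚ)) := by
    apply Polynomial.ringHom_ext
    · intro a
      simp only [RingHom.comp_apply, AlgHom.toRingHom_eq_coe, RingHom.coe_coe, aeval_C,
        coe_mapRingHom, map_C, evY, coe_eval₂RingHom, eval₂_C]
      exact coe_algebraMap_igusa_C ℓ N a
    · simp only [RingHom.comp_apply, AlgHom.toRingHom_eq_coe, RingHom.coe_coe, aeval_X,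
        coe_mapRingHom, map_X, evY, coe_eval₂RingHom, eval₂_X]
      rfl
  exact congrArg (fun f => f P) h

lemma aeval_injective (θ : ↥(modularFunctionFieldFull N)) (hθ : (θ : LaurentSeries ℚ).order ≠ 0) :
    Function.Injective (aeval θ : ℤℓ[X] →ₐ[ℤℓ] ↥(modularFunctionFieldFull N)) := by
  rw [injective_iff_map_eq_zero]
  intro P hP
  have h1 : evY (θ : LaurentSeries ℚ) (P.map (algebraMap ℤℓ ℚ)) = 0 := by
    rw [← coe_aeval, hP]; rfl
  have h2 := (injective_iff_map_eq_zero _).mp (L1.evY_injective _ hθ) _ h1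
  exact (Polynomial.map_eq_zero_iff (FaithfulSMul.algebraMap_injective ℤℓ ℚ)).mp h2

/-! ### mid from fin -/

theorem qep_mid_of_fin (h : QEP N ℓ {jFull N}) : QEP N ℓ {jFull N, (jFull N)⁻¹} := by
  refine ⟨qep_one ℓ N ?_, ?_⟩
  · rintro s (rfl | rfl)
    · exact jq_mem_intSubring ℓ
    · exact jq_inv_mem_intSubring ℓ
  · intro x hx hc
    rw [forall_coeff_iff] at hc
    obtain ⟨z, hz, hxz⟩ := hc
    have hx' : x ∈ chartAlg N ℓ (insert (jFull N)⁻¹ {jFull N}) := by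
      rwa [Set.pair_comm]
    obtain ⟨n, hn⟩ := exists_pow_mul_mem_chartAlg (Set.mem_singleton _) (jFull_ne_zero N) hx'
    obtain ⟨y, hy, hxy⟩ := h.2 _ hn (by
      rw [forall_coeff_iff]
      refine ⟨jq ^ n * z, Subring.mul_mem _ (Subring.pow_mem _ (jq_mem_intSubring ℓ) n) hz, ?_⟩
      show jq ^ n * (x : LaurentSeries ℚ) = _
      rw [hxz]; ring)
    refine ⟨((jFull N)⁻¹) ^ n * y, ?_, ?_⟩
    · refine mul_mem (pow_mem (subset_chartAlg N ℓ _ (by simp)) n) ?_
      exact chartAlg_mono N ℓ (by simp) hy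
    · have hj : jFull N ^ n ≠ 0 := pow_ne_zero _ (jFull_ne_zero N)
      apply mul_left_cancel₀ hj
      rw [hxy, inv_pow]
      field_simp

/-! ### inf from mid -/

theorem qep_inf_of_mid (h : QEP N ℓ {jFull N, (jFull N)⁻¹}) : QEP N ℓ {(jFull N)⁻¹} := by
  refine ⟨qep_one ℓ N ?_, ?_⟩
  · rintro s rfl
    exact jq_inv_mem_intSubring ℓ
  · intro x hx hc
    obtain ⟨y, hy, hxy⟩ := h.2 x (chartAlg_mono N ℓ (by simp) hx) hc
    refine ⟨y, ?_, hxy⟩
    have hy' : y ∈ chartAlg N ℓ (insert ((jFull N)⁻¹)⁻¹ {(jFull N)⁻¹}) := by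
      rwa [inv_inv]
    obtain ⟨n, hn⟩ := exists_pow_mul_mem_chartAlg (Set.mem_singleton _)
      (inv_ne_zero (jFull_ne_zero N)) hy'
    rw [mem_chartAlg_iff] at hn hx ⊢
    refine isIntegral_adjoin_of ℓ ((jFull N)⁻¹) (aeval_injective ℓ N _ ?_) (X ^ n) ?_ y ?_ ?_
    · rw [coe_jFull_inv, jq_inv_eq, order_jInvS]; exact one_ne_zero
    · intro hd
      rw [C_dvd_iff_dvd_coeff] at hd
      have := hd n
      rw [coeff_X_pow, if_pos rfl] at this
      exact (prime_ell ℓ).not_isUnit (isUnit_of_dvd_one this)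
    · rw [← hxy]; exact hx
    · rw [map_pow, aeval_X]; exact hn

end Fermat.Agent.S28.QEP9
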