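/- S28, WP9 FIN: exact statements of the sub-packages F1, F1c, F2, F3. -/
import Fermat.Agent.S28.QEPMidInf
import Fermat.Agent.S28.Tower
import Fermat.Agent.S28.Toolkit
set_option autoImplicit false
noncomputable section
namespace Fermat.Agent.S28.Fin
open ModularCurve ModularCurve.IgusaScheme Polynomial Fermat.Agent.S28.QEP Fermat.Agent.S28.QEP9

variable (ℓ : ℕ) [Fact ℓ.Prime] (N : ℕ) [NeZero N]

set_option quotPrecheck false in
local notation "ℤℓ" => ↥(GaloisRep.ratLocalizedAt ℓ)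
set_option quotPrecheck false in
local notation "FN" => ↥(modularFunctionFieldFull N)

theorem jd_mem {d : ℕ} (hd : d ∣ N) : jd ℚ d ∈ modularFunctionFieldFull N := by
  have : NeZero d := ⟨fun h => NeZero.ne N (by rw [h] at hd; exact Nat.eq_zero_of_zero_dvd hd)⟩
  rw [jd, Vq_eq]
  exact jqd_mem_full N hd

/-- `j(q^N)` as an element of the function field. -/
def jNF : FN := ⟨jd ℚ N, jd_mem N dvd_rfl⟩

/-- F1 (helper41). -/
def F1 : Prop := ∀ x : FN, IsIntegral (Algebra.adjoin ℤℓ {jFull N}) x ↔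
  IsIntegral (Algebra.adjoin ℤℓ {jNF N}) x

/-- F1c. -/
def F1c : Prop := ∀ z ∈ ZJ N, ∃ hz : cZ ℚ z ∈ modularFunctionFieldFull N,
  (⟨cZ ℚ z, hz⟩ : FN) ∈ chartAlg N ℓ {jFull N}

/-- F2: clearing denominators and stripping the `ℓ`-content. -/
def F2 : Prop := ∀ (ι : Type) [Fintype ι] (b : ι → LaurentSeries ℚ) (y : LaurentSeries ℚ),
  y ∈ Submodule.span (Ej ℚ N) (Set.range b) →
  ∃ (h : ℤ[X]) (g : ι → ℤ[X]),
    evY (jd ℚ N) (h.map (Int.castRingHom ℚ)) * y =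
      ∑ i, evY (jd ℚ N) ((g i).map (Int.castRingHom ℚ)) * b i ∧
    (h.map (Int.castRingHom (ZMod ℓ)) ≠ 0 ∨ ∃ i, (g i).map (Int.castRingHom (ZMod ℓ)) ≠ 0)

/-- F3: reduction mod `ℓ` and linear independence. -/
def F3 : Prop := ∀ (ι : Type) [Fintype ι] (b : ι → LaurentSeries ℤ),
  LinearIndependent (Ej (AlgebraicClosure (ZMod ℓ)) N)
      (fun i => cZ (AlgebraicClosure (ZMod ℓ)) (b i)) →
  ∀ (y : LaurentSeries ℚ), y ∈ intSubring ℓ → ∀ (h : ℤ[X]) (g : ι → ℤ[X]),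
    evY (jd ℚ N) (h.map (Int.castRingHom ℚ)) * y =
      ∑ i, evY (jd ℚ N) ((g i).map (Int.castRingHom ℚ)) * cZ ℚ (b i) →
    h.map (Int.castRingHom (ZMod ℓ)) = 0 → ∀ i, (g i).map (Int.castRingHom (ZMod ℓ)) = 0

end Fermat.Agent.S28.Fin
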