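/- S28, WP9 FIN, package F2: clearing denominators and stripping the `ℓ`-content. -/
import Fermat.Agent.S28.QEPFinSpec

set_option autoImplicit false

noncomputable section

namespace Fermat.Agent.S28.Fin

open Polynomial IntermediateField

section Abstract

/-- A rational polynomial has an integral nonzero multiple. -/
theorem f2_clear_one (P : ℚ[X]) :
    ∃ m : ℤ, m ≠ 0 ∧ ∃ p : ℤ[X], p.map (Int.castRingHom ℚ) = C (m : ℚ) * P := by
  obtain ⟨b, hbM, hb⟩ := IsLocalization.integerNormalization_spec (nonZeroDivisors ℤ) P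
  refine ⟨b, nonZeroDivisors.ne_zero hbM,
    IsLocalization.integerNormalization (nonZeroDivisors ℤ) P, ?_⟩
  have : algebraMap ℤ ℚ = Int.castRingHom ℚ := rfl
  rw [← this, hb, zsmul_eq_mul]
  simp

/-- A finite family of rational polynomials has a common integral nonzero multiplier. -/
theorem f2_clear_family {κ : Type} [Fintype κ] (P : κ → ℚ[X]) :
    ∃ m : ℤ, m ≠ 0 ∧ ∀ k, ∃ p : ℤ[X], p.map (Int.castRingHom ℚ) = C (m : ℚ) * P k := by
  classical
  choose m hm p hp using fun k => f2_clear_one (P k)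
  refine ⟨∏ k, m k, Finset.prod_ne_zero_iff.2 fun k _ => hm k, fun k => ?_⟩
  refine ⟨C (∏ k' ∈ Finset.univ.erase k, m k') * p k, ?_⟩
  rw [Polynomial.map_mul, Polynomial.map_C, hp k,
    ← Finset.mul_prod_erase Finset.univ m (Finset.mem_univ k), eq_intCast, Int.cast_mul, C_mul]
  ring

theorem f2_map_zmod_eq_zero_iff (ℓ : ℕ) (p : ℤ[X]) :
    p.map (Int.castRingHom (ZMod ℓ)) = 0 ↔ C (ℓ : ℤ) ∣ p := by
  rw [Polynomial.C_dvd_iff_dvd_coeff, Polynomial.ext_iff]
  refine forall_congr' fun n => ?_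
  rw [Polynomial.coeff_map, Polynomial.coeff_zero, eq_intCast, ZMod.intCast_zmod_eq_zero_iff_dvd]

variable {E : Type*} [Field E]

/-- Stripping the `ℓ`-content. -/
theorem f2_strip (ℓ : ℕ) [Fact ℓ.Prime] (φ : ℚ[X] →+* E) {ι : Type} [Fintype ι] (b : ι → E) (y : E)
    (n : ℕ) : ∀ (h : ℤ[X]) (g : ι → ℤ[X]), ¬ C ((ℓ : ℤ) ^ n) ∣ h →
    φ (h.map (Int.castRingHom ℚ)) * y = ∑ i, φ ((g i).map (Int.castRingHom ℚ)) * b i →
    ∃ (h' : ℤ[X]) (g' : ι → ℤ[X]),
      φ (h'.map (Int.castRingHom ℚ)) * y = ∑ i, φ ((g' i).map (Int.castRingHom ℚ)) * b i ∧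
      (h'.map (Int.castRingHom (ZMod ℓ)) ≠ 0 ∨ ∃ i, (g' i).map (Int.castRingHom (ZMod ℓ)) ≠ 0) := by
  induction n with
  | zero =>
    intro h g hnd _
    exact absurd (by simp) hnd
  | succ n ih =>
    intro h g hnd hrel
    by_cases hall : h.map (Int.castRingHom (ZMod ℓ)) ≠ 0 ∨
        ∃ i, (g i).map (Int.castRingHom (ZMod ℓ)) ≠ 0
    · exact ⟨h, g, hrel, hall⟩
    · push Not at hall
      obtain ⟨hh, hg⟩ := hall
      rw [f2_map_zmod_eq_zero_iff] at hh
      obtain ⟨h', rfl⟩ := hh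
      have hg' : ∀ i, ∃ g', g i = C (ℓ : ℤ) * g' := fun i =>
        (f2_map_zmod_eq_zero_iff ℓ (g i)).1 (hg i)
      choose g' hg' using hg'
      refine ih h' g' ?_ ?_
      · rintro ⟨r, rfl⟩
        apply hnd
        refine ⟨r, ?_⟩
        rw [pow_succ, C_mul]
        ring
      · have hℓ : φ (C (ℓ : ℚ)) ≠ 0 := by
          have h0 : (C (ℓ : ℚ) : ℚ[X]) * C ((ℓ : ℚ)⁻¹) = 1 := by
            rw [← C_mul, mul_inv_cancel₀ (Nat.cast_ne_zero.2 (Fact.out : ℓ.Prime).ne_zero), C_1]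
          intro h1
          have := congrArg φ h0
          rw [map_mul, h1, zero_mul, map_one] at this
          exact zero_ne_one this
        apply mul_left_cancel₀ hℓ
        have e1 : ∀ r : ℤ[X], φ ((C (ℓ : ℤ) * r).map (Int.castRingHom ℚ)) =
            φ (C (ℓ : ℚ)) * φ (r.map (Int.castRingHom ℚ)) := by
          intro r
          rw [Polynomial.map_mul, map_mul]
          simp
        rw [e1] at hrel
        simp only [hg', e1] at hrel
        rw [← mul_assoc, hrel, Finset.mul_sum]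
        exact Finset.sum_congr rfl fun i _ => by ring

/-- elements of `ℚ(t)` as fractions with nonvanishing denominator -/
theorem f2_frac [Algebra ℚ E] (t : E) (c : E) (hc : c ∈ ℚ⟮t⟯) :
    ∃ A B : ℚ[X], aeval t B ≠ 0 ∧ aeval t B * c = aeval t A := by
  obtain ⟨r, s, rfl⟩ := (mem_adjoin_simple_iff ℚ c).1 hc
  by_cases hs : aeval t s = 0
  · exact ⟨0, 1, by simp, by simp [hs]⟩
  · exact ⟨r, s, hs, by field_simp⟩

theorem f2_abstract [Algebra ℚ E] (ℓ : ℕ) [Fact ℓ.Prime] (t : E) {ι : Type} [Fintype ι]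
    (b : ι → E) (y : E) (hy : y ∈ Submodule.span ℚ⟮t⟯ (Set.range b)) :
    ∃ (h : ℤ[X]) (g : ι → ℤ[X]),
      aeval t (h.map (Int.castRingHom ℚ)) * y =
        ∑ i, aeval t ((g i).map (Int.castRingHom ℚ)) * b i ∧
      (h.map (Int.castRingHom (ZMod ℓ)) ≠ 0 ∨ ∃ i, (g i).map (Int.castRingHom (ZMod ℓ)) ≠ 0) := by
  classical
  obtain ⟨c, rfl⟩ := (Submodule.mem_span_range_iff_exists_fun ℚ⟮t⟯).1 hy
  choose A B hB hAB using fun i => f2_frac t (c i : E) (c i).2
  -- common denominator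
  let H : ℚ[X] := ∏ i, B i
  let G : ι → ℚ[X] := fun i => A i * ∏ k ∈ Finset.univ.erase i, B k
  have hH : aeval t H ≠ 0 := by
    rw [map_prod]
    exact Finset.prod_ne_zero_iff.2 fun i _ => hB i
  have hrel : aeval t H * ∑ i, c i • b i = ∑ i, aeval t (G i) * b i := by
    rw [Finset.mul_sum]
    refine Finset.sum_congr rfl fun i _ => ?_
    have h1 : c i • b i = (c i : E) * b i := rfl
    have h2 : H = B i * ∏ k ∈ Finset.univ.erase i, B k :=
      (Finset.mul_prod_erase Finset.univ B (Finset.mem_univ i)).symm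
    rw [h1, h2, map_mul, map_mul, ← hAB i]
    ring
  -- clear rational denominators
  obtain ⟨m, hm, hp⟩ := f2_clear_family (fun k : Option ι => k.elim H G)
  choose p hp using hp
  have hm' : (aeval t (C (m : ℚ)) : E) ≠ 0 := by
    rw [aeval_C]
    exact (map_ne_zero (algebraMap ℚ E)).2 (Int.cast_ne_zero.2 hm)
  have hh0 : p none ≠ 0 := by
    intro h0
    have := hp none
    rw [h0, Polynomial.map_zero] at this
    have h3 : aeval t (C (m : ℚ) * H) = 0 := by
      simpa using (congrArg (aeval t) this).symm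
    rw [map_mul] at h3
    exact (mul_ne_zero hm' hH) h3
  have hrel' : (aeval t).toRingHom ((p none).map (Int.castRingHom ℚ)) * ∑ i, c i • b i =
      ∑ i, (aeval t).toRingHom ((p (some i)).map (Int.castRingHom ℚ)) * b i := by
    simp only [hp, Option.elim, AlgHom.toRingHom_eq_coe, RingHom.coe_coe, map_mul]
    rw [mul_assoc, hrel, Finset.mul_sum]
    exact Finset.sum_congr rfl fun i _ => by ring
  -- strip the content
  obtain ⟨n, hn⟩ : ∃ n : ℕ, ¬ C ((ℓ : ℤ) ^ n) ∣ p none := by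
    obtain ⟨k, hk⟩ : ∃ k, (p none).coeff k ≠ 0 := by
      by_contra hcon
      push Not at hcon
      exact hh0 (Polynomial.ext hcon)
    refine ⟨((p none).coeff k).natAbs, fun hdvd => ?_⟩
    have h4 := (Polynomial.C_dvd_iff_dvd_coeff _ _).1 hdvd k
    have h5 := Int.natAbs_dvd_natAbs.2 h4
    have h6 := Nat.le_of_dvd (Int.natAbs_pos.2 hk) h5
    rw [Int.natAbs_pow, Int.natAbs_natCast] at h6
    exact absurd h6 (not_le.2 (Nat.lt_pow_self (Fact.out : ℓ.Prime).one_lt))
  exact f2_strip ℓ (aeval t).toRingHom b _ n (p none) (fun i => p (some i)) hn hrel'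

end Abstract

theorem f2_evY_eq_aeval (t : LaurentSeries ℚ) (P : ℚ[X]) : evY t P = aeval t P := by
  rw [evY, Polynomial.coe_eval₂RingHom, Polynomial.aeval_def]
  congr 1
  exact Subsingleton.elim _ _

theorem f2 (ℓ : ℕ) [Fact ℓ.Prime] (N : ℕ) [NeZero N] : F2 ℓ N := by
  intro ι _ b y hy
  obtain ⟨h, g, h1, h2⟩ := f2_abstract ℓ (jd ℚ N) b y hy
  refine ⟨h, g, ?_, h2⟩
  simp only [f2_evY_eq_aeval]
  exact h1

end Fermat.Agent.S28.Fin
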