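/- S28, WP9 FIN, package F3: reduction mod `ℓ` and linear independence. -/
import Fermat.Agent.S28.QEPFinSpec
import Fermat.Agent.S28.L1

set_option autoImplicit false

noncomputable section

namespace Fermat.Agent.S28.Fin

open ModularCurve ModularCurve.IgusaScheme Polynomial Fermat.Agent.S28.QEP Fermat.Agent.S28.QEP9

theorem f3_coeffMap_evY {A B : Type} [CommRing A] [CommRing B] (f : A →+* B) (N : ℕ) (P : ℤ[X]) :
    coeffMap f (evY (jd A N) (P.map (Int.castRingHom A))) =
      evY (jd B N) (P.map (Int.castRingHom B)) := by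
  have h := BC.coeffMap_comp_evY f (jd A N)
  rw [BC.coeffMap_jd] at h
  have h2 := congrArg (fun F => F (P.map (Int.castRingHom A))) h
  simp only [RingHom.comp_apply, coe_mapRingHom] at h2
  rw [h2, Polynomial.map_map]
  congr 2
  exact Subsingleton.elim _ _

theorem f3_coeffMap_cZ {A B : Type} [CommRing A] [CommRing B] (f : A →+* B)
    (x : LaurentSeries ℤ) : coeffMap f (cZ A x) = cZ B x := by
  rw [coeffMap_coeffMap]
  exact coeffMap_congr (Subsingleton.elim _ _) x

theorem f3_evY_mem_Ej (k : Type) [Field k] (M : ℕ) (P : k[X]) : evY (jd k M) P ∈ Ej k M := by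
  rw [evY, coe_eval₂RingHom, eval₂_eq_sum_range]
  refine sum_mem fun i _ => mul_mem ?_ (pow_mem (IntermediateField.mem_adjoin_simple_self k _) _)
  have : (HahnSeries.C (P.coeff i) : LaurentSeries k) = algebraMap k (LaurentSeries k) (P.coeff i) := by
    rw [algebraMap_laurentSeries_eq_single]
    rfl
  rw [this]
  exact IntermediateField.algebraMap_mem _ _

theorem f3 (ℓ : ℕ) [Fact ℓ.Prime] (N : ℕ) [NeZero N] : F3 ℓ N := by
  intro ι _ b hind y hy h g e hh i
  obtain ⟨y1, rfl⟩ := hy
  set k := AlgebraicClosure (ZMod ℓ) with hk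
  set f := algebraMap ↥(GaloisRep.ratLocalizedAt ℓ) ℚ with hf
  -- pull back to `ℤ_(ℓ)`
  have e' : evY (jd ↥(GaloisRep.ratLocalizedAt ℓ) N)
        (h.map (Int.castRingHom ↥(GaloisRep.ratLocalizedAt ℓ))) * y1 =
      ∑ i, evY (jd ↥(GaloisRep.ratLocalizedAt ℓ) N)
        ((g i).map (Int.castRingHom ↥(GaloisRep.ratLocalizedAt ℓ))) *
          cZ ↥(GaloisRep.ratLocalizedAt ℓ) (b i) := by
    apply coeffMap_algebraMap_injective ℓ
    rw [map_mul, map_sum, f3_coeffMap_evY, e]
    refine Finset.sum_congr rfl fun i _ => ?_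
    rw [map_mul, f3_coeffMap_evY, f3_coeffMap_cZ]
  -- push forward to `k`
  have hmapk : ∀ P : ℤ[X], P.map (Int.castRingHom k) =
      (P.map (Int.castRingHom (ZMod ℓ))).map (algebraMap (ZMod ℓ) k) := by
    intro P
    rw [Polynomial.map_map]
    congr 1
  have e1 := congrArg (coeffMap (towerRed ℓ k)) e'
  rw [map_mul, map_sum, f3_coeffMap_evY, hmapk h, hh, Polynomial.map_zero, map_zero, zero_mul] at e1
  have e2 : ∑ i, (⟨_, f3_evY_mem_Ej k N ((g i).map (Int.castRingHom k))⟩ : Ej k N) • cZ k (b i)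
      = 0 := by
    rw [e1]
    refine Finset.sum_congr rfl fun i _ => ?_
    rw [map_mul, f3_coeffMap_evY, f3_coeffMap_cZ, IntermediateField.smul_def, smul_eq_mul]
  have e3 := Fintype.linearIndependent_iff.mp hind _ e2 i
  have h1 : evY (jd k N) ((g i).map (Int.castRingHom k)) = 0 := congrArg Subtype.val e3
  have hord : (jd k N).order ≠ 0 := by
    rw [L1.order_jd k N (NeZero.ne N)]
    simpa using NeZero.ne N
  have h2 := (injective_iff_map_eq_zero _).mp (L1.evY_injective _ hord) _ h1
  rw [hmapk] at h2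
  exact (Polynomial.map_eq_zero_iff (algebraMap (ZMod ℓ) k).injective).mp h2

end Fermat.Agent.S28.Fin
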