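/- S28, WP9 FIN: glue of F1, F1c, F2, F3. -/
import Fermat.Agent.S28.QEPFinSpec
set_option autoImplicit false
set_option linter.unusedSectionVars false
noncomputable section
namespace Fermat.Agent.S28.Fin
open ModularCurve ModularCurve.IgusaScheme Polynomial Fermat.Agent.S28.QEP Fermat.Agent.S28.QEP9

variable (ℓ : ℕ) [Fact ℓ.Prime] (N : ℕ) [NeZero N]

set_option quotPrecheck false in
local notation "ℤℓ" => ↥(GaloisRep.ratLocalizedAt ℓ)
set_option quotPrecheck false in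
local notation "FN" => ↥(modularFunctionFieldFull N)

theorem map_map_int {A B : Type} [CommRing A] [CommRing B] (f : A →+* B) (h : ℤ[X]) :
    (h.map (Int.castRingHom A)).map f = h.map (Int.castRingHom B) := by
  rw [Polynomial.map_map]
  congr 1
  exact RingHom.ext_int _ _

theorem not_C_dvd_of_map_ne_zero (h : ℤ[X]) (hh : h.map (Int.castRingHom (ZMod ℓ)) ≠ 0) :
    ¬ C ((ℓ : ℕ) : ℤℓ) ∣ h.map (Int.castRingHom ℤℓ) := by
  let _ : Algebra ℤℓ (ZMod ℓ) := (towerRed ℓ (ZMod ℓ)).toAlgebra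
  rw [← map_eq_zero_iff_C_dvd ℓ (k := ZMod ℓ), map_map_int]
  exact hh

theorem coe_aeval_int (θ : FN) (h : ℤ[X]) :
    ((aeval θ (h.map (Int.castRingHom ℤℓ)) : FN) : LaurentSeries ℚ) =
      evY (θ : LaurentSeries ℚ) (h.map (Int.castRingHom ℚ)) := by
  rw [coe_aeval, map_map_int]

theorem isIntegral_aeval (θ : FN) (P : ℤℓ[X]) : IsIntegral (Algebra.adjoin ℤℓ {θ}) (aeval θ P) := by
  have hmem : aeval θ P ∈ Algebra.adjoin ℤℓ {θ} := by
    rw [Algebra.adjoin_singleton_eq_range_aeval]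
    exact ⟨P, rfl⟩
  exact isIntegral_algebraMap (x := (⟨_, hmem⟩ : Algebra.adjoin ℤℓ {θ}))

theorem qep_fin (h1 : F1 ℓ N) (h1c : F1c ℓ N) (h2 : F2 ℓ N) (h3 : F3 ℓ N) (hT : TowerData ℓ N) :
    QEP N ℓ {jFull N} := by
  have hℓ : ℓ.Prime := Fact.out
  refine ⟨qep_one ℓ N ?_, ?_⟩
  · rintro s rfl
    exact jq_mem_intSubring ℓ
  intro x hx hc
  rw [forall_coeff_iff] at hc
  obtain ⟨z, hz, hxz⟩ := hc
  obtain ⟨ι, _, b, hbZ, hspan, hind⟩ := hT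
  have hℓF : (ℓ : FN) ≠ 0 := by exact_mod_cast hℓ.ne_zero
  have hℓL : (ℓ : LaurentSeries ℚ) ≠ 0 := by
    intro h0
    apply hℓF
    apply Subtype.ext
    push_cast
    exact h0
  set y : FN := (ℓ : FN)⁻¹ * x with hy
  have hxy : x = (ℓ : FN) * y := by rw [hy]; field_simp
  have hyz : (y : LaurentSeries ℚ) = z := by
    apply mul_left_cancel₀ hℓL
    rw [← hxz, hxy]
    push_cast
    rfl
  obtain ⟨h, g, hid, hne⟩ := h2 ι (fun i => cZ ℚ (b i)) (y : LaurentSeries ℚ) (hspan _ y.2)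
  have hh : h.map (Int.castRingHom (ZMod ℓ)) ≠ 0 := by
    intro h0
    rcases hne with hne | ⟨i, hi⟩
    · exact hne h0
    · exact hi (h3 ι b hind _ (hyz ▸ hz) h g hid h0 i)
  refine ⟨y, ?_, hxy⟩
  rw [mem_chartAlg_iff] at hx ⊢
  rw [h1] at hx ⊢
  refine isIntegral_adjoin_of ℓ (jNF N) (aeval_injective ℓ N _ ?_) (h.map (Int.castRingHom ℤℓ))
    (not_C_dvd_of_map_ne_zero ℓ h hh) y ?_ ?_
  · show (jd ℚ N).order ≠ 0
    rw [order_jd (NeZero.ne N)]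
    simpa using NeZero.ne N
  · rw [← hxy]; exact hx
  · have hsum : aeval (jNF N) (h.map (Int.castRingHom ℤℓ)) * y =
        ∑ i, aeval (jNF N) ((g i).map (Int.castRingHom ℤℓ)) *
          (⟨cZ ℚ (b i), (h1c _ (hbZ i)).choose⟩ : FN) := by
      apply Subtype.ext
      push_cast
      simp only [coe_aeval_int]
      exact hid
    rw [hsum]
    refine IsIntegral.sum _ fun i _ => IsIntegral.mul (isIntegral_aeval ℓ N _ _) ?_
    rw [← h1]
    exact (h1c _ (hbZ i)).choose_spec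

theorem wp9_of (h1 : ∀ (N : ℕ) [NeZero N] (ℓ : ℕ) [Fact ℓ.Prime],
      (∀ r : ℕ, r.Prime → r ∣ N → HasModPoly r (GaloisRep.ratLocalizedAt ℓ)) → F1 ℓ N ∧ F1c ℓ N)
    (h2 : ∀ (N : ℕ) [NeZero N] (ℓ : ℕ) [Fact ℓ.Prime], F2 ℓ N)
    (h3 : ∀ (N : ℕ) [NeZero N] (ℓ : ℕ) [Fact ℓ.Prime], F3 ℓ N) : WP9 := by
  intro N _ ℓ _ hT hΦ
  have hfin := qep_fin ℓ N (h1 N ℓ hΦ).1 (h1 N ℓ hΦ).2 (h2 N ℓ) (h3 N ℓ) hT
  have hmid := qep_mid_of_fin ℓ N hfin
  exact ⟨hfin, qep_inf_of_mid ℓ N hmid, hmid⟩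

end Fermat.Agent.S28.Fin
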