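import Fermat.Agent.S28.Interface
import Fermat.Agent.S28.QEPLaurent
import Fermat.Agent.S28.QEPAlg
import Fermat.Agent.S28.QEPTensor

set_option linter.unusedSectionVars false
set_option linter.style.haveILetI false

namespace Fermat.Agent.S28.QEP

open ModularCurve ModularCurve.IgusaScheme Polynomial

/-! ### General facts on Laurent series -/

section general

variable {A A' : Type} [CommRing A] [CommRing A']

lemma evY_apply (t : LaurentSeries A) (p : A[X]) :
    evY t p = p.eval₂ (HahnSeries.C : A →+* LaurentSeries A) t := rfl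

lemma coeffMap_C (f : A →+* A') (a : A) :
    coeffMap f (HahnSeries.C a) = HahnSeries.C (f a) := by
  rw [HahnSeries.C_apply, coeffMap_single, HahnSeries.C_apply]

lemma coeffMap_evY (f : A →+* A') (t : LaurentSeries A) (p : A[X]) :
    coeffMap f (evY t p) = evY (coeffMap f t) (p.map f) := by
  rw [evY_apply, evY_apply, Polynomial.hom_eval₂, Polynomial.eval₂_map]
  congr 1
  ext a : 1
  exact coeffMap_C f a

lemma coeffMap_coeffMap {A'' : Type} [CommRing A''] (f : A →+* A') (g : A' →+* A'')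
    (x : LaurentSeries A) : coeffMap g (coeffMap f x) = coeffMap (g.comp f) x := by
  ext n
  rfl

lemma coeffMap_cZ (f : A →+* A') (x : LaurentSeries ℤ) : coeffMap f (cZ A x) = cZ A' x := by
  rw [coeffMap_coeffMap, RingHom.ext_int (f.comp (Int.castRingHom A)) (Int.castRingHom A')]

lemma coeffMap_Vq (f : A →+* A') (d : ℕ) (x : LaurentSeries A) :
    coeffMap f (Vq A d x) = Vq A' d (coeffMap f x) := by
  rcases eq_or_ne d 0 with rfl | hd
  · simp [Vq]
  · haveI : NeZero d := ⟨hd⟩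
    rw [Vq_eq, Vq_eq, coeffMap_qExpand]

lemma coeffMap_jd (f : A →+* A') (d : ℕ) : coeffMap f (jd A d) = jd A' d := by
  rw [jd, coeffMap_Vq, coeffMap_jqModC, jd]

lemma Vq_C (d : ℕ) (a : A) : Vq A d (HahnSeries.C a) = HahnSeries.C a := by
  rcases eq_or_ne d 0 with rfl | hd
  · simp [Vq]
  · haveI : NeZero d := ⟨hd⟩
    rw [Vq_eq, qExpand_C]

lemma Vq_jd {a p : ℕ} (ha : a ≠ 0) (hp : p ≠ 0) : Vq A a (jd A p) = jd A (p * a) := by
  haveI : NeZero a := ⟨ha⟩
  haveI : NeZero p := ⟨hp⟩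
  rw [jd, jd, Vq_eq, Vq_eq, Vq_eq, qExpand_qExpand]
  exact qExpand_congr (mul_comm a p) _

lemma jd_one : jd A 1 = jqModC A := by
  rw [jd, Vq_eq, qExpand_one_apply]

lemma Vq_evY (d : ℕ) (t : LaurentSeries A) (p : A[X]) :
    Vq A d (evY t p) = evY (Vq A d t) p := by
  rw [evY_apply, evY_apply, Polynomial.hom_eval₂]
  congr 1
  ext a : 1
  exact Vq_C d a

lemma coeff_jd (d : ℕ) (hd : d ≠ 0) : (jd A d).coeff (-(d : ℤ)) = 1 := by
  haveI : NeZero d := ⟨hd⟩
  rw [jd, Vq_eq, show (-(d : ℤ)) = (d : ℤ) * (-1) by ring, qExpand_coeff_mul,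
    coeff_jqModC_neg_one]

lemma order_jd_neg [Nontrivial A] (d : ℕ) (hd : d ≠ 0) : (jd A d).order < 0 := by
  have h : (jd A d).order ≤ -(d : ℤ) :=
    HahnSeries.order_le_of_coeff_ne_zero (by rw [coeff_jd d hd]; exact one_ne_zero)
  have : (0 : ℤ) < d := by exact_mod_cast Nat.pos_of_ne_zero hd
  omega

/-- A Laurent series with a pole is transcendental over the coefficients. -/
theorem evY_eq_zero_iff [IsDomain A] {x : LaurentSeries A} (hx : x.order < 0) (p : A[X]) :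
    evY x p = 0 ↔ p = 0 := by
  constructor
  · intro h
    by_contra hp
    have hx0 : x ≠ 0 := by
      rintro rfl
      simp at hx
    set n := p.natDegree with hn
    have h1 := congrArg (fun z => z.coeff (n • x.order)) h
    simp only [HahnSeries.coeff_zero] at h1
    rw [evY_apply, Polynomial.eval₂_eq_sum_range, HahnSeries.coeff_sum,
      Finset.sum_range_succ, Finset.sum_eq_zero, zero_add, HahnSeries.C_mul_eq_smul,
      HahnSeries.coeff_smul, ← HahnSeries.order_pow, ← HahnSeries.leadingCoeff_eq,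
      smul_eq_mul] at h1
    · rcases mul_eq_zero.mp h1 with h2 | h2
      · exact hp (Polynomial.leadingCoeff_eq_zero.mp h2)
      · exact HahnSeries.leadingCoeff_ne_zero.mpr (pow_ne_zero n hx0) h2
    · intro i hi
      have hi' : i < n := Finset.mem_range.mp hi
      rw [HahnSeries.C_mul_eq_smul, HahnSeries.coeff_smul,
        HahnSeries.coeff_eq_zero_of_lt_order, smul_zero]
      rw [HahnSeries.order_pow]
      simp only [nsmul_eq_mul]
      have : (i : ℤ) < n := by exact_mod_cast hi'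
      nlinarith
  · rintro rfl
    exact map_zero _

end general

/-! ### The base ring -/

section base

variable (ℓ : ℕ) [Fact ℓ.Prime]

set_option quotPrecheck false in
local notation "ℤℓ" => ↥(GaloisRep.ratLocalizedAt ℓ)

instance instIsIntegrallyClosed : IsIntegrallyClosed ℤℓ := by
  rw [isIntegrallyClosed_iff ℚ]
  intro x hx
  have hden : (HahnSeries.C ((x.den : ℤ) : ℚ) : LaurentSeries ℚ) ≠ 0 := by
    rw [Ne, map_eq_zero]
    exact_mod_cast x.den_nz
  have hC : ∀ c : ℤ, (HahnSeries.C ((c : ℤ) : ℚ) : LaurentSeries ℚ) ∈ intSubring ℓ := by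
    intro c
    rw [map_intCast]
    exact intCast_mem _ _
  have hmem : (HahnSeries.C x : LaurentSeries ℚ) ∈ intSubring ℓ := by
    refine mem_intSubring_of_isIntegral ℓ hden (hC _) ?_ ?_
    · rw [← map_mul]
      have : ((x.den : ℤ) : ℚ) * x = ((x.num : ℤ) : ℚ) := by
        push_cast
        exact Rat.den_mul_eq_num x
      rw [this]
      exact hC _
    · let φ : ℤℓ →+* intSubring ℓ :=
        ((HahnSeries.C : ℚ →+* LaurentSeries ℚ).comp (algebraMap ℤℓ ℚ)).codRestrict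
          (intSubring ℓ) (fun a => ⟨HahnSeries.C a, coeffMap_C _ _⟩)
      exact hx.map_of_comp_eq φ (HahnSeries.C : ℚ →+* LaurentSeries ℚ) (by ext; rfl)
  have := (mem_intSubring_iff ℓ).mp hmem 0
  rw [HahnSeries.C_apply, HahnSeries.coeff_single_same] at this
  exact ⟨⟨x, this⟩, rfl⟩

lemma den_cast_ne_zero (k : Type*) [Field k] [CharP k ℓ] (x : ℤℓ) :
    (((x : ℚ).den : ℕ) : k) ≠ 0 := by
  have hℓ : ℓ.Prime := Fact.out
  have hcop : (x : ℚ).den.Coprime ℓ := x.2
  rw [Ne, CharP.cast_eq_zero_iff k ℓ]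
  intro hd
  exact hℓ.one_lt.ne' (Nat.Coprime.eq_one_of_dvd hcop.symm hd)

/-- The reduction map `ℤ_(ℓ) → k` for a field `k` of characteristic `ℓ`. -/
noncomputable def resHom (k : Type*) [Field k] [CharP k ℓ] : ℤℓ →+* k where
  toFun x := ((x : ℚ) : k)
  map_one' := by simp
  map_mul' x y := Rat.cast_mul_of_ne_zero (den_cast_ne_zero ℓ k x) (den_cast_ne_zero ℓ k y)
  map_zero' := by simp
  map_add' x y := Rat.cast_add_of_ne_zero (den_cast_ne_zero ℓ k x) (den_cast_ne_zero ℓ k y)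

lemma prime_natCast' : Prime ((ℓ : ℕ) : ℤℓ) := by
  letI : Algebra ℤℓ (ZMod ℓ) := (resHom ℓ (ZMod ℓ)).toAlgebra
  exact prime_natCast ℓ (k := ZMod ℓ)

lemma prime_C_natCast : Prime (Polynomial.C ((ℓ : ℕ) : ℤℓ)) :=
  Polynomial.prime_C_iff.mpr (prime_natCast' ℓ)

end base

/-! ### Integrality -/

section integrality

lemma isIntegral_of_range_le {A B C : Type*} [CommRing A] [CommRing B] [CommRing C]
    [Algebra A C] [Algebra B C] (h : (algebraMap A C).range ≤ (algebraMap B C).range) {z : C}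
    (hz : IsIntegral A z) : IsIntegral B z := by
  obtain ⟨p, hm, hr⟩ := hz
  have hl : p.map (algebraMap A C) ∈ Polynomial.lifts (algebraMap B C) := by
    rw [Polynomial.lifts_iff_coeff_lifts]
    intro i
    rw [Polynomial.coeff_map]
    exact h ⟨_, rfl⟩
  obtain ⟨q, hq, -, hqm⟩ := Polynomial.lifts_and_natDegree_eq_and_monic hl (hm.map _)
  refine ⟨q, hqm, ?_⟩
  rw [Polynomial.eval₂_eq_eval_map, hq, ← Polynomial.eval₂_eq_eval_map, hr]

lemma isIntegral_trans_of_forall {R' A C : Type*} [CommRing R'] [CommRing A] [CommRing C]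
    [Algebra R' C] [Algebra A C] (h : ∀ a : A, IsIntegral R' (algebraMap A C a)) {x : C}
    (hx : IsIntegral A x) : IsIntegral R' x := by
  let φ : A →+* integralClosure R' C := (algebraMap A C).codRestrict (integralClosure R' C) h
  have h2 : IsIntegral (integralClosure R' C) x :=
    hx.map_of_comp_eq φ (RingHom.id C) (by ext; rfl)
  exact isIntegral_trans x h2

end integrality

/-! ### Chart algebras -/

section chart

variable (ℓ : ℕ) [Fact ℓ.Prime] (N : ℕ)

set_option quotPrecheck false in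
local notation "ℤℓ" => ↥(GaloisRep.ratLocalizedAt ℓ)

set_option quotPrecheck false in
local notation "F" => ↥(modularFunctionFieldFull N)

lemma chartAlg_le_of_subset {S S' : Set F} (h : ∀ s ∈ S, s ∈ chartAlg N ℓ S') :
    chartAlg N ℓ S ≤ chartAlg N ℓ S' := by
  intro x hx
  have hx' : IsIntegral (Algebra.adjoin ℤℓ S) x := hx
  show IsIntegral (Algebra.adjoin ℤℓ S') x
  have hle : Algebra.adjoin ℤℓ S ≤ chartAlg N ℓ S' := Algebra.adjoin_le h
  exact isIntegral_trans_of_forall (fun a => hle a.2) hx'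

/-- Evaluation of polynomials over `ℤ_(ℓ)` at an element of the function field. -/
noncomputable def polyHom (t : F) : ℤℓ[X] →+* F := Polynomial.eval₂RingHom (algebraMap ℤℓ F) t

lemma polyHom_apply (t : F) (p : ℤℓ[X]) : polyHom ℓ N t p = Polynomial.aeval t p := rfl

lemma polyHom_C (t : F) (a : ℤℓ) : polyHom ℓ N t (Polynomial.C a) = algebraMap ℤℓ F a := by
  simp [polyHom]

lemma polyHom_X (t : F) : polyHom ℓ N t Polynomial.X = t := by
  simp [polyHom]

lemma polyHom_mem_adjoin (t : F) (p : ℤℓ[X]) : polyHom ℓ N t p ∈ Algebra.adjoin ℤℓ {t} := by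
  rw [Algebra.adjoin_singleton_eq_range_aeval]
  exact ⟨p, rfl⟩

lemma mem_chartAlg_singleton_iff (t x : F) :
    x ∈ chartAlg N ℓ {t} ↔ (polyHom ℓ N t).IsIntegralElem x := by
  letI := (polyHom ℓ N t).toAlgebra
  constructor
  · intro hx
    have hx' : IsIntegral (Algebra.adjoin ℤℓ {t}) x := hx
    show IsIntegral ℤℓ[X] x
    refine isIntegral_of_range_le ?_ hx'
    rintro _ ⟨⟨y, hy⟩, rfl⟩
    rw [Algebra.adjoin_singleton_eq_range_aeval] at hy
    obtain ⟨p, rfl⟩ := hy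
    exact ⟨p, rfl⟩
  · intro hx
    have hx' : IsIntegral ℤℓ[X] x := hx
    show IsIntegral (Algebra.adjoin ℤℓ {t}) x
    refine isIntegral_of_range_le ?_ hx'
    rintro _ ⟨p, rfl⟩
    exact ⟨⟨polyHom ℓ N t p, polyHom_mem_adjoin ℓ N t p⟩, rfl⟩

/-- The key step: if `ℓ y` and `h(t) y` are integral over `ℤ_(ℓ)[t]` and `h` is nonzero mod `ℓ`,
then `y` is integral over `ℤ_(ℓ)[t]`. -/
theorem mem_chartAlg_of_mul_mem {t : F} (ht : Function.Injective (polyHom ℓ N t)) {h : ℤℓ[X]}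
    (hh : ¬ Polynomial.C ((ℓ : ℕ) : ℤℓ) ∣ h) {y : F} (h1 : (ℓ : F) * y ∈ chartAlg N ℓ {t})
    (h2 : polyHom ℓ N t h * y ∈ chartAlg N ℓ {t}) : y ∈ chartAlg N ℓ {t} := by
  rw [mem_chartAlg_singleton_iff] at h1 h2 ⊢
  letI := (polyHom ℓ N t).toAlgebra
  haveI : FaithfulSMul ℤℓ[X] F := (faithfulSMul_iff_algebraMap_injective _ _).mpr ht
  refine isIntegral_of_smul_of_smul (prime_C_natCast ℓ) hh (y := y) ?_ ?_
  · rw [Algebra.smul_def]
    show IsIntegral _ (polyHom ℓ N t (Polynomial.C ((ℓ : ℕ) : ℤℓ)) * y)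
    rw [polyHom_C, map_natCast]
    exact h1
  · rw [Algebra.smul_def]
    exact h2

lemma coe_comp_polyHom (t : F) :
    (algebraMap F (LaurentSeries ℚ)).comp (polyHom ℓ N t) =
      (evY (t : LaurentSeries ℚ)).comp (Polynomial.mapRingHom (algebraMap ℤℓ ℚ)) := by
  apply Polynomial.ringHom_ext
  · intro a
    simp only [RingHom.comp_apply, polyHom_C, Polynomial.coe_mapRingHom, Polynomial.map_C]
    rw [evY_apply, Polynomial.eval₂_C, HahnSeries.C_apply]
    exact (coe_algebraMap_igusa' ℓ N a).trans (algebraMap_apply_eq_single _)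
  · simp only [RingHom.comp_apply, polyHom_X, Polynomial.coe_mapRingHom, Polynomial.map_X]
    rw [evY_apply, Polynomial.eval₂_X]
    rfl

lemma coe_polyHom (t : F) (p : ℤℓ[X]) :
    ((polyHom ℓ N t p : F) : LaurentSeries ℚ) =
      evY (t : LaurentSeries ℚ) (p.map (algebraMap ℤℓ ℚ)) :=
  congrArg (fun f => f p) (coe_comp_polyHom ℓ N t)

lemma mem_chartAlg_of_ev2 {Φ : ℤℓ[X][X]} (hm : Φ.Monic) {u v : LaurentSeries ℤℓ}
    (h : ev2 Φ u v = 0) (θ : LaurentSeries ℤℓ →+* LaurentSeries ℚ)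
    (hθ : ∀ a : ℤℓ, θ (HahnSeries.C a) = HahnSeries.C (a : ℚ)) {x y : F}
    (hx : (x : LaurentSeries ℚ) = θ u) (hy : (y : LaurentSeries ℚ) = θ v) :
    x ∈ chartAlg N ℓ {y} := by
  rw [mem_chartAlg_singleton_iff]
  refine ⟨Φ, hm, ?_⟩
  apply (algebraMap F (LaurentSeries ℚ)).injective
  rw [Polynomial.hom_eval₂, map_zero]
  have h2 := congrArg θ h
  rw [ev2, Polynomial.hom_eval₂, map_zero] at h2
  rw [← h2]
  have h3 : (algebraMap F (LaurentSeries ℚ)).comp (polyHom ℓ N y) = θ.comp (evY v) := by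
    rw [coe_comp_polyHom]
    apply Polynomial.ringHom_ext
    · intro a
      simp only [RingHom.comp_apply, Polynomial.coe_mapRingHom, Polynomial.map_C]
      rw [evY_apply, evY_apply, Polynomial.eval₂_C, Polynomial.eval₂_C, hθ]
      rfl
    · simp only [RingHom.comp_apply, Polynomial.coe_mapRingHom, Polynomial.map_X]
      rw [evY_apply, evY_apply, Polynomial.eval₂_X, Polynomial.eval₂_X, hy]
  rw [h3]
  congr 1

lemma step_integral {p a : ℕ} (hp0 : p ≠ 0) (ha : a ≠ 0) (hΦ : HasModPoly p ℤℓ) {x y : F}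
    (hx : (x : LaurentSeries ℚ) = jd ℚ (p * a)) (hy : (y : LaurentSeries ℚ) = jd ℚ a) :
    x ∈ chartAlg N ℓ {y} ∧ y ∈ chartAlg N ℓ {x} := by
  obtain ⟨Φ, hm, -, h1, h2⟩ := hΦ
  let θ : LaurentSeries ℤℓ →+* LaurentSeries ℚ :=
    (coeffMap (algebraMap ℤℓ ℚ)).comp (Vq ℤℓ a)
  have hθ : ∀ r : ℤℓ, θ (HahnSeries.C r) = HahnSeries.C (r : ℚ) := by
    intro r
    show coeffMap (algebraMap ℤℓ ℚ) (Vq ℤℓ a (HahnSeries.C r)) = _
    rw [Vq_C, coeffMap_C]
    rfl
  have hθ1 : θ (jd ℤℓ p) = jd ℚ (p * a) := by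
    show coeffMap (algebraMap ℤℓ ℚ) (Vq ℤℓ a (jd ℤℓ p)) = _
    rw [Vq_jd ha hp0, coeffMap_jd]
  have hθ2 : θ (jqModC ℤℓ) = jd ℚ a := by
    show coeffMap (algebraMap ℤℓ ℚ) (Vq ℤℓ a (jqModC ℤℓ)) = _
    exact coeffMap_jd _ a
  exact ⟨mem_chartAlg_of_ev2 ℓ N hm h1 θ hθ (hx.trans hθ1.symm) (hy.trans hθ2.symm),
    mem_chartAlg_of_ev2 ℓ N hm h2 θ hθ (hy.trans hθ2.symm) (hx.trans hθ1.symm)⟩

lemma jd_mem_full {d : ℕ} (hd0 : d ≠ 0) (hd : d ∣ N) : jd ℚ d ∈ modularFunctionFieldFull N := by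
  haveI : NeZero d := ⟨hd0⟩
  rw [jd, Vq_eq]
  exact jqd_mem_full N hd

variable [NeZero N]

lemma chartAlg_jd_eq (hΦ : ∀ r : ℕ, r.Prime → r ∣ N → HasModPoly r ℤℓ) :
    ∀ d : ℕ, d ∣ N → ∀ x : F, (x : LaurentSeries ℚ) = jd ℚ d →
      chartAlg N ℓ {x} = chartAlg N ℓ {jFull N} := by
  intro d
  induction d using induction_on_primes with
  | zero =>
    intro h0
    exact absurd (Nat.eq_zero_of_zero_dvd h0) (NeZero.ne N)
  | one =>
    intro _ x hx
    have : x = jFull N := by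
      apply Subtype.ext
      rw [hx, jd_one]
      rfl
    rw [this]
  | prime_mul p a hp ih =>
    intro hd x hx
    have ha : a ∣ N := (Dvd.intro_left p rfl).trans hd
    have hpN : p ∣ N := (Dvd.intro a rfl).trans hd
    have ha0 : a ≠ 0 := by
      rintro rfl
      exact NeZero.ne N (Nat.eq_zero_of_zero_dvd ha)
    let y : F := ⟨jd ℚ a, jd_mem_full N ha0 ha⟩
    obtain ⟨h1, h2⟩ := step_integral ℓ N hp.ne_zero ha0 (hΦ p hp hpN) (x := x) (y := y) hx rfl
    rw [← ih ha y rfl]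
    apply le_antisymm
    · apply chartAlg_le_of_subset
      intro s hs
      rw [Set.mem_singleton_iff.mp hs]
      exact h1
    · apply chartAlg_le_of_subset
      intro s hs
      rw [Set.mem_singleton_iff.mp hs]
      exact h2

lemma exists_mem_chartAlg_of_mem_ZJ (hΦ : ∀ r : ℕ, r.Prime → r ∣ N → HasModPoly r ℤℓ)
    {b : LaurentSeries ℤ} (hb : b ∈ ZJ N) :
    ∃ x : F, (x : LaurentSeries ℚ) = cZ ℚ b ∧ x ∈ chartAlg N ℓ {jFull N} := by
  unfold ZJ at hb
  induction hb using Subring.closure_induction with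
  | mem b hb =>
    obtain ⟨d, hd, rfl⟩ := hb
    have hd0 : d ≠ 0 := by
      rintro rfl
      exact NeZero.ne N (Nat.eq_zero_of_zero_dvd hd)
    refine ⟨⟨jd ℚ d, jd_mem_full N hd0 hd⟩, (coeffMap_jd _ d).symm, ?_⟩
    rw [← chartAlg_jd_eq ℓ N hΦ d hd ⟨jd ℚ d, jd_mem_full N hd0 hd⟩ rfl]
    exact subset_chartAlg N ℓ _ rfl
  | zero => exact ⟨0, by simp, zero_mem _⟩
  | one => exact ⟨1, by simp, one_mem _⟩
  | add b c _ _ hb hc =>
    obtain ⟨x, hx, hx'⟩ := hb
    obtain ⟨y, hy, hy'⟩ := hc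
    exact ⟨x + y, by rw [map_add, ← hx, ← hy]; rfl, add_mem hx' hy'⟩
  | neg b _ hb =>
    obtain ⟨x, hx, hx'⟩ := hb
    exact ⟨-x, by rw [map_neg, ← hx]; rfl, neg_mem hx'⟩
  | mul b c _ _ hb hc =>
    obtain ⟨x, hx, hx'⟩ := hb
    obtain ⟨y, hy, hy'⟩ := hc
    exact ⟨x * y, by rw [map_mul, ← hx, ← hy]; rfl, mul_mem hx' hy'⟩

end chart

end Fermat.Agent.S28.QEP
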